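import Fermat.Agent.RT.DatumLocal
import Mathlib.Algebra.FreeAlgebra
import Mathlib.RingTheory.Nakayama

/-!
# Operators satisfying the relations of a Hecke algebra give a module over `heckeLocal`

If operators `Top ℓ` on a finite module satisfy every polynomial relation of the Hecke operators
`T_ℓ` on `S₂(Γ₀(N))` and are topologically congruent to a residual system `θ`, then the local Hecke
algebra at `θ` maps to the endomorphisms of the module.
-/

set_option autoImplicit false

noncomputable section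

namespace FLTA.RT.Avoid

open IsLocalRing CuspForm
open scoped TensorProduct

/-- The indices of the Hecke operators outside `S`. -/
abbrev GoodPrime (N : ℕ) (S : Set ℕ) : Type := {ℓ : ℕ // ℓ.Prime ∧ ¬ ℓ ∣ N ∧ ℓ ∉ S}

variable {N : ℕ} [NeZero N] {S : Set ℕ}

/-- The Hecke operator of a good prime. -/
def goodT (ℓ : GoodPrime N S) : CuspForm.heckeAlgebra N 2 S :=
  CuspForm.heckeAlgebra.T ℓ.2.1 ℓ.2.2.1 ℓ.2.2.2

theorem adjoin_range_goodT (hS : ∀ q : ℕ, q.Prime → q ∣ N → q ∈ S) :
    Algebra.adjoin ℤ (Set.range (goodT (N := N) (S := S))) = ⊤ := by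
  refine eq_top_iff.mpr fun t _ => ?_
  obtain ⟨t, ht⟩ := t
  clear ‹_ ∈ (⊤ : Subalgebra ℤ _)›
  induction ht using Algebra.adjoin_induction with
  | mem x hx =>
    rcases hx with ⟨ℓ, hℓ, hℓN, hℓS, rfl⟩ | ⟨q, hqN, hq, hqS, rfl⟩
    · exact Algebra.subset_adjoin ⟨⟨ℓ, hℓ, hℓN, hℓS⟩, rfl⟩
    · exact absurd (hS q hq hqN) hqS
  | algebraMap r => exact Subalgebra.algebraMap_mem _ r
  | add x y _ _ hx hy => exact add_mem hx hy
  | mul x y _ _ hx hy => exact mul_mem hx hy

variable {E : Type} [Ring E]

/-- Operators satisfying all relations among the `T_ℓ` define a map on the Hecke algebra. -/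
theorem exists_heckeAlgebra_hom (hS : ∀ q : ℕ, q.Prime → q ∣ N → q ∈ S) (Top : GoodPrime N S → E)
    (hrel : ∀ P : FreeAlgebra ℤ (GoodPrime N S),
      FreeAlgebra.lift ℤ goodT P = 0 → FreeAlgebra.lift ℤ Top P = 0) :
    ∃ Ψ : CuspForm.heckeAlgebra N 2 S →+* E, ∀ ℓ, Ψ (goodT ℓ) = Top ℓ := by
  let π := (FreeAlgebra.lift ℤ (goodT (N := N) (S := S))).toRingHom
  have hπ : Function.Surjective π := fun t => by
    have ht : t ∈ Algebra.adjoin ℤ (Set.range (goodT (N := N) (S := S))) := by
      rw [adjoin_range_goodT hS]; trivial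
    rw [Algebra.adjoin_range_eq_range_freeAlgebra_lift] at ht
    exact ht
  refine ⟨RingHom.liftOfSurjective π hπ
    ⟨(FreeAlgebra.lift ℤ Top).toRingHom, fun P hP => hrel P hP⟩, fun ℓ => ?_⟩
  rw [show goodT ℓ = π (FreeAlgebra.ι ℤ ℓ) from (FreeAlgebra.lift_ι_apply _ _).symm,
    RingHom.liftOfSurjective_comp_apply]
  exact FreeAlgebra.lift_ι_apply _ _

variable {O : Type} [CommRing O] [IsDomain O] [IsDiscreteValuationRing O]
  [IsAdicComplete (maximalIdeal O) O]
  (θ : CuspForm.heckeAlgebra N 2 S →+* ResidueField O)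

set_option synthInstance.maxHeartbeats 400000
set_option maxHeartbeats 1000000

/-- The local Hecke algebra maps to any algebra of endomorphisms of a finite module in which the
Hecke relations hold and the operators are congruent to `θ`. -/
theorem exists_heckeLocal_algHom [Algebra O E] {M : Type} [AddCommGroup M] [Module O M]
    [Module.Finite O M] (φ : E →ₐ[O] Module.End O M) (hφ : Function.Injective φ)
    [Module.Finite O E] (hS : ∀ q : ℕ, q.Prime → q ∣ N → q ∈ S) (Top : GoodPrime N S → E)
    (hrel : ∀ P : FreeAlgebra ℤ (GoodPrime N S),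
      FreeAlgebra.lift ℤ goodT P = 0 → FreeAlgebra.lift ℤ Top P = 0)
    (hnil : ∀ ℓ, ∃ a : O, residue O a = θ (goodT ℓ) ∧ ∃ k : ℕ, ∀ x : M,
      φ ((Top ℓ - algebraMap O E a) ^ k) x ∈ maximalIdeal O • (⊤ : Submodule O M)) :
    ∃ Φ : heckeLocal N S O θ →ₐ[O] E, ∀ ℓ, Φ (heckeLocal.π N S O θ (goodT ℓ)) = Top ℓ := by
  classical
  obtain ⟨Ψ, hΨ⟩ := exists_heckeAlgebra_hom hS Top hrel
  let B : Subalgebra O E := Algebra.adjoin O (Set.range Ψ)
  haveI : IsMulCommutative B := Algebra.isMulCommutative_adjoin O (s := Set.range Ψ) (by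
    rintro _ ⟨x, rfl⟩ _ ⟨y, rfl⟩
    rw [← map_mul, ← map_mul, mul_comm])
  letI : CommRing B :=
    { (inferInstance : Ring B) with mul_comm := IsMulCommutative.is_comm.comm }
  haveI : Module.Finite O B := Module.Finite.iff_fg.mpr (IsNoetherian.noetherian B.toSubmodule)
  let Ψ' : CuspForm.heckeAlgebra N 2 S →+* B :=
    Ψ.codRestrict B fun t => Algebra.subset_adjoin ⟨t, rfl⟩
  let F : O ⊗[ℤ] CuspForm.heckeAlgebra N 2 S →ₐ[O] B :=
    Algebra.TensorProduct.lift (Algebra.ofId O B) Ψ'.toIntAlgHom fun x y => Commute.all _ _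
  have hFt : ∀ a t, F (a ⊗ₜ t) = algebraMap O B a * Ψ' t := fun a t =>
    Algebra.TensorProduct.lift_tmul _ _ _ a t
  -- the residual character is the only maximal ideal seen by the module
  have key : ∀ P : Ideal B, P.IsMaximal → ∀ x, ∃ a : O,
      residue O a = residualCharacter N S O θ x ∧ F x - algebraMap O B a ∈ P := by
    intro P hP
    haveI := hP
    haveI : Algebra.IsIntegral O B := Algebra.IsIntegral.of_finite O B
    have hmP : ∀ c ∈ maximalIdeal O, algebraMap O B c ∈ P := fun c hc => by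
      have := IsLocalRing.eq_maximalIdeal
        (Ideal.isMaximal_comap_of_isIntegral_of_isMaximal (R := O) P)
      rw [← this] at hc
      exact hc
    let act : Module B M := Module.compHom M (φ.toRingHom.comp B.val.toRingHom)
    have hsmul : ∀ (b : B) (x : M), act.smul b x = φ (b : E) x := fun _ _ => rfl
    have tw : @IsScalarTower O B M Algebra.toSMul act.toSMul inferInstance := ⟨fun c b x => by
      show φ ((c • b : B) : E) x = c • φ (b : E) x
      rw [Subalgebra.coe_smul, map_smul]
      rfl⟩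
    haveI : @Module.Finite B M _ _ act := @Module.Finite.of_restrictScalars_finite O B M _ _ _ _
      act _ tw _
    -- `P • M ≠ ⊤`
    have hne : ∃ x : M, x ∉ @HSMul.hSMul _ _ _ _ P (⊤ : @Submodule B M _ _ act) := by
      by_contra h
      push Not at h
      letI := act
      obtain ⟨r, hr, hr0⟩ := Submodule.exists_sub_one_mem_and_smul_eq_zero_of_fg_of_le_smul P
        (⊤ : Submodule B M) Module.Finite.fg_top fun x _ => h x
      have : r = 0 := Subtype.ext (hφ (by
        refine LinearMap.ext fun x => ?_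
        rw [ZeroMemClass.coe_zero, map_zero, LinearMap.zero_apply]
        exact hr0 x trivial))
      rw [this, zero_sub, neg_mem_iff] at hr
      exact hP.ne_top ((Ideal.eq_top_iff_one P).mpr hr)
    have hpow : ∀ (z : B) (k : ℕ),
        (∀ x : M, φ ((z : E) ^ k) x ∈ maximalIdeal O • (⊤ : Submodule O M)) → z ∈ P := by
      intro z k hz
      by_contra hzP
      letI := act
      obtain ⟨x₀, hx₀⟩ := hne
      obtain ⟨w, hw⟩ : ∃ w : B, 1 - w * z ^ k ∈ P := by
        obtain ⟨y, hy⟩ := Ideal.Quotient.exists_inv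
          (I := P) (a := Ideal.Quotient.mk P (z ^ k)) (by
            rw [Ne, Ideal.Quotient.eq_zero_iff_mem]
            exact fun h => hzP (hP.isPrime.mem_of_pow_mem k h))
        obtain ⟨w, rfl⟩ := Ideal.Quotient.mk_surjective y
        refine ⟨w, Ideal.Quotient.eq_zero_iff_mem.mp ?_⟩
        rw [map_sub, map_one, map_mul, mul_comm, hy, sub_self]
      refine hx₀ ?_
      rw [show x₀ = (1 - w * z ^ k) • x₀ + w • (z ^ k) • x₀ by
        rw [← mul_smul, ← add_smul, sub_add_cancel, one_smul]]
      refine add_mem (Submodule.smul_mem_smul hw trivial) (Submodule.smul_mem _ w ?_)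
      have h1 : ((z ^ k) • x₀ : M) ∈ maximalIdeal O • (⊤ : Submodule O M) := by
        show φ ((z ^ k : B) : E) x₀ ∈ _
        rw [SubmonoidClass.coe_pow]
        exact hz x₀
      refine Submodule.smul_induction_on h1 (fun c hc y _ => ?_) fun y y' hy hy' => add_mem hy hy'
      have : c • y = algebraMap O B c • y := by
        show c • y = φ ((algebraMap O B c : B) : E) y
        rw [Subalgebra.coe_algebraMap, AlgHom.commutes, Module.algebraMap_end_apply]
      rw [this]
      exact Submodule.smul_mem_smul (hmP c hc) trivial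
    have hgen : ∀ t, ∃ a : O, residue O a = θ t ∧ Ψ' t - algebraMap O B a ∈ P := by
      intro t
      have ht : t ∈ Algebra.adjoin ℤ (Set.range (goodT (N := N) (S := S))) := by
        rw [adjoin_range_goodT hS]; trivial
      induction ht using Algebra.adjoin_induction with
      | mem x hx =>
        obtain ⟨ℓ, rfl⟩ := hx
        obtain ⟨a, ha, k, hk⟩ := hnil ℓ
        refine ⟨a, ha, hpow _ k fun x => ?_⟩
        rw [show ((Ψ' (goodT ℓ) - algebraMap O B a : B) : E) = Top ℓ - algebraMap O E a by
          rw [← hΨ ℓ]; rfl]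
        exact hk x
      | algebraMap r => exact ⟨r, by simp, by simp⟩
      | add x y _ _ hx hy =>
        obtain ⟨a, ha, hx⟩ := hx
        obtain ⟨b, hb, hy⟩ := hy
        refine ⟨a + b, by rw [map_add, map_add, ha, hb], ?_⟩
        rw [map_add, map_add, add_sub_add_comm]
        exact add_mem hx hy
      | mul x y _ _ hx hy =>
        obtain ⟨a, ha, hx⟩ := hx
        obtain ⟨b, hb, hy⟩ := hy
        refine ⟨a * b, by rw [map_mul, map_mul, ha, hb], ?_⟩
        rw [map_mul, map_mul, show Ψ' x * Ψ' y - algebraMap O B a * algebraMap O B b =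
          (Ψ' x - algebraMap O B a) * Ψ' y + algebraMap O B a * (Ψ' y - algebraMap O B b) by ring]
        exact add_mem (P.mul_mem_right _ hx) (P.mul_mem_left _ hy)
    intro x
    induction x using TensorProduct.induction_on with
    | zero => exact ⟨0, by simp, by simp⟩
    | tmul c t =>
      obtain ⟨a, ha, h⟩ := hgen t
      refine ⟨c * a, by rw [residualCharacter_tmul, map_mul, ha], ?_⟩
      rw [hFt, map_mul, ← mul_sub]
      exact P.mul_mem_left _ h
    | add x y hx hy =>
      obtain ⟨a, ha, hx⟩ := hx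
      obtain ⟨b, hb, hy⟩ := hy
      refine ⟨a + b, by rw [map_add, map_add, ha, hb], ?_⟩
      rw [map_add, map_add, add_sub_add_comm]
      exact add_mem hx hy
  let e : (O ⊗[ℤ] CuspForm.heckeAlgebra N 2 S) ≃+* heckeBaseAlgebra N S O :=
    RingEquiv.ofBijective (latticeBaseChange N S O)
      ⟨latticeBaseChange_injective N S O (Datum.factIntegral N).out,
        latticeBaseChange_surjective N S O⟩
  let g : heckeBaseAlgebra N S O →+* B := F.toRingHom.comp e.symm.toRingHom
  have hg : ∀ y, g (latticeBaseChange N S O y) = F y := fun y =>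
    congrArg F (e.symm_apply_apply y)
  have hu : ∀ s : heckeLocalSubmonoid N S O θ, IsUnit (g s) := by
    rintro ⟨_, y, hy, rfl⟩
    show IsUnit (g (latticeBaseChange N S O y))
    rw [hg]
    by_contra hnu
    obtain ⟨P, hP, hmem⟩ := exists_max_ideal_of_mem_nonunits (mem_nonunits_iff.mpr hnu)
    obtain ⟨a, ha, h⟩ := key P hP y
    have hau : IsUnit a := by
      rw [← residue_ne_zero_iff_isUnit, ha]
      exact fun h0 => Ideal.mem_primeCompl_iff.mp hy ((mem_heckeCharKernel_iff N S O θ y).mpr h0)
    refine hP.ne_top (Ideal.eq_top_of_isUnit_mem P ?_ (hau.map (algebraMap O B)))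
    have := P.sub_mem hmem h
    rwa [sub_sub_cancel] at this
  let Φ₀ : heckeLocal N S O θ →+* B := IsLocalization.lift hu
  refine ⟨B.val.comp { Φ₀ with commutes' := fun a => ?_ }, fun ℓ => ?_⟩
  · show Φ₀ (algebraMap O (heckeLocal N S O θ) a) = algebraMap O B a
    rw [IsScalarTower.algebraMap_apply O (heckeBaseAlgebra N S O) (heckeLocal N S O θ),
      IsLocalization.lift_eq, ← latticeBaseChange_algebraMap, hg, AlgHom.commutes]
  · show ((Φ₀ (heckeLocal.π N S O θ (goodT ℓ)) : B) : E) = _
    rw [Datum.pi_apply, IsLocalization.lift_eq, hg, hFt, map_one, one_mul]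
    exact hΨ ℓ

end FLTA.RT.Avoid
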