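import Fermat.Agent.RT.DeformRing
import Fermat.Agent.RepTheory.DVRExtension
import Mathlib.Combinatorics.Nullstellensatz
import Mathlib.Algebra.CharP.Lemmas
import Mathlib.RingTheory.RootsOfUnity.AlgebraicallyClosed
import Mathlib.RingTheory.MvPolynomial.Basic

/-!
# The group ring of the diamond group

`O⟦y₁,…,y_r⟧ ⧸ ((1 + y_j) ^ (p ^ k) - 1)` is finite free over `O`, spanned by the monomials of
degree `< p ^ k` in each variable, and its points at roots of unity separate; so it is reduced.
-/

set_option autoImplicit false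

noncomputable section

namespace FLTA.RT.Avoid

open IsLocalRing

variable (O : Type) [CommRing O]

/-- The diamond relations with exponent `m`. -/
def diaRel (r m : ℕ) : Ideal (MvPowerSeries (Fin r) O) :=
  Ideal.span (Set.range fun j : Fin r =>
    ((1 + MvPowerSeries.X j) ^ m - 1 : MvPowerSeries (Fin r) O))

/-- The same relations on polynomials. -/
def polyRel (r m : ℕ) : Ideal (MvPolynomial (Fin r) O) :=
  Ideal.span (Set.range fun j : Fin r =>
    ((1 + MvPolynomial.X j) ^ m - 1 : MvPolynomial (Fin r) O))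

/-- The reduced monomials. -/
def redMon {r m : ℕ} (e : Fin r → Fin m) : MvPolynomial (Fin r) O :=
  MvPolynomial.monomial (Finsupp.equivFunOnFinite.symm fun j => (e j : ℕ)) 1

variable {O} {r m : ℕ}

theorem degreeOf_lt_of_mem_span (hm : 0 < m) {g : MvPolynomial (Fin r) O}
    (hg : g ∈ Submodule.span O (Set.range (redMon O (r := r) (m := m)))) (j : Fin r) :
    MvPolynomial.degreeOf j g < m := by
  classical
  rw [MvPolynomial.degreeOf_lt_iff hm]
  induction hg using Submodule.span_induction with
  | mem x hx =>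
    obtain ⟨e, rfl⟩ := hx
    intro d hd
    rw [redMon] at hd
    have := Finset.mem_singleton.mp (MvPolynomial.support_monomial_subset hd)
    rw [this]
    exact (e j).isLt
  | zero => simp
  | add x y _ _ hx hy =>
    intro d hd
    exact (Finset.mem_union.mp (MvPolynomial.support_add hd)).elim (hx d) (hy d)
  | smul a x _ hx => exact fun d hd => hx d (MvPolynomial.support_smul hd)

/-- Every polynomial is congruent to a reduced one. -/
theorem exists_reduced (hm : 0 < m) (f : MvPolynomial (Fin r) O) :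
    ∃ g ∈ Submodule.span O (Set.range (redMon O (r := r) (m := m))), f - g ∈ polyRel O r m := by
  classical
  let W := Submodule.span O (Set.range (redMon O (r := r) (m := m)))
  let V : Submodule O (MvPolynomial (Fin r) O) := W ⊔ (polyRel O r m).restrictScalars O
  suffices hf : f ∈ V by
    obtain ⟨g, hg, i, hi, rfl⟩ := Submodule.mem_sup.mp hf
    exact ⟨g, hg, by simpa using hi⟩
  have hmon : ∀ d : Fin r →₀ ℕ, (∀ j, d j < m) →
      MvPolynomial.monomial d (1 : O) ∈ V := fun d hd =>
    Submodule.mem_sup_left (Submodule.subset_span ⟨fun j => ⟨d j, hd j⟩,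
      congrArg (fun x => MvPolynomial.monomial x (1 : O)) (Finsupp.ext fun _ => rfl)⟩)
  have hX : ∀ j g, g ∈ V → g * MvPolynomial.X j ∈ V := by
    intro j g hg
    obtain ⟨g', hg', i, hi, rfl⟩ := Submodule.mem_sup.mp hg
    rw [add_mul]
    refine add_mem ?_ (Submodule.mem_sup_right ((polyRel O r m).mul_mem_right _ hi))
    clear hg
    induction hg' using Submodule.span_induction with
    | mem x hx =>
      obtain ⟨e, rfl⟩ := hx
      let d : Fin r →₀ ℕ := Finsupp.equivFunOnFinite.symm fun j => (e j : ℕ)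
      have hd : ∀ l, d l = (e l : ℕ) := fun _ => rfl
      show MvPolynomial.monomial d (1 : O) * MvPolynomial.X j ∈ V
      by_cases hj : d j + 1 < m
      · rw [MvPolynomial.X, MvPolynomial.monomial_mul, mul_one]
        refine hmon _ fun l => ?_
        rw [Finsupp.add_apply, Finsupp.single_apply]
        split_ifs with h
        · exact h ▸ hj
        · simpa [hd] using (e l).isLt
      · have hdj : d j + 1 = m := le_antisymm (hd j ▸ (e j).isLt) (not_lt.mp hj)
        have hsplit : MvPolynomial.monomial d (1 : O) * MvPolynomial.X j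
            = MvPolynomial.monomial (d.erase j) 1 * MvPolynomial.X j ^ m := by
          rw [← hdj, MvPolynomial.X_pow_eq_monomial, MvPolynomial.X, MvPolynomial.monomial_mul,
            MvPolynomial.monomial_mul, Finsupp.single_add, ← add_assoc,
            Finsupp.erase_add_single]
        have hpow : (MvPolynomial.X j ^ m : MvPolynomial (Fin r) O)
            = ((1 + MvPolynomial.X j) ^ m - 1) + (1 -
              ∑ i ∈ Finset.range m, MvPolynomial.X j ^ i * (m.choose i : MvPolynomial (Fin r) O)) := by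
          rw [add_comm (1 : MvPolynomial (Fin r) O), add_pow, Finset.sum_range_succ]
          simp only [one_pow, mul_one, Nat.choose_self, Nat.cast_one]
          ring
        rw [hsplit, hpow, mul_add, mul_sub (MvPolynomial.monomial _ _) 1, mul_one, Finset.mul_sum]
        refine add_mem (Submodule.mem_sup_right ((polyRel O r m).mul_mem_left _
          (Ideal.subset_span ⟨j, rfl⟩))) (sub_mem (hmon _ fun l => ?_)
            (Submodule.sum_mem _ fun i hi => ?_))
        · rw [Finsupp.erase_apply]
          split_ifs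
          · exact hm
          · simpa [hd] using (e l).isLt
        · rw [← mul_assoc, MvPolynomial.X_pow_eq_monomial, MvPolynomial.monomial_mul, mul_one,
            mul_comm, ← nsmul_eq_mul]
          refine V.smul_of_tower_mem (m.choose i) (hmon _ fun l => ?_)
          rw [Finsupp.add_apply, Finsupp.single_apply, Finsupp.erase_apply]
          split_ifs with h1 h2 h2
          · simpa using Finset.mem_range.mp hi
          · simpa [hm] using hm
          · exact absurd h2.symm (by simpa [eq_comm] using h1)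
          · simpa [hd] using (e l).isLt
    | zero => simp
    | add x y _ _ hx hy => rw [add_mul]; exact add_mem hx hy
    | smul a x _ hx => rw [smul_mul_assoc]; exact V.smul_mem a hx
  induction f using MvPolynomial.induction_on with
  | C a =>
    rw [MvPolynomial.C_eq_smul_one, ← MvPolynomial.C_1, MvPolynomial.C_apply]
    exact V.smul_mem a (hmon 0 fun _ => hm)
  | add x y hx hy => exact add_mem hx hy
  | mul_X x j hx => exact hX j x hx

variable [IsDomain O] [IsDiscreteValuationRing O] [IsAdicComplete (maximalIdeal O) O]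
  [Finite (ResidueField O)] [CharZero O] {p k : ℕ} [hp : Fact p.Prime]

local notation "Kbar" => AlgebraicClosure (FractionRing O)

/-- The point at a tuple of roots of unity of `p`-power order. -/
theorem exists_rootPoint (hpm : (p : O) ∈ maximalIdeal O) (ζ : Fin r → Kbar)
    (hζ : ∀ j, ζ j ^ p ^ k = 1) :
    ∃ γ : MvPowerSeries (Fin r) O →ₐ[O] Kbar,
      (∀ j, γ (MvPowerSeries.X j) = ζ j - 1) ∧ diaRel O r (p ^ k) ≤ RingHom.ker γ.toRingHom := by
  let B : Subalgebra O Kbar := Algebra.adjoin O (Set.range ζ)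
  have hint : ∀ j, IsIntegral O (ζ j) := fun j =>
    IsIntegral.of_pow (pow_pos hp.out.pos k) (by rw [hζ]; exact isIntegral_one)
  have : Module.Finite O B := Module.Finite.iff_fg.mpr
    (fg_adjoin_of_finite (Set.finite_range ζ) (by rintro _ ⟨j, rfl⟩; exact hint j))
  have : IsLocalRing B := RepTheory.isLocalRing_of_domain_finite O B
  have : IsAdicComplete (maximalIdeal B) B := RepTheory.isAdicComplete_maximalIdeal_of_finite O B
  have : IsNoetherianRing B := isNoetherian_of_tower O (inferInstance : IsNoetherian O B)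
  have : IsLocalHom (algebraMap O B) := RepTheory.isLocalHom_algebraMap_of_finite O B
  let z : Fin r → B := fun j => ⟨ζ j, Algebra.subset_adjoin ⟨j, rfl⟩⟩
  have hpB : (p : ResidueField B) = 0 := by
    have : residue B (algebraMap O B (p : O)) = 0 :=
      (residue_eq_zero_iff _).mpr (map_nonunit (algebraMap O B) _ hpm)
    rwa [map_natCast, map_natCast] at this
  have : CharP (ResidueField B) p := (CharP.charP_iff_prime_eq_zero hp.out).mpr hpB
  have hz1 : ∀ j, residue B (z j) = 1 := fun j => by
    refine sub_eq_zero.mp (eq_zero_of_pow_eq_zero (n := p ^ k) ?_)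
    have hzj : z j ^ p ^ k = 1 := Subtype.ext (by simpa [z] using hζ j)
    rw [sub_pow_char_pow, ← map_pow, hzj, map_one, one_pow, sub_self]
  have hs : Function.Surjective (residue B ∘ algebraMap O B) := by
    intro y
    obtain ⟨⟨b, hb⟩, rfl⟩ := residue_surjective y
    induction hb using Algebra.adjoin_induction with
    | mem x hx =>
      obtain ⟨j, rfl⟩ := hx
      exact ⟨1, by rw [Function.comp_apply, map_one, map_one]; exact (hz1 j).symm⟩
    | algebraMap c => exact ⟨c, rfl⟩
    | add x y hx hy h h' =>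
      obtain ⟨c, hc⟩ := h
      obtain ⟨c', hc'⟩ := h'
      exact ⟨c + c', by
        simp only [Function.comp_apply, map_add] at hc hc' ⊢
        rw [hc, hc', ← map_add]; rfl⟩
    | mul x y hx hy h h' =>
      obtain ⟨c, hc⟩ := h
      obtain ⟨c', hc'⟩ := h'
      exact ⟨c * c', by
        simp only [Function.comp_apply, map_mul] at hc hc' ⊢
        rw [hc, hc', ← map_mul]; rfl⟩
  obtain ⟨γ, hγ⟩ := RT.exists_eval hs (fun j => z j - 1) fun j => by
    rw [← residue_eq_zero_iff, map_sub, map_one, hz1, sub_self]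
  refine ⟨B.val.comp γ, fun j => ?_, ?_⟩
  · rw [AlgHom.comp_apply, hγ]
    simp [z]
  · rw [diaRel, Ideal.span_le]
    rintro _ ⟨j, rfl⟩
    show B.val (γ ((1 + MvPowerSeries.X j) ^ p ^ k - 1)) = 0
    rw [map_sub, map_pow, map_add, map_one, hγ, add_sub_cancel, map_sub, map_pow, map_one]
    simp [z, hζ]

theorem isLocalRing_dia (hpm : (p : O) ∈ maximalIdeal O) :
    IsLocalRing (MvPowerSeries (Fin r) O ⧸ diaRel O r (p ^ k)) := by
  obtain ⟨γ, -, hγ⟩ := exists_rootPoint (r := r) (k := k) hpm (fun _ => 1) fun _ => one_pow _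
  have : Nontrivial (MvPowerSeries (Fin r) O ⧸ diaRel O r (p ^ k)) :=
    Ideal.Quotient.nontrivial_iff.mpr fun h => RingHom.ker_ne_top γ.toRingHom
      (top_le_iff.mp (h.symm.le.trans hγ))
  exact IsLocalRing.of_surjective' _ Ideal.Quotient.mk_surjective

/-- The diamond ring is spanned by the reduced monomials. -/
theorem exists_reduced_dia (hpm : (p : O) ∈ maximalIdeal O)
    (x : MvPowerSeries (Fin r) O ⧸ diaRel O r (p ^ k)) :
    ∃ g ∈ Submodule.span O (Set.range (redMon O (r := r) (m := p ^ k))),
      Ideal.Quotient.mk (diaRel O r (p ^ k)) (g : MvPowerSeries (Fin r) O) = x := by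
  have := isLocalRing_dia (r := r) (k := k) hpm
  obtain ⟨ϖ, hϖ⟩ := IsDiscreteValuationRing.exists_irreducible O
  have hmax := hϖ.maximalIdeal_eq
  let D := MvPowerSeries (Fin r) O ⧸ diaRel O r (p ^ k)
  let π : MvPolynomial (Fin r) O →ₐ[O] D :=
    (Ideal.Quotient.mkₐ O (diaRel O r (p ^ k))).comp (MvPolynomial.coeToMvPowerSeries.algHom O)
  have hπ : ∀ g, π g = Ideal.Quotient.mk (diaRel O r (p ^ k)) (g : MvPowerSeries (Fin r) O) :=
    fun g => by simp [π]
  let W := (Submodule.span O (Set.range (redMon O (r := r) (m := p ^ k)))).map π.toLinearMap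
  suffices hW : x ∈ W by
    obtain ⟨g, hg, rfl⟩ := Submodule.mem_map.mp hW
    exact ⟨g, hg, (hπ g).symm⟩
  have hker : polyRel O r (p ^ k) ≤ RingHom.ker π.toRingHom := by
    rw [polyRel, Ideal.span_le]
    rintro _ ⟨j, rfl⟩
    show π _ = 0
    rw [hπ, Ideal.Quotient.eq_zero_iff_mem]
    exact Ideal.subset_span ⟨j, by
      simp only [← MvPolynomial.coeToMvPowerSeries.ringHom_apply, map_sub, map_pow, map_add,
        map_one]
      simp⟩
  have hpoly : ∀ g, π g ∈ W := fun g => by
    obtain ⟨g', hg', h⟩ := exists_reduced (pow_pos hp.out.pos k) g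
    have : π g = π g' := by
      rw [← sub_eq_zero, ← map_sub]
      exact hker h
    rw [this]
    exact Submodule.mem_map_of_mem hg'
  let I : Ideal D := Ideal.span {algebraMap O D ϖ}
  obtain ⟨N, hN⟩ : ∃ N, (Deformation.varIdeal O r).map (Ideal.Quotient.mk _) ^ N ≤ I := by
    refine Ideal.exists_pow_le_of_le_radical_of_fg ?_ (IsNoetherian.noetherian _)
    rw [Deformation.varIdeal, Ideal.map_span, Ideal.span_le]
    rintro _ ⟨_, ⟨j, rfl⟩, rfl⟩
    refine ⟨p ^ k, ?_⟩
    obtain ⟨c, hc⟩ := exists_add_pow_prime_pow_eq hp.out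
      (Ideal.Quotient.mk (diaRel O r (p ^ k)) (MvPowerSeries.X j)) 1 k
    have h1 : (Ideal.Quotient.mk (diaRel O r (p ^ k)) (MvPowerSeries.X j) + 1) ^ p ^ k = 1 := by
      rw [← map_one (Ideal.Quotient.mk (diaRel O r (p ^ k))), ← map_add, ← map_pow,
        Ideal.Quotient.eq, add_comm]
      exact Ideal.subset_span ⟨j, rfl⟩
    obtain ⟨b, hb⟩ := Ideal.mem_span_singleton'.mp (hmax ▸ hpm)
    rw [h1, one_pow] at hc
    refine Ideal.mem_span_singleton.mpr ?_
    exact ⟨_, show _ = algebraMap O D ϖ * (-(algebraMap O D b) *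
      (_ * 1 * c)) by
        rw [← map_natCast (algebraMap O D) p, ← hb, map_mul] at hc
        linear_combination -hc⟩
  have hstep : ∀ y : D, ∃ w ∈ W, ∃ y', y = w + algebraMap O D ϖ * y' := by
    intro y
    obtain ⟨f, rfl⟩ := Ideal.Quotient.mk_surjective y
    have h := hN (by
      rw [← Ideal.map_pow]
      exact Ideal.mem_map_of_mem _ (Deformation.sub_trunc_mem_pow f N))
    obtain ⟨y', hy'⟩ := Ideal.mem_span_singleton'.mp h
    refine ⟨_, hpoly (MvPowerSeries.truncTotal N f), y', ?_⟩
    rw [hπ, mul_comm, hy', map_sub, add_sub_cancel]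
  choose w hw y' hy' using hstep
  have hWfg : W.FG := (Submodule.fg_span (Set.finite_range _)).map _
  have : Module.Finite O W := Module.Finite.iff_fg.mpr hWfg
  have := RepTheory.isAdicComplete_of_module_finite O W
  let s : ℕ → W := fun n => ⟨w (y'^[n] x), hw _⟩
  let S : ℕ → W := fun n => ∑ i ∈ Finset.range n, ϖ ^ i • s i
  obtain ⟨L, hL⟩ := IsPrecomplete.prec (inferInstance : IsPrecomplete (maximalIdeal O) W)
    (f := S) fun {a b} hab => by
      rw [SModEq.sub_mem, hmax, Ideal.span_singleton_pow, ← neg_mem_iff, neg_sub]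
      show (S b - S a) ∈ _
      rw [show S b - S a = ∑ i ∈ Finset.Ico a b, ϖ ^ i • s i from
        (Finset.sum_Ico_eq_sub _ hab).symm]
      exact Submodule.sum_mem _ fun i hi => Submodule.smul_mem_smul
        (Ideal.mem_span_singleton.mpr (pow_dvd_pow ϖ (Finset.mem_Ico.mp hi).1)) trivial
  have hS : ∀ n, x = (S n : D) + algebraMap O D ϖ ^ n * y'^[n] x := by
    intro n
    induction n with
    | zero => simp [S]
    | succ n ih =>
      conv_lhs => rw [ih, hy' (y'^[n] x)]
      rw [Function.iterate_succ_apply']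
      simp only [S, Finset.sum_range_succ, Submodule.coe_add, Submodule.coe_smul, s,
        Algebra.smul_def, map_pow]
      ring
  suffices hx : x = (L : D) from hx ▸ L.2
  refine sub_eq_zero.mp ?_
  have hbot : (⨅ n : ℕ, I ^ n) = (⊥ : Ideal D) := by
    refine Ideal.iInf_pow_eq_bot_of_isLocalRing _ fun h => ?_
    have h1 : IsUnit (algebraMap O D ϖ) := Ideal.span_singleton_eq_top.mp h
    obtain ⟨γ, -, hγ⟩ := exists_rootPoint (r := r) (k := k) hpm (fun _ => 1) fun _ => one_pow _
    let γ' : D →ₐ[O] Kbar := Ideal.Quotient.liftₐ _ γ hγ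
    have h2 : IsUnit (Ideal.Quotient.mk (maximalIdeal (MvPowerSeries (Fin r) O))
        (MvPowerSeries.C ϖ)) := by
      obtain ⟨v, hv⟩ := h1.exists_left_inv
      obtain ⟨f, rfl⟩ := Ideal.Quotient.mk_surjective v
      refine IsUnit.of_mul_eq_one (Ideal.Quotient.mk _ f) ?_
      rw [← map_mul, ← map_one (Ideal.Quotient.mk _), Ideal.Quotient.eq, mul_comm]
      have hv' : f * MvPowerSeries.C ϖ - 1 ∈ diaRel O r (p ^ k) := Ideal.Quotient.eq.mp hv
      refine (show diaRel O r (p ^ k) ≤ maximalIdeal (MvPowerSeries (Fin r) O) from ?_) hv'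
      exact IsLocalRing.le_maximalIdeal fun h' =>
        RingHom.ker_ne_top γ.toRingHom (top_le_iff.mp (h'.symm.le.trans hγ))
    refine h2.ne_zero (Ideal.Quotient.eq_zero_iff_mem.mpr ?_)
    simpa [MvPowerSeries.isUnit_iff_constantCoeff] using hϖ.not_isUnit
  rw [← Ideal.mem_bot, ← hbot, Submodule.mem_iInf]
  intro n
  have h1 := SModEq.sub_mem.mp (hL n)
  rw [hS n, show (S n : D) + algebraMap O D ϖ ^ n * y'^[n] x - (L : D) =
    ((S n - L : W) : D) + algebraMap O D ϖ ^ n * y'^[n] x by rw [Submodule.coe_sub]; ring]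
  refine add_mem ?_ (Ideal.mul_mem_right _ _ (Ideal.pow_mem_pow (Ideal.mem_span_singleton_self _) n))
  refine Submodule.smul_induction_on h1 (fun a ha u _ => ?_) fun u v hu hv => ?_
  · rw [hmax, Ideal.span_singleton_pow, Ideal.mem_span_singleton] at ha
    obtain ⟨b, rfl⟩ := ha
    rw [Submodule.coe_smul, Algebra.smul_def, map_mul, map_pow, mul_assoc]
    exact Ideal.mul_mem_right _ _ (Ideal.pow_mem_pow (Ideal.mem_span_singleton_self _) n)
  · rw [Submodule.coe_add]
    exact add_mem hu hv

theorem finite_dia (hpm : (p : O) ∈ maximalIdeal O) :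
    Module.Finite O (MvPowerSeries (Fin r) O ⧸ diaRel O r (p ^ k)) := by
  refine ⟨?_⟩
  have h : (⊤ : Submodule O (MvPowerSeries (Fin r) O ⧸ diaRel O r (p ^ k))) =
      (Submodule.span O (Set.range (redMon O (r := r) (m := p ^ k)))).map
        ((Ideal.Quotient.mkₐ O (diaRel O r (p ^ k))).comp
          (MvPolynomial.coeToMvPowerSeries.algHom O)).toLinearMap :=
    eq_comm.mp (eq_top_iff.mpr fun x _ => by
      obtain ⟨g, hg, rfl⟩ := exists_reduced_dia hpm x
      exact ⟨g, hg, by simp⟩)
  rw [h]
  exact (Submodule.fg_span (Set.finite_range _)).map _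

/-- Points at roots of unity separate the diamond ring. -/
theorem eq_zero_of_forall_point (hpm : (p : O) ∈ maximalIdeal O)
    (x : MvPowerSeries (Fin r) O ⧸ diaRel O r (p ^ k))
    (h : ∀ ψ : (MvPowerSeries (Fin r) O ⧸ diaRel O r (p ^ k)) →ₐ[O] Kbar, ψ x = 0) : x = 0 := by
  classical
  obtain ⟨g, hg, rfl⟩ := exists_reduced_dia hpm x
  suffices hg0 : g = 0 by rw [hg0, MvPolynomial.coe_zero, map_zero]
  have hinj := RepTheory.algebraMap_algClosure_injective O
  have : NeZero ((p ^ k : ℕ) : Kbar) := ⟨by exact_mod_cast pow_ne_zero k hp.out.ne_zero⟩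
  obtain ⟨ω, hω⟩ := HasEnoughRootsOfUnity.exists_primitiveRoot Kbar (p ^ k)
  let S : Finset Kbar := (Polynomial.nthRootsFinset (p ^ k) (1 : Kbar)).image fun z => z - 1
  have hS : S.card = p ^ k := by
    rw [Finset.card_image_of_injective _ fun a b hab => sub_left_injective hab, hω.card_nthRootsFinset]
  apply MvPolynomial.map_injective _ hinj
  rw [map_zero]
  refine MvPolynomial.eq_zero_of_eval_zero_at_prod_finset _ (fun _ => S) (fun j => ?_) fun v hv => ?_
  · rw [hS, MvPolynomial.degreeOf_eq_sup, MvPolynomial.support_map_of_injective _ hinj,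
      ← MvPolynomial.degreeOf_eq_sup]
    exact degreeOf_lt_of_mem_span (pow_pos hp.out.pos k) hg j
  · have hv' : ∀ j, (v j + 1) ^ p ^ k = 1 := fun j => by
      obtain ⟨z, hz, hzv⟩ := Finset.mem_image.mp (hv j)
      rw [← hzv, sub_add_cancel]
      exact (Polynomial.mem_nthRootsFinset (pow_pos hp.out.pos k) _).mp hz
    obtain ⟨γ, hγX, hγ⟩ := exists_rootPoint hpm (fun j => v j + 1) hv'
    have h1 : γ (g : MvPowerSeries (Fin r) O) = 0 :=
      (Ideal.Quotient.liftₐ_apply _ γ hγ _).symm.trans (h (Ideal.Quotient.liftₐ _ γ hγ))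
    rw [MvPolynomial.eval_map, ← MvPolynomial.aeval_def, ← h1]
    have : γ.comp (MvPolynomial.coeToMvPowerSeries.algHom O) = MvPolynomial.aeval v :=
      MvPolynomial.algHom_ext fun j => by simp [hγX]
    rw [← this]
    simp

theorem isReduced_dia (hpm : (p : O) ∈ maximalIdeal O) :
    IsReduced (MvPowerSeries (Fin r) O ⧸ diaRel O r (p ^ k)) :=
  ⟨fun x hx => eq_zero_of_forall_point hpm x fun ψ => IsNilpotent.eq_zero (hx.map ψ)⟩

theorem isTorsionFree_dia (hpm : (p : O) ∈ maximalIdeal O) :
    Module.IsTorsionFree O (MvPowerSeries (Fin r) O ⧸ diaRel O r (p ^ k)) := by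
  have := RepTheory.isTorsionFree_algClosure O
  refine ⟨fun a ha x y hxy => sub_eq_zero.mp (eq_zero_of_forall_point hpm _ fun ψ => ?_)⟩
  refine (smul_eq_zero.mp ?_).resolve_left ha.ne_zero
  rw [← map_smul, smul_sub, show a • x = a • y from hxy, sub_self, map_zero]

end FLTA.RT.Avoid
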