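import Fermat.Agent.RT.Main.ModulesRankInput
import Fermat.Agent.RT.HeckeLocalDegeneracy

/-!
# The rank of the residual factor at level `N` is not zero; classes lift at the tuples
-/

set_option autoImplicit false

noncomputable section

open IsLocalRing WeierstrassCurve CongruenceSubgroup

namespace FLTA.RT

open FLTA.Periods

section Generic

variable {R : Type} [CommRing R] [IsLocalRing R] [IsNoetherianRing R]
  [IsAdicComplete (maximalIdeal R) R] {H : Type} [AddCommGroup H] [Module R H] [Module.Finite R H]
  {σ : Type*}

/-- The idempotent fixes a common eigenvector with the prescribed values, if `𝔪` kills it. -/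
theorem localIdem_apply_eigen {T : σ → Module.End R H} (hT : ∀ s t, Commute (T s) (T t))
    (a : σ → R) (v : H) (hv : ∀ s, T s v = a s • v)
    (hm : ∀ r ∈ maximalIdeal R, r • v = 0) : localIdem T a v = v := by
  let i : ResidueField R →ₗ[R] H :=
    Submodule.liftQ (maximalIdeal R) (LinearMap.toSpanSingleton R H v) fun r hr => hm r hr
  let T' : σ → Module.End R (ResidueField R) := fun s => algebraMap R _ (a s)
  have hT' : ∀ s t, Commute (T' s) (T' t) := fun s t => Algebra.commutes _ _
  haveI : Module.Finite R (ResidueField R) :=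
    Module.Finite.of_surjective (Algebra.linearMap R (ResidueField R)) residue_surjective
  have hi1 : i 1 = v := by
    show LinearMap.toSpanSingleton R H v 1 = v
    rw [LinearMap.toSpanSingleton_apply, one_smul]
  have h := localIdem_comm_map hT' hT a i (fun s x => by
    obtain ⟨r, rfl⟩ := residue_surjective x
    show i (algebraMap R (Module.End R (ResidueField R)) (a s) (residue R r)) = _
    rw [Module.algebraMap_end_apply, map_smul]
    show a s • (r • v) = T s (r • v)
    rw [map_smul, hv, smul_comm]) (1 : ResidueField R)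
  have hm' : ∀ r ∈ maximalIdeal R, algebraMap R (Module.End R (ResidueField R)) r = 0 :=
    fun r hr => LinearMap.ext fun y => by
      rw [Module.algebraMap_end_apply, Algebra.smul_def,
        show algebraMap R (ResidueField R) r = residue R r from rfl, residue_eq_zero_iff _ |>.mpr hr,
        zero_mul]
      rfl
  rw [localIdem_eq_one hT' a (fun _ => rfl) hm', Module.End.one_apply, hi1] at h
  exact h.symm

end Generic

variable {W : WeierstrassCurve ℤ} {hΔ : W.Δ ≠ 0} {p : ℕ} [Fact p.Prime] {N q : ℕ}

/-- The residual factor at level `N` of the good primes is not zero. -/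
theorem finrank_bottom_ne_zero (D : LowerData W hΔ p N q) (F : AvoidFrame W hΔ p N q)
    (hp2 : p ≠ 2) [NeZero N] {σ : Type*} (pr : σ → ℕ) (hpr : ∀ s, (pr s).Prime)
    (hgood : ∀ s, pr s ∉ F.avoided) (a : σ → ResidueField F.E.R)
    (ha : ∀ s, a s = (W.apOfModel (pr s) : ResidueField F.E.R)) :
    Module.finrank (ResidueField F.E.R)
      (LinearMap.range (localIdem (gamHecke (ResidueField F.E.R) N pr) a)) ≠ 0 := by
  haveI := finite_addHom (L := N) (O := ResidueField F.E.R) (ResidueField F.E.R)
  obtain ⟨v, hv0, hv⟩ := exists_level_eigen D F hp2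
  have hT : ∀ s t, Commute (gamHecke (ResidueField F.E.R) N pr s)
      (gamHecke (ResidueField F.E.R) N pr t) := fun s t => commute_heckeHom (hpr s) (hpr t)
  have hfix := localIdem_apply_eigen hT a v (fun s => by rw [ha]; exact hv _ (hpr s) (hgood s))
    fun r hr => by
      rw [show r = 0 by
        by_contra h
        exact (mem_nonunits_iff.mp ((mem_maximalIdeal r).mp hr)) (IsUnit.mk0 r h), zero_smul]
  intro h0
  have hbot := Submodule.finrank_eq_zero.mp h0
  apply hv0
  rw [← Submodule.mem_bot (ResidueField F.E.R), ← hbot]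
  exact ⟨v, hfix⟩

namespace AvoidFrame

variable (F : AvoidFrame W hΔ p N q)

/-- Classes lift at every tuple. -/
theorem hasLifts_chi (D : LowerData W hΔ p N q) (n : ℕ) {r : ℕ} (qv : Fin r → ℕ)
    [NeZero (F.level qv)] : HasLifts (gamChar (F.chi n qv)) := by
  have hp : p.Prime := Fact.out
  have h3 := D.three_le
  have key : ∀ m : ℕ, m.Coprime p → IsUnit (m : F.Diamond r n) := fun m hm => by
    refine isUnit_natCast_of_coprime ?_ hm
    have h := (residue_eq_zero_iff _).mpr F.natCast_mem
    rw [← F.diamondToRes_algebraMap n (r := r), map_natCast] at h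
    rw [mem_maximalIdeal, mem_nonunits_iff]
    intro hu
    exact (hu.map (F.diamondToRes n r)).ne_zero h
  have hc : ∀ m : ℕ, 1 < m → m < p → m.Coprime p := fun m h1 h2 =>
    (hp.coprime_iff_not_dvd.mpr fun h => absurd (Nat.le_of_dvd (by omega) h) (by omega)).symm
  rcases h3.eq_or_lt with h | h
  · obtain ⟨t, ht, ht3, htN⟩ := D.elliptic h.symm
    refine hasLifts_subgroup _ (neg_one_mem_Gamma0 _) _
      (by exact_mod_cast key 2 (hc 2 one_lt_two (by omega)))
      (fun γ hγ => eq_one_of_pow_coprime (m := 2) (n := p ^ (F.a + (n + 1))) ?_ hγ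
        (F.chi_pow n qv _))
      (Or.inl (matU_smul_coset_ne ht (htN.trans (dvd_mul_right _ _)) ht3))
    exact (hc 2 one_lt_two (by omega)).pow_right _
  · have h5 : 5 ≤ p := by
      by_contra h5
      have h4 : p = 4 := by omega
      exact absurd hp (by rw [h4]; decide)
    exact hasLifts_gamChar (F.chi n qv) hp h5
      (by exact_mod_cast key 2 (hc 2 one_lt_two (by omega)))
      (by exact_mod_cast key 3 (hc 3 (by omega) (by omega)))
      fun u => ⟨_, F.chi_pow n qv u⟩

end AvoidFrame

end FLTA.RT

end
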