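import Fermat.Agent.RT.Main.System
import Fermat.Agent.GaloisReps.Attach
import Fermat.Agent.Carayol.MatchResidual
import Fermat.Agent.Carayol.MatchCompare
import Fermat.Agent.RepTheory.DVRExtension
import Fermat.Agent.LevelRaising.AssemblyEigen
import Fermat.Agent.EllTorsion.GaloisDet
import Fermat.Agent.RT.DatumResidueSystem

/-!
# From a congruent system to a mod `p` eigenclass at all good primes

`HasSystem.isResiduallyModularOfLevel`: congruences at almost all primes propagate to all good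
primes; `exists_eigenclass`: the eigenclass in `Hom(Γ₀(L), 𝔽_p)`.
-/

set_option autoImplicit false

noncomputable section

open ModularFormClass WeierstrassCurve IsLocalRing Polynomial CongruenceSubgroup
open FLTA.Periods

namespace FLTA.RT

variable {W : WeierstrassCurve ℤ} {p : ℕ} [Fact p.Prime] {L : ℕ} [NeZero L]

/-- Congruences at almost all primes give congruences at all good primes. -/
theorem HasSystem.isResiduallyModularOfLevel (hΔ : W.Δ ≠ 0) (hp2 : p ≠ 2)
    (h : HasSystem W p L) : W.IsResiduallyModularOfLevel p L := by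
  classical
  obtain ⟨f, hf, φ, T, hT⟩ := h
  obtain ⟨h𝔪, hp𝔪⟩ := isMaximal_ker φ
  refine ⟨f, _, hf, h𝔪, hp𝔪, fun ℓ hℓ hgood hℓL hℓp => ?_⟩
  obtain ⟨χ, -, hTc, -⟩ := FLTA.Hecke.exists_char_of_normalized (S := ∅) hf
  have := FLTA.GaloisReps.module_finite_fullHecke L
  let χ' : GaloisReps.FullHecke L →+* integralClosure ℤ ℂ :=
    χ.codRestrict (integralClosure ℤ ℂ) fun t =>
      (Algebra.IsIntegral.isIntegral t).map χ.toIntAlgHom
  obtain ⟨E, c, j, hj⟩ := FLTA.RepTheory.exists_dvr_lift (p := p) ⟨RingHom.id _⟩ (φ.comp χ')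
  have hpE : (p : E.R) ∈ maximalIdeal E.R := by
    rw [← map_natCast (algebraMap ℤ_[p] E.R)]
    exact map_nonunit _ _ (by
      rw [PadicInt.maximalIdeal_eq_span_p]; exact Ideal.mem_span_singleton_self _)
  obtain ⟨ρ, hcp, -, -⟩ := FLTA.GaloisReps.exists_galoisRepAdic_attached hpE c
  let e : ZMod p →+* Fbar p := algebraMap _ _
  let ρ₁ := (FLTA.Carayol.curveRep W hΔ p).baseChangeAlong e
  let ρ₂ := ρ.residual.baseChangeAlong j
  have hodd : Odd p := (Fact.out : p.Prime).odd_of_ne_two hp2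
  have h₁ : ∀ r : ℕ, r.Prime → W.IsGoodPrimeFor r → r ≠ p →
      ∀ A : ValuationSubring (AlgebraicClosure ℚ), A.LiesOverPrime r →
        ∀ σ : AlgebraicClosure ℚ ≃ₐ[ℚ] AlgebraicClosure ℚ, A.IsFrobeniusAt σ r →
          (ρ₁.ρ σ).charpoly = X ^ 2 - C (W.apOfModel r : Fbar p) * X + C (r : Fbar p) := by
    intro r hr hg hrp A hA σ hσ
    rw [RepTheory.residual_charpoly_baseChangeAlong,
      FLTA.Carayol.curveRep_charpoly_of_quadratic hΔ
        (fun l hl hgl hne B hB τ hτ n P hnP => FLTA.EllTorsion.frobenius_quadratic_all W hΔ hl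
          hgl hB hτ hodd.pow (fun hd => hne ((Nat.prime_dvd_prime_iff_eq hl Fact.out).mp
            (hl.dvd_of_dvd_pow hd))) P hnP) hr hg hrp hA hσ]
    simp
  have h₂ : ∀ (r : ℕ) (hr : r.Prime) (hrL : ¬ r ∣ L), r ≠ p →
      ∀ A : ValuationSubring (AlgebraicClosure ℚ), A.LiesOverPrime r →
        ∀ σ : AlgebraicClosure ℚ ≃ₐ[ℚ] AlgebraicClosure ℚ, A.IsFrobeniusAt σ r →
          (ρ₂.ρ σ).charpoly = X ^ 2 -
            C (φ (χ' (CuspForm.heckeAlgebra.T hr hrL (Set.notMem_empty r)))) * X +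
            C (r : Fbar p) := by
    intro r hr hrL hrp A hA σ hσ
    rw [RepTheory.residual_charpoly_baseChangeAlong, RepTheory.charpoly_residual,
      hcp r hr hrL hrp A hA σ hσ]
    simp only [Polynomial.map_add, Polynomial.map_sub, Polynomial.map_mul, Polynomial.map_pow,
      Polynomial.map_X, Polynomial.map_C, hj, RingHom.comp_apply, map_natCast,
      Polynomial.map_natCast]
  have hcoe : ∀ (r : ℕ) (hr : r.Prime) (hrL : ¬ r ∣ L),
      ((χ' (CuspForm.heckeAlgebra.T hr hrL (Set.notMem_empty r)) : integralClosure ℤ ℂ) : ℂ) =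
        qCoeff f r := fun r hr hrL => hTc r hr hrL (Set.notMem_empty r)
  let S : Finset ℕ := insert p (L.primeFactors ∪ W.Δ.natAbs.primeFactors ∪ T)
  have hall : ∀ σ, (ρ₁.ρ σ).charpoly = (ρ₂.ρ σ).charpoly :=
    Carayol.residual_charpoly_eq_of_frobenius ρ₁ ρ₂ S (fun r hr hrS A hA σ hσ => by
      simp only [S, Finset.mem_insert, Finset.mem_union, Nat.mem_primeFactors, not_or] at hrS
      obtain ⟨hrp, ⟨hrL', hrΔ⟩, hrT⟩ := hrS
      have hrL : ¬ r ∣ L := fun hd => hrL' ⟨hr, hd, NeZero.ne L⟩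
      have hg : W.IsGoodPrimeFor r := fun hd =>
        hrΔ ⟨hr, Int.natCast_dvd.mp hd, Int.natAbs_ne_zero.mpr hΔ⟩
      obtain ⟨a, ha, ha'⟩ := hT r hr hrT
      rw [h₁ r hr hg hrp A hA σ hσ, h₂ r hr hrL hrp A hA σ hσ, ← ha']
      congr 3
      exact congrArg (fun z => C (φ z)) (Subtype.ext (ha.trans (hcoe r hr hrL).symm)))
  obtain ⟨A, hA⟩ := FLTA.Galois.exists_liesOverPrime hℓ
  obtain ⟨σ, hσ⟩ := FLTA.Galois.exists_isFrobeniusAt hℓ hA
  refine ⟨_, hcoe ℓ hℓ hℓL, ?_⟩
  have heq := congrArg (fun P : (Fbar p)[X] => P.coeff 1)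
    ((h₁ ℓ hℓ hgood hℓp A hA σ hσ).symm.trans ((hall σ).trans (h₂ ℓ hℓ hℓL hℓp A hA σ hσ)))
  simp at heq
  rw [RingHom.mem_ker, map_sub, map_intCast, sub_eq_zero]
  exact heq.symm

/-- The mod `p` eigenclass of a residually modular curve kills elements of small trace. -/
theorem exists_eigenclass_par (h : W.IsResiduallyModularOfLevel p L) :
    ∃ v : Additive (Gamma0 L) →+ ZMod p, FLTA.Gamma0.IsParHom0 (Gamma0 L) v ∧ v ≠ 0 ∧
      ∀ l : ℕ, l.Prime → W.IsGoodPrimeFor l → ¬ l ∣ L → l ≠ p →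
        heckeHom (ZMod p) L l v = (W.apOfModel l : ZMod p) • v := by
  obtain ⟨f, 𝔪, hf, hmax, hpm, hcong⟩ := h
  obtain ⟨χ, -, hT, -⟩ := FLTA.Hecke.exists_char_of_normalized (S := ∅) hf
  let χ' : fullHecke L →+* integralClosure ℤ ℂ :=
    χ.codRestrict (integralClosure ℤ ℂ) fun t =>
      (Algebra.IsIntegral.isIntegral t).map χ.toIntAlgHom
  let G : Set (fullHecke L) :=
    {t | ∃ (l : ℕ) (hl : l.Prime) (hlN : ¬ l ∣ L), W.IsGoodPrimeFor l ∧ l ≠ p ∧
      t = CuspForm.heckeAlgebra.T hl hlN (Set.notMem_empty l) -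
        ((W.apOfModel l : ℤ) : fullHecke L)} ∪ {(p : fullHecke L)}
  have hIle : Ideal.span G ≤ 𝔪.comap χ' := by
    rw [Ideal.span_le]
    rintro t (⟨l, hl, hlN, hg, hlp, rfl⟩ | rfl)
    · obtain ⟨a, ha, hmem⟩ := hcong l hl hg hlN hlp
      have haχ : χ' (CuspForm.heckeAlgebra.T hl hlN (Set.notMem_empty l)) = a := by
        apply Subtype.ext
        rw [ha]
        exact hT l hl hlN (Set.notMem_empty l)
      simpa [SetLike.mem_coe, Ideal.mem_comap, haχ] using hmem
    · simpa [SetLike.mem_coe, Ideal.mem_comap] using hpm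
  have hI : Ideal.span G ≠ ⊤ := by
    intro h
    exact hmax.ne_top ((Ideal.eq_top_iff_one _).mpr
      (by simpa using hIle (h ▸ trivial : (1 : fullHecke L) ∈ Ideal.span G)))
  obtain ⟨u, hu0, hu⟩ := LevelRaising.exists_functional_aux (heckeQuot L) (heckeQuot_injective L)
    (p := p) (Ideal.span G) hI (Ideal.subset_span (Or.inr rfl))
  refine ⟨u.comp (parMk (Gamma0 L)), LevelRaising.isParHom0_parMk.comp u, fun h => hu0 (parQuot_hom_ext _
    (h.trans (AddMonoidHom.zero_comp _).symm)), fun l hl hg hlN hlp => ?_⟩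
  rw [heckeHom_eq_int, heckeHom_comp,
    ← LevelRaising.heckeQuot_comp_parMk (CuspForm.heckeAlgebra.T hl hlN (Set.notMem_empty l))
      (periodHomPair_heckeTLin hl hlN)]
  ext x
  have h1 := hu _ (Ideal.subset_span (Or.inl ⟨l, hl, hlN, hg, hlp, rfl⟩))
    (parMk (Gamma0 L) (Additive.ofMul x))
  rw [map_sub, map_intCast, LinearMap.sub_apply, map_sub, sub_eq_zero,
    Module.End.intCast_apply, map_zsmul] at h1
  simpa [AddMonoidHom.smul_apply, zsmul_eq_mul] using h1

/-- The mod `p` eigenclass of a residually modular curve. -/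
theorem exists_eigenclass (h : W.IsResiduallyModularOfLevel p L) :
    ∃ v : Additive (Gamma0 L) →+ ZMod p, v ≠ 0 ∧
      ∀ l : ℕ, l.Prime → W.IsGoodPrimeFor l → ¬ l ∣ L → l ≠ p →
        heckeHom (ZMod p) L l v = (W.apOfModel l : ZMod p) • v :=
  (exists_eigenclass_par h).imp fun _ hv => hv.2

end FLTA.RT

end
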