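import Fermat.Agent.EllReduction.Api
import Fermat.Agent.LevelLowering.GlobalPlane

/-!
# `E[p]` is unramified at good primes
-/

set_option autoImplicit false

noncomputable section

namespace FLTA.RT

open FLTA.LevelLowering (planeRep)

/-- At a prime `ℓ ≠ p` not dividing the discriminant `E[p]` is unramified. -/
theorem planeRep_isUnramifiedAt_of_good {W : WeierstrassCurve ℤ} (hΔ : W.Δ ≠ 0) {p : ℕ}
    [Fact p.Prime] {ℓ : ℕ} (hℓ : ℓ.Prime) (hℓp : ℓ ≠ p) (hgood : ¬ (ℓ : ℤ) ∣ W.Δ) :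
    (planeRep hΔ (p := p)).IsUnramifiedAt ℓ := by
  intro A hA σ hσ
  refine LinearMap.ext fun x => ?_
  refine Subtype.ext ?_
  obtain ⟨x, hx⟩ := x
  show σ • x = x
  rw [Submodule.mem_torsionBy_iff, natCast_zsmul] at hx
  exact FLTA.EllReduction.smul_eq_of_good (W := W) (A := A) hℓ hA hgood
    (fun h => hℓp ((Nat.prime_dvd_prime_iff_eq hℓ Fact.out).mp h)) hσ hx

end FLTA.RT
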