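import Fermat.Agent.RT.Main.AvoidFrame
import Fermat.Agent.RT.ImageCoeff
import Fermat.Agent.Galois.Places

/-!
# Existence of the coefficients and local data
-/

set_option autoImplicit false

noncomputable section

namespace FLTA.RT

open IsLocalRing

theorem nonempty_avoidFrame {W : WeierstrassCurve ℤ} {hΔ : W.Δ ≠ 0} {p : ℕ} [Fact p.Prime]
    {N q : ℕ} (D : LowerData W hΔ p N q) : Nonempty (AvoidFrame W hΔ p N q) := by
  classical
  have hq0 : q - 1 ≠ 0 := by have := D.prime.two_le; omega
  obtain ⟨E, ζ, φ, η, hp, hζ, hη⟩ := exists_coefficientRing p (padicValNat p (q - 1))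
  obtain ⟨ϖ, hϖ⟩ := (IsPrincipalIdealRing.principal (maximalIdeal E.R)).principal
  have hpl : ∀ s : ℕ, ∃ A : ValuationSubring (AlgebraicClosure ℚ), s.Prime → A.LiesOverPrime s :=
    fun s => if hs : s.Prime then (Galois.exists_liesOverPrime hs).imp fun _ h _ => h
      else ⟨⊤, fun h => absurd h hs⟩
  choose place hplace using hpl
  have hfr : ∀ s : ℕ, ∃ σ, s.Prime → (place s).IsFrobeniusAt σ s :=
    fun s => if hs : s.Prime then (Galois.exists_isFrobeniusAt hs (hplace s hs)).imp fun _ h _ => h
      else ⟨1, fun h => absurd h hs⟩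
  choose frob hfrob using hfr
  have hta : ∀ s : ℕ, ∃ τ, s.Prime → s ≠ p → LocalGalois.IsTameGenerator (place s) s p τ :=
    fun s => if hs : s.Prime ∧ s ≠ p then
        (LocalGalois.exists_isTameGenerator hs.1 Fact.out (Ne.symm hs.2) (hplace s hs.1)).imp
          fun _ h _ _ => h
      else ⟨1, fun h h' => absurd ⟨h, h'⟩ hs⟩
  choose tame htame using hta
  exact ⟨{
    E := E
    ϖ := ϖ
    maximalIdeal_eq := hϖ
    natCast_mem := hp
    a := padicValNat p (q - 1)
    pow_dvd := pow_padicValNat_dvd
    le_a := fun c hc => (padicValNat_dvd_iff_le hq0).mp hc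
    ζ := ζ
    isPrimitiveRoot := hζ
    φ := φ
    split := exists_charpoly_split φ _ hη
    place := place
    liesOver := hplace
    frob := frob
    isFrobenius := hfrob
    tame := tame
    isTameGenerator := htame }⟩

end FLTA.RT

end
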