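import Fermat.Agent.RT.Main.AvoidFrame
import Fermat.Agent.RT.DeformUniversal
import Fermat.Agent.RepTheory.AbsIrr

/-!
# From a Taylor–Wiles module to the universal deformation ring

A `TWModule` gives the deformation ring of its tuple together with the map to its algebra; elements
generating the maximal ideal of the ring generate that of the algebra once the diamond variables
are added.
-/

set_option autoImplicit false

noncomputable section

open IsLocalRing WeierstrassCurve

namespace FLTA.RT

open FLTA.LevelLowering (planeRep)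

variable {W : WeierstrassCurve ℤ} {hΔ : W.Δ ≠ 0} {p : ℕ} [Fact p.Prime] {N q : ℕ}

theorem rhobar_isAbsolutelyIrreducible (D : LowerData W hΔ p N q) (F : AvoidFrame W hΔ p N q) :
    F.rhobar.IsAbsolutelyIrreducible :=
  (FLTA.RepTheory.isAbsolutelyIrreducible_baseChangeAlong_iff F.φ _).mpr
    ((FLTA.RepTheory.isAbsolutelyIrreducible_iff_spans _).2
      (LevelLowering.planeRep_spans hΔ (by have := D.three_le; omega) D.irreducible))

namespace AvoidFrame.TWModule

variable {F : AvoidFrame W hΔ p N q} {d n r : ℕ} {qv : Fin r → ℕ}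

theorem resCond (hbar : F.rhobar.IsAbsolutelyIrreducible) (M : F.TWModule d n qv) :
    Deformation.ResCond F.rhobar M.ρ.trace :=
  (Deformation.residual_isEquiv_iff F.rhobar hbar M.residue_surjective M.ρ).mp M.residual_isEquiv

/-- The residual representation satisfies the deformation condition. -/
theorem cond_rhobar (hp2 : p ≠ 2) (hbar : F.rhobar.IsAbsolutelyIrreducible)
    (M : F.TWModule d n qv) :
    F.cond qv (GaloisRepAdic.ofResidualGaloisRep F.rhobar) := by
  haveI : IsLocalHom (algebraMap F.E.R (ResidueField F.E.R)) :=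
    IsLocalHom.of_surjective _ IsLocalRing.residue_surjective
  let ι := ResidueField.map (algebraMap F.E.R M.A)
  let e : ResidueField F.E.R ≃+* ResidueField M.A :=
    RingEquiv.ofBijective ι ⟨RingHom.injective _, fun y => by
      obtain ⟨c, hc⟩ := M.residue_surjective y
      exact ⟨residue F.E.R c, (ResidueField.map_residue _ c).trans hc⟩⟩
  let π : M.A →ₐ[F.E.R] ResidueField F.E.R :=
    { e.symm.toRingHom.comp (residue M.A) with
      commutes' := fun c => by
        show e.symm (residue M.A (algebraMap F.E.R M.A c)) = _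
        rw [RingEquiv.symm_apply_eq]
        exact (ResidueField.map_residue (algebraMap F.E.R M.A) c).symm }
  have hπ : IsLocalHom (π : M.A →+* ResidueField F.E.R) :=
    IsLocalHom.of_surjective _ (e.symm.surjective.comp IsLocalRing.residue_surjective)
  have hsurj : Function.Surjective (residue (ResidueField F.E.R) ∘
      algebraMap F.E.R (ResidueField F.E.R)) := IsLocalRing.residue_surjective.comp IsLocalRing.residue_surjective
  have htest : GaloisRep.IsArtinianTestAlgebra F.E.R (ResidueField F.E.R) :=
    { isLocalHom := inferInstance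
      residue_surjective := hsurj
      isArtinian := inferInstance }
  have hclosed := F.isClosed_cond hp2 qv
  refine hclosed.of_isEquiv ?_ (hclosed.baseChange M.residue_surjective htest π hπ M.isOfType)
  have hres := M.resCond hbar
  refine Deformation.isEquiv_of_trace_eq F.rhobar hbar hsurj ?_ fun σ => ?_
  · intro σ
    haveI := hπ
    have h := Deformation.resCond_map F.rhobar π hres σ
    rw [Deformation.trace_baseChangeAlong]
    exact h
  · rw [Deformation.trace_baseChangeAlong]
    show e.symm (residue M.A (M.ρ.trace σ)) = _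
    rw [RingEquiv.symm_apply_eq, (Deformation.resCond_iff F.rhobar _).mp hres σ]
    show ι _ = ι _
    congr 1
    exact (LinearMap.trace_eq_matrix_trace _ (Deformation.barBasis F.rhobar) (F.rhobar.ρ σ)).symm

/-- The universal ring at the level of the tuple exists. -/
theorem nonempty_data (hp2 : p ≠ 2) (hbar : F.rhobar.IsAbsolutelyIrreducible)
    (M : F.TWModule d n qv) :
    Nonempty (GaloisRep.DeformationRingData F.E.R F.rhobar (F.cond qv)) :=
  Deformation.nonempty_deformationRingData hbar (F.isClosed_cond hp2 qv).isDeformationCondition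
    (M.cond_rhobar hp2 hbar) (tangentFinite_of_unramified F.rhobar (F.ramSet qv) _
      fun _ _ _ _ _ h _ hs hs' => F.cond_unramified h hs hs')

/-- The universal ring maps to the algebra of the module. -/
theorem exists_universal_hom (M : F.TWModule d n qv)
    (U : GaloisRep.DeformationRingData F.E.R F.rhobar (F.cond qv)) :
    ∃ (φ : U.R →ₐ[F.E.R] M.A) (hφ : IsLocalHom (φ : U.R →+* M.A)),
      (U.ρ.baseChangeAlong (φ : U.R →+* M.A) hφ).IsEquiv M.ρ := by
  obtain ⟨φ, hφ, -⟩ := U.universal M.A M.residue_surjective M.ρ M.isOfType M.residual_isEquiv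
  obtain ⟨hφ, he⟩ := hφ
  exact ⟨φ, hφ, he⟩

/-- Generators of the universal ring and the diamond variables generate the maximal ideal of the
algebra. -/
theorem maximalIdeal_le_span (M : F.TWModule d n qv)
    (U : GaloisRep.DeformationRingData F.E.R F.rhobar (F.cond qv))
    {φ : U.R →ₐ[F.E.R] M.A} {hφ : IsLocalHom (φ : U.R →+* M.A)}
    (he : (U.ρ.baseChangeAlong (φ : U.R →+* M.A) hφ).IsEquiv M.ρ) {S : Set U.R}
    (hS : maximalIdeal U.R ≤ (maximalIdeal F.E.R).map (algebraMap F.E.R U.R) ⊔ Ideal.span S) :
    maximalIdeal M.A ≤ (maximalIdeal F.E.R).map (algebraMap F.E.R M.A) ⊔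
      Ideal.span (φ '' S ∪ Set.range fun i => M.diamond (MvPowerSeries.X i)) := by
  set K := (maximalIdeal F.E.R).map (algebraMap F.E.R M.A) ⊔
    Ideal.span (φ '' S ∪ Set.range fun i => M.diamond (MvPowerSeries.X i))
  by_cases hK : K = ⊤
  · rw [hK]; exact le_top
  have hKm : K ≤ maximalIdeal M.A := le_maximalIdeal hK
  have hφK : (maximalIdeal U.R).map (φ : U.R →+* M.A) ≤ K := by
    refine (Ideal.map_mono hS).trans ?_
    rw [Ideal.map_sup, Ideal.map_map, Ideal.map_span]
    refine sup_le ?_ (Ideal.span_le.mpr fun y hy => ?_)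
    · rw [φ.comp_algebraMap]
      exact le_sup_left
    · exact Ideal.mem_sup_right (Ideal.subset_span (Or.inl hy))
  have key : ∀ x : M.A, ∃ c : F.E.R, x - algebraMap F.E.R M.A c ∈ K := by
    intro x
    have hx : x ∈ Algebra.adjoin F.E.R (Set.range M.ρ.trace ∪ Set.range M.diamond) := by
      rw [M.generated]; trivial
    induction hx using Algebra.adjoin_induction with
    | mem y hy =>
      rcases hy with ⟨σ, rfl⟩ | ⟨s, rfl⟩
      · obtain ⟨c, hc⟩ := U.residue_surjective (residue U.R (U.ρ.trace σ))
        refine ⟨c, ?_⟩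
        have hσ : M.ρ.trace σ = φ (U.ρ.trace σ) := by
          rw [← Deformation.trace_eq_of_isEquiv he σ, Deformation.trace_baseChangeAlong]
          rfl
        rw [hσ, ← φ.commutes c, ← map_sub]
        exact hφK (Ideal.mem_map_of_mem _ (Ideal.Quotient.eq.mp hc.symm))
      · refine ⟨MvPowerSeries.constantCoeff s, ?_⟩
        rw [← M.diamond.commutes, ← map_sub]
        have h1 : s - algebraMap F.E.R _ (MvPowerSeries.constantCoeff s) ∈
            maximalIdeal (MvPowerSeries (Fin r) F.E.R) := by
          simp [MvPowerSeries.isUnit_iff_constantCoeff, MvPowerSeries.algebraMap_apply]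
        rw [Deformation.maximalIdeal_eq] at h1
        refine (Ideal.map_le_iff_le_comap.mp ?_ :
          (maximalIdeal F.E.R).map MvPowerSeries.C ⊔ Deformation.varIdeal F.E.R r ≤
            K.comap (M.diamond : MvPowerSeries (Fin r) F.E.R →+* M.A)) h1
        rw [Ideal.map_sup, Ideal.map_map, Deformation.varIdeal, Ideal.map_span]
        refine sup_le ?_ (Ideal.span_le.mpr ?_)
        · rw [show (M.diamond : MvPowerSeries (Fin r) F.E.R →+* M.A).comp MvPowerSeries.C =
            algebraMap F.E.R M.A from RingHom.ext fun c => by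
              simpa [MvPowerSeries.algebraMap_apply] using M.diamond.commutes c]
          exact le_sup_left
        · rintro _ ⟨_, ⟨i, rfl⟩, rfl⟩
          exact Ideal.mem_sup_right (Ideal.subset_span (Or.inr ⟨i, rfl⟩))
    | algebraMap c => exact ⟨c, by rw [sub_self]; exact zero_mem K⟩
    | add x y _ _ hx hy =>
      obtain ⟨a, ha⟩ := hx
      obtain ⟨b, hb⟩ := hy
      exact ⟨a + b, by rw [map_add, add_sub_add_comm]; exact add_mem ha hb⟩
    | mul x y _ _ hx hy =>
      obtain ⟨a, ha⟩ := hx
      obtain ⟨b, hb⟩ := hy
      refine ⟨a * b, ?_⟩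
      rw [map_mul, show x * y - algebraMap F.E.R M.A a * algebraMap F.E.R M.A b =
        (x - algebraMap F.E.R M.A a) * y + algebraMap F.E.R M.A a * (y - algebraMap F.E.R M.A b) by
        ring]
      exact add_mem (K.mul_mem_right _ ha) (K.mul_mem_left _ hb)
  intro x hx
  obtain ⟨c, hc⟩ := key x
  have h1 : algebraMap F.E.R M.A c ∈ maximalIdeal M.A := by
    have := sub_mem hx (hKm hc)
    rwa [sub_sub_cancel] at this
  have h2 : c ∈ maximalIdeal F.E.R := fun hu => h1 (hu.map _)
  have := add_mem hc (Ideal.mem_sup_left (T := Ideal.span (φ '' S ∪ Set.range fun i =>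
    M.diamond (MvPowerSeries.X i))) (Ideal.mem_map_of_mem (algebraMap F.E.R M.A) h2))
  rwa [sub_add_cancel] at this

end AvoidFrame.TWModule

end FLTA.RT

end
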