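import Fermat.Agent.RT.Main.FalseSites
import Fermat.Agent.RT.Main.FalseLevels

/-!
# Small arithmetic facts for the contradiction of Ihara avoidance
-/

set_option autoImplicit false

noncomputable section

namespace FLTA.RT

open IsLocalRing
open FLTA.LevelLowering (planeRep)

variable {W : WeierstrassCurve ℤ} {hΔ : W.Δ ≠ 0} {p : ℕ} [Fact p.Prime] {N q : ℕ}
  (F : AvoidFrame W hΔ p N q)

namespace AvoidFrame

lemma isUnit_two (D : LowerData W hΔ p N q) : IsUnit (2 : F.E.R) := by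
  by_contra h
  have h2 : ((2 : ℕ) : F.E.R) ∈ maximalIdeal F.E.R := by simpa using h
  have hco : IsCoprime (p : ℤ) (2 : ℤ) :=
    Nat.isCoprime_iff_coprime.mpr ((Nat.coprime_primes Fact.out Nat.prime_two).mpr
      (by have := D.three_le; omega))
  obtain ⟨a, b, hab⟩ := hco
  have := congrArg (Int.cast : ℤ → F.E.R) hab
  push_cast at this
  refine (maximalIdeal F.E.R).ne_top_iff_one.mp (maximalIdeal.isMaximal F.E.R).ne_top ?_
  rw [← this]
  exact add_mem (Ideal.mul_mem_left _ _ F.natCast_mem)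
    (Ideal.mul_mem_left _ _ (by simpa using h2))

lemma uniformizer_ne_zero : F.ϖ ≠ 0 := fun h =>
  IsDiscreteValuationRing.not_isField F.E.R
    ((IsLocalRing.isField_iff_maximalIdeal_eq).mpr (by rw [F.maximalIdeal_eq, h]; simp))

lemma residue_zeta : residue F.E.R F.ζ = 1 := by
  haveI : CharP (ResidueField F.E.R) p := charP_of_injective_ringHom F.φ.injective p
  have h : (residue F.E.R F.ζ - 1) ^ p ^ F.a = 0 := by
    rw [sub_pow_char_pow, ← map_pow, F.isPrimitiveRoot.pow_eq_one, map_one, one_pow, sub_self]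
  exact sub_eq_zero.mp (pow_eq_zero_iff (pow_ne_zero _ (Fact.out : p.Prime).ne_zero) |>.mp h)

lemma zetaConst_mem (i j : ℕ) : (F.ζ ^ i - F.ζ ^ j) ^ 2 ∈ maximalIdeal F.E.R := by
  refine Ideal.pow_mem_of_mem _ ?_ 2 two_pos
  rw [← residue_eq_zero_iff, map_sub, map_pow, map_pow, F.residue_zeta, one_pow, one_pow, sub_self]

lemma zetaConst_ne_zero (D : LowerData W hΔ p N q) {i : ℕ} (hi : i ∈ Finset.Ioo 0 (p ^ F.a)) :
    (F.ζ ^ i - F.ζ ^ (p ^ F.a - i)) ^ 2 ≠ 0 := by
  obtain ⟨h0, h1⟩ := Finset.mem_Ioo.mp hi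
  refine pow_ne_zero 2 (sub_ne_zero.mpr fun h => ?_)
  have := F.isPrimitiveRoot.pow_inj h1 (by omega) h
  have hodd : Odd (p ^ F.a) := ((Fact.out : p.Prime).odd_of_ne_two
    (by have := D.three_le; omega)).pow
  obtain ⟨c, hc⟩ := hodd
  omega

lemma site_facts (D : LowerData W hΔ p N q) {s : ℕ} (hs : s ∈ F.sites) :
    s.Prime ∧ p ≠ s ∧ F.rhobar.IsUnramifiedAt s ∧ (s ≠ q → s ∈ F.unipSet) := by
  classical
  rw [sites, Finset.mem_insert] at hs
  rcases hs with rfl | hs
  · refine ⟨D.prime, Ne.symm D.ne, fun A hA σ hσ => ?_, fun h => absurd rfl h⟩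
    letI : Algebra (ZMod p) (ResidueField F.E.R) := F.φ.toAlgebra
    show ((planeRep hΔ (p := p)).ρ σ).baseChange _ = 1
    rw [D.unramified A hA σ hσ]
    exact LinearMap.baseChange_one _ _
  · obtain ⟨hu, hr⟩ := Finset.mem_filter.mp hs
    have hp := Nat.prime_of_mem_primeFactors (Finset.mem_erase.mp hu).2
    exact ⟨hp, fun h => (Finset.mem_erase.mp hu).1 h.symm, hr, fun _ => hu⟩

lemma tuple_unramified {n r : ℕ} {qv : Fin r → ℕ} (hqv : F.IsTWTuple n qv) (i : Fin r) :
    F.rhobar.IsUnramifiedAt (qv i) := by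
  intro A hA σ hσ
  letI : Algebra (ZMod p) (ResidueField F.E.R) := F.φ.toAlgebra
  show ((planeRep hΔ (p := p)).ρ σ).baseChange _ = 1
  have hne : qv i ≠ p := fun h => hqv.notMem i (by
    rw [avoided, h]; exact Finset.mem_insert_self _ _)
  have hgood : ¬ (qv i : ℤ) ∣ W.Δ := fun h => hqv.notMem i (by
    refine Finset.mem_insert_of_mem (Finset.mem_insert_of_mem (Finset.mem_union_right _ ?_))
    exact Nat.mem_primeFactors.mpr ⟨hqv.prime i, Int.natCast_dvd.mp h, Int.natAbs_ne_zero.mpr hΔ⟩)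
  rw [planeRep_isUnramifiedAt_of_good hΔ (hqv.prime i) hne hgood A hA σ hσ]
  exact LinearMap.baseChange_one _ _

/-- The trace of Frobenius at `q` squares to four. -/
lemma residue_trace_sq (hq1 : (q : ZMod p) = 1) (htr : TraceAtQ hΔ p q) (D : LowerData W hΔ p N q) :
    LinearMap.trace (ResidueField F.E.R) _ (F.rhobar.ρ (F.frob q)) ^ 2 = 4 := by
  letI : Algebra (ZMod p) (ResidueField F.E.R) := F.φ.toAlgebra
  show LinearMap.trace (ResidueField F.E.R) _
    (((planeRep hΔ (p := p)).ρ (F.frob q)).baseChange (ResidueField F.E.R)) ^ 2 = 4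
  rw [LinearMap.trace_baseChange, ← map_pow,
    htr _ (F.liesOver q D.prime) _ (F.isFrobenius q D.prime), hq1, one_add_one_eq_two]
  rw [show ((2 : ZMod p) ^ 2) = 4 by norm_num, map_ofNat]

lemma residue_natCast (hq1 : (q : ZMod p) = 1) : residue F.E.R (q : F.E.R) = 1 := by
  rw [map_natCast, ← map_natCast F.φ, hq1, map_one]

end AvoidFrame

end FLTA.RT
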