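import Fermat.Agent.RT.Main.FrameInput
import Fermat.Agent.RT.Main.FalseData

/-!
# The contradiction from the two inputs of Ihara avoidance
-/

set_option autoImplicit false

noncomputable section

namespace FLTA.RT

open IsLocalRing Matrix

local notation "Γℚ" => AlgebraicClosure ℚ ≃ₐ[ℚ] AlgebraicClosure ℚ

set_option maxHeartbeats 800000 in
/-- The patched contradiction. -/
theorem false_of_inputs {W : WeierstrassCurve ℤ} {hΔ : W.Δ ≠ 0} {p : ℕ} [Fact p.Prime] {N q : ℕ}
    (D : LowerData W hΔ p N q) (hq1 : (q : ZMod p) = 1) (htr : TraceAtQ hΔ p q)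
    (F : AvoidFrame W hΔ p N q) (hTW : F.TWInput) (hmod : F.HasTWModules) : False := by
  classical
  obtain ⟨g, r, hgr, hTW⟩ := hTW
  choose qv hqv hgen using hTW
  obtain ⟨d, hd, hmod⟩ := hmod
  haveI : NeZero d := ⟨hd⟩
  have hbar := rhobar_isAbsolutelyIrreducible D F
  let M : ∀ n, F.TWModule d n (qv n) := fun n => Classical.choice (hmod n r (qv n) (hqv n))
  let U : ∀ n, GaloisRep.DeformationRingData F.E.R F.rhobar (F.cond (qv n)) :=
    fun n => Classical.choice ((M n).nonempty_data D.p_ne_two hbar)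
  choose φ hφ he using fun n => (M n).exists_universal_hom (U n)
  let X : ∀ n, F.LevelRing d n (qv n) := fun n => ⟨M n, U n, φ n, hφ n, he n⟩
  -- residual matrices and bases lifting them
  let β := Module.finBasisOfFinrankEq (ResidueField F.E.R) F.rhobar.V F.rhobar.finrank_eq
  choose b₀ hb₀ using fun n => Avoid.exists_residual_basis (U n).ρ F.rhobar
    (ResidueField.map (algebraMap F.E.R (U n).R)) (U n).residual_isEquiv β
  choose lift hlift using IsLocalRing.residue_surjective (R := F.E.R)
  let M₀ : ℕ → Matrix (Fin 2) (Fin 2) F.E.R := fun s =>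
    (LinearMap.toMatrix β β (F.rhobar.ρ (F.frob s))).map lift
  have hM₀res : ∀ s, (M₀ s).map (residue F.E.R) = LinearMap.toMatrix β β (F.rhobar.ρ (F.frob s)) :=
    fun s => by ext i j; exact hlift _
  have hM₀ : ∀ n s i j, (LinearMap.toMatrix (b₀ n) (b₀ n) ((U n).ρ.ρ (F.frob s)) -
      (M₀ s).map (algebraMap F.E.R (U n).R)) i j ∈ maximalIdeal (U n).R := by
    intro n s i j
    rw [← residue_eq_zero_iff, Matrix.sub_apply, map_sub, sub_eq_zero]
    have h := congrFun (congrFun (hb₀ n (F.frob s)) i) j
    rw [Matrix.map_apply, Matrix.map_apply, ← hM₀res s, Matrix.map_apply] at h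
    rw [h]
    exact ResidueField.map_residue _ _
  have hloc : ∀ n, ∀ x ∈ maximalIdeal F.E.R,
      algebraMap F.E.R (U n).R x ∈ maximalIdeal (U n).R :=
    fun n x hx => map_nonunit (algebraMap F.E.R (U n).R) x hx
  have hdetΦ : ∀ n s, s ∈ F.sites → LinearMap.det ((U n).ρ.ρ (F.frob s)) = (s : (U n).R) :=
    fun n s hs => LocalGalois.det_frobenius_eq _ (F.cond_det (U n).isOfType) (F.site_facts D hs).1 Fact.out
      (F.site_facts D hs).2.1 (F.liesOver s (F.site_facts D hs).1)
      (F.isFrobenius s (F.site_facts D hs).1)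
  -- the sites
  let S' := F.sites.erase q
  have hqsites : q ∈ F.sites := Finset.mem_insert_self _ _
  let sℓ : Option (Fin S'.card) → ℕ := fun s => s.elim q fun i => (S'.equivFin.symm i : ℕ)
  have hsℓ : ∀ s, sℓ s ∈ F.sites := by
    rintro (_ | i)
    · exact hqsites
    · exact Finset.mem_of_mem_erase (S'.equivFin.symm i).2
  have hM₀det : ∀ s, (M₀ (sℓ s)).det - (sℓ s : F.E.R) ∈ maximalIdeal F.E.R := by
    intro s
    rw [← residue_eq_zero_iff, map_sub, sub_eq_zero]
    refine (ResidueField.map (algebraMap F.E.R (U 0).R)).injective ?_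
    have h := congrArg Matrix.det (hb₀ 0 (F.frob (sℓ s)))
    rw [← RingHom.mapMatrix_apply, ← RingHom.mapMatrix_apply, ← RingHom.map_det, ← RingHom.map_det,
      LinearMap.det_toMatrix, hdetΦ 0 _ (hsℓ s), map_natCast, ← hM₀res, ← RingHom.mapMatrix_apply,
      ← RingHom.map_det] at h
    rw [← h, map_natCast, map_natCast]
  choose sc c hc_sq hc_tr hsc hbasis using fun s => Avoid.exists_siteForm (sℓ s) (M₀ (sℓ s)) (hM₀det s)
  choose bs hbs using fun n s => hbasis s (U n).R (hloc n) (U n).ρ (F.frob (sℓ s))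
    (hdetΦ n _ (hsℓ s)) (b₀ n) (hM₀ n (sℓ s))
  have hres : ∀ n s, ∀ σ ∈ (F.place (sℓ s)).inertiaSubgroupIn ℚ, ∀ v : (U n).ρ.V,
      (U n).ρ.ρ σ v - v ∈ maximalIdeal (U n).R • (⊤ : Submodule (U n).R (U n).ρ.V) :=
    fun n s σ hσ v => Avoid.sub_mem_of_residual_equiv _ _ _ (U n).residual_isEquiv
      ((F.site_facts D (hsℓ s)).2.2.1 _ (F.liesOver _ (F.site_facts D (hsℓ s)).1) σ hσ) v
  -- the generators
  let bS : ∀ n, ℕ → Module.Basis (Fin 2) (U n).R (U n).ρ.V := fun n s =>
    if h : ∃ i, sℓ i = s then bs n h.choose else b₀ n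
  choose e hem hle using fun n => hgen n (U n) (bS n)
  let Idx := (Option (Fin S'.card) × Fin 2 × Fin 2 × Bool) ⊕ Fin g
  let e1 := Fintype.equivFin Idx
  let val : ∀ n, Idx → (U n).R := fun n => Sum.elim
    (fun x => if x.2.2.2 then
      (LinearMap.toMatrix (bs n x.1) (bs n x.1) ((U n).ρ.ρ (F.tame (sℓ x.1))) - 1) x.2.1 x.2.2.1
    else (LinearMap.toMatrix (bs n x.1) (bs n x.1) ((U n).ρ.ρ (F.frob (sℓ x.1))) -
      (Avoid.siteConst (sℓ x.1) (sc x.1) (c x.1)).map (algebraMap F.E.R (U n).R)) x.2.1 x.2.2.1)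
    (e n)
  have hval : ∀ n x, val n x ∈ maximalIdeal (U n).R := by
    rintro n (⟨s, i, j, _ | _⟩ | l)
    · exact (hbs n s).1 i j
    · exact toMatrix_sub_one_mem _ _ _ (hres n s _ (F.isTameGenerator _ (F.site_facts D (hsℓ s)).1
        (Ne.symm (F.site_facts D (hsℓ s)).2.1)).1) i j
    · exact hem n l
  have hsub : ∀ n, maximalIdeal (U n).R ≤
      (maximalIdeal F.E.R).map (algebraMap F.E.R (U n).R) ⊔ Ideal.span (Set.range (val n)) := by
    intro n
    refine (hle n).trans (sup_le le_sup_left (Ideal.span_le.mpr ?_))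
    rintro y (⟨hy, s, hs, σ, hσ, i, j, co, rfl⟩ | ⟨l, rfl⟩)
    swap
    · exact Ideal.mem_sup_right (Ideal.subset_span ⟨Sum.inr l, rfl⟩)
    have hex : ∃ t, sℓ t = s := by
      by_cases hsq : s = q
      · exact ⟨none, hsq.symm⟩
      · exact ⟨some (S'.equivFin ⟨s, Finset.mem_erase.mpr ⟨hsq, hs⟩⟩), by simp [sℓ]⟩
    have hbS : bS n s = bs n hex.choose := dif_pos hex
    rw [hbS] at hy ⊢
    have hch : sℓ hex.choose = s := hex.choose_spec
    generalize hex.choose = t at hy hch ⊢
    subst hch
    obtain ⟨x, o, hx⟩ : ∃ x : Idx, ∃ o : F.E.R, val n x =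
        LinearMap.toMatrix (bs n t) (bs n t) ((U n).ρ.ρ σ) i j - algebraMap F.E.R (U n).R o := by
      rcases hσ with rfl | rfl
      · exact ⟨Sum.inl (t, i, j, false), Avoid.siteConst (sℓ t) (sc t) (c t) i j,
          by simp [val]⟩
      · refine ⟨Sum.inl (t, i, j, true), if i = j then 1 else 0, ?_⟩
        simp [val, Matrix.one_apply, apply_ite (algebraMap F.E.R (U n).R)]
    have hd := sub_mem (hval n x) hy
    rw [hx, sub_sub_sub_cancel_left, ← map_sub] at hd
    have hd' : co - o ∈ maximalIdeal F.E.R := fun hu => hd (hu.map _)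
    rw [show LinearMap.toMatrix (bs n t) (bs n t) ((U n).ρ.ρ σ) i j -
      algebraMap F.E.R (U n).R co = val n x - algebraMap F.E.R (U n).R (co - o) by
        rw [hx, map_sub]; ring]
    exact sub_mem (Ideal.mem_sup_right (Ideal.subset_span ⟨x, rfl⟩))
      (Ideal.mem_sup_left (Ideal.mem_map_of_mem _ hd'))
  -- the levels
  have hp : (p : F.E.R) ∈ maximalIdeal F.E.R := F.natCast_mem
  let L : AvoidLevels F.E.R r d (Fintype.card Idx) :=
    { J := fun n => F.diamondRel r n
      J_le := fun n => (Patching.diamondIdeal_le hp (n + 1)).trans (Ideal.pow_le_pow_right n.le_succ)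
      N := fun n => (M n).M
      basis := fun n => (M n).basis
      A := fun n => (M n).A
      residue_surjective := fun n => (M n).residue_surjective
      coord := fun n x => φ n (val n (e1.symm x))
      coord_mem := fun n x =>
        haveI := hφ n
        map_nonunit (φ n : (U n).R →+* (M n).A) _ (hval n _)
      diamond := fun n => (M n).diamond
      α := fun n => (M n).α
      α_diamond := fun n => (M n).α_diamond }
  have hrange : ∀ n, φ n '' Set.range (val n) = Set.range (L.coord n) := by
    intro n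
    rw [← Set.range_comp]
    exact (e1.symm.surjective.range_comp (φ n ∘ val n)).symm
  let DS : Avoid.AvoidSites L p :=
    { R := fun n => (U n).R
      φ := φ
      ρ := fun n => (U n).ρ
      p_prime := Fact.out
      det_cyc := fun n => F.cond_det (U n).isOfType
      u := S'.card
      ℓ := sℓ
      prime := fun s => (F.site_facts D (hsℓ s)).1
      ne_p := fun s => (F.site_facts D (hsℓ s)).2.1
      place := fun s => F.place (sℓ s)
      liesOver := fun s => F.liesOver _ (F.site_facts D (hsℓ s)).1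
      τ := fun s => F.tame (sℓ s)
      Φ := fun s => F.frob (sℓ s)
      tame := fun s => F.isTameGenerator _ (F.site_facts D (hsℓ s)).1
        (Ne.symm (F.site_facts D (hsℓ s)).2.1)
      frob := fun s => F.isFrobenius _ (F.site_facts D (hsℓ s)).1
      residual := hres
      unipotent := fun n s => F.cond_unipotent (U n).isOfType ((F.site_facts D (hsℓ (some s))).2.2.2
        (Finset.ne_of_mem_erase (S'.equivFin.symm s).2)) (F.site_facts D (hsℓ (some s))).1
        (Ne.symm (F.site_facts D (hsℓ (some s))).2.1)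
      sc := sc
      c := c
      c_sq := hc_sq
      c_disc := fun h => by
        rw [hc_tr none h, ← residue_eq_zero_iff, map_sub, map_mul, map_mul, map_ofNat,
          show sℓ none = q from rfl, F.residue_natCast hq1, mul_one, sub_eq_zero,
          trace_fin_two, map_add]
        have h4 := F.residue_trace_sq hq1 htr D
        rw [LinearMap.trace_eq_matrix_trace _ β, ← hM₀res q, trace_fin_two, Matrix.map_apply,
          Matrix.map_apply, pow_two] at h4
        exact h4
      b := bs
      isSiteBasis := hbs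
      cT := fun s i j => e1 (Sum.inl (s, i, j, true))
      cP := fun s i j => e1 (Sum.inl (s, i, j, false))
      coord_cT := fun n s i j => by simp [L, val]
      coord_cP := fun n s i j => by simp [L, val]
      lg := g
      cg := fun l => e1 (Sum.inr l)
      cover := fun i => by
        rcases h : e1.symm i with ⟨s, a, b, _ | _⟩ | l
        · exact Or.inr ⟨s, a, b, Or.inr (by rw [← h, Equiv.apply_symm_apply])⟩
        · exact Or.inr ⟨s, a, b, Or.inl (by rw [← h, Equiv.apply_symm_apply])⟩
        · exact Or.inl ⟨l, by rw [← h, Equiv.apply_symm_apply]⟩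
      surj := fun n => by
        haveI : IsLocalHom (algebraMap F.E.R (L.A n)) := (M n).instIsLocalHom
        refine L.eval_surjective n ?_
        refine ((M n).maximalIdeal_le_span (U n) (he n) (hsub n)).trans ?_
        refine sup_le le_sup_left (le_sup_of_le_right (Ideal.span_mono ?_))
        rw [hrange n]
        rintro _ (⟨x, rfl⟩ | ⟨j, rfl⟩)
        · exact ⟨Fin.castAdd r x, Fin.append_left _ _ x⟩
        · exact ⟨Fin.natAdd _ j, Fin.append_right _ _ j⟩
      tdia := 2
      diamond_mem := fun n ϖ hϖ j => by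
        obtain ⟨σ, hσ, hsq⟩ := (M n).diamond_sq j
        refine (Ideal.span_le.mpr ?_ :
          Ideal.span {(M n).ρ.trace σ - 2} ≤ _) hsq
        rw [Set.singleton_subset_iff]
        have htm : (U n).ρ.trace σ - 2 ∈ maximalIdeal (U n).R := by
          have h1 := toMatrix_sub_one_mem (b₀ n) _ _ (fun v => Avoid.sub_mem_of_residual_equiv _ _ _
            (U n).residual_isEquiv (F.tuple_unramified (hqv n) j _
              (F.liesOver _ ((hqv n).prime j)) σ hσ) v)
          rw [show (U n).ρ.trace σ = (LinearMap.toMatrix (b₀ n) (b₀ n) ((U n).ρ.ρ σ)).trace from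
            LinearMap.trace_eq_matrix_trace _ (b₀ n) _]
          have h00 := h1 0 0
          have h11 := h1 1 1
          rw [Matrix.sub_apply, Matrix.one_apply_eq] at h00 h11
          rw [trace_fin_two]
          convert add_mem h00 h11 using 1
          ring
        have h1 := Ideal.mem_map_of_mem (φ n : (U n).R →+* (M n).A) (hsub n htm)
        rw [map_sub, map_ofNat, show (φ n : (U n).R →+* (M n).A) ((U n).ρ.trace σ) =
          (M n).ρ.trace σ from (X n).trace_eq σ] at h1
        refine (?_ : _ ≤ Ideal.span _) h1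
        rw [Ideal.map_sup, Ideal.map_map, hϖ, Ideal.map_span, Ideal.map_span, Set.image_singleton,
          RingHom.comp_apply, RingHom.coe_coe, hrange n]
        refine sup_le (Ideal.span_mono ?_) (Ideal.span_mono (Set.subset_insert _ _))
        rw [AlgHom.commutes]
        exact Set.singleton_subset_iff.mpr (Set.mem_insert _ _) }
  -- the relations at `q`
  let T := Finset.Ioo 0 (p ^ F.a)
  let cs : Fin T.card → F.E.R := fun l =>
    (F.ζ ^ (T.equivFin.symm l : ℕ) - F.ζ ^ (p ^ F.a - (T.equivFin.symm l : ℕ))) ^ 2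
  have hrels : DS.SiteRels F.ϖ cs := by
    have hpt := fun n => (X n).site_relations D hq1 (hres n none) (bs n none)
    refine ⟨fun n => (hpt n).1, fun n => ?_, fun n x => ?_⟩
    · refine Eq.trans ?_ (hpt n).2
      congr 1
      rw [← Finset.prod_coe_sort T, ← T.equivFin.symm.prod_comp]
      rfl
    · have h1 : φ n ((DS.Pn n none).trace ^ 2 - 4 * (DS.Pn n none).det) =
          (M n).ρ.trace (F.frob q) ^ 2 - 4 * (q : (M n).A) := by
        rw [map_sub, map_pow, map_mul, map_ofNat,
          ← LinearMap.trace_eq_matrix_trace, LinearMap.det_toMatrix]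
        show φ n ((U n).ρ.trace (F.frob q)) ^ 2 - 4 * φ n (LinearMap.det ((U n).ρ.ρ (F.frob q))) = _
        rw [hdetΦ n q hqsites, map_natCast]
        exact congrArg (fun a => a ^ 2 - 4 * (q : (M n).A)) ((X n).trace_eq _)
      show (M n).α (φ n _) x ∈ _
      rw [h1]
      exact (M n).disc_mem x
  refine DS.false_of_siteRels F.maximalIdeal_eq F.uniformizer_ne_zero hp (F.isUnit_two D)
    (fun l => F.zetaConst_ne_zero D (T.equivFin.symm l).2) (fun l => F.zetaConst_mem _ _) hrels ?_
  -- the count
  have hw : ∀ s, Avoid.siteWeight (sc s) ≤ F.siteH (sℓ s) := by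
    intro s
    rw [AvoidFrame.siteH]
    by_cases hex : ∃ a : ResidueField F.E.R,
        F.rhobar.ρ (F.frob (sℓ s)) = a • (1 : Module.End _ F.rhobar.V)
    · rw [if_pos hex]; exact Avoid.siteWeight_le _
    · rw [if_neg hex]
      by_cases h : sc s = true
      · refine absurd ⟨residue _ (M₀ (sℓ s) 0 0), ?_⟩ hex
        obtain ⟨h10, h01, h0011⟩ := hsc s h
        rw [← residue_eq_zero_iff] at h10 h01 h0011
        rw [map_sub, sub_eq_zero] at h0011
        refine (LinearMap.toMatrix β β).injective ?_
        rw [map_smul, LinearMap.toMatrix_one, ← hM₀res (sℓ s)]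
        ext i j
        fin_cases i <;> fin_cases j <;> simp [h10, h01, h0011]
      · simp [Avoid.siteWeight, h]
  have hsum : ∑ i : Fin S'.card, F.siteH (sℓ (some i)) + F.siteH q = ∑ s ∈ F.sites, F.siteH s := by
    rw [← Finset.sum_erase_add _ _ hqsites, ← Finset.sum_coe_sort (F.sites.erase q),
      ← (F.sites.erase q).equivFin.symm.sum_comp]
    rfl
  show g + ∑ s : Fin S'.card, Avoid.siteWeight (sc (some s)) + Avoid.siteWeight (sc none) ≤ r
  have h1 := Finset.sum_le_sum fun (i : Fin S'.card) (_ : i ∈ Finset.univ) => hw (some i)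
  have h2 := hw none
  have h3 : F.siteH (sℓ none) = F.siteH q := rfl
  omega

end FLTA.RT

end
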