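import Fermat.Agent.RT.DatumExists
import Mathlib.RingTheory.MvPowerSeries.Inverse

/-!
# Assembling the Hecke input: algebras generated by local algebras

A finite `O`-algebra generated by the images of local `O`-algebras with residue field that of `O`
is local with the same residue field; the Hecke-Galois datum pushed along a map to it has the
expected residual representation, and its traces generate the Hecke part.
-/

set_option autoImplicit false

noncomputable section

open IsLocalRing Polynomial CuspForm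

namespace FLTA.RT.Avoid

section Local

variable {O A B : Type} [CommRing O] [IsLocalRing O] [CommRing A] [Algebra O A] [Module.Finite O A]
  [CommRing B] [IsLocalRing B] [Algebra O B]

omit [IsLocalRing O] in
/-- Maximal ideals of a finite algebra lie over the maximal ideal of any local algebra mapping
to it. -/
theorem comap_eq_maximalIdeal (f : B →ₐ[O] A) (P : Ideal A) [hP : P.IsMaximal] :
    P.comap f.toRingHom = maximalIdeal B := by
  let _ : Algebra B A := f.toRingHom.toAlgebra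
  have : IsScalarTower O B A :=
    IsScalarTower.of_algebraMap_eq fun a => (f.commutes a).symm
  have : Module.Finite B A := Module.Finite.of_restrictScalars_finite O B A
  have : Algebra.IsIntegral B A := Algebra.IsIntegral.of_finite B A
  exact IsLocalRing.eq_maximalIdeal
    (Ideal.isMaximal_comap_of_isIntegral_of_isMaximal (R := B) P)

theorem algebraMap_mem_of_mem_maximalIdeal (P : Ideal A) [hP : P.IsMaximal] {c : O}
    (hc : c ∈ maximalIdeal O) : algebraMap O A c ∈ P := by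
  rw [← comap_eq_maximalIdeal (Algebra.ofId O A) P] at hc
  exact hc

omit [IsLocalRing O] in
/-- A point of a local algebra with trivial residue extension is congruent to a constant. -/
theorem exists_algebraMap_sub_mem (f : B →ₐ[O] A)
    (hB : Function.Surjective (residue B ∘ algebraMap O B)) (b : B) :
    ∃ a : O, ∀ P : Ideal A, P.IsMaximal → f b - algebraMap O A a ∈ P := by
  obtain ⟨a, ha⟩ := hB (residue B b)
  refine ⟨a, fun P hP => ?_⟩
  have h : b - algebraMap O B a ∈ maximalIdeal B := by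
    rw [← residue_eq_zero_iff, map_sub, sub_eq_zero]
    exact ha.symm
  rw [← comap_eq_maximalIdeal f P] at h
  simpa using h

omit [IsLocalRing O] in
/-- The maps from local algebras are local. -/
theorem isLocalHom_of_finite [IsLocalRing A] (f : B →ₐ[O] A) : IsLocalHom (f : B →+* A) :=
  ⟨fun b hb => by
    by_contra hnb
    have h : b ∈ maximalIdeal B := (mem_maximalIdeal _).mpr hnb
    rw [← comap_eq_maximalIdeal f (maximalIdeal A)] at h
    exact (mem_maximalIdeal _).mp h hb⟩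

omit [IsLocalRing O] [Module.Finite O A] in
theorem exists_sub_mem_of_adjoin {gens : Set A} (hgen : Algebra.adjoin O gens = ⊤)
    (hres : ∀ x ∈ gens, ∃ a : O, ∀ P : Ideal A, P.IsMaximal → x - algebraMap O A a ∈ P) (x : A) :
    ∃ a : O, ∀ P : Ideal A, P.IsMaximal → x - algebraMap O A a ∈ P := by
  have hx : x ∈ Algebra.adjoin O gens := by rw [hgen]; trivial
  induction hx using Algebra.adjoin_induction with
  | mem y hy => exact hres y hy
  | algebraMap r => exact ⟨r, fun P _ => by rw [sub_self]; exact zero_mem P⟩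
  | add y z _ _ hy hz =>
    obtain ⟨a, ha⟩ := hy
    obtain ⟨b, hb⟩ := hz
    refine ⟨a + b, fun P hP => ?_⟩
    rw [map_add, add_sub_add_comm]
    exact add_mem (ha P hP) (hb P hP)
  | mul y z _ _ hy hz =>
    obtain ⟨a, ha⟩ := hy
    obtain ⟨b, hb⟩ := hz
    refine ⟨a * b, fun P hP => ?_⟩
    rw [map_mul, show y * z - algebraMap O A a * algebraMap O A b =
      (y - algebraMap O A a) * z + algebraMap O A a * (z - algebraMap O A b) by ring]
    exact add_mem (P.mul_mem_right _ (ha P hP)) (P.mul_mem_left _ (hb P hP))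

/-- A finite algebra generated by elements congruent to constants is local. -/
theorem isLocalRing_of_generated [Nontrivial A] {gens : Set A}
    (hgen : Algebra.adjoin O gens = ⊤)
    (hres : ∀ x ∈ gens, ∃ a : O, ∀ P : Ideal A, P.IsMaximal → x - algebraMap O A a ∈ P) :
    IsLocalRing A := by
  obtain ⟨P, hP⟩ := Ideal.exists_maximal A
  refine IsLocalRing.of_unique_max_ideal ⟨P, hP, fun Q hQ => hQ.eq_of_le hP.ne_top fun x hx => ?_⟩
  obtain ⟨a, ha⟩ := exists_sub_mem_of_adjoin hgen hres x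
  have hQa : algebraMap O A a ∈ Q := by
    have h := Q.sub_mem hx (ha Q hQ)
    rwa [sub_sub_cancel] at h
  have ham : a ∈ maximalIdeal O := by
    by_contra hu
    rw [mem_maximalIdeal, mem_nonunits_iff, not_not] at hu
    exact hQ.ne_top (Q.eq_top_of_isUnit_mem hQa (hu.map _))
  have h := P.add_mem (ha P hP) (algebraMap_mem_of_mem_maximalIdeal P ham)
  rwa [sub_add_cancel] at h

omit [IsLocalRing O] [Module.Finite O A] in
theorem residue_surjective_of_generated [IsLocalRing A] {gens : Set A}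
    (hgen : Algebra.adjoin O gens = ⊤)
    (hres : ∀ x ∈ gens, ∃ a : O, ∀ P : Ideal A, P.IsMaximal → x - algebraMap O A a ∈ P) :
    Function.Surjective (residue A ∘ algebraMap O A) := by
  intro z
  obtain ⟨x, rfl⟩ := residue_surjective z
  obtain ⟨a, ha⟩ := exists_sub_mem_of_adjoin hgen hres x
  refine ⟨a, (sub_eq_zero.mp ?_).symm⟩
  rw [Function.comp_apply, ← map_sub, residue_eq_zero_iff]
  exact ha _ (maximalIdeal.isMaximal A)

theorem residue_surjective_mvPowerSeries (σ : Type) :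
    Function.Surjective
      (residue (MvPowerSeries σ O) ∘ algebraMap O (MvPowerSeries σ O)) := by
  intro z
  obtain ⟨f, rfl⟩ := residue_surjective z
  refine ⟨MvPowerSeries.constantCoeff f, (sub_eq_zero.mp ?_).symm⟩
  rw [Function.comp_apply, ← map_sub, residue_eq_zero_iff, mem_maximalIdeal, mem_nonunits_iff,
    MvPowerSeries.isUnit_iff_constantCoeff, map_sub, MvPowerSeries.algebraMap_apply,
    MvPowerSeries.constantCoeff_C, Algebra.algebraMap_self_apply, sub_self]
  exact not_isUnit_zero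

end Local

local notation "Γℚ" => AlgebraicClosure ℚ ≃ₐ[ℚ] AlgebraicClosure ℚ

section Rep

attribute [local instance] Datum.factIntegral

variable {N : ℕ} [NeZero N] {S : Finset ℕ}
  {O : Type} [CommRing O] [IsDomain O] [IsDiscreteValuationRing O]
  [IsAdicComplete (maximalIdeal O) O]
  {θ : CuspForm.heckeAlgebra N 2 (↑S : Set ℕ) →+* ResidueField O}
  {A : Type} [CommRing A] [IsLocalRing A] [Algebra O A] [IsLocalHom (algebraMap O A)]

/-- A representation with the Frobenius polynomials of a point of the local Hecke algebra. -/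
def IsAttached (Φ : heckeLocal N (↑S : Set ℕ) O θ →ₐ[O] A) (ρ : GaloisRepAdic A) : Prop :=
  ∀ (ℓ : ℕ) (hℓ : ℓ.Prime) (hℓN : ¬ ℓ ∣ N) (hℓS : ℓ ∉ (↑S : Set ℕ)),
    ∀ P : ValuationSubring (AlgebraicClosure ℚ), P.LiesOverPrime ℓ →
      ∀ σ : Γℚ, P.IsFrobeniusAt σ ℓ →
        (ρ.ρ σ).charpoly = X ^ 2
          - C (Φ (heckeLocal.π N (↑S : Set ℕ) O θ (heckeAlgebra.T hℓ hℓN hℓS))) * X + C (ℓ : A)

variable (Φ : heckeLocal N (↑S : Set ℕ) O θ →ₐ[O] A)

omit [IsLocalHom (algebraMap O A)] in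
theorem isAttached_baseChangeAlong
    (D : HeckeGaloisRepDatum N (↑S : Set ℕ) O θ (heckeLocal N (↑S : Set ℕ) O θ))
    (hD : D.π = heckeLocal.π N (↑S : Set ℕ) O θ)
    (hΦ : IsLocalHom (Φ : heckeLocal N (↑S : Set ℕ) O θ →+* A)) :
    IsAttached Φ
      (D.ρ.baseChangeAlong (Φ : heckeLocal N (↑S : Set ℕ) O θ →+* A) hΦ) := by
  intro ℓ hℓ hℓN hℓS P hP σ hσ
  rw [RepTheory.charpoly_baseChangeAlong, D.charpoly_frob ℓ hℓ hℓN hℓS P hP σ hσ, hD]
  simp

omit [IsLocalHom (algebraMap O A)] in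
theorem trace_of_isAttached {ρ : GaloisRepAdic A} (hρ : IsAttached Φ ρ) {ℓ : ℕ} (hℓ : ℓ.Prime)
    (hℓN : ¬ ℓ ∣ N) (hℓS : ℓ ∉ (↑S : Set ℕ)) {P : ValuationSubring (AlgebraicClosure ℚ)}
    (hP : P.LiesOverPrime ℓ) {σ : Γℚ} (hσ : P.IsFrobeniusAt σ ℓ) :
    ρ.trace σ = Φ (heckeLocal.π N (↑S : Set ℕ) O θ (heckeAlgebra.T hℓ hℓN hℓS)) :=
  (RepTheory.trace_eq_of_charpoly ρ.finrank_eq (hρ ℓ hℓ hℓN hℓS P hP σ hσ)).1

/-- The residual representation of an attached representation. -/
theorem residual_isEquiv_of_isAttached {ρ : GaloisRepAdic A} (hρ : IsAttached Φ ρ)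
    (hNS : ∀ q : ℕ, q.Prime → q ∣ N → q ∈ S) (ρbar : ResidualGaloisRep (ResidueField O))
    (hirr : ρbar.IsAbsolutelyIrreducible)
    (hbar : ∀ (ℓ : ℕ) (hℓ : ℓ.Prime) (hℓN : ¬ ℓ ∣ N) (hℓS : ℓ ∉ (↑S : Set ℕ)),
      ∀ P : ValuationSubring (AlgebraicClosure ℚ), P.LiesOverPrime ℓ →
        ∀ σ : Γℚ, P.IsFrobeniusAt σ ℓ →
          (ρbar.ρ σ).charpoly = X ^ 2 - C (θ (heckeAlgebra.T hℓ hℓN hℓS)) * X
            + C (ℓ : ResidueField O)) :
    ρ.residual.IsEquiv (ρbar.baseChangeAlong (ResidueField.map (algebraMap O A))) := by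
  have hS' : ∀ ℓ : ℕ, ℓ.Prime → ℓ ∉ S → ¬ ℓ ∣ N := fun ℓ hℓ hℓS h => hℓS (hNS ℓ hℓ h)
  let T : ∀ ℓ : ℕ, ℓ.Prime ∧ ℓ ∉ S → CuspForm.heckeAlgebra N 2 (↑S : Set ℕ) := fun ℓ h =>
    heckeAlgebra.T h.1 (hS' ℓ h.1 h.2) (fun hh => h.2 hh)
  let c : ℕ → ResidueField O := fun ℓ =>
    if h : ℓ.Prime ∧ ℓ ∉ S then θ (T ℓ h) else 0
  let a : ℕ → A := fun ℓ =>
    if h : ℓ.Prime ∧ ℓ ∉ S then Φ (heckeLocal.π N (↑S : Set ℕ) O θ (T ℓ h)) else 0
  obtain ⟨e⟩ := Datum.residual_isEquiv_of_frobenius ρbar hirr S c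
    (fun ℓ hℓ hℓS P hP σ hσ => by
      rw [hbar ℓ hℓ (hS' ℓ hℓ hℓS) (fun hh => hℓS hh) P hP σ hσ]
      simp only [c, T, dif_pos (And.intro hℓ hℓS)])
    ρ (ResidueField.map (algebraMap O A)) a
    (fun ℓ hℓ hℓS => by
      simp only [a, c, T, dif_pos (And.intro hℓ hℓS)]
      exact Datum.residue_point Φ _)
    (fun ℓ hℓ hℓS P hP σ hσ => by
      rw [hρ ℓ hℓ (hS' ℓ hℓ hℓS) (fun hh => hℓS hh) P hP σ hσ]
      simp only [a, T, dif_pos (And.intro hℓ hℓS)])
  exact ⟨e.symm⟩

omit [IsLocalHom (algebraMap O A)] in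
/-- The traces generate the image of the Hecke algebra. -/
theorem range_le_adjoin_trace {ρ : GaloisRepAdic A} (hρ : IsAttached Φ ρ)
    (hNS : ∀ q : ℕ, q.Prime → q ∣ N → q ∈ S) :
    Φ.range ≤ Algebra.adjoin O (Set.range ρ.trace) := by
  rintro _ ⟨x, rfl⟩
  have hx : x ∈ Algebra.adjoin O (Set.range (heckeLocal.π N (↑S : Set ℕ) O θ)) := by
    rw [Datum.adjoin_range_pi]; trivial
  induction hx using Algebra.adjoin_induction with
  | mem y hy =>
    obtain ⟨⟨t, ht⟩, rfl⟩ := hy
    induction ht using Algebra.adjoin_induction with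
    | mem z hz =>
      rcases hz with ⟨ℓ, hℓ, hℓN, hℓS, rfl⟩ | ⟨q, hqN, hq, hqS, rfl⟩
      · obtain ⟨P, hP⟩ := FLTA.Galois.exists_liesOverPrime hℓ
        obtain ⟨σ, hσ⟩ := FLTA.Galois.exists_isFrobeniusAt hℓ hP
        exact Algebra.subset_adjoin ⟨σ, trace_of_isAttached Φ hρ hℓ hℓN hℓS hP hσ⟩
      · exact absurd (hNS q hq hqN) hqS
    | algebraMap r =>
      show (Φ.toRingHom.comp (heckeLocal.π N (↑S : Set ℕ) O θ)) (algebraMap ℤ _ r) ∈ _
      rw [eq_intCast, map_intCast]
      exact intCast_mem _ r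
    | add z w hz hw h1 h2 =>
      let u : CuspForm.heckeAlgebra N 2 (↑S : Set ℕ) := ⟨z, hz⟩
      let v : CuspForm.heckeAlgebra N 2 (↑S : Set ℕ) := ⟨w, hw⟩
      change Φ (heckeLocal.π N (↑S : Set ℕ) O θ (u + v)) ∈ _
      rw [map_add, map_add]
      exact add_mem h1 h2
    | mul z w hz hw h1 h2 =>
      let u : CuspForm.heckeAlgebra N 2 (↑S : Set ℕ) := ⟨z, hz⟩
      let v : CuspForm.heckeAlgebra N 2 (↑S : Set ℕ) := ⟨w, hw⟩
      change Φ (heckeLocal.π N (↑S : Set ℕ) O θ (u * v)) ∈ _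
      rw [map_mul, map_mul]
      exact mul_mem h1 h2
  | algebraMap r =>
    show Φ (algebraMap O _ r) ∈ _
    rw [AlgHom.commutes]
    exact Subalgebra.algebraMap_mem _ r
  | add y z _ _ hy hz =>
    show Φ (y + z) ∈ _
    rw [map_add]
    exact add_mem hy hz
  | mul y z _ _ hy hz =>
    show Φ (y * z) ∈ _
    rw [map_mul]
    exact mul_mem hy hz

theorem adjoin_trace_union_eq_top {ρ : GaloisRepAdic A} (hρ : IsAttached Φ ρ)
    (hNS : ∀ q : ℕ, q.Prime → q ∣ N → q ∈ S) (D : Set A)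
    (hgen : Algebra.adjoin O (Set.range Φ ∪ D) = ⊤) :
    Algebra.adjoin O (Set.range ρ.trace ∪ D) = ⊤ := by
  refine eq_top_iff.mpr (hgen ▸ Algebra.adjoin_le (Set.union_subset ?_
    (Set.subset_union_right.trans Algebra.subset_adjoin)))
  exact fun _ hx => Algebra.adjoin_mono Set.subset_union_left (range_le_adjoin_trace Φ hρ hNS hx)

end Rep

end FLTA.RT.Avoid

end
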