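import Fermat.Agent.RT.Main.ModulesSetup
import Fermat.Agent.RT.Main.ModulesAssembly
import Fermat.Agent.RT.Main.AvoidRingHom
import Fermat.Agent.LevelLowering.GlobalPlane
import Mathlib.LinearAlgebra.Matrix.Charpoly.LinearMap

/-!
# The algebra of a level module: elementary facts

Nilpotence criterion for membership in maximal ideals, the map from the local Hecke algebra to a
local algebra, the primes of the classical level and the residual polynomials.
-/

set_option autoImplicit false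

noncomputable section

open IsLocalRing Polynomial WeierstrassCurve

namespace FLTA.RT.Avoid

local notation "Γℚ" => AlgebraicClosure ℚ ≃ₐ[ℚ] AlgebraicClosure ℚ

/-- An operator which is topologically nilpotent on a faithful module lies in every maximal
ideal. -/
theorem mem_of_pow_range_le {R A M : Type} [CommRing R] [IsLocalRing R] [CommRing A] [Algebra R A]
    [Module.Finite R A] [AddCommGroup M] [Module R M] [Module.Finite R M]
    (φ : A →ₐ[R] Module.End R M) (hφ : Function.Injective φ) {z : A} {k : ℕ}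
    (hz : ∀ x, (φ z ^ k) x ∈ maximalIdeal R • (⊤ : Submodule R M)) (P : Ideal A) [P.IsMaximal] :
    z ∈ P := by
  have hle : LinearMap.range (φ z ^ k) ≤ maximalIdeal R • (⊤ : Submodule R M) := by
    rintro _ ⟨x, rfl⟩
    exact hz x
  obtain ⟨f, hf, -, hcoef, h0⟩ :=
    LinearMap.exists_monic_and_natDegree_eq_and_coeff_mem_pow_and_aeval_eq_zero R (φ z ^ k)
      (maximalIdeal R) hle
  have hA : aeval (z ^ k) f = 0 := hφ (by rw [← aeval_algHom_apply, map_pow, map_zero, h0])
  rw [aeval_eq_sum_range, Finset.sum_range_succ, hf.coeff_natDegree, one_smul] at hA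
  have hsum : ∑ i ∈ Finset.range f.natDegree, f.coeff i • (z ^ k) ^ i ∈ P := by
    refine P.sum_mem fun i hi => ?_
    rw [Algebra.smul_def]
    refine P.mul_mem_right _ (algebraMap_mem_of_mem_maximalIdeal P ?_)
    exact Ideal.pow_le_self (Nat.sub_ne_zero_of_lt (Finset.mem_range.mp hi)) (hcoef i)
  have h1 : (z ^ k) ^ f.natDegree ∈ P := by
    have h := P.neg_mem hsum
    rwa [neg_eq_of_add_eq_zero_right hA] at h
  exact Ideal.IsPrime.mem_of_pow_mem inferInstance k
    (Ideal.IsPrime.mem_of_pow_mem inferInstance _ h1)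

theorem detIsCyclotomic_baseChangeAlong {A B : Type} [CommRing A] [IsLocalRing A] [CommRing B]
    [IsLocalRing B] (f : A →+* B) (hf : IsLocalHom f) {p : ℕ} {ρ : GaloisRepAdic A}
    (h : ρ.DetIsCyclotomic p) : (ρ.baseChangeAlong f hf).DetIsCyclotomic p := by
  refine ⟨?_, fun n σ a ha => ?_⟩
  · have := hf
    rw [← map_natCast f]
    exact map_nonunit f _ h.1
  · obtain ⟨c, hc⟩ := Ideal.mem_span_singleton'.mp (h.2 n σ a ha)
    refine Ideal.mem_span_singleton'.mpr ⟨f c, ?_⟩
    let _ : Algebra A B := f.toAlgebra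
    rw [show LinearMap.det ((ρ.baseChangeAlong f hf).ρ σ) = f (LinearMap.det (ρ.ρ σ)) from
      LinearMap.det_baseChange (ρ.ρ σ), ← map_natCast f, ← map_natCast f, ← map_mul, hc, map_sub]

section Hom

attribute [local instance] Datum.factIntegral

variable {N : ℕ} [NeZero N] {S : Set ℕ} {O : Type} [CommRing O] [IsDomain O]
  [IsDiscreteValuationRing O] [IsAdicComplete (maximalIdeal O) O]
  {A : Type} [CommRing A] [IsLocalRing A] [Algebra O A] [IsLocalHom (algebraMap O A)]
  [Module.Finite O A]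

set_option synthInstance.maxHeartbeats 400000 in
-- the instances on `heckeLocal`
/-- A Hecke algebra mapping to a finite local algebra with trivial residue extension factors
through a local Hecke algebra. -/
theorem exists_residual_heckeLocal_hom (hS : ∀ q : ℕ, q.Prime → q ∣ N → q ∈ S)
    (hA : Function.Surjective (residue A ∘ algebraMap O A))
    (Ψ : CuspForm.heckeAlgebra N 2 S →+* A) :
    ∃ (θ : CuspForm.heckeAlgebra N 2 S →+* ResidueField O)
      (Φ : CuspForm.heckeLocal N S O θ →ₐ[O] A),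
      (∀ t, ResidueField.map (algebraMap O A) (θ t) = residue A (Ψ t)) ∧
        ∀ ℓ, Φ (CuspForm.heckeLocal.π N S O θ (goodT ℓ)) = Ψ (goodT ℓ) := by
  classical
  have hmap : Function.Surjective (ResidueField.map (algebraMap O A)) := fun z => by
    obtain ⟨a, ha⟩ := hA z
    exact ⟨residue O a, (ResidueField.map_residue _ a).trans ha⟩
  let e : ResidueField O ≃+* ResidueField A :=
    RingEquiv.ofBijective _ ⟨RingHom.injective _, hmap⟩
  let θ : CuspForm.heckeAlgebra N 2 S →+* ResidueField O :=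
    e.symm.toRingHom.comp ((residue A).comp Ψ)
  have hθ : ∀ t, ResidueField.map (algebraMap O A) (θ t) = residue A (Ψ t) := fun t =>
    e.apply_symm_apply _
  have hrad : maximalIdeal A ≤ ((maximalIdeal O).map (algebraMap O A)).radical := by
    rw [Ideal.radical_eq_sInf]
    refine le_sInf fun P hP => ?_
    have hPp : P.IsPrime := hP.2
    have h2 : maximalIdeal O ≤ P.comap (algebraMap O A) := Ideal.map_le_iff_le_comap.mp hP.1
    have h3 : P.comap (algebraMap O A) = maximalIdeal O :=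
      ((maximalIdeal.isMaximal O).eq_of_le (Ideal.IsPrime.ne_top inferInstance) h2).symm
    have : Algebra.IsIntegral O A := Algebra.IsIntegral.of_finite O A
    have : P.IsMaximal :=
      Ideal.isMaximal_of_isIntegral_of_isMaximal_comap P (h3 ▸ maximalIdeal.isMaximal O)
    exact (IsLocalRing.eq_maximalIdeal this).ge
  obtain ⟨Φ, hΦ⟩ := exists_heckeLocal_algHom (N := N) (S := S) θ (E := A)
    (Algebra.lmul O A) (fun a b h => by simpa using LinearMap.congr_fun h 1) hS
    (fun ℓ => Ψ (goodT ℓ))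
    (fun P hP => by
      have hcomm : FreeAlgebra.lift ℤ (fun ℓ => Ψ (goodT ℓ)) =
          (Ψ.toIntAlgHom).comp (FreeAlgebra.lift ℤ (goodT (N := N) (S := S))) :=
        FreeAlgebra.hom_ext (funext fun ℓ => by simp)
      rw [hcomm, AlgHom.comp_apply, hP, map_zero])
    (fun ℓ => by
      obtain ⟨a, ha⟩ := residue_surjective (θ (goodT ℓ))
      have hm : Ψ (goodT ℓ) - algebraMap O A a ∈ maximalIdeal A := by
        rw [← residue_eq_zero_iff, map_sub, sub_eq_zero, ← hθ, ← ha, ResidueField.map_residue]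
      obtain ⟨k, hk⟩ := hrad hm
      refine ⟨a, ha, k, fun x => ?_⟩
      rw [Ideal.smul_top_eq_map, Submodule.restrictScalars_mem]
      exact Ideal.mul_mem_right x _ hk)
  exact ⟨θ, Φ, hθ, hΦ⟩

end Hom

end FLTA.RT.Avoid

namespace FLTA.RT.AvoidFrame

open FLTA.LevelLowering (planeRep)

local notation "Γℚ" => AlgebraicClosure ℚ ≃ₐ[ℚ] AlgebraicClosure ℚ

variable {W : WeierstrassCurve ℤ} {hΔ : W.Δ ≠ 0} {p : ℕ} [Fact p.Prime] {N q : ℕ}
  (F : AvoidFrame W hΔ p N q) {n r : ℕ} {qv : Fin r → ℕ}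

theorem not_mem_avoided {l : ℕ} (hl : l ∉ F.avoided) (hl' : l.Prime) (hN : N ≠ 0) :
    l ≠ p ∧ l ≠ 2 ∧ ¬ l ∣ N ∧ ¬ (l : ℤ) ∣ W.Δ := by
  simp only [avoided, Finset.mem_insert, Finset.mem_union, Nat.mem_primeFactors, not_or] at hl
  exact ⟨hl.1, hl.2.1, fun h => hl.2.2.1 ⟨hl', h, hN⟩,
    fun h => hl.2.2.2 ⟨hl', Int.natCast_dvd.mp h, Int.natAbs_ne_zero.mpr hΔ⟩⟩

/-- The residual polynomial at a good prime. -/
theorem rhobar_charpoly (hp2 : p ≠ 2) (hN : N ≠ 0) {l : ℕ} (hl : l.Prime) (hlS : l ∉ F.badSet qv)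
    {A : ValuationSubring (AlgebraicClosure ℚ)} (hA : A.LiesOverPrime l) {σ : Γℚ}
    (hσ : A.IsFrobeniusAt σ l) :
    (F.rhobar.ρ σ).charpoly = X ^ 2 - C (W.apOfModel l : ResidueField F.E.R) * X
      + C (l : ResidueField F.E.R) := by
  obtain ⟨h1, h2, -, h4⟩ :=
    F.not_mem_avoided (fun h => hlS (Finset.mem_union_left _ h)) hl hN
  obtain ⟨htr, hdet⟩ := LevelLowering.planeRep_frobenius (hΔ := hΔ) (p := p) hp2 hl h2 h4 h1 hA hσ
  rw [RepTheory.residual_charpoly_baseChangeAlong,
    RepTheory.charpoly_of_finrank_two (planeRep hΔ (p := p)).finrank_eq, htr, hdet]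
  simp

variable [NeZero (F.level qv)]

theorem ne_zero_of_level (F : AvoidFrame W hΔ p N q) (qv : Fin r → ℕ) [NeZero (F.level qv)] :
    N ≠ 0 :=
  left_ne_zero_of_mul (NeZero.ne (F.level qv))

theorem prime_twistSet (hq : q.Prime) (h : F.IsTWTuple n qv) {l : ℕ}
    (hl : l ∈ F.twistSet qv) : l.Prime := by
  simp only [twistSet, Finset.mem_insert, Finset.mem_image, Finset.mem_univ, true_and] at hl
  rcases hl with rfl | ⟨i, rfl⟩
  · exact hq
  · exact h.prime i

theorem classicalLevel_ne_zero (hq : q.Prime) (h : F.IsTWTuple n qv) :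
    F.classicalLevel qv ≠ 0 :=
  mul_ne_zero (NeZero.ne _)
    (Finset.prod_ne_zero_iff.mpr fun _ hl => (F.prime_twistSet hq h hl).ne_zero)

theorem prime_dvd_classicalLevel (hq : q.Prime) (hqN : q ∣ N) (h : F.IsTWTuple n qv) {l : ℕ}
    (hl : l.Prime) (hd : l ∣ F.classicalLevel qv) : l ∣ N ∨ ∃ i, qv i = l := by
  rcases hl.dvd_mul.mp hd with hd | hd
  · rcases hl.dvd_mul.mp hd with hd | hd
    · exact Or.inl hd
    · obtain ⟨i, -, hi⟩ := (hl.prime.dvd_finsetProd_iff qv).mp hd
      exact Or.inr ⟨i, ((Nat.prime_dvd_prime_iff_eq hl (h.prime i)).mp hi).symm⟩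
  · obtain ⟨t, ht, hlt⟩ := (hl.prime.dvd_finsetProd_iff fun x : ℕ => x).mp hd
    have := (Nat.prime_dvd_prime_iff_eq hl (F.prime_twistSet hq h ht)).mp hlt
    subst this
    simp only [twistSet, Finset.mem_insert, Finset.mem_image, Finset.mem_univ, true_and] at ht
    rcases ht with e | e
    · exact Or.inl (by rw [e]; exact hqN)
    · exact Or.inr e

theorem mem_badSet_of_dvd (hq : q.Prime) (hqN : q ∣ N) (h : F.IsTWTuple n qv) {l : ℕ}
    (hl : l.Prime) (hd : l ∣ F.classicalLevel qv) : l ∈ F.badSet qv := by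
  have hN := F.ne_zero_of_level qv
  rcases F.prime_dvd_classicalLevel hq hqN h hl hd with hd | ⟨i, rfl⟩
  · simp [badSet, avoided, Nat.mem_primeFactors, hl, hd, hN]
  · simp [badSet]

theorem mem_ramSet_of_dvd (hq : q.Prime) (hqN : q ∣ N) (h : F.IsTWTuple n qv) {l : ℕ}
    (hl : l.Prime) (hd : l ∣ F.classicalLevel qv) : l ∈ F.ramSet qv := by
  rcases F.prime_dvd_classicalLevel hq hqN h hl hd with hd | ⟨i, rfl⟩
  · by_cases hlq : l = q
    · simp [ramSet, hlq]
    · have hd' : l ∣ N / q := by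
        rw [← Nat.mul_div_cancel' hqN] at hd
        exact (hl.dvd_mul.mp hd).resolve_left fun e =>
          hlq ((Nat.prime_dvd_prime_iff_eq hl hq).mp e)
      have hN : N / q ≠ 0 := fun e =>
        F.ne_zero_of_level qv (by rw [← Nat.mul_div_cancel' hqN, e, mul_zero])
      by_cases hlp : l = p <;> simp [ramSet, unipSet, Nat.mem_primeFactors, hl, hd', hN, hlp]
  · simp [ramSet]

theorem not_dvd_classicalLevel (hq : q.Prime) (hqN : q ∣ N) (hpN : ¬ p ∣ N)
    (h : F.IsTWTuple n qv) : ¬ p ∣ F.classicalLevel qv := fun hd => by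
  rcases F.prime_dvd_classicalLevel hq hqN h Fact.out hd with hd | ⟨i, hi⟩
  · exact hpN hd
  · exact h.notMem i (by simp [avoided, hi])

theorem dvd_classicalLevel_exactly (hq : q.Prime) (hsq : Squarefree N) (h : F.IsTWTuple n qv)
    {l : ℕ} (hlp : l.Prime) (hlN : l ∣ N) (hlq : l ≠ q) :
    l ∣ F.classicalLevel qv ∧ ¬ l ^ 2 ∣ F.classicalLevel qv := by
  have hni : ∀ i, qv i ≠ l := fun i e => h.notMem i (by
    simp [avoided, e, Nat.mem_primeFactors, hlp, hlN, F.ne_zero_of_level qv])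
  refine ⟨(hlN.mul_right _).mul_right _, fun hd => ?_⟩
  rw [classicalLevel, level, mul_assoc] at hd
  have hco : (l ^ 2).Coprime ((∏ i, qv i) * ∏ t ∈ F.twistSet qv, t) := by
    refine Nat.Coprime.pow_left 2 (Nat.Coprime.mul_right ?_ ?_)
    · exact Nat.Coprime.prod_right fun i _ =>
        (Nat.coprime_primes hlp (h.prime i)).mpr (hni i).symm
    · refine Nat.Coprime.prod_right fun t ht => ?_
      refine (Nat.coprime_primes hlp (F.prime_twistSet hq h ht)).mpr ?_
      simp only [twistSet, Finset.mem_insert, Finset.mem_image, Finset.mem_univ, true_and] at ht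
      rcases ht with rfl | ⟨i, rfl⟩
      · exact hlq
      · exact (hni i).symm
  have h2 := hco.dvd_of_dvd_mul_right hd
  rw [pow_two] at h2
  exact hlp.ne_one (Nat.isUnit_iff.mp (hsq l h2))

theorem dvd_classicalLevel_of_mem_unipSet (hq : q.Prime) (hqN : q ∣ N) (hsq : Squarefree N)
    (h : F.IsTWTuple n qv) {l : ℕ} (hl : l ∈ F.unipSet) :
    l ∣ F.classicalLevel qv ∧ ¬ l ^ 2 ∣ F.classicalLevel qv := by
  obtain ⟨hlp, hlN', -⟩ := Nat.mem_primeFactors.mp (Finset.mem_of_mem_erase hl)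
  refine F.dvd_classicalLevel_exactly hq hsq h hlp (hlN'.trans (Nat.div_dvd_of_dvd hqN)) ?_
  rintro rfl
  refine hlp.ne_one (Nat.isUnit_iff.mp (hsq l ?_))
  rw [← Nat.mul_div_cancel' hqN]
  exact Nat.mul_dvd_mul_left l hlN'

end FLTA.RT.AvoidFrame

end
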