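import Fermat.Agent.RT.Main.Frame
import Fermat.Agent.RT.LocalGalois
import Fermat.Agent.RT.DeformConditions
import Fermat.Agent.RepTheory.DVRExtension
import Fermat.Prelude.Def_GaloisRep_DeformationRingData

/-!
# Ihara avoidance at `q`: coefficients, sites, Taylor–Wiles tuples and the two global inputs

`AvoidFrame` fixes the coefficient ring and, at every prime, a place with a Frobenius and a tame
generator.  `TWInput` is the Selmer-group input, `TWModule` the Hecke-module input at one level.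
-/

set_option autoImplicit false

noncomputable section

open Polynomial IsLocalRing WeierstrassCurve

namespace FLTA.RT

open FLTA.LevelLowering (planeRep)
open FLTA.RT.LocalGalois (IsTameGenerator)

local notation "Qbar" => AlgebraicClosure ℚ
local notation "Γℚ" => AlgebraicClosure ℚ ≃ₐ[ℚ] AlgebraicClosure ℚ

/-- The coefficients and the chosen local data. -/
structure AvoidFrame (W : WeierstrassCurve ℤ) (hΔ : W.Δ ≠ 0) (p : ℕ) [Fact p.Prime] (N q : ℕ) :
    Type 1 where
  /-- the coefficient ring -/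
  E : RepTheory.FiniteDVRExt ℤ_[p]
  /-- a uniformiser -/
  ϖ : E.R
  maximalIdeal_eq : maximalIdeal E.R = Ideal.span {ϖ}
  natCast_mem : (p : E.R) ∈ maximalIdeal E.R
  /-- the exponent of `p` in `q - 1` -/
  a : ℕ
  pow_dvd : p ^ a ∣ q - 1
  le_a : ∀ c : ℕ, p ^ c ∣ q - 1 → c ≤ a
  ζ : E.R
  isPrimitiveRoot : IsPrimitiveRoot ζ (p ^ a)
  φ : ZMod p →+* ResidueField E.R
  split : ∀ σ : Γℚ, ∃ α β : ResidueField E.R,
    LinearMap.charpoly (((planeRep hΔ (p := p)).baseChangeAlong φ).ρ σ) = (X - C α) * (X - C β)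
  /-- a place over every prime -/
  place : ℕ → ValuationSubring Qbar
  liesOver : ∀ s : ℕ, s.Prime → (place s).LiesOverPrime s
  frob : ℕ → Γℚ
  isFrobenius : ∀ s : ℕ, s.Prime → (place s).IsFrobeniusAt (frob s) s
  tame : ℕ → Γℚ
  isTameGenerator : ∀ s : ℕ, s.Prime → s ≠ p → IsTameGenerator (place s) s p (tame s)

namespace AvoidFrame

variable {W : WeierstrassCurve ℤ} {hΔ : W.Δ ≠ 0} {p : ℕ} [Fact p.Prime] {N q : ℕ}
  (F : AvoidFrame W hΔ p N q)

/-- The residual representation. -/
abbrev rhobar : ResidualGaloisRep (ResidueField F.E.R) := (planeRep hΔ (p := p)).baseChangeAlong F.φ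

/-- The primes of `N / q` other than `p`: inertia is required to be unipotent there. -/
def unipSet (_F : AvoidFrame W hΔ p N q) : Finset ℕ := (N / q).primeFactors.erase p

/-- The primes allowed to ramify at the level of the tuple `qv`. -/
def ramSet {r : ℕ} (qv : Fin r → ℕ) : Finset ℕ :=
  insert p (insert q (F.unipSet ∪ Finset.univ.image qv))

/-- The deformation condition at the level of the tuple `qv`: flat at `p` if `p` does not divide
the level, strictly ordinary otherwise. -/
def cond {r : ℕ} (qv : Fin r → ℕ) : RepPred F.E.R :=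
  fun _A _ _ _ ρ => if p ∣ N then strictCond F.E.R p (F.ramSet qv) F.unipSet ρ
    else flatCond F.E.R p (F.ramSet qv) F.unipSet ρ

theorem cond_iff_strict {r : ℕ} {qv : Fin r → ℕ} (h : p ∣ N) {A : Type} [CommRing A]
    [IsLocalRing A] [Algebra F.E.R A] (ρ : GaloisRepAdic A) :
    F.cond qv ρ ↔ strictCond F.E.R p (F.ramSet qv) F.unipSet ρ := by
  rw [cond, if_pos h]

theorem cond_iff_flat {r : ℕ} {qv : Fin r → ℕ} (h : ¬ p ∣ N) {A : Type} [CommRing A]
    [IsLocalRing A] [Algebra F.E.R A] (ρ : GaloisRepAdic A) :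
    F.cond qv ρ ↔ flatCond F.E.R p (F.ramSet qv) F.unipSet ρ := by
  rw [cond, if_neg h]

theorem cond_eq_strict {r : ℕ} {qv : Fin r → ℕ} (h : p ∣ N) :
    F.cond qv = strictCond F.E.R p (F.ramSet qv) F.unipSet := by
  unfold cond
  simp only [if_pos h]

theorem cond_eq_flat {r : ℕ} {qv : Fin r → ℕ} (h : ¬ p ∣ N) :
    F.cond qv = flatCond F.E.R p (F.ramSet qv) F.unipSet := by
  unfold cond
  simp only [if_neg h]

theorem cond_det {r : ℕ} {qv : Fin r → ℕ} {A : Type} [CommRing A] [IsLocalRing A]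
    [Algebra F.E.R A] {ρ : GaloisRepAdic A} (h : F.cond qv ρ) : ρ.DetIsCyclotomic p := by
  rw [cond] at h
  split_ifs at h
  exacts [h.1.1, h.1.1]

theorem cond_unramified {r : ℕ} {qv : Fin r → ℕ} {A : Type} [CommRing A] [IsLocalRing A]
    [Algebra F.E.R A] {ρ : GaloisRepAdic A} (h : F.cond qv ρ) {s : ℕ} (hs : s.Prime)
    (hs' : s ∉ F.ramSet qv) : ρ.IsUnramifiedAt s := by
  rw [cond] at h
  split_ifs at h
  exacts [h.1.2.2 s hs hs', h.1.2.2 s hs hs']

theorem cond_unipotent {r : ℕ} {qv : Fin r → ℕ} {A : Type} [CommRing A] [IsLocalRing A]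
    [Algebra F.E.R A] {ρ : GaloisRepAdic A} (h : F.cond qv ρ) {s : ℕ} (hs : s ∈ F.unipSet)
    (hs' : s.Prime) (hsp : s ≠ p) : ρ.IsUnipotentOnInertiaAt s := by
  rw [cond] at h
  split_ifs at h
  exacts [h.2 s hs hs' hsp, h.2 s hs hs' hsp]

theorem isClosed_cond [Finite (ResidueField F.E.R)] (hp2 : p ≠ 2) {r : ℕ} (qv : Fin r → ℕ) :
    IsClosedCond F.E.R (F.cond qv) := by
  by_cases h : p ∣ N
  · exact (isClosed_strictCond F.E.R p hp2 _ _).congr fun _ _ _ _ ρ =>
      (F.cond_iff_strict h ρ).symm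
  · exact (isClosed_flatCond F.E.R p _ _).congr fun _ _ _ _ ρ => (F.cond_iff_flat h ρ).symm

open Classical in
/-- The avoidance prime and the primes of `N / q` at which `E[p]` is unramified. -/
def sites : Finset ℕ := insert q (F.unipSet.filter fun s => F.rhobar.IsUnramifiedAt s)

open Classical in
/-- `h⁰` of the trace-zero adjoint representation at a site: `3` for scalar Frobenius, else `1`. -/
def siteH (s : ℕ) : ℕ :=
  if ∃ c : ResidueField F.E.R, F.rhobar.ρ (F.frob s) = c • (1 : Module.End _ F.rhobar.V) then 3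
  else 1

/-- The primes which Taylor–Wiles tuples avoid. -/
def avoided (_F : AvoidFrame W hΔ p N q) : Finset ℕ := insert p (insert 2 (N.primeFactors ∪ W.Δ.natAbs.primeFactors))

/-- A Taylor–Wiles tuple of level `n`. -/
structure IsTWTuple (n : ℕ) {r : ℕ} (qv : Fin r → ℕ) : Prop where
  injective : Function.Injective qv
  prime : ∀ i, (qv i).Prime
  notMem : ∀ i, qv i ∉ F.avoided
  pow_dvd : ∀ i, p ^ (n + 1) ∣ qv i - 1
  distinct : ∀ i, ∀ A : ValuationSubring Qbar, A.LiesOverPrime (qv i) →
    ∀ σ : Γℚ, A.IsFrobeniusAt σ (qv i) →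
      ∃ α β : ResidueField F.E.R, α ≠ β ∧
        LinearMap.charpoly (F.rhobar.ρ σ) = (X - C α) * (X - C β)

/-- The coordinates at the sites, in one basis at each site: the entries of Frobenius and of the
tame generator, minus constants, inside the maximal ideal. -/
def siteCoords {R : Type} [CommRing R] [IsLocalRing R] [Algebra F.E.R R] (ρ : GaloisRepAdic R)
    (b : ℕ → Module.Basis (Fin 2) R ρ.V) : Set R :=
  {y | y ∈ maximalIdeal R ∧ ∃ s ∈ F.sites, ∃ σ ∈ ({F.frob s, F.tame s} : Set Γℚ), ∃ i j,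
    ∃ c : F.E.R, y = LinearMap.toMatrix (b s) (b s) (ρ.ρ σ) i j - algebraMap F.E.R R c}

/-- **The Taylor–Wiles input**: tuples at every level such that the universal ring is generated by
the coordinates at the sites and `g ≤ r - ∑ h⁰` further elements. -/
def TWInput : Prop :=
  ∃ g r : ℕ, g + ∑ s ∈ F.sites, F.siteH s ≤ r ∧ ∀ n : ℕ, ∃ qv : Fin r → ℕ, F.IsTWTuple n qv ∧
    ∀ D : GaloisRep.DeformationRingData F.E.R F.rhobar (F.cond qv),
      ∀ b : ℕ → Module.Basis (Fin 2) D.R D.ρ.V,
        ∃ e : Fin g → D.R, (∀ i, e i ∈ maximalIdeal D.R) ∧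
          maximalIdeal D.R ≤ (maximalIdeal F.E.R).map (algebraMap F.E.R D.R) ⊔
            Ideal.span (F.siteCoords D.ρ b ∪ Set.range e)

/-- The diamond relations at level `n`. -/
def diamondRel (r n : ℕ) : Ideal (MvPowerSeries (Fin r) F.E.R) :=
  Ideal.span (Set.range fun j : Fin r =>
    ((1 + MvPowerSeries.X j) ^ p ^ (n + 1) - 1 : MvPowerSeries (Fin r) F.E.R))

/-- The group ring of the diamond group at level `n`. -/
abbrev Diamond (r n : ℕ) : Type := MvPowerSeries (Fin r) F.E.R ⧸ F.diamondRel r n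

/-- **The Hecke input at one Taylor–Wiles level**: the module on the character side at `q`, with
its algebra, Galois representation and the facts at the points. -/
structure TWModule (d n : ℕ) {r : ℕ} (qv : Fin r → ℕ) : Type 1 where
  M : Type
  [instAddCommGroup : AddCommGroup M]
  [instModule : Module (F.Diamond r n) M]
  basis : Module.Basis (Fin d) (F.Diamond r n) M
  A : Type
  [instCommRing : CommRing A]
  [instIsLocalRing : IsLocalRing A]
  [instIsNoetherianRing : IsNoetherianRing A]
  [instIsAdicComplete : IsAdicComplete (maximalIdeal A) A]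
  [instAlgebra : Algebra F.E.R A]
  [instIsLocalHom : IsLocalHom (algebraMap F.E.R A)]
  [instModuleFinite : Module.Finite F.E.R A]
  residue_surjective : Function.Surjective (residue A ∘ algebraMap F.E.R A)
  diamond : MvPowerSeries (Fin r) F.E.R →ₐ[F.E.R] A
  α : A →+* Module.End (F.Diamond r n) M
  α_diamond : ∀ s (x : M),
    α (diamond s) x = Ideal.Quotient.mk (F.diamondRel r n) s • x
  ρ : GaloisRepAdic A
  isOfType : F.cond qv ρ
  residual_isEquiv : ρ.residual.IsEquiv
    (F.rhobar.baseChangeAlong (ResidueField.map (algebraMap F.E.R A)))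
  /-- the algebra is generated by the traces and the diamonds -/
  generated : Algebra.adjoin F.E.R (Set.range ρ.trace ∪ Set.range diamond) = ⊤
  /-- the points separate -/
  separated : ∀ a : A, a ≠ 0 →
    ∃ (E' : RepTheory.FiniteDVRExt F.E.R) (ψ : A →ₐ[F.E.R] E'.R), ψ a ≠ 0
  /-- no point is unipotent on inertia at `q` -/
  not_unipotent : ∀ (E' : RepTheory.FiniteDVRExt F.E.R) (ψ : A →ₐ[F.E.R] E'.R)
    (hψ : IsLocalHom (ψ : A →+* E'.R)),
    ¬ (ρ.baseChangeAlong (ψ : A →+* E'.R) hψ).IsUnipotentOnInertiaAt q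
  /-- local–global compatibility at the Taylor–Wiles primes -/
  diamond_sq : ∀ i, ∃ σ ∈ (F.place (qv i)).inertiaSubgroupIn ℚ,
    diamond (MvPowerSeries.X i) ^ 2 ∈ Ideal.span {ρ.trace σ - 2}
  /-- the discriminant of Frobenius at `q` is divisible by the uniformiser -/
  disc_mem : ∀ x : M, α (ρ.trace (F.frob q) ^ 2 - 4 * (q : A)) x ∈
    ((Ideal.span {MvPowerSeries.C F.ϖ}).map (Ideal.Quotient.mk (F.diamondRel r n))) •
      (⊤ : Submodule (F.Diamond r n) M)

attribute [instance] TWModule.instAddCommGroup TWModule.instModule TWModule.instCommRing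
  TWModule.instIsLocalRing TWModule.instIsNoetherianRing TWModule.instIsAdicComplete
  TWModule.instAlgebra TWModule.instIsLocalHom TWModule.instModuleFinite

/-- **The Hecke input**: modules of one rank at every Taylor–Wiles tuple. -/
def HasTWModules : Prop :=
  ∃ d : ℕ, d ≠ 0 ∧ ∀ (n r : ℕ) (qv : Fin r → ℕ), F.IsTWTuple n qv → Nonempty (F.TWModule d n qv)

end AvoidFrame

/-- No congruent system at a level dividing `N / q`. -/
def NoLowerSystem (W : WeierstrassCurve ℤ) (p : ℕ) [Fact p.Prime] (N q : ℕ) : Prop :=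
  ∀ M : ℕ, M ∣ N / q → ¬ HasSystem W p M

end FLTA.RT

end
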