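import Fermat.Agent.RT.Main.ModulesAssembly
import Fermat.Agent.RT.Main.AvoidFrame
import Fermat.Agent.RepTheory.DVRExtension

/-!
# A `TWModule` from its parts
-/

set_option autoImplicit false

noncomputable section

open IsLocalRing Polynomial CuspForm WeierstrassCurve

namespace FLTA.RT.Avoid

attribute [local instance] Datum.factIntegral

set_option synthInstance.maxHeartbeats 400000
set_option maxHeartbeats 1000000

variable {W : WeierstrassCurve ℤ} {hΔ : W.Δ ≠ 0} {p : ℕ} [Fact p.Prime] {N q : ℕ}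

local notation "Γℚ" => AlgebraicClosure ℚ ≃ₐ[ℚ] AlgebraicClosure ℚ

/-- The parts of a `TWModule` at level `N₂`. -/
theorem nonempty_twModule (F : AvoidFrame W hΔ p N q) {d n r : ℕ} {qv : Fin r → ℕ}
    (M : Type) [AddCommGroup M] [Module (F.Diamond r n) M]
    (basis : Module.Basis (Fin d) (F.Diamond r n) M)
    (A : Type) [CommRing A] [Algebra F.E.R A] [Module.Finite F.E.R A] [Nontrivial A] [IsReduced A]
    [Module.IsTorsionFree F.E.R A]
    (dia : MvPowerSeries (Fin r) F.E.R →ₐ[F.E.R] A)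
    (act : A →+* Module.End (F.Diamond r n) M)
    (hact : ∀ s (x : M), act (dia s) x = Ideal.Quotient.mk (F.diamondRel r n) s • x)
    (N₂ : ℕ) [NeZero N₂] (S : Finset ℕ) (hp2 : p ≠ 2) (hpS : p ∈ S)
    (hNS : ∀ l : ℕ, l.Prime → l ∣ N₂ → l ∈ S)
    (θ : CuspForm.heckeAlgebra N₂ 2 (↑S : Set ℕ) →+* ResidueField F.E.R)
    (hirr : F.rhobar.IsAbsolutelyIrreducible)
    (hbar : ∀ (ℓ : ℕ) (hℓ : ℓ.Prime) (hℓN : ¬ ℓ ∣ N₂) (hℓS : ℓ ∉ (↑S : Set ℕ)),
      ∀ P : ValuationSubring (AlgebraicClosure ℚ), P.LiesOverPrime ℓ →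
        ∀ σ : Γℚ, P.IsFrobeniusAt σ ℓ →
          (F.rhobar.ρ σ).charpoly = X ^ 2 - C (θ (heckeAlgebra.T hℓ hℓN hℓS)) * X
            + C (ℓ : ResidueField F.E.R))
    (Φ : heckeLocal N₂ (↑S : Set ℕ) F.E.R θ →ₐ[F.E.R] A)
    (hgen : Algebra.adjoin F.E.R (Set.range Φ ∪ Set.range dia) = ⊤)
    (hcond : ∀ [IsLocalRing A]
      (D : HeckeGaloisRepDatum N₂ (↑S : Set ℕ) F.E.R θ (heckeLocal N₂ (↑S : Set ℕ) F.E.R θ))
      (hΦ : IsLocalHom (Φ : heckeLocal N₂ (↑S : Set ℕ) F.E.R θ →+* A)),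
      D.π = heckeLocal.π N₂ (↑S : Set ℕ) F.E.R θ →
        F.cond qv (D.ρ.baseChangeAlong (Φ : heckeLocal N₂ (↑S : Set ℕ) F.E.R θ →+* A) hΦ))
    (hnu : ∀ [IsLocalRing A] (ρ : GaloisRepAdic A), IsAttached Φ ρ → F.cond qv ρ →
      ∀ (E' : RepTheory.FiniteDVRExt F.E.R) (ψ : A →ₐ[F.E.R] E'.R)
        (hψ : IsLocalHom (ψ : A →+* E'.R)),
        ¬ (ρ.baseChangeAlong (ψ : A →+* E'.R) hψ).IsUnipotentOnInertiaAt q)
    (hsq : ∀ [IsLocalRing A] (ρ : GaloisRepAdic A), IsAttached Φ ρ → F.cond qv ρ →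
      ∀ i, ∃ σ ∈ (F.place (qv i)).inertiaSubgroupIn ℚ,
        dia (MvPowerSeries.X i) ^ 2 ∈ Ideal.span {ρ.trace σ - 2})
    (hdisc : ∀ [IsLocalRing A] (ρ : GaloisRepAdic A), IsAttached Φ ρ → F.cond qv ρ →
      ∀ x : M, act (ρ.trace (F.frob q) ^ 2 - 4 * (q : A)) x ∈
        ((Ideal.span {MvPowerSeries.C F.ϖ}).map (Ideal.Quotient.mk (F.diamondRel r n))) •
          (⊤ : Submodule (F.Diamond r n) M)) :
    Nonempty (F.TWModule d n qv) := by
  have hres : ∀ x ∈ Set.range Φ ∪ Set.range dia,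
      ∃ a : F.E.R, ∀ P : Ideal A, P.IsMaximal → x - algebraMap F.E.R A a ∈ P := by
    rintro _ (⟨y, rfl⟩ | ⟨y, rfl⟩)
    · exact exists_algebraMap_sub_mem Φ (Datum.residue_surjective_pi N₂ _ F.E.R θ) y
    · exact exists_algebraMap_sub_mem dia (residue_surjective_mvPowerSeries (Fin r)) y
  have : IsLocalRing A := isLocalRing_of_generated hgen hres
  have hloc : IsLocalHom (algebraMap F.E.R A) := RepTheory.isLocalHom_algebraMap_of_finite F.E.R A
  have : IsAdicComplete (maximalIdeal A) A := RepTheory.isAdicComplete_maximalIdeal_of_finite F.E.R A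
  have : IsNoetherianRing A := isNoetherian_of_tower F.E.R (inferInstance : IsNoetherian F.E.R A)
  have hΦ := isLocalHom_of_finite Φ
  obtain ⟨D, hD⟩ := Datum.exists_heckeDatum N₂ S F.E.R θ hp2 hpS hNS F.natCast_mem F.rhobar hirr hbar
  have hatt := isAttached_baseChangeAlong Φ D hD hΦ
  have hc := hcond D hΦ hD
  exact ⟨{
    M := M
    basis := basis
    A := A
    residue_surjective := residue_surjective_of_generated hgen hres
    diamond := dia
    α := act
    α_diamond := hact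
    ρ := _
    isOfType := hc
    residual_isEquiv := residual_isEquiv_of_isAttached Φ hatt hNS F.rhobar hirr hbar
    generated := adjoin_trace_union_eq_top Φ hatt hNS _ hgen
    separated := fun a ha =>
      let ⟨E', hE'⟩ := RepTheory.exists_points_of_isReduced (O := F.E.R) A
      ⟨E', hE' a ha⟩
    not_unipotent := hnu _ hatt hc
    diamond_sq := hsq _ hatt hc
    disc_mem := hdisc _ hatt hc }⟩

end FLTA.RT.Avoid

end
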