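import Fermat.Agent.S32
import Fermat.Agent.S34
import Fermat.Agent.RT.DeformConditions
import Fermat.Agent.RT.DatumExists
import Mathlib.LinearAlgebra.TensorProduct.Tower

/-!
# The deformation condition of a pushed Hecke-Galois datum

A datum at level `N` is flat at `p ∤ N`, unramified at the primes not dividing `N p` and unipotent
on inertia at the primes exactly dividing `N`; closed conditions pass along local algebra maps.
-/

set_option autoImplicit false

noncomputable section

open IsLocalRing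
open scoped TensorProduct

namespace FLTA.RT.Avoid

local notation "Γℚ" => AlgebraicClosure ℚ ≃ₐ[ℚ] AlgebraicClosure ℚ

/-- Base change in two steps. -/
def baseChangeAlongCompEquiv {A B C : Type} [CommRing A] [IsLocalRing A] [CommRing B]
    [IsLocalRing B] [CommRing C] [IsLocalRing C] (f : A →+* B) (g : B →+* C) (hf : IsLocalHom f)
    (hg : IsLocalHom g) (hgf : IsLocalHom (g.comp f)) (ρ : GaloisRepAdic A) :
    GaloisRepAdic.Equiv ((ρ.baseChangeAlong f hf).baseChangeAlong g hg)
      (ρ.baseChangeAlong (g.comp f) hgf) :=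
  letI : Algebra A B := f.toAlgebra
  letI : Algebra B C := g.toAlgebra
  letI : Algebra A C := (g.comp f).toAlgebra
  haveI : IsScalarTower A B C := IsScalarTower.of_algebraMap_eq fun _ => rfl
  { toLinearEquiv := TensorProduct.AlgebraTensorModule.cancelBaseChange A B C C ρ.V
    map_apply := fun σ x => by
      change C ⊗[B] (B ⊗[A] ρ.V) at x
      show TensorProduct.AlgebraTensorModule.cancelBaseChange A B C C ρ.V
          (((ρ.ρ σ).baseChange B).baseChange C x) =
        (ρ.ρ σ).baseChange C (TensorProduct.AlgebraTensorModule.cancelBaseChange A B C C ρ.V x)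
      induction x using TensorProduct.induction_on with
      | zero => simp
      | tmul c y =>
        induction y using TensorProduct.induction_on with
        | zero => simp
        | tmul b v => simp
        | add y z hy hz => simp only [TensorProduct.tmul_add, map_add, hy, hz]
      | add y z hy hz => simp only [map_add, hy, hz] }

/-- Closed conditions pass along local algebra maps. -/
theorem push_of_isClosedCond {𝒪 : Type} [CommRing 𝒪] [IsLocalRing 𝒪] {P : RepPred 𝒪}
    (hP : IsClosedCond 𝒪 P) {T A : Type} [CommRing T] [IsLocalRing T] [Algebra 𝒪 T] [CommRing A]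
    [IsLocalRing A] [IsNoetherianRing A] [IsAdicComplete (maximalIdeal A) A] [Algebra 𝒪 A]
    (hT : Function.Surjective (residue T ∘ algebraMap 𝒪 T)) (hA : IsLocalHom (algebraMap 𝒪 A))
    (hA' : Function.Surjective (residue A ∘ algebraMap 𝒪 A)) (f : T →ₐ[𝒪] A)
    (hf : IsLocalHom (f : T →+* A)) {ρ : GaloisRepAdic T} (hρ : P ρ) :
    P (ρ.baseChangeAlong (f : T →+* A) hf) :=
  hP.limit hA hA' _ fun B _ _ _ hB g hg _ => by
    have hgf : IsLocalHom ((g : A →+* B).comp (f : T →+* A)) :=
      haveI := hg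
      haveI := hf
      RingHom.isLocalHom_comp _ _
    exact hP.of_isEquiv ⟨(baseChangeAlongCompEquiv _ _ hf hg hgf ρ).symm⟩
      (hP.baseChange hT hB (g.comp f) hgf hρ)

attribute [local instance] Datum.factIntegral

variable {p : ℕ} [Fact p.Prime] {N : ℕ} [NeZero N] {S : Finset ℕ}
  {O : Type} [CommRing O] [IsDomain O] [IsDiscreteValuationRing O]
  [IsAdicComplete (maximalIdeal O) O]
  {θ : CuspForm.heckeAlgebra N 2 (↑S : Set ℕ) →+* ResidueField O}
  {T : Type} [CommRing T] [IsLocalRing T] [IsNoetherianRing T]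
  [IsAdicComplete (maximalIdeal T) T] [Algebra O T] [IsLocalHom (algebraMap O T)]
  [Module.Finite O T] [Module.Free O T]

/-- A datum is unramified at every prime not dividing `N p`. -/
theorem datum_isUnramifiedAt (hpO : (p : O) ∈ maximalIdeal O) (hpS : p ∈ S)
    (hNS : ∀ q : ℕ, q.Prime → q ∣ N → q ∈ S)
    (H : CuspForm.HeckeGaloisRepDatum N (↑S : Set ℕ) O θ T) {l : ℕ} (hl : l.Prime)
    (hlN : ¬ l ∣ N) (hlp : l ≠ p) : H.ρ.IsUnramifiedAt l := by
  intro P hP σ hσ
  obtain ⟨D⟩ := FLTA.GaloisReps.exists_tateData N p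
  have hu : D.rho σ = 1 := D.unramified l hl hlN hlp P hP σ hσ
  have h := FLTA.HeckeDatum.transfer_relation D hpO hpS hNS H (Finset.univ : Finset (Fin 2))
    ![1, -1] ![σ, 1]
    (by simp only [Fin.sum_univ_two, Matrix.cons_val_zero, Matrix.cons_val_one,
          map_one, hu, map_neg, mul_one]
        ext i j
        by_cases hij : i = j <;> simp [Matrix.map_apply, hij])
  simpa [Fin.sum_univ_two, add_neg_eq_zero] using h

variable [Finite (ResidueField O)] [CharZero O]

/-- The condition satisfied by a datum. -/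
theorem datum_flatCond (hp2 : p ≠ 2) (hpO : (p : O) ∈ maximalIdeal O) (hpN : ¬ p ∣ N) (hpS : p ∈ S)
    (hNS : ∀ q : ℕ, q.Prime → q ∣ N → q ∈ S)
    (H : CuspForm.HeckeGaloisRepDatum N (↑S : Set ℕ) O θ T) {R U : Finset ℕ}
    (hR : ∀ l : ℕ, l.Prime → l ∣ N → l ∈ R) (hpR : p ∈ R)
    (hU : ∀ l ∈ U, l.Prime → l ≠ p → l ∣ N ∧ ¬ l ^ 2 ∣ N) :
    flatCond O p R U H.ρ :=
  ⟨⟨FLTA.HeckeDatum.detIsCyclotomic_of_datum Fact.out hpO hpS hNS H,
    Fermat.Agent.S32.result Fact.out hp2 hpO hpN hpS hNS H,
    fun _ hl hlR => datum_isUnramifiedAt hpO hpS hNS H hl (fun h => hlR (hR _ hl h))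
      (fun h => hlR (h ▸ hpR))⟩,
    fun l hlU hl hlp => Fermat.Agent.S34.result Fact.out hpO hpS hNS H l hl hlp
      (hU l hlU hl hlp).1 (hU l hlU hl hlp).2⟩

end FLTA.RT.Avoid

end
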