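import Fermat.Agent.S33
import Fermat.Agent.RT.Main.ModulesCond
import Fermat.Agent.RT.Main.AvoidFrame
import Fermat.Agent.RT.DeformOrdinary
import Fermat.Agent.RT.DeformExtend
import Fermat.Agent.RT.ImageCoeff
import Fermat.Agent.LevelLowering.LocalCurve

/-!
# The condition at `p` when `p` divides the level

`E[p]` of a curve with multiplicative reduction at `p` is ordinary; hence a pushed datum at a
level exactly divisible by `p` is ordinary, with the other parts of the condition as before.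
-/

set_option autoImplicit false

noncomputable section

open IsLocalRing WeierstrassCurve

namespace FLTA.RT

open FLTA.LevelLowering (planeRep curveLine)
open FLTA.EllReducible (Tors)

local notation "Γℚ" => AlgebraicClosure ℚ ≃ₐ[ℚ] AlgebraicClosure ℚ

/-- Ordinarity passes along isomorphisms. -/
theorem isOrdinaryAt_of_equiv {A : Type} [CommRing A] [IsLocalRing A] {ρ ρ' : GaloisRepAdic A}
    {p : ℕ} (e : GaloisRepAdic.Equiv ρ ρ') (h : ρ.IsOrdinaryAt p) : ρ'.IsOrdinaryAt p := by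
  intro P hP
  obtain ⟨L, ⟨b, rfl⟩, hD, hI⟩ := h P hP
  refine ⟨_, ⟨b.map e.toLinearEquiv, rfl⟩, fun σ hσ v hv => ?_, fun σ hσ v => ?_⟩
  · obtain ⟨c, rfl⟩ := Submodule.mem_span_singleton.mp hv
    rw [map_smul]
    refine Submodule.smul_mem _ c ?_
    obtain ⟨a, ha⟩ := Submodule.mem_span_singleton.mp
      (hD σ hσ _ (Submodule.mem_span_singleton_self _))
    rw [Module.Basis.map_apply, ← e.map_apply, ← ha, map_smul]
    exact Submodule.smul_mem _ a (Submodule.mem_span_singleton_self _)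
  · obtain ⟨a, ha⟩ := Submodule.mem_span_singleton.mp (hI σ hσ (e.toLinearEquiv.symm v))
    refine Submodule.mem_span_singleton.mpr ⟨a, ?_⟩
    rw [Module.Basis.map_apply, ← map_smul, ha, map_sub, e.map_apply, LinearEquiv.apply_symm_apply]

/-- A residual plane with a proper line through which inertia at `P` moves everything is ordinary,
if some inertia element has determinant different from one. -/
theorem exists_stable_line_residual {k : Type} [Field k] (r : ResidualGaloisRep k)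
    (P : ValuationSubring (AlgebraicClosure ℚ)) (L : Submodule k r.V) (hbot : L ≠ ⊥) (htop : L ≠ ⊤)
    (hI : ∀ σ ∈ P.inertiaSubgroupIn ℚ, ∀ v, r.ρ σ v - v ∈ L) {τ : Γℚ}
    (hτ : τ ∈ P.inertiaSubgroupIn ℚ) (hd : LinearMap.det (r.ρ τ) - 1 ≠ 0) :
    (∃ b : Module.Basis (Fin 2) k r.V, L = Submodule.span k {b 0}) ∧
      ∀ σ ∈ P.decompositionSubgroup ℚ, ∀ v ∈ L, r.ρ σ v ∈ L := by
  obtain ⟨e, heL, he0⟩ := Submodule.exists_mem_ne_zero_of_ne_bot hbot
  obtain ⟨f, hf⟩ : ∃ f : r.V, f ∉ L := by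
    by_contra h
    push Not at h
    exact htop (eq_top_iff.mpr fun x _ => h x)
  have hli : LinearIndependent k ![e, f] := by
    refine linearIndependent_fin2.mpr ⟨fun h => hf ?_, fun a h => hf ?_⟩
    · rw [show f = 0 from h]; exact L.zero_mem
    · have ha : a ≠ 0 := fun ha => he0 (by simpa [ha] using h.symm)
      have := L.smul_mem a⁻¹ heL
      rwa [show e = a • f by simpa using h.symm, inv_smul_smul₀ ha] at this
  let b : Module.Basis (Fin 2) k r.V :=
    basisOfLinearIndependentOfCardEqFinrank hli (by rw [Fintype.card_fin, r.finrank_eq])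
  have hb0 : b 0 = e := by simp [b]
  have hb1 : b 1 = f := by simp [b]
  have heb : b 0 ∈ L := hb0 ▸ heL
  have hspan : L = Submodule.span k {b 0} := by
    refine le_antisymm (fun v hv => ?_) ((Submodule.span_singleton_le_iff_mem _ _).mpr heb)
    have hrep := b.sum_repr v
    rw [Fin.sum_univ_two] at hrep
    have h1 : b.repr v 1 = 0 := by
      by_contra h1
      refine hf ?_
      have := L.smul_mem (b.repr v 1)⁻¹ (L.sub_mem hv (L.smul_mem (b.repr v 0) heb))
      rwa [show v - b.repr v 0 • b 0 = b.repr v 1 • b 1 from sub_eq_of_eq_add' hrep.symm,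
        inv_smul_smul₀ h1, hb1] at this
    rw [← hrep, h1, zero_smul, add_zero]
    exact Submodule.smul_mem _ _ (Submodule.mem_span_singleton_self _)
  refine ⟨⟨b, hspan⟩, fun σ hσ v hv => ?_⟩
  have htri : r.ρ τ v - v = (LinearMap.det (r.ρ τ) - 1) • v := by
    obtain ⟨c, rfl⟩ := Submodule.mem_span_singleton.mp (hspan ▸ hv)
    obtain ⟨a, ha⟩ := Submodule.mem_span_singleton.mp (hspan ▸ hI τ hτ (b 0))
    obtain ⟨a', ha'⟩ := Submodule.mem_span_singleton.mp (hspan ▸ hI τ hτ (b 1))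
    have hdet2 : LinearMap.det (r.ρ τ) = a + 1 := by
      rw [← LinearMap.det_toMatrix b, Matrix.det_fin_two]
      simp [LinearMap.toMatrix_apply, eq_add_of_sub_eq ha.symm, eq_add_of_sub_eq ha'.symm]
    rw [map_smul, hdet2, add_sub_cancel_right, eq_add_of_sub_eq ha.symm, smul_add, smul_smul,
      smul_smul, mul_comm]
    abel
  have key := hI _ (BadRed.Ordinary.conj_mem_inertiaSubgroupIn hσ hτ) (r.ρ σ v)
  rw [map_mul, map_mul, Module.End.mul_apply, Module.End.mul_apply,
    ← Module.End.mul_apply (r.ρ σ⁻¹) (r.ρ σ) v, ← map_mul, inv_mul_cancel, map_one,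
    Module.End.one_apply, ← map_sub, htri, map_smul] at key
  exact (Submodule.smul_mem_iff _ hd).mp key

/-- An isomorphism of residual representations as one of adic representations. -/
def ofResidualEquiv {k : Type} [Field k] {r r' : ResidualGaloisRep k} (e : r.Equiv r') :
    GaloisRepAdic.Equiv (GaloisRepAdic.ofResidualGaloisRep r)
      (GaloisRepAdic.ofResidualGaloisRep r') where
  toLinearEquiv := e.toLinearEquiv
  map_apply := e.map_apply

variable {W : WeierstrassCurve ℤ} {hΔ : W.Δ ≠ 0} {p : ℕ} [Fact p.Prime]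

/-- `E[p]` is ordinary at an odd prime `p` of multiplicative reduction. -/
theorem isOrdinaryAt_planeRep (hp2 : p ≠ 2) (hΔp : (p : ℤ) ∣ W.Δ) (hc₄ : ¬ (p : ℤ) ∣ W.c₄)
    {k : Type} [Field k] (φ : ZMod p →+* k) :
    (GaloisRepAdic.ofResidualGaloisRep (planeRep hΔ (p := p))).IsOrdinaryAt p := by
  intro P hP
  obtain ⟨L, hbot, htop, hI, -⟩ :=
    LevelLowering.exists_inertiaLine_curve W hΔ p hp2 (Or.inr ⟨hΔp, hc₄⟩) P hP
  have hdet := residual_detIsCyclotomic W p
    (EllTorsion.natCard_torsionBy_intModel W hΔ (Fact.out : p.Prime).ne_zero)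
    (EllTorsion.galoisFactorsThroughFiniteLevel_intModel W hΔ (Fact.out : p.Prime).ne_zero) hΔ φ
  obtain ⟨τ, hτ, he⟩ := exists_base hp2 P hP
  have hd : LinearMap.det ((planeRep hΔ (p := p)).ρ τ) - 1 ≠ 0 := fun h => by
    refine (det_sub_one_isUnit hdet he).ne_zero ?_
    letI := φ.toAlgebra
    show LinearMap.det (((planeRep hΔ (p := p)).ρ τ).baseChange k) - 1 = 0
    rw [LinearMap.det_baseChange, sub_eq_zero.mp h, map_one, sub_self]
  obtain ⟨hb, hD⟩ :=
    exists_stable_line_residual (planeRep hΔ (p := p)) P L hbot htop hI hτ hd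
  exact ⟨L, hb, hD, hI⟩

open GaloisRepAdic in
/-- `E[p] ⊗ k` is ordinary. -/
theorem isOrdinaryAt_planeRep_baseChange (hp2 : p ≠ 2) (hΔp : (p : ℤ) ∣ W.Δ)
    (hc₄ : ¬ (p : ℤ) ∣ W.c₄) {k : Type} [Field k] (φ : ZMod p →+* k) {k' : Type} [Field k']
    (j : k →+* k') :
    (ofResidualGaloisRep (((planeRep hΔ (p := p)).baseChangeAlong φ).baseChangeAlong j)).IsOrdinaryAt
      p := by
  have h1 : (ofResidualGaloisRep ((planeRep hΔ (p := p)).baseChangeAlong φ)).IsOrdinaryAt p :=
    isOrdinaryAt_extend (ofResidualGaloisRep (planeRep hΔ (p := p))) φ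
      ⟨fun a ha => (ne_zero_of_map (f := φ) ha.ne_zero).isUnit⟩ (isOrdinaryAt_planeRep hp2 hΔp hc₄ φ)
  exact isOrdinaryAt_extend _ j ⟨fun a ha => (ne_zero_of_map (f := j) ha.ne_zero).isUnit⟩ h1

namespace Avoid

attribute [local instance] Datum.factIntegral

variable {M : ℕ} [NeZero M] {S : Finset ℕ} {O : Type} [CommRing O] [IsDomain O]
  [IsDiscreteValuationRing O] [IsAdicComplete (maximalIdeal O) O] [Finite (ResidueField O)]
  [CharZero O] {θ : CuspForm.heckeAlgebra M 2 (↑S : Set ℕ) →+* ResidueField O}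
  {T : Type} [CommRing T] [IsLocalRing T] [IsNoetherianRing T]
  [IsAdicComplete (maximalIdeal T) T] [Algebra O T] [IsLocalHom (algebraMap O T)]
  [Module.Finite O T] [Module.Free O T]

/-- The condition satisfied by a datum at a level exactly divisible by `p`, residually `E[p]`. -/
theorem datum_ordCond (hp2 : p ≠ 2) (hpO : (p : O) ∈ maximalIdeal O) (hpN : p ∣ M ∧ ¬ p ^ 2 ∣ M)
    (hpS : p ∈ S) (hNS : ∀ q : ℕ, q.Prime → q ∣ M → q ∈ S)
    (H : CuspForm.HeckeGaloisRepDatum M (↑S : Set ℕ) O θ T) (hΔp : (p : ℤ) ∣ W.Δ)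
    (hc₄ : ¬ (p : ℤ) ∣ W.c₄) (φ : ZMod p →+* ResidueField O)
    (hres : H.ρ.residual.IsEquiv (((planeRep hΔ (p := p)).baseChangeAlong φ).baseChangeAlong
      (ResidueField.map (algebraMap O T))))
    {R U : Finset ℕ} (hR : ∀ l : ℕ, l.Prime → l ∣ M → l ∈ R) (hpR : p ∈ R)
    (hU : ∀ l ∈ U, l.Prime → l ≠ p → l ∣ M ∧ ¬ l ^ 2 ∣ M) :
    ordCond O p R U H.ρ := by
  obtain ⟨e⟩ := hres
  refine ⟨⟨FLTA.HeckeDatum.detIsCyclotomic_of_datum Fact.out hpO hpS hNS H,
    Fermat.Agent.S33.result Fact.out hp2 hpO hpN hNS H (isOrdinaryAt_of_equiv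
      (ofResidualEquiv e.symm)
      (isOrdinaryAt_planeRep_baseChange (hΔ := hΔ) hp2 hΔp hc₄ φ
        (ResidueField.map (algebraMap O T)))),
    fun _ hl hlR => datum_isUnramifiedAt hpO hpS hNS H hl (fun h => hlR (hR _ hl h))
      (fun h => hlR (h ▸ hpR))⟩,
    fun l hlU hl hlp => Fermat.Agent.S34.result Fact.out hpO hpS hNS H l hl hlp
      (hU l hlU hl hlp).1 (hU l hlU hl hlp).2⟩

end Avoid

end FLTA.RT

end
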