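import Fermat.Agent.RT.Main.AvoidFrame
import Fermat.Agent.RT.Main.ModulesBuilder
import Fermat.Agent.RT.Main.ModulesCond
import Fermat.Agent.RT.Main.ModulesOrd
import Fermat.Agent.RT.StrictOfOrdinary
import Fermat.Agent.RT.Main.ModulesAlg
import Fermat.Agent.RT.Main.DiamondRing
import Fermat.Agent.RT.Main.FalseLevels

/-!
# A `TWModule` from an algebra of operators

`nonempty_twModule_of_ops`: a free module over the diamond ring with commuting operators at the
good primes, residual to `a_l(W)`, coming from the Hecke algebra of the classical level and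
separated by its points, gives a `TWModule` as soon as the facts hold at the points.
-/

set_option autoImplicit false

noncomputable section

open IsLocalRing WeierstrassCurve Polynomial

namespace FLTA.RT.Avoid

attribute [local instance] Datum.factIntegral

set_option synthInstance.maxHeartbeats 400000
set_option maxHeartbeats 2000000

local notation "Γℚ" => AlgebraicClosure ℚ ≃ₐ[ℚ] AlgebraicClosure ℚ

variable {W : WeierstrassCurve ℤ} {hΔ : W.Δ ≠ 0} {p : ℕ} [Fact p.Prime] {N q : ℕ}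

/-- A representation attached to a point `ψ` of an algebra with operators `T`. -/
def IsPointRepOf (F : AvoidFrame W hΔ p N q) {r : ℕ} (qv : Fin r → ℕ) {A : Type} [CommRing A]
    [Algebra F.E.R A] (T : {l : ℕ // l.Prime ∧ l ∉ F.badSet qv} → A)
    (E' : RepTheory.FiniteDVRExt F.E.R) (ψ : A →ₐ[F.E.R] E'.R) (ρ : GaloisRepAdic E'.R) : Prop :=
  ρ.DetIsCyclotomic p ∧ ∀ (l : {l : ℕ // l.Prime ∧ l ∉ F.badSet qv})
    (P : ValuationSubring (AlgebraicClosure ℚ)), P.LiesOverPrime l.1 →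
      ∀ σ : Γℚ, P.IsFrobeniusAt σ l.1 → ρ.trace σ = ψ (T l)

/-- A `TWModule` from a module with an algebra of operators. -/
theorem nonempty_twModule_of_ops (D : LowerData W hΔ p N q) (F : AvoidFrame W hΔ p N q)
    {d n r : ℕ} (hd : d ≠ 0) {qv : Fin r → ℕ} [NeZero (F.level qv)]
    [NeZero (F.classicalLevel qv)] (h : F.IsTWTuple n qv) (M : Type) [AddCommGroup M]
    [Module (F.Diamond r n) M] (b : Module.Basis (Fin d) (F.Diamond r n) M) (A : Type) [CommRing A]
    [Algebra (F.Diamond r n) A] [Algebra F.E.R A] [IsScalarTower F.E.R (F.Diamond r n) A]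
    (φ : A →ₐ[F.Diamond r n] Module.End (F.Diamond r n) M) (hφ : Function.Injective φ)
    (T : {l : ℕ // l.Prime ∧ l ∉ F.badSet qv} → A)
    (hgenT : Algebra.adjoin (F.Diamond r n) (Set.range T) = ⊤)
    (hresT : ∀ l, ∃ k : ℕ, ∀ x : M, ((φ (T l) - (W.apOfModel l.1 : F.Diamond r n) • 1) ^ k) x ∈
      maximalIdeal (F.Diamond r n) • (⊤ : Submodule (F.Diamond r n) M))
    (hsep : ∀ t : A, t ≠ 0 →
      ∃ (E' : RepTheory.FiniteDVRExt F.E.R) (ψ : A →ₐ[F.E.R] E'.R), ψ t ≠ 0)
    (Ψ : CuspForm.heckeAlgebra (F.classicalLevel qv) 2 (↑(F.badSet qv) : Set ℕ) →+* A)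
    (hΨT : ∀ (l : ℕ) (hl : l.Prime) (hlM : ¬ l ∣ F.classicalLevel qv)
      (hlS : l ∉ (↑(F.badSet qv) : Set ℕ)),
      Ψ (CuspForm.heckeAlgebra.T hl hlM hlS) = T ⟨l, hl, by simpa using hlS⟩)
    (hnu : ∀ (E' : RepTheory.FiniteDVRExt F.E.R) (ψ : A →ₐ[F.E.R] E'.R) (ρ : GaloisRepAdic E'.R),
      IsPointRepOf F qv T E' ψ ρ → ¬ ρ.IsUnipotentOnInertiaAt q)
    (hstrict : p ∣ N → ∀ (E' : RepTheory.FiniteDVRExt F.E.R) (ψ : A →ₐ[F.E.R] E'.R)
      (ρ : GaloisRepAdic E'.R),
      IsPointRepOf F qv T E' ψ ρ → ρ.IsOrdinaryAt p → ρ.IsStrictOrdinaryAt p)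
    (hdia : ∀ i, ∃ σ ∈ (F.place (qv i)).inertiaSubgroupIn ℚ,
      ∀ (E' : RepTheory.FiniteDVRExt F.E.R) (ψ : A →ₐ[F.E.R] E'.R) (ρ : GaloisRepAdic E'.R),
        IsPointRepOf F qv T E' ψ ρ →
          let u := ψ (algebraMap (F.Diamond r n) A (F.gen n i))
          u ^ 2 - ρ.trace σ * u + 1 = 0)
    (hdisc : ∀ [IsLocalRing A] [IsNoetherianRing A] [IsAdicComplete (maximalIdeal A) A]
      (ρ : GaloisRepAdic A), F.cond qv ρ →
      (∀ (l : {l : ℕ // l.Prime ∧ l ∉ F.badSet qv}) (P : ValuationSubring (AlgebraicClosure ℚ)),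
        P.LiesOverPrime l.1 → ∀ σ : Γℚ, P.IsFrobeniusAt σ l.1 → ρ.trace σ = T l) →
      ∀ x : M, φ (ρ.trace (F.frob q) ^ 2 - 4 * (q : A)) x ∈
        ((Ideal.span {MvPowerSeries.C F.ϖ}).map (Ideal.Quotient.mk (F.diamondRel r n))) •
          (⊤ : Submodule (F.Diamond r n) M)) :
    Nonempty (F.TWModule d n qv) := by
  have hp2 : p ≠ 2 := by have := D.three_le; omega
  have hN0 : N ≠ 0 := D.squarefree.ne_zero
  have : Module.Finite F.E.R (F.Diamond r n) := finite_dia F.natCast_mem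
  have : IsNoetherianRing (F.Diamond r n) := isNoetherian_of_tower F.E.R inferInstance
  have : Module.Finite (F.Diamond r n) M := Module.Finite.of_basis b
  have : Module.Free (F.Diamond r n) M := Module.Free.of_basis b
  have : Module.Finite (F.Diamond r n) A := Module.Finite.of_injective φ.toLinearMap hφ
  have : Module.Finite F.E.R A := Module.Finite.trans (F.Diamond r n) A
  have : Nontrivial M := by
    have : Nonempty (Fin d) := ⟨⟨0, Nat.pos_of_ne_zero hd⟩⟩
    exact b.repr.toEquiv.nontrivial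
  have : Nontrivial A := ⟨⟨1, 0, fun e => one_ne_zero
    ((map_one φ).symm.trans ((congrArg φ e).trans (map_zero φ)))⟩⟩
  have hsep0 : ∀ t : A,
      (∀ (E' : RepTheory.FiniteDVRExt F.E.R) (ψ : A →ₐ[F.E.R] E'.R), ψ t = 0) → t = 0 :=
    fun t ht => by
      by_contra hne
      obtain ⟨E', ψ, hψ⟩ := hsep t hne
      exact hψ (ht E' ψ)
  have : IsReduced A := ⟨fun t ⟨k, hk⟩ => hsep0 t fun E' ψ =>
    (IsNilpotent.eq_zero ⟨k, by rw [← map_pow, hk, map_zero]⟩ : ψ t = 0)⟩
  have : Module.IsTorsionFree F.E.R A := ⟨fun c hc x y hxy => sub_eq_zero.mp <| hsep0 _ fun E' ψ => by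
    have h1 : c • ψ (x - y) = 0 := by
      rw [← map_smul, smul_sub, show c • x = c • y from hxy, sub_self, map_zero]
    rw [Algebra.smul_def] at h1
    exact (mul_eq_zero.mp h1).resolve_left ((map_ne_zero_iff _ E'.injective).mpr hc.ne_zero)⟩
  let dia : MvPowerSeries (Fin r) F.E.R →ₐ[F.E.R] A :=
    (IsScalarTower.toAlgHom F.E.R (F.Diamond r n) A).comp
      (Ideal.Quotient.mkₐ F.E.R (F.diamondRel r n))
  have hdiaval : ∀ s, dia s = algebraMap (F.Diamond r n) A (Ideal.Quotient.mk _ s) := fun _ => rfl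
  have hTres : ∀ l, ∀ P : Ideal A, P.IsMaximal →
      T l - algebraMap F.E.R A (W.apOfModel l.1 : F.E.R) ∈ P := fun l P hP => by
    obtain ⟨k, hk⟩ := hresT l
    refine mem_of_pow_range_le φ hφ (k := k) (fun x => ?_) P
    rw [map_intCast, map_sub, map_intCast]
    convert hk x using 4
    rw [← map_intCast (algebraMap (F.Diamond r n) (Module.End (F.Diamond r n) M)),
      Algebra.algebraMap_eq_smul_one]
  let gens : Set A := Set.range T ∪ Set.range dia
  have hgen : Algebra.adjoin F.E.R gens = ⊤ := by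
    refine eq_top_iff.mpr fun t _ => ?_
    have ht : t ∈ Algebra.adjoin (F.Diamond r n) (Set.range T) := by rw [hgenT]; trivial
    induction ht using Algebra.adjoin_induction with
    | mem x hx => exact Algebra.subset_adjoin (Or.inl hx)
    | algebraMap s =>
      obtain ⟨s, rfl⟩ := Ideal.Quotient.mk_surjective s
      exact Algebra.subset_adjoin (Or.inr ⟨s, rfl⟩)
    | add x y _ _ hx hy => exact add_mem (hx trivial) (hy trivial)
    | mul x y _ _ hx hy => exact mul_mem (hx trivial) (hy trivial)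
  have hres : ∀ x ∈ gens,
      ∃ a : F.E.R, ∀ P : Ideal A, P.IsMaximal → x - algebraMap F.E.R A a ∈ P := by
    rintro _ (⟨l, rfl⟩ | ⟨y, rfl⟩)
    · exact ⟨_, hTres l⟩
    · exact exists_algebraMap_sub_mem dia (residue_surjective_mvPowerSeries (Fin r)) y
  have hloc : IsLocalRing A := isLocalRing_of_generated hgen hres
  have : IsLocalHom (algebraMap F.E.R A) := RepTheory.isLocalHom_algebraMap_of_finite F.E.R A
  have : IsNoetherianRing A := isNoetherian_of_tower F.E.R (inferInstance : IsNoetherian F.E.R A)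
  have : IsAdicComplete (maximalIdeal A) A :=
    RepTheory.isAdicComplete_maximalIdeal_of_finite F.E.R A
  have hNS : ∀ l : ℕ, l.Prime → l ∣ F.classicalLevel qv → l ∈ F.badSet qv :=
    fun l hl hd => F.mem_badSet_of_dvd D.prime D.dvd h hl hd
  have hgood : ∀ l : {l : ℕ // l.Prime ∧ l ∉ F.badSet qv},
      ¬ l.1 ∣ F.classicalLevel qv ∧ l.1 ∉ (↑(F.badSet qv) : Set ℕ) :=
    fun l => ⟨fun hd => l.2.2 (hNS _ l.2.1 hd), fun hh => l.2.2 (Finset.mem_coe.mp hh)⟩
  have hpS : p ∈ F.badSet qv := Finset.mem_union_left _ (Finset.mem_insert_self _ _)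
  obtain ⟨θ, Φ, hθ, hΦ⟩ := exists_residual_heckeLocal_hom hNS
    (residue_surjective_of_generated hgen hres) Ψ
  have hΦT : ∀ (l : {l : ℕ // l.Prime ∧ l ∉ F.badSet qv}) (hlM : ¬ l.1 ∣ F.classicalLevel qv)
      (hlS : l.1 ∉ (↑(F.badSet qv) : Set ℕ)),
      Φ (CuspForm.heckeLocal.π _ _ F.E.R θ (CuspForm.heckeAlgebra.T l.2.1 hlM hlS)) = T l :=
    fun l hlM hlS => (hΦ ⟨l.1, l.2.1, hlM, hlS⟩).trans (hΨT l.1 l.2.1 hlM hlS)
  have hbar : ∀ (l : ℕ) (hl : l.Prime) (hlM : ¬ l ∣ F.classicalLevel qv)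
      (hlS : l ∉ (↑(F.badSet qv) : Set ℕ)),
      ∀ P : ValuationSubring (AlgebraicClosure ℚ), P.LiesOverPrime l →
        ∀ σ : Γℚ, P.IsFrobeniusAt σ l →
          (F.rhobar.ρ σ).charpoly = X ^ 2 - C (θ (CuspForm.heckeAlgebra.T hl hlM hlS)) * X
            + C (l : ResidueField F.E.R) := by
    intro l hl hlM hlS P hP σ hσ
    have hlS' : l ∉ F.badSet qv := fun hh => hlS (Finset.mem_coe.mpr hh)
    rw [F.rhobar_charpoly hp2 hN0 hl hlS' hP hσ]
    congr 4
    refine (ResidueField.map (algebraMap F.E.R A)).injective ?_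
    rw [hθ, hΨT l hl hlM hlS, ← map_intCast (residue F.E.R), ResidueField.map_residue,
      eq_comm, ← sub_eq_zero, ← map_sub, residue_eq_zero_iff]
    exact hTres ⟨l, hl, hlS'⟩ _ (maximalIdeal.isMaximal A)
  have hgenΦ : Algebra.adjoin F.E.R (Set.range Φ ∪ Set.range dia) = ⊤ := by
    refine eq_top_iff.mpr (hgen ▸ Algebra.adjoin_mono (Set.union_subset_union_left _ ?_))
    rintro _ ⟨l, rfl⟩
    exact ⟨_, hΦT l (hgood l).1 (hgood l).2⟩
  have hattT : ∀ {ρ : GaloisRepAdic A}, IsAttached Φ ρ →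
      ∀ (l : {l : ℕ // l.Prime ∧ l ∉ F.badSet qv}) (P : ValuationSubring (AlgebraicClosure ℚ)),
        P.LiesOverPrime l.1 → ∀ σ : Γℚ, P.IsFrobeniusAt σ l.1 → ρ.trace σ = T l :=
    fun {ρ} hρ l P hP σ hσ =>
      (trace_of_isAttached Φ hρ l.2.1 (hgood l).1 (hgood l).2 hP hσ).trans
        (hΦT l (hgood l).1 (hgood l).2)
  have hpoint : ∀ {ρ : GaloisRepAdic A}, IsAttached Φ ρ → ρ.DetIsCyclotomic p →
      ∀ (E' : RepTheory.FiniteDVRExt F.E.R) (ψ : A →ₐ[F.E.R] E'.R)
        (hψ : IsLocalHom (ψ : A →+* E'.R)),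
        IsPointRepOf F qv T E' ψ (ρ.baseChangeAlong (ψ : A →+* E'.R) hψ) :=
    fun {ρ} hρ hc E' ψ hψ => ⟨detIsCyclotomic_baseChangeAlong _ hψ hc,
      fun l P hP σ hσ => by
        rw [RepTheory.trace_baseChangeAlong, hattT hρ l P hP σ hσ]
        rfl⟩
  refine nonempty_twModule F M b A dia φ.toRingHom (fun s x => ?_)
    (F.classicalLevel qv) (F.badSet qv) hp2 hpS hNS θ (rhobar_isAbsolutelyIrreducible D F) hbar Φ
    hgenΦ ?_ ?_ ?_ ?_
  · show φ (dia s) x = _
    rw [hdiaval, AlgHom.commutes, Module.algebraMap_end_apply]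
  · intro _ Dat hΦl hDat
    have hTs := Datum.residue_surjective_pi (F.classicalLevel qv) (↑(F.badSet qv) : Set ℕ) F.E.R θ
    have hAs := residue_surjective_of_generated hgen hres
    by_cases hpN : p ∣ N
    · obtain ⟨hΔp, -⟩ := D.at_p hpN
      have hatt₀ : IsAttached (AlgHom.id F.E.R (CuspForm.heckeLocal (F.classicalLevel qv)
          (↑(F.badSet qv) : Set ℕ) F.E.R θ)) Dat.ρ := fun l hl hlM hlS P hP σ hσ => by
        rw [Dat.charpoly_frob l hl hlM hlS P hP σ hσ, hDat]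
        rfl
      have hord : ordCond F.E.R p (F.ramSet qv) F.unipSet
          (Dat.ρ.baseChangeAlong (Φ : _ →+* A) hΦl) :=
        push_of_isClosedCond (isClosed_ordCond F.E.R p hp2 _ _) hTs inferInstance hAs Φ hΦl
          (datum_ordCond (hΔ := hΔ) hp2 F.natCast_mem
            (F.dvd_classicalLevel_exactly D.prime D.squarefree h Fact.out hpN (Ne.symm D.ne))
            hpS hNS Dat hΔp (D.semistable p Fact.out hΔp) F.φ
            (residual_isEquiv_of_isAttached _ hatt₀ hNS F.rhobar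
              (rhobar_isAbsolutelyIrreducible D F) hbar)
            (fun l hl hd => F.mem_ramSet_of_dvd D.prime D.dvd h hl hd) (Finset.mem_insert_self _ _)
            (fun l hl _ _ => F.dvd_classicalLevel_of_mem_unipSet D.prime D.dvd D.squarefree h hl))
      have hatt := isAttached_baseChangeAlong Φ Dat hDat hΦl
      refine (F.cond_iff_strict hpN _).mpr ⟨⟨hord.1.1, ?_, hord.1.2.2⟩, hord.2⟩
      refine isStrictOrdinaryAt_of_ordinary hp2 hord.1.1 hord.1.2.1
        (quotSqOne_of_separated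
          (ι := Σ E' : RepTheory.FiniteDVRExt F.E.R, A →ₐ[F.E.R] E'.R)
          (B := fun i => i.1.R) (fun i => (i.2 : A →+* i.1.R))
          (fun i => Datum.isLocalHom_of_algHom i.2)
          (fun a ha => hsep0 a fun E' ψ => ha ⟨E', ψ⟩) fun i => ?_)
      exact quotSqOne_of_isStrictOrdinaryAt
        (detIsCyclotomic_baseChangeAlong _ _ hord.1.1)
        (hstrict hpN i.1 i.2 _ (hpoint hatt hord.1.1 i.1 i.2 _)
          (isOrdinaryAt_extend _ _ _ hord.1.2.1))
    · refine (F.cond_iff_flat hpN _).mpr (push_of_isClosedCond (isClosed_flatCond F.E.R p _ _)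
        hTs inferInstance hAs Φ hΦl ?_)
      exact datum_flatCond hp2 F.natCast_mem
        (F.not_dvd_classicalLevel D.prime D.dvd hpN h) hpS hNS Dat
        (fun l hl hd => F.mem_ramSet_of_dvd D.prime D.dvd h hl hd) (Finset.mem_insert_self _ _)
        (fun l hl _ _ => F.dvd_classicalLevel_of_mem_unipSet D.prime D.dvd D.squarefree h hl)
  · intro _ ρ hρ hc E' ψ hψ
    exact hnu E' ψ _ (hpoint hρ (F.cond_det hc) E' ψ hψ)
  · intro _ ρ hρ hc i
    obtain ⟨σ, hσ, hpt⟩ := hdia i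
    refine ⟨σ, hσ, Ideal.mem_span_singleton'.mpr ⟨dia (1 + MvPowerSeries.X i), ?_⟩⟩
    have key : dia (1 + MvPowerSeries.X i) ^ 2 - ρ.trace σ * dia (1 + MvPowerSeries.X i) + 1 = 0 :=
      hsep0 _ fun E' ψ => by
        have hψ := Datum.isLocalHom_of_algHom ψ
        have h1 := hpt E' ψ _ (hpoint hρ (F.cond_det hc) E' ψ hψ)
        rw [show (ρ.baseChangeAlong (ψ : A →+* E'.R) hψ).trace σ = ψ (ρ.trace σ) from
          RepTheory.trace_baseChangeAlong _ hψ ρ σ] at h1
        rw [map_add, map_sub, map_pow, map_mul, map_one]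
        exact h1
    rw [map_add, map_one] at key ⊢
    linear_combination -key
  · intro _ ρ hρ hc x
    exact hdisc ρ hc (hattT hρ) x

end FLTA.RT.Avoid

end
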