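import Fermat.Agent.RT.Main.ModulesRankInput
import Fermat.Agent.RT.HeckeLocalControl

/-!
# The operators on the level modules

They preserve the factor, commute there, and `T_l - a_l` is topologically nilpotent.
-/

set_option autoImplicit false

noncomputable section

open IsLocalRing WeierstrassCurve CongruenceSubgroup

namespace FLTA.RT

open FLTA.Periods

section Generic

variable {R : Type} [CommRing R] [IsLocalRing R] [IsNoetherianRing R]
  [IsAdicComplete (maximalIdeal R) R] {H : Type} [AddCommGroup H] [Module R H] [Module.Finite R H]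
  {σ : Type*}

/-- `T s - a s` is nilpotent on the factor modulo the maximal ideal. -/
theorem exists_pow_sub_mem {T : σ → Module.End R H} (hT : ∀ s t, Commute (T s) (T t)) (a : σ → R)
    (s : σ) :
    ∃ k : ℕ, ∀ x ∈ LinearMap.range (localIdem T a),
      ((T s - algebraMap R (Module.End R H) (a s)) ^ k) x ∈
        maximalIdeal R • LinearMap.range (localIdem T a) := by
  letI := opAlgCommRing (R := R) hT
  haveI : Module.Finite R (opAlg R T) := finite_opAlg T
  set I := (maximalIdeal R).map (algebraMap R (opAlg R T)) with hI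
  haveI := isArtinianRing_quotient_map (B := opAlg R T) R
  have he := (isLocalIdem_localIdem hT a).isCutOut hT
  set e : opAlg R T := ⟨localIdem T a, localIdem_mem hT a⟩
  set y : opAlg R T := opGen R T s - algebraMap R (opAlg R T) (a s) with hy
  have hjac : e * y ∈ (⊥ : Ideal (opAlg R T)).jacobson := by
    rw [Ideal.jacobson, Ideal.mem_sInf]
    rintro P ⟨-, hP⟩
    by_cases h : eigIdeal T a ≤ P
    · exact P.mul_mem_left _ (h (opGen_sub_mem T a s))
    · exact P.mul_mem_right _ ((he.mem_iff P hP).mpr h)
  obtain ⟨k, hk⟩ := IsArtinianRing.isNilpotent_jacobson_bot (R := opAlg R T ⧸ I)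
  refine ⟨k + 1, fun x hx => ?_⟩
  have hmem : (e * y) ^ (k + 1) ∈ I := by
    have h1 : ((⊥ : Ideal (opAlg R T)).jacobson).map (Ideal.Quotient.mk I)
        ≤ (⊥ : Ideal (opAlg R T ⧸ I)).jacobson := by
      rw [Ideal.map_le_iff_le_comap, Ideal.comap_jacobson_of_surjective
        Ideal.Quotient.mk_surjective]
      exact Ideal.jacobson_mono bot_le
    rw [← Ideal.Quotient.eq_zero_iff_mem, map_pow, pow_succ]
    have h2 := Ideal.pow_mem_pow (h1 (Ideal.mem_map_of_mem (Ideal.Quotient.mk I) hjac)) k
    rw [hk] at h2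
    rw [show Ideal.Quotient.mk I (e * y) ^ k = 0 from h2, zero_mul]
  have hee : ∀ v ∈ LinearMap.range (localIdem T a), localIdem T a v = v := by
    rintro _ ⟨v, rfl⟩
    exact LinearMap.congr_fun (isIdempotentElem_localIdem hT a).eq v
  have hcomm : ∀ b : opAlg R T, ∀ v ∈ LinearMap.range (localIdem T a),
      (b : Module.End R H) v ∈ LinearMap.range (localIdem T a) := by
    intro b v hv
    refine ⟨(b : Module.End R H) v, ?_⟩
    have := LinearMap.congr_fun (congrArg Subtype.val (mul_comm e b)) v
    simp only [MulMemClass.coe_mul, Module.End.mul_apply] at this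
    show (e : Module.End R H) _ = _
    rw [this]
    show (b : Module.End R H) (localIdem T a v) = _
    rw [hee v hv]
  have key : ∀ z ∈ I, (z : Module.End R H) x ∈
      maximalIdeal R • LinearMap.range (localIdem T a) := by
    intro z hz
    rw [hI, Ideal.map] at hz
    induction hz using Submodule.span_induction generalizing x with
    | mem z hz =>
      obtain ⟨c, hc, rfl⟩ := hz
      rw [Subalgebra.coe_algebraMap, Module.algebraMap_end_apply]
      exact Submodule.smul_mem_smul hc hx
    | zero => rw [ZeroMemClass.coe_zero, LinearMap.zero_apply]; exact zero_mem _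
    | add z w _ _ hz hw =>
      rw [AddMemClass.coe_add, LinearMap.add_apply]; exact add_mem (hz x hx) (hw x hx)
    | smul b z _ hz =>
      rw [smul_eq_mul, mul_comm, MulMemClass.coe_mul, Module.End.mul_apply]
      exact hz _ (hcomm b x hx)
  have hpow : (((e * y) ^ (k + 1) : opAlg R T) : Module.End R H) x =
      ((T s - algebraMap R (Module.End R H) (a s)) ^ (k + 1)) x := by
    have he1 : e ^ (k + 1) = e := he.idem.pow_succ_eq k
    rw [mul_pow, he1, mul_comm, MulMemClass.coe_mul, Module.End.mul_apply,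
      show (e : Module.End R H) x = x from hee x hx, SubmonoidClass.coe_pow]
    rfl
  rw [← hpow]
  exact key _ hmem

/-- Powers of a shifted restricted endomorphism. -/
theorem coe_pow_sub_smul_one {A V : Type} [CommRing A] [AddCommGroup V] [Module A V]
    {S : Submodule A V} {f : Module.End A V} {g : Module.End A S}
    (hg : ∀ x : S, ((g x : S) : V) = f x) (c : A) (j : ℕ) (x : S) :
    ((((g - c • 1) ^ j) x : S) : V) = ((f - algebraMap A (Module.End A V) c) ^ j) x := by
  induction j generalizing x with
  | zero => rfl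
  | succ j ih =>
    rw [pow_succ, pow_succ, Module.End.mul_apply, Module.End.mul_apply, ih]
    congr 1
    simp [hg, Module.algebraMap_end_apply]

end Generic

namespace AvoidFrame

variable {W : WeierstrassCurve ℤ} {hΔ : W.Δ ≠ 0} {p : ℕ} [Fact p.Prime] {N q : ℕ}
  (F : AvoidFrame W hΔ p N q) (n : ℕ) {r : ℕ} (qv : Fin r → ℕ) [NeZero (F.level qv)]

/-- The factor is the image of the idempotent of the operators. -/
theorem idem_app (hqv : ∀ i, (qv i).Prime) :
    (F.idem n qv).app (F.Diamond r n) =
      localIdem (opsAt (F.ops n qv) (F.Diamond r n)) (F.sys n qv) :=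
  haveI := group_fg_Gamma0 (F.level qv)
  haveI := F.isNoetherianRing_diamond n (r := r)
  haveI := F.isAdicComplete_diamond n (r := r)
  localEnd_app_ring (F.commAtRing_ops n qv hqv) _

/-- The operators preserve the factor. -/
theorem ops_mem (hqv : ∀ i, (qv i).Prime) (s : F.Idx qv)
    {x : tH1 (gamChar (F.chi n qv)) (F.Diamond r n)}
    (hx : x ∈ eImage (F.idem n qv) (F.Diamond r n)) :
    (F.ops n qv s).app (F.Diamond r n) x ∈ eImage (F.idem n qv) (F.Diamond r n) := by
  haveI := group_fg_Gamma0 (F.level qv)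
  haveI := F.isNoetherianRing_diamond n (r := r)
  haveI := F.isAdicComplete_diamond n (r := r)
  haveI := finite_tH1 (χ := gamChar (F.chi n qv)) (F.Diamond r n)
  rw [eImage, F.idem_app n qv hqv] at hx ⊢
  obtain ⟨y, rfl⟩ := hx
  exact ⟨_, (LinearMap.congr_fun
    (localIdem_comm (F.commAtRing_ops n qv hqv) (F.sys n qv) s).eq y).symm⟩

theorem coe_opT (hqv : ∀ i, (qv i).Prime) (l : {l : ℕ // l.Prime ∧ l ∉ F.badSet qv})
    (x : F.Mod n qv) :
    ((F.opT n qv l x : F.Mod n qv) : tH1 (gamChar (F.chi n qv)) (F.Diamond r n)) =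
      (F.ops n qv (.inl l)).app (F.Diamond r n) x := by
  rw [opT, restrictEnd, dif_pos fun x hx => F.ops_mem n qv hqv (.inl l) hx]
  rfl

theorem commute_opT (hqv : ∀ i, (qv i).Prime) (l l' : {l : ℕ // l.Prime ∧ l ∉ F.badSet qv}) :
    Commute (F.opT n qv l) (F.opT n qv l') :=
  LinearMap.ext fun x => Subtype.ext (by
    simp only [Module.End.mul_apply, F.coe_opT n qv hqv]
    exact F.ops_comm n qv hqv _ _ _ _)

theorem exists_pow_opT_sub (hqv : ∀ i, (qv i).Prime)
    (l : {l : ℕ // l.Prime ∧ l ∉ F.badSet qv}) :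
    ∃ k : ℕ, ∀ x : F.Mod n qv,
      ((F.opT n qv l - (W.apOfModel l.1 : F.Diamond r n) • 1) ^ k) x ∈
        maximalIdeal (F.Diamond r n) • (⊤ : Submodule (F.Diamond r n) (F.Mod n qv)) := by
  haveI := group_fg_Gamma0 (F.level qv)
  haveI := F.isNoetherianRing_diamond n (r := r)
  haveI := F.isAdicComplete_diamond n (r := r)
  haveI := finite_tH1 (χ := gamChar (F.chi n qv)) (F.Diamond r n)
  obtain ⟨k, hk⟩ := exists_pow_sub_mem (F.commAtRing_ops n qv hqv) (F.sys n qv) (.inl l)
  refine ⟨k, fun x => ?_⟩
  rw [Submodule.mem_smul_top_iff]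
  have hx : (x : tH1 (gamChar (F.chi n qv)) (F.Diamond r n)) ∈
      LinearMap.range (localIdem (opsAt (F.ops n qv) (F.Diamond r n)) (F.sys n qv)) := by
    rw [← F.idem_app n qv hqv]
    exact x.2
  rw [coe_pow_sub_smul_one (f := opsAt (F.ops n qv) (F.Diamond r n) (.inl l))
    (F.coe_opT n qv hqv l) _ k x]
  have h := hk _ hx
  rw [← F.idem_app n qv hqv] at h
  exact h

end AvoidFrame

end FLTA.RT

end
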