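import Fermat.Agent.RT.Main.ModulesRankBottom

/-!
# Reduction of the rank of the level modules to the residual factor on homomorphisms
-/

set_option autoImplicit false

noncomputable section

open IsLocalRing WeierstrassCurve CongruenceSubgroup

namespace FLTA.RT

open FLTA.Periods

variable {W : WeierstrassCurve ℤ} {hΔ : W.Δ ≠ 0} {p : ℕ} [Fact p.Prime] {N q : ℕ}

namespace AvoidFrame

variable (F : AvoidFrame W hΔ p N q)

/-- The primes of the operators. -/
def primeOf {r : ℕ} (qv : Fin r → ℕ) : F.Idx qv → ℕ := Sum.elim (fun l => l.1) qv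

/-- The residual system. -/
def resSys (n : ℕ) {r : ℕ} (qv : Fin r → ℕ) : F.Idx qv → ResidueField F.E.R :=
  fun s => F.diamondToRes n r (F.sys n qv s)

end AvoidFrame

/-- The rank of the level module is the rank of the residual factor on homomorphisms. -/
theorem exists_basis_mod (D : LowerData W hΔ p N q) (F : AvoidFrame W hΔ p N q) (hp2 : p ≠ 2)
    {n r : ℕ} {qv : Fin r → ℕ} [NeZero (F.level qv)] (h : F.IsTWTuple n qv) {d : ℕ}
    (hd : Module.finrank (ResidueField F.E.R)
      (LinearMap.range (localIdem (gamHecke (ResidueField F.E.R) (F.level qv) (F.primeOf qv))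
        (F.resSys n qv))) = d) :
    Nonempty (Module.Basis (Fin d) (F.Diamond r n) (F.Mod n qv)) := by
  haveI := group_fg_Gamma0 (F.level qv)
  haveI := F.isNoetherianRing_diamond n (r := r)
  haveI := F.isAdicComplete_diamond n (r := r)
  letI : Algebra (F.Diamond r n) (ResidueField F.E.R) := (F.diamondToRes n r).toAlgebra
  haveI : Module.Finite (F.Diamond r n)
      (eImage (localEnd (F.ops n qv) (F.sys n qv)) (F.Diamond r n)) :=
    finite_eImage (e := localEnd (F.ops n qv) (F.sys n qv)) (F.Diamond r n)
  have hO : Function.Surjective (algebraMap (F.Diamond r n) (ResidueField F.E.R)) :=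
    F.diamondToRes_surjective n
  haveI : IsLocalHom (algebraMap (F.Diamond r n) (ResidueField F.E.R)) := IsLocalHom.of_surjective _ hO
  have hcomm := F.commAtRing_ops n qv h.prime
  have hlift := F.hasLifts_chi D n qv
  have hkill : KillsObstruction (F.idem n qv) := by
    obtain ⟨l, hl, hlS, hl1, hu⟩ := exists_nonEisenstein D F hp2 (NeZero.ne (F.level qv))
      (Finset.univ.image qv)
    have hlbad : l ∉ F.badSet qv := by rwa [AvoidFrame.badSet, Finset.union_comm]
    have hlL := not_dvd_of_natCast_eq_one hl hl1
    refine killsObstruction_localEnd hcomm _ hlift hl hlL (.inl ⟨l, hl, hlbad⟩) ?_ ?_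
    · have hkap : kap (F.twistSet qv) (F.eps n qv) l = 1 := by
        refine kap_eq_one _ (fun s hs => ?_) hl1
        rcases Finset.mem_insert.mp hs with rfl | hs
        · exact D.dvd.trans (dvd_mul_right _ _)
        · obtain ⟨i, -, rfl⟩ := Finset.mem_image.mp hs
          exact (Finset.dvd_prod_of_mem _ (Finset.mem_univ i)).trans (dvd_mul_left _ _)
      show (kap (F.twistSet qv) (F.eps n qv) l : F.Diamond r n) • natHecke (F.chi n qv) l = _
      rw [hkap, Units.val_one]
      generalize natHecke (F.chi n qv) l = a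
      obtain ⟨f, hf⟩ := a
      refine (NatEnd.mk.injEq _ _ _ _).mpr ?_
      funext V _ _
      exact one_smul _ _
    · refine isUnit_of_map_unit (algebraMap (F.Diamond r n) (ResidueField F.E.R)) _ ?_
      rw [map_sub, map_add, map_one, map_natCast]
      show IsUnit (algebraMap _ (ResidueField F.E.R) ((W.apOfModel l : ℤ) : F.Diamond r n) - _)
      rw [map_intCast]
      exact hu
  have htriv : ∀ γ (v : ResidueField F.E.R),
      ((gamChar (F.chi n qv) γ : (F.Diamond r n)ˣ) : F.Diamond r n) • v = v := fun γ v => by
    rw [Algebra.smul_def, RingHom.algebraMap_toAlgebra, gamChar_apply, F.diamondToRes_chi, one_mul]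
  refine exists_basis_eImage hlift (eqAtRing_localEnd_sq hcomm _) hkill hO htriv ?_
  rw [← hd]
  show Module.finrank _ (homImage (localEnd (F.ops n qv) (F.sys n qv)) hO htriv) = _
  rw [homImage_localEnd hcomm _ hlift hO htriv
    (gamHecke (ResidueField F.E.R) (F.level qv) (F.primeOf qv)) fun s x => ?_]
  · rfl
  have key : ∀ l : ℕ, l.Prime → tH1EquivHom htriv ((natHecke (F.chi n qv) l).app (ResidueField F.E.R) x) =
      heckeHom (ResidueField F.E.R) (F.level qv) l (tH1EquivHom htriv x) := fun l hl => by
    rw [tH1EquivHom_natHecke _ htriv hl, heckeHom_eq_int, heckeHom_eq_int (𝕜 := ResidueField F.E.R)]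
  rcases s with l | i
  · show tH1EquivHom htriv ((kap (F.twistSet qv) (F.eps n qv) l.1 : F.Diamond r n) •
      (natHecke (F.chi n qv) l.1).app (ResidueField F.E.R) x) = _
    rw [map_smul, key _ l.2.1]
    refine AddMonoidHom.ext fun y => ?_
    rw [AddMonoidHom.smul_apply]
    rw [Algebra.smul_def, RingHom.algebraMap_toAlgebra, F.diamondToRes_kap, one_mul]
    rfl
  · exact key _ (h.prime i)

end FLTA.RT

end
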