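import Fermat.Agent.RT.CoeffPoints
import Fermat.Agent.RT.Main.ModulesRankReduce
import Fermat.Agent.RT.Main.DiamondRing
import Fermat.Agent.RT.Main.ModulesAlg
import Fermat.Agent.RT.Main.ModulesRankOps

/-!
# (M2) The operators come from the classical Hecke algebra, and points separate their algebra
-/

set_option autoImplicit false

noncomputable section

open IsLocalRing WeierstrassCurve CongruenceSubgroup

namespace FLTA.RT

open FLTA.Periods

set_option synthInstance.maxHeartbeats 400000
set_option maxHeartbeats 1000000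

variable {W : WeierstrassCurve ℤ} {hΔ : W.Δ ≠ 0} {p : ℕ} [Fact p.Prime] {N q : ℕ}

/-- Points in finite extensions separate a reduced algebra of operators on a free module. -/
theorem exists_point_of_endAlg {O R V : Type} [CommRing O] [IsDomain O]
    [IsDiscreteValuationRing O] [IsAdicComplete (maximalIdeal O) O] [Finite (ResidueField O)]
    [CharZero O] [CommRing R] [Algebra O R] [Module.Finite O R] [Module.IsTorsionFree O R]
    [AddCommGroup V] [Module R V] [Module.Finite R V] [Module.Free R V]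
    (B : Subalgebra R (Module.End R V)) (hcomm : ∀ x ∈ B, ∀ y ∈ B, x * y = y * x)
    (hred : IsReduced B) [Algebra O B]
    (hO : ∀ c : O, algebraMap O B c = algebraMap R B (algebraMap O R c)) (t : B) (ht : t ≠ 0) :
    ∃ (E : RepTheory.FiniteDVRExt O) (ψ : B →ₐ[O] E.R), ψ t ≠ 0 := by
  let _ : CommRing B :=
    { (inferInstance : Ring B) with mul_comm := fun x y => Subtype.ext (hcomm _ x.2 _ y.2) }
  have : IsNoetherianRing R := isNoetherian_of_tower O (inferInstance : IsNoetherian O R)
  have : IsScalarTower O R B := IsScalarTower.of_algebraMap_eq hO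
  have : Module.Finite R B := Module.Finite.of_injective B.val.toLinearMap Subtype.val_injective
  have : Module.Finite O B := Module.Finite.trans R B
  have : Module.IsTorsionFree O B := by
    refine ⟨fun c hc x y hxy => Subtype.ext (LinearMap.ext fun v => ?_)⟩
    refine (Module.Free.chooseBasis R V).ext_elem fun i => ?_
    have h := congrArg (fun z : B => (Module.Free.chooseBasis R V).repr ((z : Module.End R V) v) i)
      (show c • x = c • y from hxy)
    simp only [Algebra.smul_def, hO] at h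
    refine smul_right_injective R hc.ne_zero ?_
    simpa [Algebra.smul_def, Module.algebraMap_end_apply] using h
  obtain ⟨E, hE⟩ := RepTheory.exists_points_of_isReduced (O := O) B
  exact ⟨E, hE t ht⟩

theorem isReduced_of_subalgebra_le {R A : Type} [CommRing R] [Ring A] [Algebra R A]
    {B B' : Subalgebra R A} (hle : B ≤ B') (hred : IsReduced B') : IsReduced B :=
  isReduced_of_injective (Subalgebra.inclusion hle) (Subalgebra.inclusion_injective hle)

/-- (M2) Both halves. -/
theorem exists_classical_hom_and_isReduced (D : LowerData W hΔ p N q) (F : AvoidFrame W hΔ p N q)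
    {n r : ℕ} {qv : Fin r → ℕ} [NeZero (F.level qv)] [NeZero (F.classicalLevel qv)]
    (h : F.IsTWTuple n qv) :
    (∃ θ : CuspForm.heckeAlgebra (F.classicalLevel qv) 2 (↑(F.badSet qv) : Set ℕ) →+*
        Module.End (F.Diamond r n) (F.Mod n qv),
      ∀ (l : ℕ) (hl : l.Prime) (hlM : ¬ l ∣ F.classicalLevel qv)
        (hlS : l ∉ (↑(F.badSet qv) : Set ℕ)),
        θ (CuspForm.heckeAlgebra.T hl hlM hlS) = F.opT n qv ⟨l, hl, by simpa using hlS⟩) ∧
    IsReduced (F.Alg n qv) ∧ Module.Free (F.Diamond r n) (F.Mod n qv) ∧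
      Module.Finite (F.Diamond r n) (F.Mod n qv) := by
  haveI := group_fg_Gamma0 (F.level qv)
  haveI := F.isNoetherianRing_diamond n (r := r)
  haveI := F.isAdicComplete_diamond n (r := r)
  haveI := finite_tH1 (χ := gamChar (F.chi n qv)) (F.Diamond r n)
  have hp2 : p ≠ 2 := by have := D.three_le; omega
  have hcomm := F.commAtRing_ops n qv h.prime
  have hlift := F.hasLifts_chi D n qv
  have hQ : ∀ s ∈ F.twistSet qv, s.Prime ∧ s ∣ F.level qv ∧ ¬ s * s ∣ F.level qv := by
    intro s hs
    have hsp := F.prime_twistSet D.prime h hs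
    refine ⟨hsp, ?_, ?_⟩
    · rcases Finset.mem_insert.mp hs with rfl | hs
      · exact D.dvd.trans (dvd_mul_right _ _)
      · obtain ⟨i, -, rfl⟩ := Finset.mem_image.mp hs
        exact (Finset.dvd_prod_of_mem _ (Finset.mem_univ i)).trans (dvd_mul_left _ _)
    · have hsq : Squarefree (F.level qv) := by
        refine (Nat.squarefree_mul (Nat.Coprime.prod_right fun i _ => ?_)).mpr
          ⟨D.squarefree, ?_⟩
        · refine ((h.prime i).coprime_iff_not_dvd.mpr fun hd => h.notMem i ?_).symm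
          simp [AvoidFrame.avoided, Nat.mem_primeFactors, h.prime i, hd, D.squarefree.ne_zero]
        · refine Finset.squarefree_prod_of_pairwise_isCoprime (fun i _ j _ hij => ?_)
            fun i _ => (h.prime i).squarefree
          exact Nat.coprime_iff_isRelPrime.mp ((Nat.coprime_primes (h.prime i) (h.prime j)).mpr fun e => hij (h.injective e))
      intro hd
      exact hsp.ne_one (Nat.isUnit_iff.mp (hsq s hd))
  have hS : ∀ s : ℕ, s.Prime → s ∣ F.level qv → s ∈ (↑(F.badSet qv) : Set ℕ) := fun s hs hd => by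
    simpa using F.mem_badSet_of_dvd D.prime D.dvd h hs (hd.mul_right _)
  -- the auxiliary prime
  obtain ⟨l₀, hl₀, hl₀S, hl₁, hu⟩ := exists_nonEisenstein D F hp2
    (NeZero.ne (F.classicalLevel qv)) (Finset.univ.image qv)
  have hl₀bad : l₀ ∉ F.badSet qv := by rwa [AvoidFrame.badSet, Finset.union_comm]
  have hl₀M := not_dvd_of_natCast_eq_one hl₀ hl₁
  have hl₀L : ¬ l₀ ∣ F.level qv := fun hd => hl₀M (hd.mul_right _)
  have hl₁L : (l₀ : ZMod (F.level qv)) = 1 := by
    have h1 := congrArg (ZMod.castHom (dvd_mul_right (F.level qv) _ :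
      F.level qv ∣ F.classicalLevel qv) (ZMod (F.level qv))) hl₁
    exact (map_natCast _ l₀).symm.trans (h1.trans (map_one _))
  have hop : ∀ (V : Type) [AddCommGroup V] [Module (F.Diamond r n) V]
      (l : {l : ℕ // l.Prime ∧ l ∉ F.badSet qv}) (x : tH1 (gamChar (F.chi n qv)) V),
      (F.ops n qv (.inl l)).app V x = (kap (F.twistSet qv) (F.eps n qv) l.1 : F.Diamond r n) •
        (natHecke (F.chi n qv) l.1).app V x := fun V _ _ l x => rfl
  have hkap : kap (F.twistSet qv) (F.eps n qv) l₀ = 1 :=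
    kap_eq_one _ (fun s hs => (hQ s hs).2.1) hl₁L
  have hu' : IsUnit (F.sys n qv (.inl ⟨l₀, hl₀, hl₀bad⟩) - ((l₀ : F.Diamond r n) + 1)) := by
    letI : Algebra (F.Diamond r n) (ResidueField F.E.R) := (F.diamondToRes n r).toAlgebra
    haveI : IsLocalHom (algebraMap (F.Diamond r n) (ResidueField F.E.R)) :=
      IsLocalHom.of_surjective _ (F.diamondToRes_surjective n)
    refine isUnit_of_map_unit (algebraMap (F.Diamond r n) (ResidueField F.E.R)) _ ?_
    rw [map_sub, map_add, map_one, map_natCast]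
    show IsUnit (algebraMap _ (ResidueField F.E.R) ((W.apOfModel l₀ : ℤ) : F.Diamond r n) - _)
    rw [map_intCast]
    exact hu
  have hidem : EqAtRing (F.idem n qv * F.idem n qv) (F.idem n qv) :=
    eqAtRing_localEnd_sq hcomm _
  have hkill : KillsObstruction (F.idem n qv) := by
    refine killsObstruction_localEnd hcomm _ hlift hl₀ hl₀L (.inl ⟨l₀, hl₀, hl₀bad⟩) ?_ hu'
    show (kap (F.twistSet qv) (F.eps n qv) l₀ : F.Diamond r n) • natHecke (F.chi n qv) l₀ = _
    rw [hkap, Units.val_one]
    generalize natHecke (F.chi n qv) l₀ = a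
    obtain ⟨f, hf⟩ := a
    refine (NatEnd.mk.injEq _ _ _ _).mpr ?_
    funext V _ _
    exact one_smul _ _
  have hfac : ∀ x, ∃ y, (F.idem n qv).app (F.Diamond r n) x =
      (natHecke (F.chi n qv) l₀).app (F.Diamond r n) y - ((l₀ : F.Diamond r n) + 1) • y := by
    obtain ⟨z, hz, he⟩ := exists_mul_sub_eq_localIdem hcomm (F.sys n qv)
      (.inl ⟨l₀, hl₀, hl₀bad⟩) hu'
    intro x
    refine ⟨z x, ?_⟩
    have hcz : Commute (opsAt (F.ops n qv) (F.Diamond r n) (.inl ⟨l₀, hl₀, hl₀bad⟩)) z :=
      Algebra.commute_of_mem_adjoin_of_forall_mem_commute hz fun b hb => by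
        obtain ⟨s, rfl⟩ := hb
        exact hcomm _ s
    have hc2 := (hcz.sub_left (Algebra.commute_algebraMap_left ((l₀ : F.Diamond r n) + 1) z)).eq
    rw [F.idem_app n qv h.prime, he, ← hc2, Module.End.mul_apply, LinearMap.sub_apply,
      Module.algebraMap_end_apply]
    refine congrArg (· - _) ?_
    show (F.ops n qv (.inl ⟨l₀, hl₀, hl₀bad⟩)).app (F.Diamond r n) (z x) = _
    rw [hop, hkap, Units.val_one, one_smul]
  have hcomm' : ∀ l : ℕ, l.Prime → l ∉ (↑(F.badSet qv) : Set ℕ) → ∀ x,
      (F.idem n qv).app (F.Diamond r n) ((natHecke (F.chi n qv) l).app (F.Diamond r n) x) =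
        (natHecke (F.chi n qv) l).app (F.Diamond r n)
          ((F.idem n qv).app (F.Diamond r n) x) := by
    intro l hl hlS x
    have hc := LinearMap.congr_fun (localIdem_comm hcomm (F.sys n qv)
      (.inl ⟨l, hl, by simpa using hlS⟩)).eq x
    rw [← F.idem_app n qv h.prime, Module.End.mul_apply, Module.End.mul_apply] at hc
    change (F.ops n qv _).app (F.Diamond r n) _ =
      (F.idem n qv).app (F.Diamond r n) ((F.ops n qv _).app (F.Diamond r n) x) at hc
    rw [hop, hop, map_smul] at hc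
    exact ((IsUnit.smul_left_cancel (kap (F.twistSet qv) (F.eps n qv) l).isUnit).mp hc).symm
  have hodd : ∀ s ∈ F.twistSet qv, ∀ u, ∃ m, Odd m ∧ F.eps n qv s u ^ m = 1 := fun s _ u =>
    ⟨p ^ (F.a + (n + 1)), ((Fact.out : p.Prime).odd_of_ne_two hp2).pow, F.eps_pow n qv s u⟩
  obtain ⟨θ, hθ, -, hred⟩ := exists_ringHom_eImage (M := F.classicalLevel qv)
    (S := (↑(F.badSet qv) : Set ℕ)) (K := AlgebraicClosure (FractionRing F.E.R))
    (F.twistSet qv) (F.eps n qv) hQ hodd rfl rfl hS hl₀ hl₀M hl₁ hfac hlift hidem hkill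
    (fun ψ : F.Diamond r n →ₐ[F.E.R] AlgebraicClosure (FractionRing F.E.R) => ψ.toRingHom)
    (fun x hx => Avoid.eq_zero_of_forall_point F.natCast_mem x hx) hcomm'
  have hθT : ∀ (l : ℕ) (hl : l.Prime) (hlM : ¬ l ∣ F.classicalLevel qv)
      (hlS : l ∉ (↑(F.badSet qv) : Set ℕ)),
      θ (CuspForm.heckeAlgebra.T hl hlM hlS) = F.opT n qv ⟨l, hl, by simpa using hlS⟩ :=
    fun l hl hlM hlS => LinearMap.ext fun x => Subtype.ext
      ((hθ l hl hlM hlS x).trans (F.coe_opT n qv h.prime ⟨l, hl, by simpa using hlS⟩ x).symm)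
  refine ⟨⟨θ, hθT⟩, ?_, free_eImage hlift hidem hkill, finite_eImage _⟩
  have hle : F.Alg n qv ≤ Algebra.adjoin (F.Diamond r n) (Set.range θ) := by
    refine Algebra.adjoin_mono ?_
    rintro _ ⟨⟨l, hl, hlS⟩, rfl⟩
    exact ⟨_, hθT l hl (fun hd => hlS (F.mem_badSet_of_dvd D.prime D.dvd h hl hd))
      (by simpa using hlS)⟩
  exact isReduced_of_subalgebra_le (R := F.Diamond r n) (A := Module.End (F.Diamond r n) (F.Mod n qv))
    (B' := Algebra.adjoin (F.Diamond r n) (Set.range θ)) hle hred

theorem exists_point_ne_zero_of_reduced (D : LowerData W hΔ p N q) (F : AvoidFrame W hΔ p N q)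
    {n r : ℕ} {qv : Fin r → ℕ} [NeZero (F.level qv)] (h : F.IsTWTuple n qv) (t : F.Alg n qv)
    (ht : t ≠ 0) :
    ∃ (E' : RepTheory.FiniteDVRExt F.E.R) (ψ : F.Alg n qv →ₐ[F.E.R] E'.R), ψ t ≠ 0 := by
  have : NeZero (F.classicalLevel qv) := ⟨F.classicalLevel_ne_zero D.prime h⟩
  obtain ⟨-, hred, hfree, hfin⟩ := exists_classical_hom_and_isReduced D F h
  haveI : Module.Finite F.E.R (F.Diamond r n) := F.moduleFinite_diamond n
  haveI : Module.IsTorsionFree F.E.R (F.Diamond r n) := Avoid.isTorsionFree_dia F.natCast_mem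
  have hc : ∀ x ∈ F.Alg n qv, ∀ y ∈ F.Alg n qv, x * y = y * x := fun x hx y hy =>
    congrArg Subtype.val ((Algebra.isMulCommutative_adjoin (F.Diamond r n)
      (s := Set.range (F.opT n qv)) (by
        rintro _ ⟨a, rfl⟩ _ ⟨b, rfl⟩
        exact (F.commute_opT n qv h.prime a b).eq)).is_comm.comm ⟨x, hx⟩ ⟨y, hy⟩)
  exact exists_point_of_endAlg (O := F.E.R) (F.Alg n qv) hc hred (fun c => rfl) t ht

end FLTA.RT

end
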