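import Fermat.Agent.RT.Main.ModulesSetup
import Fermat.Prelude.Def_GaloisRep_LocalConditions

/-!
# Representations attached to the points of the algebra of a level module
-/

set_option autoImplicit false

noncomputable section

open IsLocalRing WeierstrassCurve

namespace FLTA.RT

variable {W : WeierstrassCurve ℤ} {hΔ : W.Δ ≠ 0} {p : ℕ} [Fact p.Prime] {N q : ℕ}

local notation "Γℚ" => AlgebraicClosure ℚ ≃ₐ[ℚ] AlgebraicClosure ℚ

namespace AvoidFrame

variable (F : AvoidFrame W hΔ p N q) (n : ℕ) {r : ℕ} (qv : Fin r → ℕ) [NeZero (F.level qv)]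

/-- A representation over a finite extension attached to the point `ψ` of the algebra. -/
def IsPointRep (E' : RepTheory.FiniteDVRExt F.E.R) (ψ : F.Alg n qv →ₐ[F.E.R] E'.R)
    (ρ : GaloisRepAdic E'.R) : Prop :=
  ρ.DetIsCyclotomic p ∧ ∀ (l : {l : ℕ // l.Prime ∧ l ∉ F.badSet qv})
    (A : ValuationSubring (AlgebraicClosure ℚ)), A.LiesOverPrime l.1 →
      ∀ σ : Γℚ, A.IsFrobeniusAt σ l.1 →
        ρ.trace σ = ψ ⟨F.opT n qv l, Algebra.subset_adjoin ⟨l, rfl⟩⟩

end AvoidFrame

end FLTA.RT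

end
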