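import Fermat.Agent.RT.Main.ModulesSetup
import Fermat.Agent.RT.Main.SystemEigen
import Fermat.Agent.RT.Main.DiamondRing
import Fermat.Agent.RT.RaiseResidual
import Fermat.Agent.RT.Lift.EllipticFree
import Fermat.Agent.LevelRaising.Irreducible
import Fermat.Agent.RepTheory.Basic

/-!
# Inputs for the rank of the level modules

The residue map of the diamond ring kills the characters; auxiliary non-Eisenstein primes; the
roots at the tuple; the eigenclass at level `N`.
-/

set_option autoImplicit false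

noncomputable section

open IsLocalRing WeierstrassCurve Polynomial CongruenceSubgroup

namespace FLTA.RT

open FLTA.Periods
open FLTA.LevelLowering (planeRep planeRep_frobenius)

variable {W : WeierstrassCurve ℤ} {hΔ : W.Δ ≠ 0} {p : ℕ} [Fact p.Prime] {N q : ℕ}

namespace AvoidFrame

variable (F : AvoidFrame W hΔ p N q) (n : ℕ) {r : ℕ} (qv : Fin r → ℕ)

local notation "κ" => ResidueField F.E.R

theorem natCast_res_eq_zero : (p : κ) = 0 := by
  rw [← map_natCast (residue F.E.R), residue_eq_zero_iff]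
  exact F.natCast_mem

theorem charP_res : CharP κ p := by
  obtain ⟨c, hc⟩ := CharP.exists κ
  rcases (Fact.out : p.Prime).eq_one_or_self_of_dvd c
      ((CharP.cast_eq_zero_iff κ c p).mp F.natCast_res_eq_zero) with rfl | rfl
  · exact absurd rfl (CharP.char_ne_one κ 1)
  · exact hc

theorem natCast_res_ne_zero {m : ℕ} (h : ¬ p ∣ m) : (m : κ) ≠ 0 := by
  have := F.charP_res
  rwa [Ne, CharP.cast_eq_zero_iff κ p]

theorem intCast_res (a : ℤ) : (a : κ) = F.φ (a : ZMod p) := (map_intCast F.φ a).symm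

/-- The residue map of the diamond ring. -/
def diamondToRes (n r : ℕ) : F.Diamond r n →+* κ :=
  Ideal.Quotient.lift (F.diamondRel r n) ((residue F.E.R).comp MvPowerSeries.constantCoeff)
    fun x hx => by
      rw [← RingHom.mem_ker]
      refine (Ideal.span_le.mpr ?_) hx
      rintro _ ⟨j, rfl⟩
      simp [RingHom.mem_ker]

theorem diamondToRes_mk (x : MvPowerSeries (Fin r) F.E.R) :
    F.diamondToRes n r (Ideal.Quotient.mk _ x) = residue F.E.R (MvPowerSeries.constantCoeff x) :=
  rfl

theorem diamondToRes_surjective : Function.Surjective (F.diamondToRes n r) := fun x => by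
  obtain ⟨c, rfl⟩ := residue_surjective x
  exact ⟨Ideal.Quotient.mk _ (MvPowerSeries.C c), by
    rw [diamondToRes_mk, MvPowerSeries.constantCoeff_C]⟩

theorem diamondToRes_algebraMap (c : F.E.R) :
    F.diamondToRes n r (algebraMap F.E.R (F.Diamond r n) c) = residue F.E.R c := by
  rw [show algebraMap F.E.R (F.Diamond r n) c =
    Ideal.Quotient.mk _ (MvPowerSeries.C c) from rfl, diamondToRes_mk,
    MvPowerSeries.constantCoeff_C]

theorem moduleFinite_diamond : Module.Finite F.E.R (F.Diamond r n) :=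
  Avoid.finite_dia (k := n + 1) F.natCast_mem

theorem isNoetherianRing_diamond : IsNoetherianRing (F.Diamond r n) :=
  have := F.moduleFinite_diamond n (r := r)
  isNoetherian_of_tower F.E.R (inferInstance : IsNoetherian F.E.R (F.Diamond r n))

theorem isAdicComplete_diamond :
    IsAdicComplete (maximalIdeal (F.Diamond r n)) (F.Diamond r n) :=
  have := F.moduleFinite_diamond n (r := r)
  RepTheory.isAdicComplete_maximalIdeal_of_finite F.E.R (F.Diamond r n)

/-- The values of the characters have `p`-power order. -/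
theorem exists_pow_charOfRoot {R : Type} [CommRing R] {l : ℕ} {x : R} {m : ℕ}
    (hx : x ^ p ^ m = 1) (u : (ZMod l)ˣ) : charOfRoot l x u ^ p ^ m = 1 := by
  classical
  rw [charOfRoot]
  split_ifs with h
  · obtain ⟨hg, hf⟩ := h.choose_spec.choose_spec
    obtain ⟨i, rfl⟩ := Subgroup.mem_zpowers_iff.mp (hg u)
    rw [map_zpow, ← zpow_natCast, ← zpow_mul, mul_comm, zpow_mul, zpow_natCast]
    have h1 : h.choose_spec.choose h.choose ^ p ^ m = 1 := Units.ext (by
      rw [Units.val_pow_eq_pow_val, hf, hx, Units.val_one])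
    rw [h1, one_zpow]
  · simp

theorem eps_pow (l : ℕ) (u : (ZMod l)ˣ) : F.eps n qv l u ^ p ^ (F.a + (n + 1)) = 1 := by
  classical
  rw [eps]
  split_ifs with h1 h2
  · refine exists_pow_charOfRoot ?_ u
    rw [← map_pow, pow_add, pow_mul, F.isPrimitiveRoot.pow_eq_one, one_pow, map_one]
  · refine exists_pow_charOfRoot ?_ u
    rw [pow_add, mul_comm, pow_mul, F.gen_pow, one_pow]
  · simp

theorem diamondToRes_eps (l : ℕ) (u : (ZMod l)ˣ) :
    F.diamondToRes n r (F.eps n qv l u : F.Diamond r n) = 1 := by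
  have := F.charP_res
  have : ExpChar κ p := ExpChar.prime Fact.out
  have h := congrArg (fun z : (F.Diamond r n)ˣ => F.diamondToRes n r z) (F.eps_pow n qv l u)
  simp only [Units.val_pow_eq_pow_val, map_pow, Units.val_one, map_one] at h
  exact ExpChar.pow_prime_pow_mul_eq_one_iff p (F.a + (n + 1)) 1 _ |>.mp (by rwa [mul_one]) |>
    fun h1 => by simpa using h1

theorem diamondToRes_kap (Q₀ : Finset ℕ) (l : ℕ) :
    F.diamondToRes n r (kap Q₀ (F.eps n qv) l : F.Diamond r n) = 1 := by
  rw [kap, Units.coe_prod, map_prod]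
  refine Finset.prod_eq_one fun s _ => ?_
  rw [epsAt]
  split_ifs with h
  · exact F.diamondToRes_eps n qv s _
  · simp

theorem diamondToRes_chi [NeZero (F.level qv)] (u : (ZMod (F.level qv))ˣ) :
    F.diamondToRes n r (F.chi n qv u : F.Diamond r n) = 1 := by
  rw [chi, sigProd_apply, Units.coe_prod, map_prod]
  refine Finset.prod_eq_one fun s _ => ?_
  rw [Units.val_pow_eq_pow_val, map_pow]
  unfold sigChar
  split_ifs with h
  · rw [MonoidHom.comp_apply, F.diamondToRes_eps n qv s _, one_pow]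
  · simp

theorem chi_pow [NeZero (F.level qv)] (u : (ZMod (F.level qv))ˣ) :
    F.chi n qv u ^ p ^ (F.a + (n + 1)) = 1 := by
  rw [chi, sigProd_apply, ← Finset.prod_pow]
  refine Finset.prod_eq_one fun s _ => ?_
  rw [← pow_mul, mul_comm, pow_mul]
  unfold sigChar
  split_ifs with h
  · rw [MonoidHom.comp_apply, F.eps_pow n qv s _, one_pow]
  · simp

/-- The operators commute on every coefficient module. -/
theorem ops_comm [NeZero (F.level qv)] (hqv : ∀ i, (qv i).Prime) (V : Type) [AddCommGroup V]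
    [Module (F.Diamond r n) V] (s t : F.Idx qv) (x : tH1 (gamChar (F.chi n qv)) V) :
    (F.ops n qv s).app V ((F.ops n qv t).app V x) =
      (F.ops n qv t).app V ((F.ops n qv s).app V x) := by
  rcases s with l | i <;> rcases t with l' | i' <;>
    simp only [ops, Sum.elim_inl, Sum.elim_inr, NatEnd.smul_app, map_smul]
  · rw [natHecke_comm _ l.2.1 l'.2.1, smul_comm]
  · rw [natHecke_comm _ l.2.1 (hqv i')]
  · rw [natHecke_comm _ (hqv i) l'.2.1]
  · rw [natHecke_comm _ (hqv i) (hqv i')]

theorem commAtRing_ops [NeZero (F.level qv)] (hqv : ∀ i, (qv i).Prime) :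
    CommAtRing (F.ops n qv) := fun s t => LinearMap.ext fun x => F.ops_comm n qv hqv _ s t x

theorem prime_props {l : ℕ} (hl : l.Prime) (h : l ∉ F.avoided) :
    l ≠ p ∧ l ≠ 2 ∧ (N ≠ 0 → ¬ l ∣ N) ∧ W.IsGoodPrimeFor l := by
  simp only [avoided, Finset.mem_insert, Finset.mem_union, Nat.mem_primeFactors, not_or] at h
  obtain ⟨h1, h2, h3, h4⟩ := h
  exact ⟨h1, h2, fun hN hd => h3 ⟨hl, hd, hN⟩,
    fun hd => h4 ⟨hl, Int.natCast_dvd.mp hd, Int.natAbs_ne_zero.mpr hΔ⟩⟩

end AvoidFrame

/-- An auxiliary prime `l ≡ 1 mod M` with `a_l ≢ l + 1`. -/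
theorem exists_nonEisenstein (D : LowerData W hΔ p N q) (F : AvoidFrame W hΔ p N q) (hp2 : p ≠ 2)
    {M : ℕ} (hM : M ≠ 0) (S : Finset ℕ) :
    ∃ l : ℕ, l.Prime ∧ l ∉ S ∪ F.avoided ∧ (l : ZMod M) = 1 ∧
      IsUnit ((W.apOfModel l : ResidueField F.E.R) - ((l : ResidueField F.E.R) + 1)) := by
  have : (W.map (Int.castRingHom ℚ)).IsElliptic :=
    ⟨by rw [WeierstrassCurve.map_Δ, isUnit_iff_ne_zero]; simpa using hΔ⟩
  obtain ⟨l, hl, hlS, -, -, hl1, hne⟩ := FLTA.LevelRaising.exists_good_prime_one_mod_ne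
    (W.map (Int.castRingHom ℚ)) (W := W) ⟨1, one_smul _ _⟩ Fact.out hp2 D.irreducible hM
    (S ∪ F.avoided)
  refine ⟨l, hl, hlS, hl1, IsUnit.mk0 _ fun h => hne ?_⟩
  apply F.φ.injective
  rw [map_add, map_one, map_natCast, map_intCast]
  exact sub_eq_zero.mp h

/-- The residual root at a prime of the tuple. -/
theorem twRoot (F : AvoidFrame W hΔ p N q) (hp2 : p ≠ 2) {n r : ℕ} {qv : Fin r → ℕ}
    (h : F.IsTWTuple n qv) (i : Fin r) :
    let α := residue F.E.R (F.alphaAt (qv i))
    let a := (W.apOfModel (qv i) : ResidueField F.E.R)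
    let l := ((qv i : ℕ) : ResidueField F.E.R)
    l = 1 ∧ α * α - a * α + l = 0 ∧ α + α - a ≠ 0 ∧ α * α - 1 ≠ 0 ∧ (l + 1) * α - a ≠ 0 := by
  intro α a l
  obtain ⟨hlp, hl2, -, hgood⟩ := F.prime_props (h.prime i) (h.notMem i)
  have hA := F.liesOver _ (h.prime i)
  have hσ := F.isFrobenius _ (h.prime i)
  have := F.charP_res
  have hl1 : l = 1 := by
    obtain ⟨c, hc⟩ := h.pow_dvd i
    have : qv i = p ^ (n + 1) * c + 1 := by have := (h.prime i).one_le; omega
    show ((qv i : ℕ) : ResidueField F.E.R) = 1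
    rw [this, Nat.cast_add, Nat.cast_mul, Nat.cast_pow, CharP.cast_eq_zero, zero_pow (by omega)]
    simp
  obtain ⟨ht, hd⟩ := planeRep_frobenius hΔ hp2 (h.prime i) hl2 hgood hlp hA hσ
  obtain ⟨α', β', hne, hcp⟩ := h.distinct i _ hA _ hσ
  have hcp0 : LinearMap.charpoly (F.rhobar.ρ (F.frob (qv i))) = X ^ 2 - C a * X + C l := by
    show LinearMap.charpoly (((planeRep hΔ (p := p)).baseChangeAlong F.φ).ρ (F.frob (qv i))) = _
    rw [RepTheory.residual_charpoly_baseChangeAlong,
      RepTheory.charpoly_of_finrank_two (planeRep hΔ (p := p)).finrank_eq, ht, hd]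
    simp [a, l]
  have hchoose := (F.split (F.frob (qv i))).choose_spec
  obtain ⟨β, hβ⟩ := hchoose
  have hα : α = (F.split (F.frob (qv i))).choose :=
    Function.surjInv_eq residue_surjective _
  rw [← hα] at hβ
  have hrel : ∀ x y : ResidueField F.E.R,
      X ^ 2 - C a * X + C l = (X - C x) * (X - C y) → x + y = a ∧ x * y = l := by
    intro x y hxy
    have h1 := congrArg (fun P => P.coeff 1) hxy
    have h0 := congrArg (fun P => P.coeff 0) hxy
    simp [coeff_X_pow, mul_sub, sub_mul, coeff_X, ← map_mul] at h1 h0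
    exact ⟨by linear_combination h1, h0.symm⟩
  obtain ⟨hs, hm⟩ := hrel α β (hcp0.symm.trans hβ)
  obtain ⟨hs', hm'⟩ := hrel α' β' (hcp0.symm.trans hcp)
  have hαβ : α ≠ β := by
    intro he
    apply hne
    have : (α' - β') ^ 2 = 0 := by
      linear_combination (α' + β' + a) * hs' - 4 * hm' - (α + β + a) * hs + 4 * hm +
        (α - β) * he
    exact sub_eq_zero.mp (sq_eq_zero_iff.mp this)
  refine ⟨hl1, by linear_combination α * hs - hm, fun h0 => hαβ (by linear_combination h0 - hs),
    fun h0 => hαβ ?_, fun h0 => hαβ ?_⟩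
  · linear_combination α * (hm.trans hl1) * (-1 : ResidueField F.E.R) + β * h0
  · rw [hl1] at h0
    linear_combination h0 - hs

/-- Parabolic homomorphisms kill elements of small trace. -/
theorem isParHom0_of_parabolic (D : LowerData W hΔ p N q) (F : AvoidFrame W hΔ p N q) (M : ℕ)
    (hNM : N ∣ M) (φ : Additive (Gamma0 M) →+ ResidueField F.E.R)
    (hφ : ModularCurve.Period.IsParabolicHom (Gamma0 M) φ) :
    FLTA.Gamma0.IsParHom0 (Gamma0 M) φ := by
  have h3 := D.three_le
  have hp : p.Prime := Fact.out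
  rcases h3.eq_or_lt with h | h
  · obtain ⟨t, ht, ht3, htN⟩ := D.elliptic h.symm
    refine isParHom0_of_isParabolicHom_elliptic ht (htN.trans hNM) ht3 (fun x hx => ?_) hφ
    rw [← two_mul] at hx
    exact (mul_eq_zero.mp hx).resolve_left (by
      exact_mod_cast F.natCast_res_ne_zero (m := 2) fun hd =>
        absurd (Nat.le_of_dvd two_pos hd) (by omega))
  · refine isParHom0_of_isParabolicHom ?_ hφ
    exact_mod_cast F.natCast_res_ne_zero (m := 12) fun hd => by
      rcases hp.dvd_mul.mp (show p ∣ 2 ^ 2 * 3 from hd) with h' | h'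
      · exact absurd (Nat.le_of_dvd two_pos (hp.dvd_of_dvd_pow h')) (by omega)
      · exact absurd (Nat.le_of_dvd (by norm_num) h') (by omega)

/-- The nonzero eigenclass at level `N` of all primes outside the avoided set. -/
theorem exists_level_eigen (D : LowerData W hΔ p N q) (F : AvoidFrame W hΔ p N q) (hp2 : p ≠ 2)
    [NeZero N] :
    ∃ v : Additive (Gamma0 N) →+ ResidueField F.E.R, v ≠ 0 ∧
      ∀ l : ℕ, l.Prime → l ∉ F.avoided →
        heckeHom (ResidueField F.E.R) N l v = (W.apOfModel l : ResidueField F.E.R) • v := by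
  obtain ⟨u, hu0, hu⟩ := exists_eigenclass (D.system.isResiduallyModularOfLevel hΔ hp2)
  refine ⟨F.φ.toAddMonoidHom.comp u, fun h => hu0 (AddMonoidHom.ext fun x => F.φ.injective ?_),
    fun l hl hlS => ?_⟩
  · rw [AddMonoidHom.zero_apply, map_zero]
    exact DFunLike.congr_fun h x
  · obtain ⟨hlp, -, hlN, hg⟩ := F.prime_props hl hlS
    rw [heckeHom_eq_int, heckeHom_comp, ← heckeHom_eq_int (𝕜 := ZMod p),
      hu l hl hg (hlN (NeZero.ne N)) hlp]
    ext x
    simp

end FLTA.RT

end
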