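import Fermat.Agent.RT.Main.ModulesPointClass
import Fermat.Agent.RT.Main.ModulesPointRep
import Fermat.Agent.RT.Main.ModulesAlg
import Fermat.Agent.RT.Main.ModulesRankInput
import Fermat.Agent.RT.Diamond.PointBridge
import Fermat.Agent.RT.RaiseBottomRegular
import Fermat.Agent.RT.LocalExtra
import Fermat.Agent.Galois.Cyclotomic
import Fermat.Agent.Carayol.MatchCompare

/-!
# (M4) The diamond identity at a point

At a Taylor–Wiles prime `l` an inertia element whose value at `ζ_l` corresponds to the chosen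
generator has trace `u + u⁻¹` at every point, `u` the value of `1 + y_i`.
-/

set_option autoImplicit false
set_option synthInstance.maxHeartbeats 400000
set_option maxHeartbeats 1600000

noncomputable section

open IsLocalRing WeierstrassCurve CongruenceSubgroup Polynomial

namespace FLTA.RT

open FLTA.Periods
open FLTA.LevelLowering (planeRep planeRep_frobenius)

variable {W : WeierstrassCurve ℤ} {hΔ : W.Δ ≠ 0} {p : ℕ} [Fact p.Prime] {N q : ℕ}

local notation "Γℚ" => AlgebraicClosure ℚ ≃ₐ[ℚ] AlgebraicClosure ℚ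
local notation "Qb" => AlgebraicClosure ℚ

/-- A finite domain of characteristic zero over `ℤ_p` is free. -/
theorem free_padicInt_of_finite (p : ℕ) [Fact p.Prime] (O : Type) [CommRing O] [IsDomain O]
    [CharZero O] [Algebra ℤ_[p] O] [Module.Finite ℤ_[p] O] : Module.Free ℤ_[p] O := by
  have hinj : Function.Injective (algebraMap ℤ_[p] O) :=
    RingHom.injective_iff_ker_eq_bot _ |>.mpr (by
      rw [eq_bot_iff]
      intro x hx
      by_contra hx0
      rw [Ideal.mem_bot] at hx0
      rw [PadicInt.unitCoeff_spec hx0, RingHom.mem_ker, map_mul, map_pow, map_natCast] at hx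
      exact pow_ne_zero _ (Nat.cast_ne_zero.mpr (Fact.out (p := p.Prime)).ne_zero)
        (((PadicInt.unitCoeff hx0).isUnit.map (algebraMap ℤ_[p] O)).mul_right_eq_zero.mp hx))
  have : FaithfulSMul ℤ_[p] O := (faithfulSMul_iff_algebraMap_injective _ _).mpr hinj
  have : Module.IsTorsionFree ℤ_[p] O := inferInstance
  exact Module.free_of_finite_type_torsion_free'

namespace AvoidFrame

variable (F : AvoidFrame W hΔ p N q) {n r : ℕ} {qv : Fin r → ℕ} [NeZero (F.level qv)]

theorem squarefree_level (D : LowerData W hΔ p N q) (h : F.IsTWTuple n qv) :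
    Squarefree (F.level qv) := by
  refine (Nat.squarefree_mul (Nat.Coprime.prod_right fun i _ => ?_)).mpr ⟨D.squarefree, ?_⟩
  · refine ((h.prime i).coprime_iff_not_dvd.mpr fun hd => h.notMem i ?_).symm
    simp [avoided, Nat.mem_primeFactors, h.prime i, hd, D.squarefree.ne_zero]
  · refine Finset.squarefree_prod_of_pairwise_isCoprime (fun i _ j _ hij => ?_)
      fun i _ => (h.prime i).squarefree
    exact Nat.coprime_iff_isRelPrime.mp ((Nat.coprime_primes (h.prime i) (h.prime j)).mpr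
      fun e => hij (h.injective e))

theorem twistSet_props_squarefree (D : LowerData W hΔ p N q) (h : F.IsTWTuple n qv) :
    ∀ s ∈ F.twistSet qv, s.Prime ∧ s ∣ F.level qv ∧ ¬ s * s ∣ F.level qv := by
  intro s hs
  have hsp := F.prime_twistSet D.prime h hs
  refine ⟨hsp, ?_, fun hd => hsp.ne_one
    (Nat.isUnit_iff.mp (F.squarefree_level D h s hd))⟩
  rcases Finset.mem_insert.mp hs with rfl | hs
  · exact D.dvd.trans (dvd_mul_right _ _)
  · obtain ⟨i, -, rfl⟩ := Finset.mem_image.mp hs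
    exact (Finset.dvd_prod_of_mem _ (Finset.mem_univ i)).trans (dvd_mul_left _ _)

/-- The character at a prime of the tuple sends a generator to `1 + y_i`. -/
theorem exists_eps_gen (D : LowerData W hΔ p N q) (h : F.IsTWTuple n qv) (i : Fin r) :
    ∃ g : (ZMod (qv i))ˣ, (F.eps n qv (qv i) g : F.Diamond r n) = F.gen n i := by
  classical
  have hx : F.gen n i ^ (qv i - 1) = 1 := by
    obtain ⟨c, hc⟩ := h.pow_dvd i
    rw [hc, pow_mul, F.gen_pow, one_pow]
  obtain ⟨g, -, hg⟩ := exists_charOfRoot_eq (h.prime i) hx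
  refine ⟨g, ?_⟩
  have hne : qv i ≠ q := fun e => h.notMem i <| by
    simp [avoided, e, Nat.mem_primeFactors, D.prime, D.dvd, D.squarefree.ne_zero]
  have hex : ∃ j, qv j = qv i := ⟨i, rfl⟩
  have hj : hex.choose = i := h.injective hex.choose_spec
  rw [eps, if_neg hne, dif_pos hex, hj]
  exact hg

end AvoidFrame

/-- Moving an eigen class along an equality of characters. -/
theorem exists_class_congr {L : ℕ} [NeZero L] {K : Type} [CommRing K] {χ χ' : (ZMod L)ˣ →* Kˣ}
    (e : χ = χ') (z : tH1 (gamChar χ) K) (hz : z ≠ 0) :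
    ∃ z' : tH1 (gamChar χ') K, z' ≠ 0 ∧
      (∀ (m : ℕ) (a b : K), a • (natHecke χ m).app K z = b • z →
        a • (natHecke χ' m).app K z' = b • z') ∧
      ∀ (m : ℕ) (b : K), (natHecke χ m).app K z = b • z → (natHecke χ' m).app K z' = b • z' := by
  subst e
  exact ⟨z, hz, fun _ _ _ h => h, fun _ _ h => h⟩

/-- A residual character of `p`-power order is trivial. -/
theorem residue_eq_one_of_pow_eq_one {O : Type} [CommRing O] [IsLocalRing O]
    (hp : (p : O) ∈ maximalIdeal O) {x : O} {m : ℕ} (hx : x ^ p ^ m = 1) : residue O x = 1 := by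
  have : CharP (ResidueField O) p := (CharP.charP_iff_prime_eq_zero Fact.out).mpr (by
    rw [← map_natCast (residue O), residue_eq_zero_iff]
    exact hp)
  have h : (residue O x - 1) ^ p ^ m = 0 := by
    rw [sub_pow_char_pow, ← map_pow, hx, map_one, one_pow, sub_self]
  exact sub_eq_zero.mp (pow_eq_zero_iff (pow_ne_zero _ (Fact.out : p.Prime).ne_zero) |>.mp h)

/-- Parabolic homomorphisms above level `N` kill the elements of small trace. -/
theorem isParHom0_of_parabolic_residue (D : LowerData W hΔ p N q) {k : Type} [Field k] [CharP k p]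
    {M : ℕ} (hNM : N ∣ M) (φ : Additive (Gamma0 M) →+ k)
    (hφ : ModularCurve.Period.IsParabolicHom (Gamma0 M) φ) :
    FLTA.Gamma0.IsParHom0 (Gamma0 M) φ := by
  have hp : p.Prime := Fact.out
  have hne : ∀ {m : ℕ}, ¬ p ∣ m → (m : k) ≠ 0 := fun {m} hm => by
    rwa [Ne, CharP.cast_eq_zero_iff k p]
  rcases D.three_le.eq_or_lt with h | h
  · obtain ⟨t, ht, ht3, htN⟩ := D.elliptic h.symm
    refine isParHom0_of_isParabolicHom_elliptic ht (htN.trans hNM) ht3 (fun x hx => ?_) hφ
    rw [← two_mul] at hx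
    exact (mul_eq_zero.mp hx).resolve_left (by
      exact_mod_cast hne (m := 2) fun hd => absurd (Nat.le_of_dvd two_pos hd) (by omega))
  · refine isParHom0_of_isParabolicHom ?_ hφ
    exact_mod_cast hne (m := 12) fun hd => by
      rcases hp.dvd_mul.mp (show p ∣ 2 ^ 2 * 3 from hd) with h' | h'
      · exact absurd (Nat.le_of_dvd two_pos (hp.dvd_of_dvd_pow h')) (by omega)
      · exact absurd (Nat.le_of_dvd (by norm_num) h') (by omega)

/-- The residual trace at a good prime of a representation congruent to `E[p]` at almost all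
primes. -/
theorem residual_trace_frob (D : LowerData W hΔ p N q) (F : AvoidFrame W hΔ p N q) (S : Finset ℕ)
    (hS : F.avoided ⊆ S) {O : Type} [CommRing O] [IsDomain O] [IsDiscreteValuationRing O]
    (ι : ResidueField F.E.R →+* ResidueField O) (ρ : GaloisRepAdic O) (hdet : ρ.DetIsCyclotomic p)
    (htr : ∀ l : ℕ, l.Prime → l ∉ S → ∀ A : ValuationSubring Qb, A.LiesOverPrime l →
      ∀ τ : Γℚ, A.IsFrobeniusAt τ l →
        residue O (ρ.trace τ) = (W.apOfModel l : ResidueField O))
    {r₀ : ℕ} (hr₀ : r₀.Prime) (hr₀S : r₀ ∉ F.avoided) {A : ValuationSubring Qb}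
    (hA : A.LiesOverPrime r₀) {σ : Γℚ} (hσ : A.IsFrobeniusAt σ r₀) :
    residue O (ρ.trace σ) = (W.apOfModel r₀ : ResidueField O) := by
  have hp : p.Prime := Fact.out
  have hp2 : p ≠ 2 := by have := D.three_le; omega
  have hchp : ∀ τ : Γℚ, (ρ.residual.ρ τ).charpoly =
      ((F.rhobar.baseChangeAlong ι).ρ τ).charpoly := by
    refine Carayol.residual_charpoly_eq_of_frobenius _ _ S fun l hl hlS A hA' τ hτ => ?_
    obtain ⟨hlp', hl2', -, hgood'⟩ := F.prime_props hl fun h' => hlS (hS h')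
    obtain ⟨ht, hd⟩ := planeRep_frobenius hΔ hp2 hl hl2' hgood' hlp' hA' hτ
    show _ = ((((planeRep hΔ (p := p)).baseChangeAlong F.φ).baseChangeAlong ι).ρ τ).charpoly
    rw [RepTheory.residual_charpoly_baseChangeAlong, RepTheory.residual_charpoly_baseChangeAlong,
      RepTheory.charpoly_of_finrank_two (planeRep hΔ (p := p)).finrank_eq, ht, hd,
      RepTheory.charpoly_residual, RepTheory.adic_charpoly_eq,
      LocalGalois.det_frobenius_eq _ hdet hl hp (Ne.symm hlp') hA' hτ]
    simp [htr l hl hlS A hA' τ hτ]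
  obtain ⟨hrp, hr2, -, hgood⟩ := F.prime_props hr₀ hr₀S
  obtain ⟨ht, hd⟩ := planeRep_frobenius hΔ hp2 hr₀ hr2 hgood hrp hA hσ
  have h1 := congrArg (fun P : (ResidueField O)[X] => P.coeff 1) (hchp σ)
  change _ = (((((planeRep hΔ (p := p)).baseChangeAlong F.φ).baseChangeAlong ι).ρ σ).charpoly).coeff 1
    at h1
  rw [RepTheory.residual_charpoly_baseChangeAlong, RepTheory.residual_charpoly_baseChangeAlong,
    RepTheory.charpoly_of_finrank_two (planeRep hΔ (p := p)).finrank_eq, ht, hd,
    RepTheory.charpoly_residual, RepTheory.adic_charpoly_eq] at h1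
  simp [coeff_X_pow] at h1
  simpa using h1

/-- The trace of inertia at a prime of the tuple from an eigen class with values in `O`. -/
theorem point_diamond_core (D : LowerData W hΔ p N q) (F : AvoidFrame W hΔ p N q) {n r : ℕ}
    {qv : Fin r → ℕ} [NeZero (F.level qv)] (h : F.IsTWTuple n qv) (i : Fin r)
    {g : (ZMod (qv i))ˣ} (hg : (F.eps n qv (qv i) g : F.Diamond r n) = F.gen n i)
    {σ : Γℚ} (hσ : σ ∈ (F.place (qv i)).inertiaSubgroupIn ℚ)
    (hσζ : ∀ ζ : Qb, ζ ^ qv i ^ 1 = 1 → σ ζ = ζ ^ (g : ZMod (qv i)).val)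
    {O : Type} [CommRing O] [IsDomain O] [IsDiscreteValuationRing O] [CharZero O]
    [Algebra ℤ_[p] O] [Module.Finite ℤ_[p] O] (hpO : (p : O) ∈ maximalIdeal O)
    (ι : ResidueField F.E.R →+* ResidueField O) (f : F.Diamond r n →+* O)
    (hfα : residue O (f (algebraMap F.E.R (F.Diamond r n) (F.alphaAt (qv i)))) =
      ι (residue F.E.R (F.alphaAt (qv i))))
    (cc : F.Idx qv → O) (hcres : ∀ s, residue O (cc s) = residue O (f (F.sys n qv s)))
    (z : tH1 (gamChar (charMap ((algebraMap O (FractionRing O)).comp f) (F.chi n qv)))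
      (FractionRing O)) (hz : z ≠ 0)
    (hzT : ∀ l : {l : ℕ // l.Prime ∧ l ∉ F.badSet qv},
      algebraMap O (FractionRing O) (f (kap (F.twistSet qv) (F.eps n qv) l.1 : F.Diamond r n)) •
          (natHecke (charMap ((algebraMap O (FractionRing O)).comp f) (F.chi n qv)) l.1).app
            (FractionRing O) z = algebraMap O (FractionRing O) (cc (.inl l)) • z)
    (hzU : (natHecke (charMap ((algebraMap O (FractionRing O)).comp f) (F.chi n qv)) (qv i)).app
      (FractionRing O) z = algebraMap O (FractionRing O) (cc (.inr i)) • z)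
    (ρ : GaloisRepAdic O) (hdet : ρ.DetIsCyclotomic p)
    (htr : ∀ (l : {l : ℕ // l.Prime ∧ l ∉ F.badSet qv}) (A : ValuationSubring Qb),
      A.LiesOverPrime l.1 → ∀ τ : Γℚ, A.IsFrobeniusAt τ l.1 → ρ.trace τ = cc (.inl l)) :
    f (F.gen n i) ^ 2 - ρ.trace σ * f (F.gen n i) + 1 = 0 := by
  classical
  have hp : p.Prime := Fact.out
  have hp2 : p ≠ 2 := by have := D.three_le; omega
  have : Fact (qv i).Prime := ⟨h.prime i⟩
  have : NeZero (qv i) := ⟨(h.prime i).ne_zero⟩
  have : Module.Free ℤ_[p] O := free_padicInt_of_finite p O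
  have : CharP (ResidueField O) p := (CharP.charP_iff_prime_eq_zero hp).mpr (by
    rw [← map_natCast (residue O), residue_eq_zero_iff]
    exact hpO)
  have hA := F.liesOver _ (h.prime i)
  have hFr := F.isFrobenius _ (h.prime i)
  let ε : ∀ l : ℕ, (ZMod l)ˣ →* Oˣ := fun l => charMap f (F.eps n qv l)
  have hε : ∀ l ∈ F.twistSet qv, ∀ v, residue O (ε l v : O) = 1 := fun l _ v =>
    residue_eq_one_of_pow_eq_one (p := p) hpO (m := F.a + (n + 1)) (by
      show (f (F.eps n qv l v : F.Diamond r n)) ^ _ = 1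
      rw [← map_pow, ← Units.val_pow_eq_pow_val, F.eps_pow, Units.val_one, map_one])
  have hchar : charMap ((algebraMap O (FractionRing O)).comp f) (F.chi n qv) =
      charMap (algebraMap O (FractionRing O)) (sigProd (F.level qv) (F.twistSet qv) ε) := by
    rw [AvoidFrame.chi, charMap_sigProd, charMap_sigProd]
    exact congrArg (sigProd (F.level qv) (F.twistSet qv))
      (funext fun l => MonoidHom.ext fun v => Units.ext (RingHom.comp_apply _ f _))
  obtain ⟨z', hz', htr₁, htr₂⟩ := exists_class_congr (K := FractionRing O) hchar z hz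
  let c : ℕ → O := fun l => if hl : l.Prime ∧ l ∉ F.badSet qv then cc (.inl ⟨l, hl⟩) else 0
  have hc : ∀ l : {l : ℕ // l.Prime ∧ l ∉ F.badSet qv}, c l.1 = cc (.inl l) :=
    fun l => dif_pos l.2
  have hcres' : ∀ l : {l : ℕ // l.Prime ∧ l ∉ F.badSet qv},
      residue O (c l.1) = ((W.apOfModel l.1 : ℤ) : ResidueField O) := fun l => by
    rw [hc l, hcres (.inl l)]
    show residue O (f ((W.apOfModel l.1 : ℤ) : F.Diamond r n)) = _
    rw [map_intCast, map_intCast]
  -- the trace of Frobenius at the prime of the tuple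
  have htF : residue O (ρ.trace (F.frob (qv i))) =
      ι (W.apOfModel (qv i) : ResidueField F.E.R) := by
    rw [residual_trace_frob D F (F.badSet qv) Finset.subset_union_left ι ρ hdet
      (fun l hl hlS A hA' τ hτ => by
        rw [htr ⟨l, hl, hlS⟩ A hA' τ hτ, ← hc ⟨l, hl, hlS⟩]
        exact hcres' ⟨l, hl, hlS⟩) (h.prime i) (h.notMem i) hA hFr, map_intCast]
  obtain ⟨hl1, hroot, hne, -, -⟩ := twRoot F hp2 h i
  have hαres : residue O (cc (.inr i)) = ι (residue F.E.R (F.alphaAt (qv i))) :=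
    (hcres (.inr i)).trans hfα
  have hαeq : residue O (cc (.inr i) * cc (.inr i) - ρ.trace (F.frob (qv i)) * cc (.inr i) + 1) =
      0 := by
    rw [map_add, map_sub, map_mul, map_mul, map_one, htF, hαres]
    have h' := congrArg ι hroot
    rw [hl1, map_add, map_sub, map_mul, map_mul, map_one, map_zero] at h'
    exact h'
  have ht4 : residue O (ρ.trace (F.frob (qv i))) ^ 2 ≠ 4 := by
    rw [htF, ← map_pow, ← map_ofNat ι 4]
    intro h4
    refine hne (pow_eq_zero_iff (n := 2) two_ne_zero |>.mp ?_)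
    linear_combination 4 * hroot + ι.injective h4 - 4 * hl1
  -- the auxiliary prime
  have hM0 : F.level qv * ∏ l ∈ F.twistSet qv, l ≠ 0 := mul_ne_zero (NeZero.ne _)
    (Finset.prod_ne_zero_iff.mpr fun l hl => (F.twistSet_props_squarefree D h l hl).1.ne_zero)
  obtain ⟨l₀, hl₀, hl₀S, hl₁, hu⟩ := exists_nonEisenstein D F hp2 hM0 (F.badSet qv)
  have hl₀b : l₀ ∉ F.badSet qv := fun h' => hl₀S (Finset.mem_union_left _ h')
  have hl₀c : residue O (c l₀) ≠ residue O ((l₀ + 1 : ℕ) : O) := by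
    rw [hcres' ⟨l₀, hl₀, hl₀b⟩, map_natCast, ← map_intCast ι, ← map_natCast ι]
    intro h'
    refine hu.ne_zero ?_
    rw [ι.injective h', Nat.cast_add, Nat.cast_one, sub_self]
  -- a root of unity
  obtain ⟨ζ₀, hζ₀⟩ : ∃ ζ : Qb, IsPrimitiveRoot ζ (qv i) :=
    haveI : NeZero ((qv i : ℕ) : Qb) := ⟨Nat.cast_ne_zero.mpr (h.prime i).ne_zero⟩
    ⟨_, (HasEnoughRootsOfUnity.exists_primitiveRoot Qb (qv i)).choose_spec⟩
  let ζ : Qbˣ := (hζ₀.isUnit (h.prime i).ne_zero).unit
  have hζ : IsPrimitiveRoot ζ (qv i) := IsPrimitiveRoot.coe_units_iff.mp hζ₀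
  have hw : σ (ζ : Qb) = (ζ : Qb) ^ (g : ZMod (qv i)).val :=
    hσζ _ (by rw [pow_one]; exact hζ₀.pow_eq_one)
  have hdvdi : p ∣ qv i - 1 := (dvd_pow_self p (Nat.succ_ne_zero n)).trans (h.pow_dvd i)
  have key := Diamond.trace_inertia_of_class (p := p) (q := qv i) (L := F.level qv) hp2 (O := O)
    hpO (F.twistSet qv) (F.twistSet_props_squarefree D h)
    (Finset.mem_insert_of_mem (Finset.mem_image.mpr ⟨i, Finset.mem_univ i, rfl⟩)) hdvdi ε hε
    (F.badSet qv) (Finset.mem_union_left _ (Finset.mem_insert_self _ _))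
    (fun l hl hd => F.mem_badSet_of_dvd D.prime D.dvd h hl (hd.mul_right _)) c (cc (.inr i)) z' hz'
    (fun l hl hlS => by
      rw [coe_kap_charMap f, hc ⟨l, hl, hlS⟩]
      exact htr₁ _ _ _ (hzT ⟨l, hl, hlS⟩))
    (htr₂ _ _ hzU) ρ hdet
    (fun l hl hlS A hA' τ hτ => (htr ⟨l, hl, hlS⟩ A hA' τ hτ).trans (hc ⟨l, hl, hlS⟩).symm)
    hA hFr hαeq ht4 hl₀ hl₀b hl₁ hl₀c
    (fun M hM => ⟨fun φ hφ => isParHom0_of_isParabolicHom_domain (by norm_num) hφ,
      fun φ hφ => isParHom0_of_parabolic_residue D ((dvd_mul_right N _).trans hM) φ hφ⟩)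
    hσ hζ hw
  rw [key]
  have hu' : (ε (qv i) g : O) = f (F.gen n i) := congrArg f hg
  have hinv : (ε (qv i) g : O) * (((ε (qv i) g)⁻¹ : Oˣ) : O) = 1 := Units.mul_inv _
  linear_combination (-(f (F.gen n i)) + (((ε (qv i) g)⁻¹ : Oˣ) : O)) * hu' - hinv

/-- (M4) At a Taylor–Wiles prime a fixed inertia element has the eigenvalue `1 + y_i` at every
point. -/
theorem point_diamond_of_class (D : LowerData W hΔ p N q) (F : AvoidFrame W hΔ p N q) {n r : ℕ}
    {qv : Fin r → ℕ} [NeZero (F.level qv)] (h : F.IsTWTuple n qv) (i : Fin r) :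
    ∃ σ ∈ (F.place (qv i)).inertiaSubgroupIn ℚ,
      ∀ (E' : RepTheory.FiniteDVRExt F.E.R) (ψ : F.Alg n qv →ₐ[F.E.R] E'.R)
        (ρ : GaloisRepAdic E'.R), F.IsPointRep n qv E' ψ ρ →
          let u := ψ (algebraMap (F.Diamond r n) (F.Alg n qv) (F.gen n i))
          u ^ 2 - ρ.trace σ * u + 1 = 0 := by
  have : Fact (qv i).Prime := ⟨h.prime i⟩
  have : NeZero (qv i) := ⟨(h.prime i).ne_zero⟩
  obtain ⟨g, hg⟩ := F.exists_eps_gen D h i
  have hgval : ¬ qv i ∣ (g : ZMod (qv i)).val := fun hd => g.ne_zero (by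
    rw [← ZMod.natCast_zmod_val (g : ZMod (qv i)), ZMod.natCast_eq_zero_iff]
    exact hd)
  obtain ⟨σ, hσ, hσζ⟩ :=
    Galois.exists_inertia_apply_eq_pow (qv i) (F.liesOver _ (h.prime i)) 1 _ hgval
  refine ⟨σ, hσ, fun E' ψ ρ hρ => ?_⟩
  obtain ⟨E'', cc, z, hz, hcl, hcres, hzT, hzU⟩ := exists_point_class D F h E' ψ
  let _ : Algebra ℤ_[p] E''.R := ((algebraMap E'.R E''.R).comp
    ((algebraMap F.E.R E'.R).comp (algebraMap ℤ_[p] F.E.R))).toAlgebra
  have : Module.Finite ℤ_[p] E''.R := by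
    refine RingHom.finite_algebraMap.mp ?_
    exact RingHom.Finite.comp (RingHom.finite_algebraMap.mpr E''.instModuleFinite)
      (RingHom.Finite.comp (RingHom.finite_algebraMap.mpr E'.instModuleFinite)
        (RingHom.finite_algebraMap.mpr F.E.instModuleFinite))
  have hpO : (p : E''.R) ∈ maximalIdeal E''.R := by
    rw [← map_natCast ((algebraMap E'.R E''.R).comp (algebraMap F.E.R E'.R)), RingHom.comp_apply]
    exact map_nonunit (algebraMap E'.R E''.R) _
      (map_nonunit (algebraMap F.E.R E'.R) _ F.natCast_mem)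
  have hfα : residue E''.R ((algebraMap E'.R E''.R).comp (F.pointHom n qv E' ψ)
      (algebraMap F.E.R (F.Diamond r n) (F.alphaAt (qv i)))) =
      (ResidueField.map (algebraMap E'.R E''.R)).comp (ResidueField.map (algebraMap F.E.R E'.R))
        (residue F.E.R (F.alphaAt (qv i))) := by
    have h1 : F.pointHom n qv E' ψ (algebraMap F.E.R (F.Diamond r n) (F.alphaAt (qv i))) =
        algebraMap F.E.R E'.R (F.alphaAt (qv i)) := ψ.commutes (F.alphaAt (qv i))
    rw [RingHom.comp_apply, h1, RingHom.comp_apply, ResidueField.map_residue,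
      ResidueField.map_residue]
  have key := point_diamond_core D F h i hg hσ hσζ hpO
    ((ResidueField.map (algebraMap E'.R E''.R)).comp (ResidueField.map (algebraMap F.E.R E'.R)))
    ((algebraMap E'.R E''.R).comp (F.pointHom n qv E' ψ)) hfα cc hcres z hz hzT (hzU i)
    (ρ.baseChangeAlong (algebraMap E'.R E''.R) E''.instIsLocalHom)
    (Avoid.detIsCyclotomic_baseChangeAlong _ _ hρ.1)
    (fun l A hA τ hτ => (RepTheory.trace_baseChangeAlong _ E''.instIsLocalHom ρ τ).trans
      ((congrArg (algebraMap E'.R E''.R) (hρ.2 l A hA τ hτ)).trans (hcl l).symm))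
  intro u
  refine E''.injective ?_
  rw [map_zero, map_add, map_sub, map_mul, map_pow, map_one,
    ← RepTheory.trace_baseChangeAlong (algebraMap E'.R E''.R) E''.instIsLocalHom ρ σ]
  exact key

end FLTA.RT

end
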