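import Fermat.Agent.RT.Main.ModulesRankOps
import Fermat.Agent.RT.Main.ModulesRankBottom
import Fermat.Agent.RT.DiscClasses

/-!
# (M3) The discriminant of Frobenius at `q` modulo the uniformiser

Modulo `ϖ` the character at `q` is trivial, so the level is `L₀ q` with the twists at the tuple
only; there `RT.Disc.disc_class_eq_zero` applies.
-/

set_option autoImplicit false
set_option synthInstance.maxHeartbeats 400000

noncomputable section

open IsLocalRing WeierstrassCurve CongruenceSubgroup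

namespace FLTA.RT

open FLTA.Periods

namespace Disc

/-- A character of a root which a map sends to `1` becomes trivial. -/
theorem map_charOfRoot_eq_one {R R' : Type} [CommRing R] [CommRing R'] (φ : R →+* R') (l : ℕ)
    {x : R} (hx : φ x = 1) (u : (ZMod l)ˣ) : φ (charOfRoot l x u : R) = 1 := by
  classical
  rw [charOfRoot]
  split_ifs with h
  · obtain ⟨hg, hf⟩ := h.choose_spec.choose_spec
    obtain ⟨i, rfl⟩ := Subgroup.mem_zpowers_iff.mp (hg u)
    rw [map_zpow]
    show ((Units.map (φ : R →* R') _ : R'ˣ) : R') = 1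
    rw [map_zpow, show Units.map (φ : R →* R') (h.choose_spec.choose h.choose) = 1 from
      Units.ext ((congrArg φ hf).trans hx), one_zpow, Units.val_one]
  · simp

/-- Scalars acting equally on the coefficients act equally on the classes. -/
theorem smul_eq_smul_of_forall {Γ : Type} [Group Γ] {R : Type} [CommRing R] {χ : Γ →* Rˣ}
    {V : Type} [AddCommGroup V] [Module R V] (a b : R) (h : ∀ v : V, a • v = b • v)
    (x : tH1 χ V) : a • x = b • x := by
  obtain ⟨f, rfl⟩ := tClass_surjective χ x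
  rw [← map_smul, ← map_smul]
  exact congrArg _ (Subtype.ext (funext fun γ => h _))

/-- Classes at equal levels for characters acting equally on the coefficients. -/
theorem exists_sameLevel {R : Type} [CommRing R] {L L' : ℕ} [NeZero L] [NeZero L'] (hL : L = L')
    (χ : (ZMod L)ˣ →* Rˣ) (χf : ∀ M : ℕ, (ZMod M)ˣ →* Rˣ) (χ' : (ZMod L')ˣ →* Rˣ)
    (hχ' : χf L' = χ') {V : Type} [AddCommGroup V] [Module R V]
    (h : ∀ u (v : V), (χ u : R) • v = (χf L u : R) • v) :
    ∃ e : tH1 (gamChar χ) V →ₗ[R] tH1 (gamChar χ') V, Function.Injective e ∧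
      ∀ l : ℕ, l.Prime → ∀ x,
        e ((natHecke χ l).app V x) = (natHecke χ' l).app V (e x) := by
  subst hL hχ'
  have h' : ∀ γ (v : V), (gamChar χ γ : R) • v = (gamChar (χf L) γ : R) • v := fun γ v => by
    rw [gamChar_apply, gamChar_apply, h]
  exact ⟨sameTwist h', Function.LeftInverse.injective (sameTwist_symm h'),
    fun l hl x => sameTwist_natHecke h' hl x⟩

end Disc

variable {W : WeierstrassCurve ℤ} {hΔ : W.Δ ≠ 0} {p : ℕ} [Fact p.Prime] {N q : ℕ}

namespace AvoidFrame

variable (F : AvoidFrame W hΔ p N q) (n : ℕ) {r : ℕ} (qv : Fin r → ℕ)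

/-- The ideal of the uniformiser in the diamond ring. -/
abbrev piIdeal (n r : ℕ) : Ideal (F.Diamond r n) :=
  (Ideal.span {MvPowerSeries.C F.ϖ}).map (Ideal.Quotient.mk (F.diamondRel r n))

theorem algebraMap_mem_piIdeal {c : F.E.R} (hc : c ∈ maximalIdeal F.E.R) :
    algebraMap F.E.R (F.Diamond r n) c ∈ F.piIdeal n r := by
  rw [F.maximalIdeal_eq, Ideal.mem_span_singleton'] at hc
  obtain ⟨d, rfl⟩ := hc
  refine Ideal.mem_map_of_mem _ (Ideal.mem_span_singleton'.mpr ⟨MvPowerSeries.C d, ?_⟩)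
  exact (map_mul _ _ _).symm

theorem residue_ζ : residue F.E.R F.ζ = 1 := by
  have := F.charP_res
  have : ExpChar (ResidueField F.E.R) p := ExpChar.prime Fact.out
  have h := congrArg (residue F.E.R) F.isPrimitiveRoot.pow_eq_one
  rw [map_pow, map_one] at h
  exact ExpChar.pow_prime_pow_mul_eq_one_iff p F.a 1 _ |>.mp (by rwa [mul_one]) |>
    fun h1 => by simpa using h1

/-- Modulo `ϖ` the character at `q` is trivial. -/
theorem mk_eps_self (u : (ZMod q)ˣ) :
    Ideal.Quotient.mk (F.piIdeal n r) (F.eps n qv q u : F.Diamond r n) = 1 := by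
  rw [eps, if_pos rfl]
  refine Disc.map_charOfRoot_eq_one (R := F.Diamond r n) (R' := F.Diamond r n ⧸ F.piIdeal n r)
    (Ideal.Quotient.mk (F.piIdeal n r)) q ?_ u
  rw [← map_one (Ideal.Quotient.mk (F.piIdeal n r)), Ideal.Quotient.eq,
    ← map_one (algebraMap F.E.R (F.Diamond r n)), ← map_sub]
  refine F.algebraMap_mem_piIdeal n ?_
  rw [← residue_eq_zero_iff, map_sub, F.residue_ζ, map_one, sub_self]

theorem smul_of_mk_eq {a b : F.Diamond r n}
    (h : Ideal.Quotient.mk (F.piIdeal n r) a = Ideal.Quotient.mk (F.piIdeal n r) b)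
    (v : F.Diamond r n ⧸ F.piIdeal n r) : a • v = b • v := by
  obtain ⟨v, rfl⟩ := Ideal.Quotient.mk_surjective v
  show Ideal.Quotient.mk (F.piIdeal n r) (a * v) = Ideal.Quotient.mk (F.piIdeal n r) (b * v)
  rw [map_mul, map_mul, h]

theorem mk_sigChar_self (L : ℕ) (u : (ZMod L)ˣ) :
    Ideal.Quotient.mk (F.piIdeal n r) (sigChar L (F.eps n qv q) u : F.Diamond r n) = 1 := by
  unfold sigChar
  split_ifs with h
  · exact F.mk_eps_self n qv _
  · simp

theorem mk_kap_twistSet (hq : q ∉ Finset.univ.image qv) (l : ℕ) :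
    Ideal.Quotient.mk (F.piIdeal n r) (kap (F.twistSet qv) (F.eps n qv) l : F.Diamond r n) =
      Ideal.Quotient.mk (F.piIdeal n r)
        (kap (Finset.univ.image qv) (F.eps n qv) l : F.Diamond r n) := by
  rw [kap, kap, twistSet, Finset.prod_insert hq, Units.val_mul, map_mul]
  unfold epsAt
  split_ifs with h
  · rw [F.mk_eps_self n qv, one_mul]
  · simp

theorem mk_chi [NeZero (F.level qv)] (hq : q ∉ Finset.univ.image qv) (u : (ZMod (F.level qv))ˣ) :
    Ideal.Quotient.mk (F.piIdeal n r) (F.chi n qv u : F.Diamond r n) =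
      Ideal.Quotient.mk (F.piIdeal n r)
        (sigProd (F.level qv) (Finset.univ.image qv) (F.eps n qv) u : F.Diamond r n) := by
  rw [chi, sigProd_apply, sigProd_apply, twistSet, Finset.prod_insert hq, Units.val_mul, map_mul,
    Units.val_pow_eq_pow_val, map_pow, F.mk_sigChar_self n qv, one_pow, one_mul]

/-- The diamond ring modulo `ϖ` is finite. -/
theorem finite_quotient_piIdeal : Finite (F.Diamond r n ⧸ F.piIdeal n r) := by
  have := F.moduleFinite_diamond n (r := r)
  let f : ResidueField F.E.R →+* F.Diamond r n ⧸ F.piIdeal n r :=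
    Ideal.Quotient.lift (maximalIdeal F.E.R)
      ((Ideal.Quotient.mk (F.piIdeal n r)).comp (algebraMap F.E.R (F.Diamond r n))) fun c hc => by
      rw [RingHom.comp_apply, Ideal.Quotient.eq_zero_iff_mem]
      exact F.algebraMap_mem_piIdeal n hc
  let _ : Algebra (ResidueField F.E.R) (F.Diamond r n ⧸ F.piIdeal n r) :=
    @RingHom.toAlgebra (ResidueField F.E.R) (F.Diamond r n ⧸ F.piIdeal n r) _ _ f
  have : IsScalarTower F.E.R (ResidueField F.E.R) (F.Diamond r n ⧸ F.piIdeal n r) :=
    IsScalarTower.of_algebraMap_eq fun c => rfl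
  have : Module.Finite (ResidueField F.E.R) (F.Diamond r n ⧸ F.piIdeal n r) :=
    Module.Finite.of_restrictScalars_finite F.E.R _ _
  exact Module.finite_of_finite (ResidueField F.E.R)

theorem residue_eq_of_diamondToRes {x y : F.Diamond r n}
    (h : F.diamondToRes n r x = F.diamondToRes n r y) :
    residue (F.Diamond r n) x = residue (F.Diamond r n) y := by
  have hker : RingHom.ker (F.diamondToRes n r) ≤ maximalIdeal (F.Diamond r n) :=
    IsLocalRing.le_maximalIdeal (RingHom.ker_ne_top _)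
  refine sub_eq_zero.mp ?_
  rw [← map_sub, residue_eq_zero_iff]
  exact hker (by rw [RingHom.mem_ker, map_sub, h, sub_self])

theorem diamondToRes_eq_zero {x : F.Diamond r n} (h : residue (F.Diamond r n) x = 0) :
    F.diamondToRes n r x = 0 := by
  have hker : RingHom.ker (F.diamondToRes n r) = maximalIdeal (F.Diamond r n) :=
    IsLocalRing.eq_maximalIdeal
      (RingHom.ker_isMaximal_of_surjective _ (F.diamondToRes_surjective n))
  rw [← RingHom.mem_ker, hker, ← residue_eq_zero_iff]
  exact h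

theorem sigProd_pow_set (L : ℕ) (Q : Finset ℕ) (u : (ZMod L)ˣ) :
    sigProd L Q (F.eps n qv) u ^ p ^ (F.a + (n + 1)) = 1 := by
  rw [sigProd_apply, ← Finset.prod_pow]
  refine Finset.prod_eq_one fun s _ => ?_
  rw [← pow_mul, mul_comm, pow_mul]
  unfold sigChar
  split_ifs with h
  · rw [MonoidHom.comp_apply, F.eps_pow n qv s _, one_pow]
  · simp

/-- Classes lift at every level keeping the prime without elliptic elements. -/
theorem hasLifts_sigProd (D : LowerData W hΔ p N q) (L : ℕ) (Q : Finset ℕ)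
    (hL : ∀ t : ℕ, t.Prime → t % 3 = 2 → t ∣ N → p = 3 → t ∣ L) :
    HasLifts (gamChar (sigProd L Q (F.eps n qv))) := by
  have hp : p.Prime := Fact.out
  have h3 := D.three_le
  have key : ∀ m : ℕ, m.Coprime p → IsUnit (m : F.Diamond r n) := fun m hm => by
    refine isUnit_natCast_of_coprime ?_ hm
    have h := (residue_eq_zero_iff _).mpr F.natCast_mem
    rw [← F.diamondToRes_algebraMap n (r := r), map_natCast] at h
    rw [mem_maximalIdeal, mem_nonunits_iff]
    intro hu
    exact (hu.map (F.diamondToRes n r)).ne_zero h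
  have hc : ∀ m : ℕ, 1 < m → m < p → m.Coprime p := fun m h1 h2 =>
    (hp.coprime_iff_not_dvd.mpr fun h => absurd (Nat.le_of_dvd (by omega) h) (by omega)).symm
  rcases h3.eq_or_lt with h | h
  · obtain ⟨t, ht, ht3, htN⟩ := D.elliptic h.symm
    refine hasLifts_subgroup _ (neg_one_mem_Gamma0 _) _
      (by exact_mod_cast key 2 (hc 2 one_lt_two (by omega)))
      (fun γ hγ => eq_one_of_pow_coprime (m := 2) (n := p ^ (F.a + (n + 1))) ?_ hγ
        (F.sigProd_pow_set n qv L Q _))
      (Or.inl (matU_smul_coset_ne ht (hL t ht ht3 htN h.symm) ht3))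
    exact (hc 2 one_lt_two (by omega)).pow_right _
  · have h5 : 5 ≤ p := by
      by_contra h5
      have h4 : p = 4 := by omega
      exact absurd hp (by rw [h4]; decide)
    exact hasLifts_gamChar _ hp h5
      (by exact_mod_cast key 2 (hc 2 one_lt_two (by omega)))
      (by exact_mod_cast key 3 (hc 3 (by omega) (by omega)))
      fun u => ⟨_, F.sigProd_pow_set n qv L Q u⟩

end AvoidFrame

set_option maxHeartbeats 800000 in
/-- **(M3)** The discriminant of Frobenius at `q` maps the module into `ϖ` times it. -/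
theorem disc_mem_piIdeal_smul (D : LowerData W hΔ p N q) (hq1 : (q : ZMod p) = 1)
    (hno : NoLowerSystem W p N q) (F : AvoidFrame W hΔ p N q)
    {n r : ℕ} {qv : Fin r → ℕ} [NeZero (F.level qv)] (h : F.IsTWTuple n qv)
    (A : Type) [CommRing A] [IsLocalRing A] [IsNoetherianRing A] [Algebra F.E.R A]
    (α : A →+* Module.End (F.Diamond r n) (F.Mod n qv)) (ρ : GaloisRepAdic A)
    (hρ : F.cond qv ρ) (hfrob : ∀ (l : {l : ℕ // l.Prime ∧ l ∉ F.badSet qv})
      (P : ValuationSubring (AlgebraicClosure ℚ)), P.LiesOverPrime l.1 →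
        ∀ σ, P.IsFrobeniusAt σ l.1 → α (ρ.trace σ) = F.opT n qv l)
    (x : F.Mod n qv) :
    α (ρ.trace (F.frob q) ^ 2 - 4 * (q : A)) x ∈
      F.piIdeal n r • (⊤ : Submodule (F.Diamond r n) (F.Mod n qv)) := by
  classical
  have hpp : p.Prime := Fact.out
  have hp2 : p ≠ 2 := fun e => absurd D.three_le (by omega)
  have hN : N ≠ 0 := D.squarefree.ne_zero
  have : Fact q.Prime := ⟨D.prime⟩
  have : NeZero q := ⟨D.prime.ne_zero⟩
  set Q := Finset.univ.image qv with hQdef
  set L₁ := N / q with hL₁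
  have hNq : N = L₁ * q := (Nat.div_mul_cancel D.dvd).symm
  have hL₁0 : NeZero L₁ := ⟨fun e => hN (by rw [hNq, e, zero_mul])⟩
  have hqL₁ : ¬ q ∣ L₁ := fun hd => D.prime.one_lt.ne'
    (Nat.isUnit_iff.mp (D.squarefree q (by rw [hNq]; exact mul_dvd_mul_right hd q)))
  have hmemQ : ∀ s ∈ Q, ∃ i, qv i = s := fun s hs => by
    obtain ⟨i, -, hi⟩ := Finset.mem_image.mp hs
    exact ⟨i, hi⟩
  have hQp : ∀ s ∈ Q, s.Prime ∧ s ∉ F.avoided := fun s hs => by
    obtain ⟨i, rfl⟩ := hmemQ s hs
    exact ⟨h.prime i, h.notMem i⟩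
  have hqav : q ∈ F.avoided := by
    simp [AvoidFrame.avoided, Nat.mem_primeFactors, D.prime, D.dvd, hN]
  have hqQ : q ∉ Q := fun hq => (hQp q hq).2 hqav
  have hprod : ∏ i, qv i = ∏ s ∈ Q, s := by
    rw [hQdef, Finset.prod_image fun i _ j _ e => h.injective e]
  set L₀ := L₁ * ∏ s ∈ Q, s with hL₀
  have hlev : F.level qv = L₀ * q := by
    rw [AvoidFrame.level, hprod, hL₀, hNq]; ring
  have hL₀0 : NeZero L₀ :=
    ⟨left_ne_zero_of_mul (b := q) (hlev ▸ NeZero.ne (F.level qv))⟩
  have hqL : Nat.Coprime q L₀ := D.prime.coprime_iff_not_dvd.mpr fun hd => by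
    rcases D.prime.dvd_mul.mp hd with h1 | h1
    · exact hqL₁ h1
    · obtain ⟨s, hs, hqs⟩ := Prime.exists_mem_finset_dvd (Nat.prime_iff.mp D.prime) h1
      exact hqQ ((Nat.prime_dvd_prime_iff_eq D.prime (hQp s hs).1).mp hqs ▸ hs)
  have hq3 : ∀ t : ℕ, t % 3 = 2 → p = 3 → t ≠ q := by
    rintro t ht rfl rfl
    have h1 := congrArg ZMod.val hq1
    rw [ZMod.val_natCast, ZMod.val_one] at h1
    omega
  have hell : ∀ t : ℕ, t.Prime → t % 3 = 2 → t ∣ N → p = 3 → t ∣ L₁ := fun t ht ht3 htN hp3 => by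
    rw [hNq] at htN
    exact (ht.dvd_mul.mp htN).resolve_right fun hd =>
      hq3 t ht3 hp3 ((Nat.prime_dvd_prime_iff_eq ht D.prime).mp hd)
  set R := F.Diamond r n
  have := F.isNoetherianRing_diamond n (r := r)
  have := F.isAdicComplete_diamond n (r := r)
  have := group_fg_Gamma0 (F.level qv)
  have := group_fg_Gamma0 (L₀ * q)
  set I := F.piIdeal n r with hI
  have : Finite (R ⧸ I) := F.finite_quotient_piIdeal n
  have : CharP (ResidueField R) p := by
    obtain ⟨c, hc⟩ := CharP.exists (ResidueField R)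
    have hp0 : (p : ResidueField R) = 0 := by
      have e : F.diamondToRes n r (p : R) = F.diamondToRes n r 0 := by
        rw [map_natCast, map_zero, F.natCast_res_eq_zero]
      simpa using F.residue_eq_of_diamondToRes n e
    rcases hpp.eq_one_or_self_of_dvd c ((CharP.cast_eq_zero_iff (ResidueField R) c p).mp hp0)
      with rfl | rfl
    · exact absurd rfl (CharP.char_ne_one (ResidueField R) 1)
    · exact hc
  let V := R ⧸ I
  obtain ⟨e, he, heT⟩ := Disc.exists_sameLevel (R := R) hlev (F.chi n qv)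
    (fun M => sigProd M Q (F.eps n qv)) (chiUp (sigProd L₀ Q (F.eps n qv)) q)
    (Disc.chiUp_sigProd_eq L₀ q Q _ fun s hs =>
      (Finset.dvd_prod_of_mem _ hs).mul_left L₁).symm (V := V)
    fun u v => F.smul_of_mk_eq n (F.mk_chi n qv hqQ u) v
  let pr : F.Idx qv → ℕ := Sum.elim (fun l => l.1) qv
  have hpr : ∀ s, (pr s).Prime := by rintro (l | i); exacts [l.2.1, h.prime i]
  have hprq : ∀ s, pr s ≠ q := by
    rintro (l | i) e
    · exact l.2.2 (Finset.mem_union_left _ (by rw [show l.1 = q from e]; exact hqav))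
    · exact hqQ (Finset.mem_image.mpr ⟨i, Finset.mem_univ _, e⟩)
  let c : F.Idx qv → Rˣ := Sum.elim (fun l => kap Q (F.eps n qv) l.1) fun _ => 1
  set T' : F.Idx qv → NatEnd (gamChar (chiUp (sigProd L₀ Q (F.eps n qv)) q)) :=
    fun s => ((c s : Rˣ) : R) • natHecke (chiUp (sigProd L₀ Q (F.eps n qv)) q) (pr s) with hT'
  have hop : ∀ (s : F.Idx qv) (z : tH1 (gamChar (F.chi n qv)) V),
      e ((F.ops n qv s).app V z) = (T' s).app V (e z) := by
    rintro (l | i) z
    · rw [AvoidFrame.ops, Sum.elim_inl, NatEnd.smul_app, map_smul, heT _ l.2.1]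
      exact Disc.smul_eq_smul_of_forall _ _
        (fun v => F.smul_of_mk_eq n (F.mk_kap_twistSet n qv hqQ l.1) v) _
    · rw [AvoidFrame.ops, Sum.elim_inr, heT _ (h.prime i)]
      rw [hT', NatEnd.smul_app]
      show _ = ((1 : Rˣ) : R) • _
      rw [Units.val_one, one_smul]
      rfl
  have hliftF := F.hasLifts_chi D n qv
  have hlift₀ : HasLifts (gamChar (sigProd L₀ Q (F.eps n qv))) :=
    F.hasLifts_sigProd n qv D L₀ Q fun t ht ht3 htN hp3 => (hell t ht ht3 htN hp3).mul_right _
  have hlift' : HasLifts (gamChar (chiUp (sigProd L₀ Q (F.eps n qv)) q)) := by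
    rw [Disc.chiUp_sigProd_eq L₀ q Q _ fun s hs => (Finset.dvd_prod_of_mem _ hs).mul_left L₁]
    exact F.hasLifts_sigProd n qv D _ Q fun t ht ht3 htN hp3 =>
      ((hell t ht ht3 htN hp3).mul_right _).mul_right _
  have hcommF := F.commAtRing_ops n qv h.prime
  have hcomm' : CommAtRing T' := Disc.commAtRing_scaled pr hpr c _
  have := finite_tH1 (χ := gamChar (F.chi n qv)) V
  have := finite_tH1 (χ := gamChar (chiUp (sigProd L₀ Q (F.eps n qv)) q)) V
  have := finite_eImage (χ := gamChar (F.chi n qv)) (e := F.idem n qv) R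
  have : Finite (tH1 (gamChar (chiUp (sigProd L₀ Q (F.eps n qv)) q)) V) := Disc.finite_tH1_set _ V
  let Ψ : F.Mod n qv →ₗ[R] tH1 (gamChar (chiUp (sigProd L₀ Q (F.eps n qv)) q)) V :=
    e.comp ((tH1Map _ I.mkQ).comp (eImage (F.idem n qv) R).subtype)
  letI : Module A (F.Mod n qv) := Module.compHom _ α
  have hmem : ∀ y, Ψ y ∈ eImage (localEnd T' (F.sys n qv)) V := fun y => by
    obtain ⟨z, hz⟩ := tH1Map_mem_eImage (e := localEnd (F.ops n qv) (F.sys n qv))
      (I.mkQ : R →ₗ[R] V) y.2
    rw [eImage, localEnd_app_finite hcomm' _ hlift']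
    refine ⟨e z, ?_⟩
    rw [← localIdem_comm_map (commute_opsAt hcommF hliftF V) (commute_opsAt hcomm' hlift' V)
      (F.sys n qv) e hop z, ← localEnd_app_finite hcommF _ hliftF, hz]
    rfl
  -- a power of the maximal ideal of `A` acts as zero
  let 𝔞 : Ideal A :=
    { carrier := {b | ∀ y, Ψ (α b y) = 0}
      zero_mem' := fun y => by simp
      add_mem' := fun {b b'} hb hb' y => by
        rw [map_add, LinearMap.add_apply, map_add, hb y, hb' y, add_zero]
      smul_mem' := fun b b' hb' y => by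
        rw [smul_eq_mul, mul_comm b b', map_mul, Module.End.mul_apply]
        exact hb' _ }
  obtain ⟨m, gen, hgen⟩ := Module.Finite.exists_fin (R := R) (M := F.Mod n qv)
  have : Finite (A ⧸ 𝔞) := by
    refine Finite.of_injective (fun b i => Ψ (α b.out (gen i))) fun b b' hbb => ?_
    rw [← Ideal.Quotient.mk_out b, ← Ideal.Quotient.mk_out b', Ideal.Quotient.eq]
    intro y
    have hker : Submodule.span R (Set.range gen) ≤
        LinearMap.ker (Ψ.comp (α (b.out - b'.out))) := by
      rw [Submodule.span_le]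
      rintro _ ⟨i, rfl⟩
      rw [SetLike.mem_coe, LinearMap.mem_ker, LinearMap.comp_apply, map_sub, LinearMap.sub_apply,
        map_sub, sub_eq_zero]
      exact congrFun hbb i
    exact LinearMap.mem_ker.mp (hker (hgen ▸ Submodule.mem_top))
  obtain ⟨k, hk⟩ := Disc.exists_pow_smul_eq_bot A (A ⧸ 𝔞)
  have hk' : ∀ b ∈ maximalIdeal A ^ k, ∀ y, Ψ (α b y) = 0 := fun b hb => by
    have h1 := Submodule.smul_mem_smul hb (Submodule.mem_top (x := (1 : A ⧸ 𝔞)))
    rw [hk, Submodule.mem_bot, Algebra.smul_def, mul_one] at h1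
    exact Ideal.Quotient.eq_zero_iff_mem.mp h1
  -- residual data
  have hα : ∀ s ∈ Q, residue R (algebraMap F.E.R R (F.alphaAt s)) ≠ 0 ∧
      residue R (algebraMap F.E.R R (F.alphaAt s)) *
        residue R (algebraMap F.E.R R (F.alphaAt s)) ≠ 1 := fun s hs => by
    obtain ⟨i, rfl⟩ := hmemQ s hs
    obtain ⟨hl1, hroot, -, hsq, -⟩ := twRoot F hp2 h i
    refine ⟨fun h0 => ?_, fun h1 => hsq ?_⟩
    · have := F.diamondToRes_eq_zero n h0
      rw [F.diamondToRes_algebraMap] at this
      rw [this, hl1] at hroot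
      simp at hroot
    · have := F.diamondToRes_eq_zero n (x := algebraMap F.E.R R (F.alphaAt (qv i)) *
        algebraMap F.E.R R (F.alphaAt (qv i)) - 1) (by rw [map_sub, map_mul, h1, map_one, sub_self])
      rwa [map_sub, map_mul, F.diamondToRes_algebraMap, map_one] at this
  have hres1 : ∀ x : R, F.diamondToRes n r x = 1 → residue R x = 1 := fun x hx => by
    rw [← map_one (residue R)]
    exact F.residue_eq_of_diamondToRes n (by rw [hx, map_one])
  have key : Ψ ((ρ.trace (F.frob q) ^ 2 - 4 * (q : A)) • x) = 0 := by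
    refine Disc.disc_class_eq_zero (W := W) hp2 D.ne hq1 hqL (L₁ := L₁) ?_
      (hno L₁ dvd_rfl) Q hL₀ (F.badSet qv) (Finset.mem_union_left _ (by simp [AvoidFrame.avoided]))
      (fun l hl hd => ?_) (fun M hM => ?_) (fun s => algebraMap F.E.R R (F.alphaAt s))
      (fun s hs => ⟨(hQp s hs).1, fun hd => ?_, hα s hs⟩) (F.eps n qv)
      (fun s u => hres1 _ (F.diamondToRes_eps n qv s u)) hlift₀ hlift' pr hpr hprq c ?_
      (F.sys n qv) (fun l hl hlS => ⟨.inl ⟨l, hl, hlS⟩, rfl, rfl, map_intCast _ _⟩)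
      (fun s hs => ?_) (fun v => ?_) ρ (F.cond_det hρ) Ψ.toAddMonoidHom hmem k hk'
      (fun s hs P hP τ hτ y => ?_) (F.liesOver q D.prime) (F.isFrobenius q D.prime) x
    · by_cases h12 : p ∣ 12
      · have hp3 : p = 3 := by
          rcases hpp.dvd_mul.mp (show p ∣ 2 ^ 2 * 3 from h12) with h' | h'
          · exact absurd ((Nat.prime_dvd_prime_iff_eq hpp Nat.prime_two).mp
              (hpp.dvd_of_dvd_pow h')) hp2
          · exact (Nat.prime_dvd_prime_iff_eq hpp Nat.prime_three).mp h'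
        obtain ⟨t, ht, ht3, htN⟩ := D.elliptic hp3
        exact Or.inr ⟨t, ht, ht3, hell t ht ht3 htN hp3⟩
      · exact Or.inl h12
    · rw [← hlev, AvoidFrame.level] at hd
      rcases hl.dvd_mul.mp hd with h1 | h1
      · exact Finset.mem_union_left _ (by simp [AvoidFrame.avoided, Nat.mem_primeFactors, hl, h1, hN])
      · rw [hprod] at h1
        obtain ⟨s, hs, hls⟩ := Prime.exists_mem_finset_dvd (Nat.prime_iff.mp hl) h1
        exact Finset.mem_union_right _ ((Nat.prime_dvd_prime_iff_eq hl (hQp s hs).1).mp hls ▸ hs)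
    · obtain ⟨l, hl, hlS, hl1, hu⟩ := exists_nonEisenstein D F hp2 hM (F.badSet qv)
      refine ⟨l, hl, fun hl' => hlS (Finset.mem_union_left _ hl'), hl1, fun e => hu.ne_zero ?_⟩
      have h1 := F.diamondToRes_eq_zero n (x := (W.apOfModel l : R) - ((l : R) + 1))
        (by rw [map_sub, map_intCast, map_add, map_natCast, map_one, e, sub_self])
      rwa [map_sub, map_intCast, map_add, map_natCast, map_one] at h1
    · exact (hQp s hs).2 (by
        simp [AvoidFrame.avoided, Nat.mem_primeFactors, (hQp s hs).1,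
          (hd.trans (Dvd.intro q hNq.symm)), hN])
    · rintro (l | i)
      · exact hres1 _ (F.diamondToRes_kap n qv Q l.1)
      · exact map_one _
    · obtain ⟨i, rfl⟩ := hmemQ s hs
      exact ⟨.inr i, rfl, rfl⟩
    · obtain ⟨v, rfl⟩ := Ideal.Quotient.mk_surjective v
      rw [← map_nsmul, Ideal.Quotient.eq_zero_iff_mem, nsmul_eq_mul,
        ← map_natCast (algebraMap F.E.R R)]
      exact I.mul_mem_right _ (F.algebraMap_mem_piIdeal n F.natCast_mem)
    · rcases s with l | i
      · show (T' (.inl l)).app V (Ψ y) = Ψ (α (ρ.trace τ) y)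
        rw [hfrob l P hP τ hτ]
        show _ = e (tH1Map _ I.mkQ (F.opT n qv l y : F.Mod n qv).1)
        rw [F.coe_opT n qv h.prime, ← (F.ops n qv (.inl l)).natural, hop]
        rfl
      · exact absurd (Finset.mem_union_right _ (Finset.mem_image.mpr ⟨i, Finset.mem_univ _, rfl⟩)) hs
  rw [Submodule.mem_smul_top_iff]
  refine mem_smul_of_map_mk_eq_zero hliftF (eqAtRing_localEnd_sq hcommF _) I (Subtype.prop _) ?_
  exact he (by rw [map_zero]; exact key)

end FLTA.RT

end
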