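import Fermat.Agent.RT.Main.ModulesRankOps
import Fermat.Agent.RT.Main.ModulesRankReduce
import Fermat.Agent.RT.PointAdjoin

/-!
# Eigenvectors of all the operators of a level module above a point

A point of the algebra of the good operators extends, after a finite extension, to the operators at
the primes of the tuple, with an eigenvector and residually the values of the system.
-/

set_option autoImplicit false
set_option synthInstance.maxHeartbeats 400000

noncomputable section

open IsLocalRing WeierstrassCurve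
open scoped Matrix

namespace FLTA.RT

open FLTA.Periods

variable {W : WeierstrassCurve ℤ} {hΔ : W.Δ ≠ 0} {p : ℕ} [Fact p.Prime] {N q : ℕ}

namespace AvoidFrame

variable (F : AvoidFrame W hΔ p N q) (n : ℕ) {r : ℕ} (qv : Fin r → ℕ) [NeZero (F.level qv)]

/-- An operator on the factor. -/
def opFac (s : F.Idx qv) : Module.End (F.Diamond r n) (F.Mod n qv) :=
  restrictEnd (F.idem n qv) (F.ops n qv s)

theorem coe_opFac (hqv : ∀ i, (qv i).Prime) (s : F.Idx qv) (x : F.Mod n qv) :
    ((F.opFac n qv s x : F.Mod n qv) : tH1 (gamChar (F.chi n qv)) (F.Diamond r n)) =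
      (F.ops n qv s).app (F.Diamond r n) x := by
  rw [opFac, restrictEnd, dif_pos fun x hx => F.ops_mem n qv hqv s hx]
  rfl

theorem commute_opFac (hqv : ∀ i, (qv i).Prime) (s t : F.Idx qv) :
    Commute (F.opFac n qv s) (F.opFac n qv t) :=
  LinearMap.ext fun x => Subtype.ext (by
    simp only [Module.End.mul_apply, F.coe_opFac n qv hqv]
    exact F.ops_comm n qv hqv _ _ _ _)

theorem exists_pow_opFac_sub (hqv : ∀ i, (qv i).Prime) (s : F.Idx qv) :
    ∃ k : ℕ, ∀ x : F.Mod n qv,
      ((F.opFac n qv s - F.sys n qv s • 1) ^ k) x ∈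
        maximalIdeal (F.Diamond r n) • (⊤ : Submodule (F.Diamond r n) (F.Mod n qv)) := by
  haveI := group_fg_Gamma0 (F.level qv)
  haveI := F.isNoetherianRing_diamond n (r := r)
  haveI := F.isAdicComplete_diamond n (r := r)
  haveI := finite_tH1 (χ := gamChar (F.chi n qv)) (F.Diamond r n)
  obtain ⟨k, hk⟩ := exists_pow_sub_mem (F.commAtRing_ops n qv hqv) (F.sys n qv) s
  refine ⟨k, fun x => ?_⟩
  rw [Submodule.mem_smul_top_iff]
  have hx : (x : tH1 (gamChar (F.chi n qv)) (F.Diamond r n)) ∈
      LinearMap.range (localIdem (opsAt (F.ops n qv) (F.Diamond r n)) (F.sys n qv)) := by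
    rw [← F.idem_app n qv hqv]
    exact x.2
  rw [coe_pow_sub_smul_one (f := opsAt (F.ops n qv) (F.Diamond r n) s)
    (F.coe_opFac n qv hqv s) _ k x]
  have h := hk _ hx
  rw [← F.idem_app n qv hqv] at h
  exact h

/-- An eigenvector of all the operators above a point, with the residual eigenvalues. -/
theorem exists_point_vec (hqv : ∀ i, (qv i).Prime) {d : ℕ}
    (b : Module.Basis (Fin d) (F.Diamond r n) (F.Mod n qv))
    (E' : RepTheory.FiniteDVRExt F.E.R) (ψ : F.Alg n qv →ₐ[F.E.R] E'.R) :
    ∃ (E'' : RepTheory.FiniteDVRExt E'.R) (c : F.Idx qv → E''.R) (v : Fin d → E''.R), v ≠ 0 ∧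
      (∀ l, c (.inl l) =
        algebraMap E'.R E''.R (ψ ⟨F.opT n qv l, Algebra.subset_adjoin ⟨l, rfl⟩⟩)) ∧
      (∀ s, residue E''.R (c s) = residue E''.R (algebraMap E'.R E''.R
        (ψ (algebraMap (F.Diamond r n) (F.Alg n qv) (F.sys n qv s))))) ∧
      ∀ s, (LinearMap.toMatrixAlgEquiv b (F.opFac n qv s)).map
          ((algebraMap E'.R E''.R).comp ((ψ : F.Alg n qv →+* E'.R).comp
            (algebraMap (F.Diamond r n) (F.Alg n qv)))) *ᵥ v = c s • v := by
  haveI := F.isNoetherianRing_diamond n (r := r)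
  haveI := F.moduleFinite_diamond n (r := r)
  obtain ⟨E'', c, v, hv0, hinl, heig⟩ := exists_point_eigen_family E'.R b (F.opFac n qv)
    (fun s t => (F.commute_opFac n qv hqv s t).eq) Sum.inl (F.opT n qv) (fun _ => rfl)
    (ψ : F.Alg n qv →+* E'.R)
  refine ⟨E'', c, v, hv0, hinl, fun s => ?_, heig⟩
  obtain ⟨k, hk⟩ := F.exists_pow_opFac_sub n qv hqv s
  refine residue_eq_of_eigen (O₀ := F.E.R)
    ((algebraMap E'.R E''.R).comp ((ψ : F.Alg n qv →+* E'.R).comp
      (algebraMap (F.Diamond r n) (F.Alg n qv)))) ?_ b _ _ hk hv0 (heig s)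
  rw [show ((algebraMap E'.R E''.R).comp ((ψ : F.Alg n qv →+* E'.R).comp
      (algebraMap (F.Diamond r n) (F.Alg n qv)))).comp (algebraMap F.E.R (F.Diamond r n)) =
      (algebraMap E'.R E''.R).comp (algebraMap F.E.R E'.R) from
    RingHom.ext fun a => congrArg (algebraMap E'.R E''.R) (ψ.commutes a)]
  exact RingHom.isLocalHom_comp _ _

end AvoidFrame

end FLTA.RT

end
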