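import Fermat.Agent.RT.Main.ModulesSetup
import Fermat.Agent.RT.Main.ModulesRankInput
import Fermat.Agent.RT.CoeffPoints
import Fermat.Agent.RT.Main.ModulesPointVec

/-!
# The eigenclass of a point of the algebra of a level module

A point `ψ` of `F.Alg n qv` over a finite extension has, after one further finite extension `E''`, a
nonzero class in twisted cohomology over `Frac E''` with the eigenvalues `ψ(T_l)` at the good primes
and, at the primes of the tuple, integral `U`-eigenvalues with the residues of the system.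
-/

set_option autoImplicit false
set_option synthInstance.maxHeartbeats 400000

noncomputable section

open IsLocalRing WeierstrassCurve

namespace FLTA.RT

open FLTA.Periods

variable {W : WeierstrassCurve ℤ} {hΔ : W.Δ ≠ 0} {p : ℕ} [Fact p.Prime] {N q : ℕ}

namespace AvoidFrame

variable (F : AvoidFrame W hΔ p N q) (n : ℕ) {r : ℕ} (qv : Fin r → ℕ) [NeZero (F.level qv)]

/-- The diamonds at a point. -/
def pointHom (E' : RepTheory.FiniteDVRExt F.E.R) (ψ : F.Alg n qv →ₐ[F.E.R] E'.R) :
    F.Diamond r n →+* E'.R :=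
  (ψ : F.Alg n qv →+* E'.R).comp (algebraMap (F.Diamond r n) (F.Alg n qv))

/-- The diamonds at a point, in the fraction field of a further extension. -/
def pointField (E' : RepTheory.FiniteDVRExt F.E.R) (ψ : F.Alg n qv →ₐ[F.E.R] E'.R)
    (E'' : RepTheory.FiniteDVRExt E'.R) : F.Diamond r n →+* FractionRing E''.R :=
  ((algebraMap E''.R (FractionRing E''.R)).comp (algebraMap E'.R E''.R)).comp
    (F.pointHom n qv E' ψ)

end AvoidFrame

/-- **The eigenclass of a point.** -/
theorem exists_point_class (D : LowerData W hΔ p N q) (F : AvoidFrame W hΔ p N q) {n r : ℕ}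
    {qv : Fin r → ℕ} [NeZero (F.level qv)] (h : F.IsTWTuple n qv)
    (E' : RepTheory.FiniteDVRExt F.E.R) (ψ : F.Alg n qv →ₐ[F.E.R] E'.R) :
    ∃ (E'' : RepTheory.FiniteDVRExt E'.R) (c : F.Idx qv → E''.R)
      (z : tH1 (gamChar (charMap (F.pointField n qv E' ψ E'') (F.chi n qv)))
        (FractionRing E''.R)),
      z ≠ 0 ∧
      (∀ l, c (.inl l) =
        algebraMap E'.R E''.R (ψ ⟨F.opT n qv l, Algebra.subset_adjoin ⟨l, rfl⟩⟩)) ∧
      (∀ s, residue E''.R (c s) =
        residue E''.R (algebraMap E'.R E''.R (F.pointHom n qv E' ψ (F.sys n qv s)))) ∧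
      (∀ l : {l : ℕ // l.Prime ∧ l ∉ F.badSet qv},
        F.pointField n qv E' ψ E'' (kap (F.twistSet qv) (F.eps n qv) l.1 : F.Diamond r n) •
            (natHecke (charMap (F.pointField n qv E' ψ E'') (F.chi n qv)) l.1).app
              (FractionRing E''.R) z =
          algebraMap E''.R (FractionRing E''.R) (c (.inl l)) • z) ∧
      ∀ i, (natHecke (charMap (F.pointField n qv E' ψ E'') (F.chi n qv)) (qv i)).app
          (FractionRing E''.R) z = algebraMap E''.R (FractionRing E''.R) (c (.inr i)) • z := by
  classical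
  have hp2 : p ≠ 2 := fun hp => by have := D.three_le; omega
  haveI := group_fg_Gamma0 (F.level qv)
  haveI := F.isNoetherianRing_diamond n (r := r)
  haveI := F.isAdicComplete_diamond n (r := r)
  haveI := F.moduleFinite_diamond n (r := r)
  obtain ⟨b⟩ := exists_basis_mod D F hp2 h rfl
  obtain ⟨E'', c, v, hv0, hinl, hres, heig⟩ := F.exists_point_vec n qv h.prime b E' ψ
  let _ : Algebra (F.Diamond r n) E''.R :=
    ((algebraMap E'.R E''.R).comp (F.pointHom n qv E' ψ)).toAlgebra
  let _ : Algebra F.E.R E''.R := ((algebraMap E'.R E''.R).comp (algebraMap F.E.R E'.R)).toAlgebra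
  have : IsScalarTower F.E.R (F.Diamond r n) E''.R := IsScalarTower.of_algebraMap_eq (R := F.E.R) (S := F.Diamond r n) (A := E''.R) fun a =>
    (congrArg (algebraMap E'.R E''.R) (ψ.commutes a).symm :
      algebraMap E'.R E''.R (algebraMap F.E.R E'.R a) = algebraMap E'.R E''.R
        (ψ (algebraMap (F.Diamond r n) (F.Alg n qv) (algebraMap F.E.R (F.Diamond r n) a))))
  have : Module.Finite F.E.R E''.R :=
    RingHom.finite_algebraMap.mp ((RingHom.finite_algebraMap.mpr E''.instModuleFinite).comp
      (RingHom.finite_algebraMap.mpr E'.instModuleFinite))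
  have : Module.Finite (F.Diamond r n) E''.R := Module.Finite.of_restrictScalars_finite F.E.R _ _
  have hκ : ∀ (s : F.Idx qv) (x : tH1 (gamChar (F.chi n qv)) (F.Diamond r n)),
      (F.ops n qv s).app (F.Diamond r n) x =
        Sum.elim (fun l => (kap (F.twistSet qv) (F.eps n qv) l.1 : F.Diamond r n)) (fun _ => 1) s •
          (natHecke (F.chi n qv) (Sum.elim (fun l => l.1) qv s)).app (F.Diamond r n) x := by
    rintro (l | i) x
    · exact NatEnd.smul_app _ _ x
    · exact (one_smul _ _).symm
  obtain ⟨z, hz0, hz⟩ := exists_base_class_of_vec (F.hasLifts_chi D n qv)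
    (eqAtRing_localEnd_sq (F.commAtRing_ops n qv h.prime) _) b _ _ (F.opFac n qv)
    (fun s x => (F.coe_opFac n qv h.prime s x).trans (hκ s x))
    (F.pointField n qv E' ψ E'') rfl hv0 c heig
  refine ⟨E'', c, z, hz0, hinl, hres, fun l => hz (.inl l), fun i => ?_⟩
  have h1 := hz (.inr i)
  simp only [Sum.elim_inr, map_one, one_smul] at h1
  exact h1

end FLTA.RT

end
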