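import Fermat.Agent.RT.DiscPush
import Fermat.Agent.RT.DiscTwist
import Fermat.Agent.RT.CoeffChain

/-!
# Twisting preserves the vanishing of both traces at a prime off the twisted ones

A class at level `L p`, `p ∤ L`, for `∏ (ε r ∘ a)²` killed by both corestrictions to level `L` gives
a homomorphism of `Γ₀(M p)`, `M ∣ L ∏ r`, with the normalised eigenvalues and zero traces.
-/

set_option autoImplicit false
set_option linter.style.haveILetI false

noncomputable section

open CongruenceSubgroup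
open scoped MatrixGroups

universe u

namespace FLTA.RT.Disc

open FLTA.Periods FLTA.LevelRaising

variable {p : ℕ} [Fact p.Prime]

section sides

variable {M : ℕ} {R : Type u} [CommRing R] {K : ℕ}
  [((Gamma0 (M * p)).subgroupOf (Gamma0 M)).FiniteIndex]

/-- Both corestrictions vanish as soon as both traces do. -/
theorem degDown_eq_zero_of_trSys (hpM : Nat.Coprime p M) (hKM : M ∣ K) (hpK : Nat.Coprime p K)
    (χ : (ZMod M)ˣ →* Rˣ) {V : Type u} [AddCommGroup V] [Module R V]
    (x : tH1 (gamChar (chiUp χ p)) V)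
    (hx : ∀ b, (trSys hpM hKM (isTrans_sideTrans (q := p) hpK b) χ).op V x = 0) (l : Fin 2) :
    degDown hpM χ V l x = 0 := by
  fin_cases l
  · show degCor χ V x = 0
    have h := op_eq_trSys hpM hKM (isTrans_sideTrans (q := p) hpK false) χ 1 conj_one (Equiv.refl _)
      (corSys χ) (fun y => by simp [corSys, sideMat]) (fun y => rfl) x
    rw [h, hx, smul_zero]
  · show degCor χ V (degAL χ V hpM x) = 0
    have h := op_eq_trSys hpM hKM (isTrans_sideTrans (q := p) hpK true) χ (alGamma' hpM)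
      (conj_alGamma' hpM) (Equiv.prodUnique _ Unit) ((corSys χ).comp (alSys χ hpM))
      (fun y => by
        rw [TSys.comp_rep, map_mul, ← mul_assoc, ← alGL_eq]
        rfl)
      (fun y => by rw [TSys.comp_w]; exact mul_one _) x
    rw [TSys.op_comp] at h
    rw [h, hx, smul_zero]

omit [((Gamma0 (M * p)).subgroupOf (Gamma0 M)).FiniteIndex] in
/-- A vanishing transfer gives vanishing traces of the homomorphism. -/
theorem sum_transCocyc_eq_zero (hpM : Nat.Coprime p M) (χ : (ZMod M)ˣ →* Rˣ) {V : Type u}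
    [AddCommGroup V] [Module R V] (htriv : ∀ γ (v : V), (gamChar χ γ : R) • v = v)
    (htriv' : ∀ γ (v : V), (gamChar (chiUp χ p) γ : R) • v = v) {ι : Type} [Fintype ι] {b : Bool}
    {t : ι → SL(2, ℤ)} (hKM : M ∣ K) (ht : IsTrans p b K t) (y : tH1 (gamChar (chiUp χ p)) V)
    (hy : (trSys hpM hKM ht χ).op V y = 0) (γ : Gamma0 M) :
    ∑ i, tH1EquivHom htriv' y (Additive.ofMul (transCocyc hpM hKM ht γ i)) = 0 := by
  obtain ⟨f, rfl⟩ := tClass_surjective _ y
  have h := DFunLike.congr_fun (congrArg (tH1EquivHom htriv) hy) (Additive.ofMul γ)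
  rw [map_zero, AddMonoidHom.zero_apply, TSys.op_class] at h
  refine Eq.trans (Finset.sum_congr rfl fun i _ => ?_) h
  show _ = ((trSys hpM hKM ht χ).w i : R) • f.1 (transCocyc hpM hKM ht γ i)
  rw [trSys_w, Units.val_one, one_smul]
  rfl

end sides

section chain

variable {F : Type u} [Field F]

theorem chiUp_sigProd {L : ℕ} {Q : Finset ℕ} (ε : ∀ r : ℕ, (ZMod r)ˣ →* Fˣ)
    (hQ : ∀ r ∈ Q, r ∣ L) (m : ℕ) : chiUp (sigProd L Q ε) m = sigProd (L * m) Q ε :=
  MonoidHom.ext fun y => by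
    show sigProd L Q ε (ZMod.unitsMap (dvd_mul_right L m) y) = _
    rw [sigProd_apply, sigProd_apply]
    exact Finset.prod_congr rfl fun r hr => by rw [sigChar_unitsMap _ (hQ r hr)]

variable {r : ℕ} [Fact r.Prime]

/-- The twist between named levels is injective. -/
theorem twistSys_injective {A A' B : ℕ} (hA : A = A' * r) (hA0 : A' ≠ 0) (hcop : A'.Coprime r)
    (hrA : r ∣ A) (hB : B = A * r) (ε : (ZMod r)ˣ →* Fˣ) (hε : ε ≠ 1) (χ : (ZMod A)ˣ →* Fˣ)
    (χ' : (ZMod B)ˣ →* Fˣ)
    (hχ : ∀ γ : Gamma0 B, gamChar χ (inclHom A r (castGamma hB γ)) =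
      gamChar χ' γ * ε (aMod A r (castGamma hB γ)) ^ 2)
    (x : (ZMod A)ˣ) (hx : ZMod.unitsMap (Dvd.intro r hA.symm) x = 1) (hχx : χ x ≠ 1)
    [CharZero F] :
    Function.Injective ((twistSys hrA hB ε χ χ' hχ).op F) := by
  subst hB
  intro y z hyz
  have hop : ∀ w, (twistSys hrA rfl ε χ χ' hχ).op F w = twistH (V := F) hrA ε χ χ' hχ w :=
    fun w => twistSys_op hrA ε χ χ' hχ w
  rw [hop, hop] at hyz
  exact twistH_injective hA hA0 hcop hrA ε hε χ χ' hχ x hx hχx hyz

/-- The twist between named levels and the Hecke operators. -/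
theorem twistSys_natHecke {A B : ℕ} [NeZero A] [NeZero B] (hrA : r ∣ A) (hB : B = A * r)
    (ε : (ZMod r)ˣ →* Fˣ) (χ : (ZMod A)ˣ →* Fˣ) (χ' : (ZMod B)ˣ →* Fˣ)
    (hχ : ∀ γ : Gamma0 B, gamChar χ (inclHom A r (castGamma hB γ)) =
      gamChar χ' γ * ε (aMod A r (castGamma hB γ)) ^ 2)
    {l : ℕ} (hl : l.Prime) (hlA : ¬ l ∣ A) (hlB : ¬ l ∣ B) (hlr : l.Coprime r)
    (hχl : χ (ZMod.unitOfCoprime l (hl.coprime_iff_not_dvd.mpr hlA))
      = χ' (ZMod.unitOfCoprime l (hl.coprime_iff_not_dvd.mpr hlB))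
        * ε (ZMod.unitOfCoprime l hlr) ^ 2)
    (y : tH1 (gamChar χ) F) :
    (twistSys hrA hB ε χ χ' hχ).op F ((natHecke χ l).app F y) =
      (((ε (ZMod.unitOfCoprime l hlr))⁻¹ : Fˣ) : F) •
        (natHecke χ' l).app F ((twistSys hrA hB ε χ χ' hχ).op F y) := by
  subst hB
  haveI := Fact.mk hl
  haveI : NeZero l := ⟨hl.ne_zero⟩
  rw [natHecke_of_not_dvd χ hlA, natHecke_of_not_dvd χ' hlB]
  show (twistSys hrA rfl ε χ χ' hχ).op F ((isWeight_T χ hlA _).op F y) =
    _ • (isWeight_T χ' hlB _).op F ((twistSys hrA rfl ε χ χ' hχ).op F y)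
  have hop : ∀ w, (twistSys hrA rfl ε χ χ' hχ).op F w = twistH (V := F) hrA ε χ χ' hχ w :=
    fun w => twistSys_op hrA ε χ χ' hχ w
  rw [hop, hop]
  exact twistH_opT hrA ε χ χ' hχ hlA hlB (coprime_of_not_dvd hlA) (coprime_of_not_dvd hlB) hlr hχl
    (isWeight_T χ hlA _) (isWeight_T χ' hlB _) y

end chain

/-- A unit `≡ 1 (mod A')` with prescribed image modulo a prime `r ∤ A'`. -/
theorem exists_unit_lift {A A' r : ℕ} (hA : A = A' * r) (hcop : A'.Coprime r) (v : (ZMod r)ˣ) :
    ∃ x : (ZMod A)ˣ, ZMod.unitsMap (Dvd.intro r hA.symm) x = 1 ∧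
      ZMod.unitsMap (Dvd.intro_left A' hA.symm) x = v := by
  subst hA
  let e := ZMod.chineseRemainder hcop
  refine ⟨(Units.mapEquiv e.toMulEquiv).symm (MulEquiv.prodUnits.symm (1, v)), ?_, ?_⟩
  · refine Units.ext ?_
    have := RingHom.congr_fun (RingHom.ext_zmod ((RingHom.fst _ _).comp e.toRingHom)
      (ZMod.castHom (dvd_mul_right A' r) (ZMod A'))) (e.symm (1, (v : ZMod r)))
    show ZMod.castHom (dvd_mul_right A' r) (ZMod A') (e.symm (1, (v : ZMod r))) = 1
    rw [← this, RingHom.comp_apply, RingEquiv.toRingHom_eq_coe, RingHom.coe_coe,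
      RingEquiv.apply_symm_apply]
    rfl
  · refine Units.ext ?_
    have := RingHom.congr_fun (RingHom.ext_zmod ((RingHom.snd _ _).comp e.toRingHom)
      (ZMod.castHom (dvd_mul_left r A') (ZMod r))) (e.symm (1, (v : ZMod r)))
    show ZMod.castHom (dvd_mul_left r A') (ZMod r) (e.symm (1, (v : ZMod r))) = v
    rw [← this, RingHom.comp_apply, RingEquiv.toRingHom_eq_coe, RingHom.coe_coe,
      RingEquiv.apply_symm_apply]
    rfl

variable {F : Type u} [Field F] [CharZero F]

/-- **Iterated twisting with both traces zero.** -/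
theorem exists_realisation_traces (Q : Finset ℕ) :
    ∀ (L : ℕ) [NeZero L] [NeZero (L * p)]
      [((Gamma0 (L * p)).subgroupOf (Gamma0 L)).FiniteIndex] (hpL : Nat.Coprime p L)
      (ε : ∀ r : ℕ, (ZMod r)ˣ →* Fˣ), (∀ r ∈ Q, r.Prime ∧ r ∣ L ∧ ¬ r * r ∣ L) →
      (∀ r ∈ Q, ε r ^ 2 = 1 → ε r = 1) →
      ∀ χ : (ZMod L)ˣ →* Fˣ, χ = sigProd L Q ε →
      ∀ y : tH1 (gamChar (chiUp χ p)) F, y ≠ 0 → (∀ l, degDown hpL χ F l y = 0) →
      ∀ lam : ℕ → F, ∀ S : Set ℕ,
        (∀ l : ℕ, l.Prime → l ∈ S → ¬ l ∣ L * p →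
          (kap Q ε l : F) • (natHecke (chiUp χ p) l).app F y = lam l • y) →
      ∃ (M : ℕ) (_ : NeZero M) (_ : NeZero (M * p)) (hpM : Nat.Coprime p M),
        M ∣ L * (∏ r ∈ Q, r) ∧ ∃ u : Additive (Gamma0 (M * p)) →+ F, u ≠ 0 ∧
          (∀ l : ℕ, l.Prime → l ∈ S → ¬ l ∣ L * p → heckeHom F (M * p) l u = lam l • u) ∧
          ∀ (b : Bool) (γ : Gamma0 M), ∑ i, u (Additive.ofMul
            (transCocyc hpM dvd_rfl (isTrans_sideTrans (q := p) hpM b) γ i)) = 0 := by
  classical
  induction Q using Finset.induction_on with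
  | empty =>
    intro L _ _ _ hpL ε _ _ χ hχ y hy hdeg lam S hlam
    have htriv : ∀ γ (v : F), (gamChar χ γ : F) • v = v := fun γ v => by
      rw [hχ, gamChar_apply, sigProd_apply, Finset.prod_empty, Units.val_one, one_smul]
    refine ⟨L, inferInstance, inferInstance, hpL, by simp,
      tH1EquivHom (triv_chiUp (q := p) χ htriv) y, fun h => hy ?_, fun l hl hlS hlL => ?_,
      fun b γ => ?_⟩
    · exact (LinearEquiv.map_eq_zero_iff _).mp h
    · have h := congrArg (tH1EquivHom (triv_chiUp (q := p) χ htriv)) (hlam l hl hlS hlL)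
      rwa [map_smul, map_smul, show kap ∅ ε l = 1 from Finset.prod_empty, Units.val_one, one_smul,
        tH1EquivHom_natHecke _ _ hl] at h
    · exact sum_transCocyc_eq_zero hpL χ htriv _ dvd_rfl _ y
        (trSys_op_eq_zero hpL dvd_rfl _ χ y hdeg) γ
  | @insert r s hrs ih =>
    intro L _ _ _ hpL ε hQ hodd χ hχ y hy hdeg lam S hlam
    obtain ⟨hrp, hrL, hrr⟩ := hQ r (Finset.mem_insert_self r s)
    have hs : ∀ t ∈ s, t.Prime ∧ t ∣ L ∧ ¬ t * t ∣ L := fun t ht =>
      hQ t (Finset.mem_insert_of_mem ht)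
    have hodd' : ∀ t ∈ s, ε t ^ 2 = 1 → ε t = 1 := fun t ht =>
      hodd t (Finset.mem_insert_of_mem ht)
    by_cases hε : ε r = 1
    · have hχ' : χ = sigProd L s ε := by
        refine hχ.trans (MonoidHom.ext fun z => ?_)
        rw [sigProd_apply, sigProd_apply, Finset.prod_insert hrs, sigChar_of_dvd _ hrL, hε,
          MonoidHom.one_apply, one_pow, one_mul]
      have hk : ∀ l, kap (insert r s) ε l = kap s ε l := fun l => by
        have : epsAt (ε r) l = 1 := by
          unfold epsAt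
          split_ifs <;> simp [hε]
        rw [kap, kap, Finset.prod_insert hrs, this, one_mul]
      obtain ⟨M, hM, hMp, hpM, hdvd, u, hu⟩ := ih L hpL ε hs hodd' χ hχ' y hy hdeg lam S
        fun l hl hlS hlL => by rw [← hk]; exact hlam l hl hlS hlL
      exact ⟨M, hM, hMp, hpM, hdvd.trans (Nat.mul_dvd_mul_left L
        (Finset.prod_dvd_prod_of_subset _ _ _ (Finset.subset_insert r s))), u, hu⟩
    · haveI := Fact.mk hrp
      haveI : NeZero r := ⟨hrp.ne_zero⟩
      have hpr : Nat.Coprime p r := hpL.coprime_dvd_right hrL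
      have hpL' : Nat.Coprime p (L * r) := hpL.mul_right hpr
      haveI : NeZero (L * r) := ⟨mul_ne_zero (NeZero.ne L) hrp.ne_zero⟩
      haveI : NeZero (L * r * p) := ⟨mul_ne_zero (NeZero.ne _) (Fact.out : p.Prime).ne_zero⟩
      haveI : ((Gamma0 (L * r * p)).subgroupOf (Gamma0 (L * r))).FiniteIndex := inferInstance
      obtain ⟨L₁, hL₁⟩ := id hrL
      have hL : L = L₁ * r := hL₁.trans (mul_comm r L₁)
      have hL0 : L₁ ≠ 0 := fun h => NeZero.ne L (by rw [hL₁, h, mul_zero])
      have hcop : (L₁ * p).Coprime r := Nat.Coprime.mul_left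
        ((hrp.coprime_iff_not_dvd).mpr fun h => hrr (hL₁ ▸ mul_dvd_mul_left r h)).symm hpr
      have hAp : L * p = L₁ * p * r := by rw [hL]; ring
      have hs' : ∀ t ∈ s, t.Prime ∧ t ∣ L * r ∧ ¬ t * t ∣ L * r := fun t ht =>
        ⟨(hs t ht).1, dvd_mul_of_dvd_left (hs t ht).2.1 r, fun h => (hs t ht).2.2
          ((Nat.Coprime.dvd_of_dvd_mul_right (by
            have hco := (Nat.coprime_primes (hs t ht).1 hrp).mpr fun e => hrs (e ▸ ht)
            exact Nat.Coprime.mul_left hco hco) h))⟩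
      set χ' : (ZMod (L * r))ˣ →* Fˣ := sigProd (L * r) s ε with hχ'
      have hsplit : ∀ {A : ℕ} (hA : ∀ t ∈ insert r s, t ∣ A) (z : (ZMod A)ˣ),
          sigProd A (insert r s) ε z = sigChar A (ε r) z ^ 2 * sigProd A s ε z := fun _ z => by
        rw [sigProd_apply, sigProd_apply, Finset.prod_insert hrs]
      have hQL : ∀ t ∈ insert r s, t ∣ L := fun t ht => (hQ t ht).2.1
      have hchi : ∀ γ : Gamma0 (L * r), gamChar χ (inclHom L r (castGamma rfl γ)) =
          gamChar χ' γ * ε r (aMod L r (castGamma rfl γ)) ^ 2 := by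
        intro γ
        show gamChar χ (inclHom L r γ) = gamChar χ' γ * ε r (aMod L r γ) ^ 2
        rw [gamChar_apply, gamChar_apply, hχ, hsplit hQL, aUnit_incl, mul_comm]
        refine congrArg₂ (· * ·) ?_ ?_
        · rw [sigProd_apply, sigProd_apply]
          exact Finset.prod_congr rfl fun t ht => by rw [sigChar_unitsMap _ (hs t ht).2.1]
        · rw [sigChar_unitsMap _ hrL, sigChar_of_dvd _ (dvd_mul_left r L)]
          rfl
      have hB : L * r * p = L * p * r := by ring
      have hchip : ∀ γ : Gamma0 (L * r * p),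
          gamChar (chiUp χ p) (inclHom (L * p) r (castGamma hB γ)) =
            gamChar (chiUp χ' p) γ * ε r (aMod (L * p) r (castGamma hB γ)) ^ 2 := by
        intro γ
        rw [← gamChar_inclHom, ← gamChar_inclHom]
        exact (congrArg (gamChar χ) (Subtype.ext rfl)).trans ((hchi (inclHom (L * r) p γ)).trans
          (congrArg₂ (· * ·) rfl (congrArg (fun z => ε r z ^ 2) (Units.ext (by
            simp [coe_aMod, castGamma])))))
      obtain ⟨v, hv⟩ : ∃ v, ε r v ^ 2 ≠ 1 := by
        by_contra! h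
        exact hε (hodd r (Finset.mem_insert_self r s) (MonoidHom.ext fun v => by simpa using h v))
      obtain ⟨x, hx1, hx2⟩ := exists_unit_lift hAp hcop v
      have hχx : chiUp χ p x ≠ 1 := by
        rw [hχ, chiUp_sigProd ε hQL, hsplit (fun t ht => (hQL t ht).mul_right p),
          sigChar_of_dvd _ (Dvd.intro_left _ hAp.symm), hx2, sigProd_apply,
          Finset.prod_eq_one fun t ht => ?_, mul_one]
        · exact hv
        · have htL : t ∣ L₁ * p := ((Nat.coprime_primes (hs t ht).1 hrp).mpr fun e => hrs (e ▸ ht)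
            ).dvd_of_dvd_mul_right (hAp ▸ (hs t ht).2.1.mul_right p)
          rw [← sigChar_unitsMap _ htL (Dvd.intro r hAp.symm), hx1, map_one, one_pow]
      set y' := (twistSys (hrL.mul_right p) hB (ε r) (chiUp χ p) (chiUp χ' p) hchip).op F y with hy'
      have hy'0 : y' ≠ 0 := fun h => hy (twistSys_injective hAp
        (mul_ne_zero hL0 (Fact.out : p.Prime).ne_zero) hcop (hrL.mul_right p) hB (ε r) hε _ _ hchip
        x hx1 hχx (h.trans (map_zero _).symm))
      have hdeg' : ∀ l, degDown hpL' χ' F l y' = 0 := by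
        refine degDown_eq_zero_of_trSys hpL' dvd_rfl hpL' χ' y' fun b => ?_
        obtain ⟨c, hc⟩ := trSys_twist_comm hrL rfl hpL hpL' hB dvd_rfl
          (isTrans_sideTrans (q := p) hpL' b) (ε r) χ χ' hchi hchip y
        rw [trSys_op_eq_zero hpL _ _ χ y hdeg, map_zero, ← Units.smul_def,
          smul_eq_zero_iff_eq] at hc
        exact hc
      have heig : ∀ l : ℕ, l.Prime → l ∈ S → ¬ l ∣ L * r * p →
          (kap s ε l : F) • (natHecke (chiUp χ' p) l).app F y' = lam l • y' := by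
        intro l hl hlS hlL'
        have hlL : ¬ l ∣ L * p := fun h => hlL' (hB ▸ h.mul_right r)
        have hlr : l.Coprime r := (Nat.coprime_primes hl hrp).mpr fun e =>
          hlL (e ▸ hrL.mul_right p)
        have hχl : chiUp χ p (ZMod.unitOfCoprime l (hl.coprime_iff_not_dvd.mpr hlL))
            = chiUp χ' p (ZMod.unitOfCoprime l (hl.coprime_iff_not_dvd.mpr hlL'))
              * ε r (ZMod.unitOfCoprime l hlr) ^ 2 := by
          rw [hχ, hχ', chiUp_sigProd ε hQL, chiUp_sigProd ε fun t ht => (hs' t ht).2.1,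
            hsplit (fun t ht => (hQL t ht).mul_right p), sigChar_unitOfCoprime _ (hrL.mul_right p),
            sigProd_unitOfCoprime _ (fun t ht => (hs t ht).2.1.mul_right p),
            sigProd_unitOfCoprime _ (fun t ht => (hs' t ht).2.1.mul_right p), epsAt, dif_pos hlr,
            mul_comm]
        have h := congrArg (twistSys (hrL.mul_right p) hB (ε r) (chiUp χ p) (chiUp χ' p) hchip
          |>.op F) (hlam l hl hlS hlL)
        rw [map_smul, map_smul, twistSys_natHecke _ hB (ε r) _ _ hchip hl hlL hlL' hlr hχl,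
          smul_smul, ← Units.val_mul, kap, Finset.prod_insert hrs, epsAt, dif_pos hlr,
          mul_comm (ε r _), mul_inv_cancel_right] at h
        exact h
      obtain ⟨M, hM, hMp, hpM, hdvd, u, hu0, hu, hu'⟩ := ih (L * r) hpL' ε hs' hodd' χ' rfl y'
        hy'0 hdeg' lam S heig
      refine ⟨M, hM, hMp, hpM, hdvd.trans ?_, u, hu0, fun l hl hlS hlL => hu l hl hlS ?_, hu'⟩
      · rw [Finset.prod_insert hrs, mul_assoc]
      · intro h
        rcases hl.dvd_mul.mp h with h | h
        · rcases hl.dvd_mul.mp h with h | h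
          · exact hlL (h.mul_right p)
          · exact hlL (h.trans (hrL.mul_right p))
        · exact hlL (h.mul_left L)

end FLTA.RT.Disc

end
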