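import Fermat.Agent.RT.Main.ModulesPointStrictDescent
import Fermat.Agent.RT.Main.ModulesPointStrictTwist
import Fermat.Agent.RT.CoeffBase

/-!
# An eigen class at a level without factor downstairs gives a homomorphism with zero traces

`z` is an eigen class of level `L₀ p` over the fraction field of a finite domain `B`, congruent to a
system whose local factor at level `L₀` vanishes.  Its twist is a homomorphism of some `Γ₀(M p)`
with the same eigenvalues and both traces to level `M` zero.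
-/

set_option autoImplicit false

noncomputable section

open CongruenceSubgroup IsLocalRing
open scoped MatrixGroups

namespace FLTA.RT.Disc

open FLTA.Periods FLTA.LevelRaising

variable {p : ℕ} [Fact p.Prime] {R : Type} [CommRing R] [IsLocalRing R] [IsNoetherianRing R]
  [IsAdicComplete (maximalIdeal R) R] {B : Type} [CommRing B] [IsLocalRing B] [IsDomain B]
  [Algebra R B] [Module.Finite R B] [IsLocalHom (algebraMap R B)] {K : Type} [Field K] [CharZero K]
  [Algebra B K] [IsFractionRing B K] [Algebra R K] [IsScalarTower R B K]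

/-- **The homomorphism with zero traces.** -/
theorem exists_traceless_hom {L₀ : ℕ} [NeZero L₀] (hpL : Nat.Coprime p L₀) (Q : Finset ℕ)
    (ε : ∀ r : ℕ, (ZMod r)ˣ →* Rˣ) (hQ : ∀ r ∈ Q, r.Prime ∧ r ∣ L₀ ∧ ¬ r * r ∣ L₀)
    (hodd : ∀ r ∈ Q, ∀ u, ∃ m, Odd m ∧ ε r u ^ m = 1) {σ : Type} (pr : σ → ℕ)
    (hpr : ∀ s, (pr s).Prime) (hprp : ∀ s, pr s ≠ p) (wt : σ → R)
    (hwt : ∀ s, ¬ pr s ∣ L₀ * p → wt s = (kap Q ε (pr s) : R))
    {T : σ → NatEnd (gamChar (sigProd L₀ Q ε))}
    (hT : ∀ s (V : Type) [AddCommGroup V] [Module R V] (x : tH1 (gamChar (sigProd L₀ Q ε)) V),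
      (T s).app V x = wt s • (natHecke (sigProd L₀ Q ε) (pr s)).app V x)
    (hcomm : CommAtRing T) (hlift : HasLifts (gamChar (sigProd L₀ Q ε))) (a : σ → R)
    (hbot : eImage (localEnd T a) R = ⊥)
    {L : ℕ} [NeZero L] (hL : L = L₀ * p) {χK : (ZMod L)ˣ →* Kˣ}
    (hχK : χK = charMap (algebraMap R K) (sigProd L Q ε))
    (z : tH1 (gamChar χK) K) (hz : z ≠ 0) (c : σ → B)
    (hc : ∀ s, c s - algebraMap R B (a s) ∈ maximalIdeal B)
    (heig : ∀ s, algebraMap R K (wt s) • (natHecke χK (pr s)).app K z = algebraMap B K (c s) • z) :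
    ∃ (M : ℕ) (_ : NeZero M) (_ : NeZero (M * p)) (hpM : Nat.Coprime p M),
      M ∣ L₀ * (∏ r ∈ Q, r) ∧ ∃ u : Additive (Gamma0 (M * p)) →+ K, u ≠ 0 ∧
        (∀ s, ¬ pr s ∣ L₀ * p → heckeHom K (M * p) (pr s) u = algebraMap B K (c s) • u) ∧
        ∀ (b : Bool) (γ : Gamma0 M), ∑ i, u (Additive.ofMul
          (transCocyc hpM dvd_rfl (isTrans_sideTrans (q := p) hpM b) γ i)) = 0 := by
  classical
  subst hL
  haveI := group_fg_Gamma0 L₀
  set φ := algebraMap R K with hφdef
  set εK : ∀ r : ℕ, (ZMod r)ˣ →* Kˣ := fun r => charMap φ (ε r) with hεK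
  set χ₀ : (ZMod L₀)ˣ →* Kˣ := sigProd L₀ Q εK with hχ₀
  obtain rfl : χK = chiUp χ₀ p := by
    rw [hχK, charMap_sigProd, hχ₀, chiUp_sigProd εK fun r hr => (hQ r hr).2.1]
  haveI : ((Gamma0 (L₀ * p)).subgroupOf (Gamma0 L₀)).FiniteIndex := inferInstance
  have hdeg : ∀ l, degDown hpL χ₀ K l z = 0 := by
    intro l
    have hd := degIntertwines_natHecke (χ := χ₀) hpL pr hpr hprp
    have hmap : charMap φ (sigProd L₀ Q ε) = χ₀ := charMap_sigProd φ L₀ Q ε
    have hφ : ∀ (r : R) (v : K), r • v = φ r • v := fun r v => by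
      rw [Algebra.smul_def, smul_eq_mul]
    let e := tH1Base φ (sigProd L₀ Q ε) (V := K) hφ
    let C := tH1Cast (V := K) hmap
    set w := e.symm (C.symm (degDown hpL χ₀ K l z)) with hwdef
    have hw : e w = C.symm (degDown hpL χ₀ K l z) := e.apply_symm_apply _
    have heq : ∀ s, φ (wt s) • (natHecke χ₀ (pr s)).app K (degDown hpL χ₀ K l z) =
        algebraMap B K (c s) • degDown hpL χ₀ K l z := fun s => by
      rw [← map_smul (degDown hpL χ₀ K l), ← heig s, map_smul]
      congr 1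
      fin_cases l
      · exact hd.cor s K z
      · exact hd.corAL s K z
    have h0 : w = 0 := eq_zero_of_eigen_of_eImage_eq_bot (B := B) hcomm hlift a hbot w c hc
      fun s => e.injective (by
        rw [hT, tH1Base_smul, tH1Base_natHecke, tH1Base_map φ _ hφ hφ _
          (LinearMap.mulLeft K (algebraMap B K (c s))) (fun _ => rfl), hw,
          show LinearMap.mulLeft K (algebraMap B K (c s)) =
            algebraMap B K (c s) • LinearMap.id from LinearMap.ext fun _ => rfl,
          tH1Map_smul, tH1Map_id]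
        apply C.injective
        rw [map_smul, map_smul, tH1Cast_natHecke, C.apply_symm_apply, heq s])
    have h1 : C.symm (degDown hpL χ₀ K l z) = 0 := by rw [← hw, h0, map_zero]
    exact (LinearEquiv.map_eq_zero_iff _).mp h1
  have hoddK : ∀ r ∈ Q, εK r ^ 2 = 1 → εK r = 1 := fun r hr h => MonoidHom.ext fun v => by
    obtain ⟨m, ⟨k, rfl⟩, hm⟩ := hodd r hr v
    have h1 : εK r v ^ (2 * k + 1) = 1 := by
      show Units.map (φ : R →* K) (ε r v) ^ (2 * k + 1) = 1
      rw [← map_pow, hm, map_one]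
    have h2 : εK r v ^ 2 = 1 := DFunLike.congr_fun h v
    rwa [pow_succ, pow_mul, h2, one_pow, one_mul] at h1
  set S : Set ℕ := {l | ∃ s, pr s = l} with hS
  set lam : ℕ → K := fun l => if h : ∃ s, pr s = l then algebraMap B K (c h.choose) else 0 with hlam
  have hkapz : ∀ s, ¬ pr s ∣ L₀ * p →
      (kap Q εK (pr s) : K) • (natHecke (chiUp χ₀ p) (pr s)).app K z =
        algebraMap B K (c s) • z := fun s hs => by
    rw [← heig s, hwt s hs, hεK, coe_kap_charMap]
  have hlam' : ∀ s, ¬ pr s ∣ L₀ * p → lam (pr s) = algebraMap B K (c s) := by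
    intro s hs
    have h : ∃ t, pr t = pr s := ⟨s, rfl⟩
    rw [hlam]
    simp only [dif_pos h]
    have h1 := hkapz h.choose (by rwa [h.choose_spec])
    rw [h.choose_spec, hkapz s hs] at h1
    exact (smul_left_injective K hz h1).symm
  obtain ⟨M, hM, hMp, hpM, hdvd, u, hu0, hu, htr⟩ := exists_realisation_traces Q L₀ hpL εK
    hQ hoddK χ₀ rfl z hz hdeg lam S fun l hl hlS hlL => by
      obtain ⟨s, rfl⟩ := hlS
      rw [hkapz s hlL, hlam' s hlL]
  exact ⟨M, hM, hMp, hpM, hdvd, u, hu0,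
    fun s hs => (hu (pr s) (hpr s) ⟨s, rfl⟩ hs).trans (by rw [hlam' s hs]), htr⟩

end FLTA.RT.Disc

end
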