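import Fermat.Agent.RT.Main.Frame
import Fermat.Agent.RT.FreeGamma0
import Fermat.Agent.RT.ImageThreeCurve
import Fermat.Agent.RT.Lift.EllipticFree
import Fermat.Agent.RT.RaiseResidual

/-!
# The inputs of level lowering which distinguish `p = 3`

Twisted cocycles lift on `Γ₀(L)` for `N ∣ L` (for `p = 3` there is no elliptic element of order
three), and the residual representation satisfies the Taylor–Wiles hypothesis.
-/

set_option autoImplicit false

noncomputable section

universe u

open CongruenceSubgroup WeierstrassCurve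
open scoped MatrixGroups

namespace FLTA.RT

open FLTA.Gamma0 FLTA.Gamma0.Presentation FLTA.Periods
open FLTA.LevelLowering (planeRep)

variable {W : WeierstrassCurve ℤ} {hΔ : W.Δ ≠ 0} {p : ℕ} [Fact p.Prime] {N q : ℕ}

theorem LowerData.p_ne_two (D : LowerData W hΔ p N q) : p ≠ 2 := by
  have := D.three_le
  omega

/-- Twisted cocycles lift at every multiple of the level. -/
theorem LowerData.hasLifts_gamChar (D : LowerData W hΔ p N q) {L : ℕ} (hNL : N ∣ L)
    {R : Type u} [CommRing R] [IsLocalRing R] (hpR : (p : R) ∈ IsLocalRing.maximalIdeal R)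
    (χ : (ZMod L)ˣ →* Rˣ) (hχ : ∀ u, ∃ k : ℕ, χ u ^ p ^ k = 1) :
    HasLifts (gamChar χ) := by
  have hp : p.Prime := Fact.out
  have h2 : IsUnit (2 : R) := by
    exact_mod_cast isUnit_natCast_of_coprime (m := 2) hpR
      ((Nat.coprime_primes Nat.prime_two hp).mpr (Ne.symm D.p_ne_two))
  by_cases h3p : p = 3
  · obtain ⟨r, hr, hr3, hrN⟩ := D.elliptic h3p
    refine hasLifts_subgroup (Gamma0 L) (neg_one_mem_Gamma0 L) _ h2 (fun γ hγ => ?_)
      (Or.inl (matU_smul_coset_ne hr (hrN.trans hNL) hr3))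
    obtain ⟨k, hk⟩ := hχ (aUnit L γ)
    exact eq_one_of_pow_coprime
      (((Nat.coprime_primes Nat.prime_two hp).mpr (Ne.symm D.p_ne_two)).pow_right k) hγ hk
  · have hp5 : 5 ≤ p := by
      have := D.three_le
      have h4 : p ≠ 4 := fun h => by
        rw [h] at hp
        exact absurd hp (by norm_num)
      omega
    refine RT.hasLifts_gamChar χ hp hp5 h2 ?_ hχ
    exact_mod_cast isUnit_natCast_of_coprime (m := 3) hpR
      ((Nat.coprime_primes Nat.prime_three hp).mpr (Ne.symm h3p))

/-- Parabolic homomorphisms at a multiple of the level kill elements of small trace. -/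
theorem LowerData.isParHom0 (D : LowerData W hΔ p N q) {L : ℕ} (hNL : N ∣ L) {k : Type*} [Field k]
    (hk : ∀ m : ℕ, ¬ p ∣ m → (m : k) ≠ 0) {φ : Additive (Gamma0 L) →+ k}
    (hφ : ModularCurve.Period.IsParabolicHom (Gamma0 L) φ) :
    FLTA.Gamma0.IsParHom0 (Gamma0 L) φ := by
  have hp : p.Prime := Fact.out
  by_cases h3p : p = 3
  · obtain ⟨r, hr, hr3, hrN⟩ := D.elliptic h3p
    refine isParHom0_of_isParabolicHom_elliptic hr (hrN.trans hNL) hr3 (fun a ha => ?_) hφ
    have h2 : ((2 : ℕ) : k) ≠ 0 := hk 2 (by rw [h3p]; decide)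
    rw [← two_mul] at ha
    exact (mul_eq_zero.mp (by exact_mod_cast ha)).resolve_left h2
  · refine isParHom0_of_isParabolicHom ?_ hφ
    suffices h12 : ¬ p ∣ 12 by exact_mod_cast hk 12 h12
    intro h
    rcases hp.dvd_mul.mp (show p ∣ 2 ^ 2 * 3 from h) with h' | h'
    · exact D.p_ne_two ((Nat.prime_dvd_prime_iff_eq hp Nat.prime_two).mp (hp.dvd_of_dvd_pow h'))
    · exact h3p ((Nat.prime_dvd_prime_iff_eq hp Nat.prime_three).mp h')

/-- Absolute irreducibility and irreducibility on subgroups of index two. -/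
theorem planeRep_absIrr_indexTwo (hp3 : 3 ≤ p) (hW : W.IsSemistableModel)
    (hirr : W.ModRepIsIrreducible p) {k : Type} [Field k] (φ : ZMod p →+* k) :
    ((planeRep hΔ (p := p)).baseChangeAlong φ).IsAbsolutelyIrreducible ∧
      ∀ (K : Type) [Field K] [Algebra k K]
        (G : Subgroup (AlgebraicClosure ℚ ≃ₐ[ℚ] AlgebraicClosure ℚ)), G.index = 2 →
        ∀ V : Submodule K (((planeRep hΔ (p := p)).baseChangeAlong φ).baseChange K).V,
          (∀ σ ∈ G, ∀ x ∈ V, (((planeRep hΔ (p := p)).baseChangeAlong φ).baseChange K).ρ σ x ∈ V) →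
            V = ⊥ ∨ V = ⊤ := by
  by_cases h3p : p = 3
  · subst h3p
    exact residual_absIrr_and_indexTwo_three W hΔ _ _ hW hirr φ
  · have hp5 : 5 ≤ p := by
      have h4 : p ≠ 4 := fun h => by
        have hp := (Fact.out : p.Prime)
        rw [h] at hp
        exact absurd hp (by norm_num)
      omega
    exact residual_absIrr_and_indexTwo W hΔ p _ _ hp5 hW hirr φ

theorem LowerData.absIrr_indexTwo (D : LowerData W hΔ p N q) {k : Type} [Field k]
    (φ : ZMod p →+* k) :
    ((planeRep hΔ (p := p)).baseChangeAlong φ).IsAbsolutelyIrreducible ∧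
      ∀ (K : Type) [Field K] [Algebra k K]
        (G : Subgroup (AlgebraicClosure ℚ ≃ₐ[ℚ] AlgebraicClosure ℚ)), G.index = 2 →
        ∀ V : Submodule K (((planeRep hΔ (p := p)).baseChangeAlong φ).baseChange K).V,
          (∀ σ ∈ G, ∀ x ∈ V, (((planeRep hΔ (p := p)).baseChangeAlong φ).baseChange K).ρ σ x ∈ V) →
            V = ⊥ ∨ V = ⊤ :=
  planeRep_absIrr_indexTwo D.three_le D.semistable D.irreducible φ

end FLTA.RT

end
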