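import Fermat.Agent.RT.Main.ModulesRankInput
import Fermat.Agent.RT.Main.FrameInput
import Fermat.Agent.RT.DiscSocle
import Fermat.Agent.RT.DiscOld

/-!
# The factor at the tuple level with `p` removed vanishes

`p ∣ N` and no congruent system at `N / p`: the local factor of the residual system at level
`(N / p) ∏ qv` is zero over the diamond ring.
-/

set_option autoImplicit false
set_option linter.style.haveILetI false

noncomputable section

open IsLocalRing WeierstrassCurve CongruenceSubgroup

namespace FLTA.RT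

open FLTA.Periods

variable {W : WeierstrassCurve ℤ} {hΔ : W.Δ ≠ 0} {p : ℕ} [Fact p.Prime] {N q : ℕ}

namespace LowerData

/-- At `p = 3` the prime of the datum divides `N / p`. -/
theorem elliptic_div (D : LowerData W hΔ p N q) (hpN : p ∣ N) (h3 : p = 3) :
    ∃ t : ℕ, t.Prime ∧ t % 3 = 2 ∧ t ∣ N / p := by
  obtain ⟨t, ht, ht3, htN⟩ := D.elliptic h3
  refine ⟨t, ht, ht3, ?_⟩
  have htp : t ≠ p := fun e => by rw [e, h3] at ht3; norm_num at ht3
  rw [← Nat.div_mul_cancel hpN] at htN
  exact (ht.dvd_mul.mp htN).resolve_right fun h =>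
    htp ((Nat.prime_dvd_prime_iff_eq ht Fact.out).mp h)

/-- Twisted cocycles lift at every multiple of `N / p`. -/
theorem hasLifts_div (D : LowerData W hΔ p N q) (hpN : p ∣ N) {L : ℕ} (hL : N / p ∣ L)
    {R : Type} [CommRing R] [IsLocalRing R] (hpR : (p : R) ∈ maximalIdeal R)
    (χ : (ZMod L)ˣ →* Rˣ) (hχ : ∀ u, ∃ k : ℕ, χ u ^ p ^ k = 1) :
    HasLifts (gamChar χ) := by
  have hp : p.Prime := Fact.out
  have h2 : IsUnit (2 : R) := by
    exact_mod_cast isUnit_natCast_of_coprime (m := 2) hpR
      ((Nat.coprime_primes Nat.prime_two hp).mpr (Ne.symm D.p_ne_two))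
  by_cases h3p : p = 3
  · obtain ⟨t, ht, ht3, htL⟩ := D.elliptic_div hpN h3p
    refine hasLifts_subgroup (Gamma0 L) (neg_one_mem_Gamma0 L) _ h2 (fun γ hγ => ?_)
      (Or.inl (matU_smul_coset_ne ht (htL.trans hL) ht3))
    obtain ⟨k, hk⟩ := hχ (aUnit L γ)
    exact eq_one_of_pow_coprime
      (((Nat.coprime_primes Nat.prime_two hp).mpr (Ne.symm D.p_ne_two)).pow_right k) hγ hk
  · have hp5 : 5 ≤ p := by
      have := D.three_le
      have h4 : p ≠ 4 := fun h => by
        rw [h] at hp
        exact absurd hp (by norm_num)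
      omega
    refine RT.hasLifts_gamChar χ hp hp5 h2 ?_ hχ
    exact_mod_cast isUnit_natCast_of_coprime (m := 3) hpR
      ((Nat.coprime_primes Nat.prime_three hp).mpr (Ne.symm h3p))

end LowerData

namespace AvoidFrame

variable (F : AvoidFrame W hΔ p N q) (n : ℕ) {r : ℕ} (qv : Fin r → ℕ)

theorem natCast_mem_diamond : (p : F.Diamond r n) ∈ maximalIdeal (F.Diamond r n) := by
  rw [mem_maximalIdeal, mem_nonunits_iff]
  intro hu
  refine (hu.map (F.diamondToRes n r)).ne_zero ?_
  rw [map_natCast, F.natCast_res_eq_zero]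

theorem diamondToRes_sigProd_low (L : ℕ) (u : (ZMod L)ˣ) :
    F.diamondToRes n r (sigProd L (F.twistSet qv) (F.eps n qv) u : F.Diamond r n) = 1 := by
  rw [sigProd_apply, Units.coe_prod, map_prod]
  refine Finset.prod_eq_one fun s _ => ?_
  rw [Units.val_pow_eq_pow_val, map_pow]
  unfold sigChar
  split_ifs with h
  · rw [MonoidHom.comp_apply, F.diamondToRes_eps n qv s _, one_pow]
  · simp

theorem sigProd_low_pow (L : ℕ) (u : (ZMod L)ˣ) :
    sigProd L (F.twistSet qv) (F.eps n qv) u ^ p ^ (F.a + (n + 1)) = 1 := by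
  rw [sigProd_apply, ← Finset.prod_pow]
  refine Finset.prod_eq_one fun s _ => ?_
  rw [← pow_mul, mul_comm, pow_mul]
  unfold sigChar
  split_ifs with h
  · rw [MonoidHom.comp_apply, F.eps_pow n qv s _, one_pow]
  · simp

/-- The primes of the operators. -/
def idxPrime : F.Idx qv → ℕ := Sum.elim (fun l => l.1) qv

/-- The normalising units of the operators. -/
def idxUnit : F.Idx qv → (F.Diamond r n)ˣ :=
  Sum.elim (fun l => kap (F.twistSet qv) (F.eps n qv) l.1) fun _ => 1

theorem diamondToRes_idxUnit (s : F.Idx qv) :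
    F.diamondToRes n r (F.idxUnit n qv s : F.Diamond r n) = 1 := by
  rcases s with l | i
  · show F.diamondToRes n r (kap (F.twistSet qv) (F.eps n qv) l.1 : F.Diamond r n) = 1
    exact F.diamondToRes_kap n qv _ _
  · show F.diamondToRes n r ((1 : (F.Diamond r n)ˣ) : F.Diamond r n) = 1
    rw [Units.val_one, map_one]

theorem prime_idxPrime {n : ℕ} (h : F.IsTWTuple n qv) (s : F.Idx qv) :
    (F.idxPrime qv s).Prime := by
  rcases s with l | i
  exacts [l.2.1, h.prime i]

theorem idxPrime_ne {n : ℕ} (h : F.IsTWTuple n qv) (s : F.Idx qv) : F.idxPrime qv s ≠ p := by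
  rcases s with l | i
  · exact fun e => l.2.2 (Finset.mem_union_left _ (by
      rw [show (l : ℕ) = p from e]; exact Finset.mem_insert_self _ _))
  · exact (F.prime_props (h.prime i) (h.notMem i)).1

/-- The operators at an arbitrary level. -/
def lowOps (L : ℕ) [NeZero L] (s : F.Idx qv) :
    NatEnd (gamChar (sigProd L (F.twistSet qv) (F.eps n qv))) :=
  (F.idxUnit n qv s : F.Diamond r n) •
    natHecke (sigProd L (F.twistSet qv) (F.eps n qv)) (F.idxPrime qv s)

end AvoidFrame

open AvoidFrame in
/-- **The factor of the system at level `(N / p) ∏ qv` vanishes.** -/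
theorem eImage_low_eq_bot (D : LowerData W hΔ p N q) (hpN : p ∣ N)
    (hat : ∀ M : ℕ, M ∣ N / p → ¬ HasSystem W p M) (F : AvoidFrame W hΔ p N q) {n r : ℕ}
    {qv : Fin r → ℕ} (h : F.IsTWTuple n qv) {L : ℕ} [NeZero L]
    (hL : L = N / p * ∏ i, qv i) :
    eImage (localEnd (F.lowOps n qv L) (F.sys n qv)) (F.Diamond r n) = ⊥ := by
  classical
  haveI := group_fg_Gamma0 L
  haveI := F.isNoetherianRing_diamond n (r := r)
  haveI := F.isAdicComplete_diamond n (r := r)
  set R := F.Diamond r n
  set χ : (ZMod L)ˣ →* Rˣ := sigProd L (F.twistSet qv) (F.eps n qv) with hχ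
  have hcomm : CommAtRing (F.lowOps n qv L) :=
    Disc.commAtRing_scaled (F.idxPrime qv) (F.prime_idxPrime qv h) (F.idxUnit n qv) χ
  have hlift : HasLifts (gamChar χ) := D.hasLifts_div hpN ⟨_, hL⟩ (F.natCast_mem_diamond n) χ
    fun u => ⟨_, F.sigProd_low_pow n qv L u⟩
  have hno : ∀ v ∈ eImage (localEnd (F.lowOps n qv L) (F.sys n qv)) (ResidueField R),
      (∀ s, (F.lowOps n qv L s).app (ResidueField R) v = F.sys n qv s • v) → v = 0 := by
    intro v _ hv
    haveI : IsLocalHom (F.diamondToRes n r) := IsLocalHom.of_surjective _ (F.diamondToRes_surjective n)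
    let φ : ResidueField R →+* ResidueField F.E.R := ResidueField.lift (F.diamondToRes n r)
    have hφ : ∀ (x : R) (z : ResidueField R), φ (x • z) = F.diamondToRes n r x * φ z :=
      fun x z => by
        rw [Algebra.smul_def, map_mul]
        exact congrArg (· * φ z) (ResidueField.lift_residue_apply _ x)
    have htriv : ∀ γ (z : ResidueField R), (gamChar χ γ : R) • z = z := fun γ z =>
      φ.injective (by rw [hφ, gamChar_apply, hχ, F.diamondToRes_sigProd_low, one_mul])
    set u : Additive (Gamma0 L) →+ ResidueField R := tH1EquivHom htriv v with hu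
    let u' : Additive (Gamma0 L) →+ ResidueField F.E.R := φ.toAddMonoidHom.comp u
    have key : ∀ s, heckeHom (ResidueField F.E.R) L (F.idxPrime qv s) u' =
        F.diamondToRes n r (F.sys n qv s) • u' := by
      intro s
      have hH : heckeHom (ResidueField F.E.R) L (F.idxPrime qv s) u' =
          φ.toAddMonoidHom.comp (heckeHom R L (F.idxPrime qv s) u) := by
        rw [heckeHom_eq_int, heckeHom_eq_int (𝕜 := R), heckeHom_comp]
      have h1 := congrArg (tH1EquivHom htriv) (hv s)
      rw [AvoidFrame.lowOps, NatEnd.smul_app, map_smul, map_smul,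
        tH1EquivHom_natHecke χ htriv (F.prime_idxPrime qv h s)] at h1
      rw [hH]
      refine AddMonoidHom.ext fun z => ?_
      have h2 := congrArg φ (DFunLike.congr_fun h1 z)
      rw [AddMonoidHom.smul_apply, AddMonoidHom.smul_apply, hφ, hφ, F.diamondToRes_idxUnit,
        one_mul] at h2
      exact h2
    have hu' : u' = 0 := by
      haveI := F.charP_res
      haveI : NeZero (N / p) := ⟨fun h0 => D.squarefree.ne_zero (by
        rw [← Nat.div_mul_cancel hpN, h0, zero_mul])⟩
      have hp2 := D.p_ne_two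
      have h2 : (2 : ResidueField F.E.R) ≠ 0 := by
        exact_mod_cast F.natCast_res_ne_zero (m := 2) fun hd =>
          hp2 ((Nat.prime_dvd_prime_iff_eq Fact.out Nat.prime_two).mp hd)
      refine Disc.eigen_eq_zero (W := W) (p := p) h2 (F.badSet qv) (fun M hM => ?_) ?_
        (hat _ dvd_rfl) (fun s => residue F.E.R (F.alphaAt s)) (Finset.univ.image qv) ?_ L ?_ u'
        (fun l hl hlS _ => ?_) fun s hs => ?_
      · obtain ⟨l, hl, hlS, hl1, hunit⟩ := exists_nonEisenstein D F hp2 hM (Finset.univ.image qv)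
        exact ⟨l, hl, by rwa [AvoidFrame.badSet, Finset.union_comm], hl1,
          sub_ne_zero.mp hunit.ne_zero⟩
      · by_cases h3 : p = 3
        · exact Or.inr (D.elliptic_div hpN h3)
        · refine Or.inl ?_
          exact_mod_cast F.natCast_res_ne_zero (m := 12) fun hd => by
            rcases (Fact.out : p.Prime).dvd_mul.mp (show p ∣ 2 ^ 2 * 3 from hd) with h' | h'
            · exact hp2 ((Nat.prime_dvd_prime_iff_eq Fact.out Nat.prime_two).mp
                ((Fact.out : p.Prime).dvd_of_dvd_pow h'))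
            · exact h3 ((Nat.prime_dvd_prime_iff_eq Fact.out Nat.prime_three).mp h')
      · intro s hs
        obtain ⟨i, -, rfl⟩ := Finset.mem_image.mp hs
        refine ⟨h.prime i, fun hd => (F.prime_props (h.prime i) (h.notMem i)).2.2.1
          D.squarefree.ne_zero (hd.trans (Nat.div_dvd_of_dvd hpN)),
          Finset.mem_union_right _ hs, ?_⟩
        exact fun e => (twRoot F hp2 h i).2.2.2.1 (sub_eq_zero.mpr e)
      · rw [hL, Finset.prod_image h.injective.injOn]
      · have h1 := key (.inl ⟨l, hl, hlS⟩)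
        rwa [show F.diamondToRes n r (F.sys n qv (.inl ⟨l, hl, hlS⟩)) =
          (W.apOfModel l : ResidueField F.E.R) from map_intCast _ _] at h1
      · obtain ⟨i, -, rfl⟩ := Finset.mem_image.mp hs
        have h1 := key (.inr i)
        rwa [show F.diamondToRes n r (F.sys n qv (.inr i)) = residue F.E.R (F.alphaAt (qv i)) from
          F.diamondToRes_algebraMap n _] at h1
    refine (LinearEquiv.map_eq_zero_iff (tH1EquivHom htriv)).mp (AddMonoidHom.ext fun z => ?_)
    exact φ.injective ((DFunLike.congr_fun hu' z).trans (map_zero φ).symm)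
  refine (Submodule.eq_bot_iff _).mpr ?_
  rintro _ ⟨y, rfl⟩
  exact Disc.localEnd_eq_zero hcomm (F.sys n qv) hlift hno R y

end FLTA.RT

end
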