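import Fermat.Agent.RT.Main.ModulesPointStrictInput
import Fermat.Agent.RT.Main.ModulesPointStrictFactor
import Fermat.Agent.RT.Main.ModulesPointStrictClass
import Fermat.Agent.RT.Main.ModulesPointClass
import Fermat.Agent.RT.AtP.NewClass

/-!
# Ordinary points are strictly ordinary when `p` divides the level

`p ∣ N` and no congruent system divides `N / p`: the class of a point at the level of the tuple has
zero traces at `p`; its twist is an eigen homomorphism of some `Γ₀(M p)` with zero traces, so an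
ordinary representation of the point is strictly ordinary at `p`.
-/

set_option autoImplicit false
set_option linter.style.haveILetI false
set_option maxHeartbeats 1600000
set_option synthInstance.maxHeartbeats 400000

noncomputable section

open IsLocalRing WeierstrassCurve CongruenceSubgroup Polynomial

namespace FLTA.RT

open FLTA.Periods
open ModularCurve.Period (IsParabolicHom)
open FLTA.Gamma0 (homPar0)

variable {W : WeierstrassCurve ℤ} {hΔ : W.Δ ≠ 0} {p : ℕ} [Fact p.Prime] {N q : ℕ}

namespace AvoidFrame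

variable (F : AvoidFrame W hΔ p N q) {n r : ℕ} {qv : Fin r → ℕ}

/-- An eigen homomorphism with residually non-Eisenstein values is parabolic. -/
theorem mem_homPar0_of_eigen (D : LowerData W hΔ p N q) {L : ℕ} [NeZero L] {B K : Type}
    [CommRing B] [IsLocalRing B] [Field K] [CharZero K] [Algebra B K]
    (hB : Function.Injective (algebraMap B K)) (j : ResidueField F.E.R →+* ResidueField B)
    (u : Additive (Gamma0 L) →+ K) (T : Finset ℕ)
    (hu : ∀ l : ℕ, l.Prime → l ∉ T ∪ F.avoided → ¬ l ∣ L → ∃ c : B,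
      heckeHom K L l u = algebraMap B K c • u ∧
        residue B c = j (W.apOfModel l : ResidueField F.E.R)) :
    u ∈ homPar0 ℤ (Gamma0 L) K := by
  obtain ⟨l, hl, hlT, hl1, hunit⟩ := exists_nonEisenstein D F D.p_ne_two (NeZero.ne L) T
  haveI := Fact.mk hl
  have hlL := not_dvd_of_natCast_eq_one hl hl1
  obtain ⟨c, hc, hcr⟩ := hu l hl hlT hlL
  have hne : c ≠ (l : B) + 1 := fun h => hunit.ne_zero (j.injective (by
    rw [h, map_add, map_one, map_natCast] at hcr
    rw [map_sub, map_add, map_one, map_natCast, map_zero, ← hcr, sub_self]))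
  have h12 : (12 : K) ≠ 0 := by norm_num
  refine isParHom0_of_isParabolicHom h12 fun γ hγ => ?_
  have h := isParabolicHom_of_eisenstein K (fun a ha => by simpa using ha) hlL hl1 u γ hγ
  rw [hc, AddMonoidHom.sub_apply, AddMonoidHom.smul_apply, AddMonoidHom.smul_apply, nsmul_eq_mul,
    smul_eq_mul, ← sub_mul] at h
  refine (mul_eq_zero.mp h).resolve_left (sub_ne_zero.mpr fun e => hne (hB ?_))
  rw [e, map_add, map_one, map_natCast]
  push_cast
  rfl

end AvoidFrame

/-- A finite integral extension of local rings is local. -/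
theorem isLocalHom_of_finite (A B : Type) [CommRing A] [IsLocalRing A] [CommRing B] [IsLocalRing B]
    [Algebra A B] [Module.Finite A B] : IsLocalHom (algebraMap A B) := by
  refine ⟨fun a ha => ?_⟩
  by_contra h
  have hmax := Ideal.isMaximal_comap_of_isIntegral_of_isMaximal (R := A) (maximalIdeal B)
  have hmem : a ∈ (maximalIdeal B).comap (algebraMap A B) := by
    rw [eq_maximalIdeal hmax]
    exact (mem_maximalIdeal a).mpr h
  exact (mem_maximalIdeal _).mp hmem ha

/-- **(M5) Ordinary points are strictly ordinary when `p ∣ N`.** -/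
theorem point_strict_proof (D : LowerData W hΔ p N q) (hpN : p ∣ N) (F : AvoidFrame W hΔ p N q)
    {n r : ℕ} {qv : Fin r → ℕ} [NeZero (F.level qv)] (h : F.IsTWTuple n qv)
    (E' : RepTheory.FiniteDVRExt F.E.R) (ψ : F.Alg n qv →ₐ[F.E.R] E'.R) (ρ : GaloisRepAdic E'.R)
    (hρ : F.IsPointRep n qv E' ψ ρ) (ho : ρ.IsOrdinaryAt p) : ρ.IsStrictOrdinaryAt p := by
  classical
  obtain ⟨E'', c, z, hz, hcl, hcres, heigT, heigU⟩ := exists_point_class D F h E' ψ
  haveI := F.isNoetherianRing_diamond n (r := r)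
  haveI := F.isAdicComplete_diamond n (r := r)
  haveI := F.moduleFinite_diamond n (r := r)
  letI algRE : Algebra (F.Diamond r n) E'.R := (F.pointHom n qv E' ψ).toAlgebra
  haveI : IsScalarTower F.E.R (F.Diamond r n) E'.R :=
    IsScalarTower.of_algebraMap_eq (R := F.E.R) (S := F.Diamond r n) (A := E'.R)
      fun x => (ψ.commutes x).symm
  haveI : Module.Finite (F.Diamond r n) E'.R :=
    Module.Finite.of_restrictScalars_finite F.E.R (F.Diamond r n) E'.R
  letI algRB : Algebra (F.Diamond r n) E''.R :=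
    ((algebraMap E'.R E''.R).comp (F.pointHom n qv E' ψ)).toAlgebra
  haveI : IsScalarTower (F.Diamond r n) E'.R E''.R := IsScalarTower.of_algebraMap_eq fun _ => rfl
  haveI : Module.Finite (F.Diamond r n) E''.R := Module.Finite.trans E'.R E''.R
  haveI := isLocalHom_of_finite (F.Diamond r n) E''.R
  set K := FractionRing E''.R with hK
  have hfield : algebraMap (F.Diamond r n) K = F.pointField n qv E' ψ E'' :=
    IsScalarTower.algebraMap_eq (F.Diamond r n) E''.R K
  haveI : CharZero K := charZero_of_injective_algebraMap (IsFractionRing.injective E''.R K)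
  have hlev := F.level_eq_mul hpN qv
  have hN0 : N ≠ 0 := D.squarefree.ne_zero
  haveI : NeZero (N / p * ∏ i, qv i) :=
    ⟨left_ne_zero_of_mul (hlev ▸ NeZero.ne (F.level qv))⟩
  set L₀ := N / p * ∏ i, qv i with hL₀
  have hcomm : CommAtRing (F.lowOps n qv L₀) :=
    Disc.commAtRing_scaled (F.idxPrime qv) (F.prime_idxPrime qv h) (F.idxUnit n qv) _
  have hlift : HasLifts (gamChar (sigProd L₀ (F.twistSet qv) (F.eps n qv))) :=
    D.hasLifts_div hpN ⟨_, hL₀⟩ (F.natCast_mem_diamond n) _ fun u => ⟨_, F.sigProd_low_pow n qv L₀ u⟩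
  have hwt : ∀ s, ¬ F.idxPrime qv s ∣ L₀ * p → (F.idxUnit n qv s : F.Diamond r n) =
      (kap (F.twistSet qv) (F.eps n qv) (F.idxPrime qv s) : F.Diamond r n) := by
    rintro (l | i) hs
    · rfl
    · exact absurd ((Finset.dvd_prod_of_mem _ (Finset.mem_univ i)).mul_left _ |>.mul_right p) hs
  have heig : ∀ s, algebraMap (F.Diamond r n) K (F.idxUnit n qv s : F.Diamond r n) •
      (natHecke (charMap (F.pointField n qv E' ψ E'') (F.chi n qv)) (F.idxPrime qv s)).app K z =
        algebraMap E''.R K (c s) • z := by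
    rw [hfield]
    rintro (l | i)
    · exact heigT l
    · show F.pointField n qv E' ψ E'' ((1 : (F.Diamond r n)ˣ) : F.Diamond r n) • _ = _
      rw [Units.val_one, map_one, one_smul]
      exact heigU i
  obtain ⟨M, hM0, hMp, hpM, -, u, hu0, huT, hutr⟩ :=
    Disc.exists_traceless_hom (R := F.Diamond r n) (B := E''.R) (K := K)
      (F.coprime_low D hpN h) (F.twistSet qv) (F.eps n qv)
      (fun _ hl => F.twistSet_low_props D hpN h hl)
      (fun l _ v => ⟨_, ((Fact.out : p.Prime).odd_of_ne_two D.p_ne_two).pow, F.eps_pow n qv l v⟩)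
      (F.idxPrime qv) (F.prime_idxPrime qv h) (F.idxPrime_ne qv h)
      (fun s => (F.idxUnit n qv s : F.Diamond r n)) hwt (T := F.lowOps n qv L₀)
      (fun s V _ _ x => rfl) hcomm hlift (F.sys n qv)
      (eImage_low_eq_bot D hpN (fun M hM => (D.at_p hpN).2 M hM) F h hL₀)
      hlev (χK := charMap (F.pointField n qv E' ψ E'') (F.chi n qv))
      (by rw [hfield]; rfl) z hz c
      (fun s => (residue_eq_zero_iff _).mp (by
        rw [map_sub, sub_eq_zero]
        exact hcres s))
      heig
  -- eigenvalues and their residues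
  let a : ℕ → E'.R := fun l => if hl : l.Prime ∧ l ∉ F.badSet qv then
    ψ ⟨F.opT n qv ⟨l, hl⟩, Algebra.subset_adjoin ⟨⟨l, hl⟩, rfl⟩⟩ else 0
  have ha : ∀ (l : ℕ) (hl : l.Prime) (hb : l ∉ F.badSet qv),
      algebraMap E'.R E''.R (a l) = c (.inl ⟨l, hl, hb⟩) := fun l hl hb => by
    show algebraMap E'.R E''.R (dite _ _ _) = _
    rw [dif_pos ⟨hl, hb⟩]
    exact (hcl _).symm
  have hresa : ∀ (l : ℕ), l.Prime → l ∉ F.badSet qv →
      residue E'.R (a l) = ((W.apOfModel l : ℤ) : ResidueField E'.R) := fun l hl hb => by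
    refine (ResidueField.map (algebraMap E'.R E''.R)).injective ?_
    rw [ResidueField.map_residue, ha l hl hb, map_intCast, hcres]
    show residue E''.R (algebraMap E'.R E''.R (F.pointHom n qv E' ψ
      ((W.apOfModel l : ℤ) : F.Diamond r n))) = _
    rw [map_intCast, map_intCast, map_intCast]
  let j : ResidueField F.E.R →+* ResidueField E''.R :=
    (ResidueField.map (algebraMap E'.R E''.R)).comp (ResidueField.map (algebraMap F.E.R E'.R))
  have hpar : u ∈ homPar0 ℤ (Gamma0 (M * p)) K := by
    refine F.mem_homPar0_of_eigen D (IsFractionRing.injective E''.R K) j u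
      (Finset.univ.image qv) fun l hl hlT _ => ?_
    have hb : l ∉ F.badSet qv := by rwa [AvoidFrame.badSet, Finset.union_comm]
    refine ⟨c (.inl ⟨l, hl, hb⟩), huT (.inl ⟨l, hl, hb⟩) fun hd =>
      F.not_dvd_level hN0 h hl hb (hlev ▸ hd), ?_⟩
    rw [← ha l hl hb, ← ResidueField.map_residue, hresa l hl hb, map_intCast, map_intCast]
  -- an integral multiple and a coordinate over `E'`
  obtain ⟨d, hd, v, hv⟩ := exists_integral_hom (B := E''.R) u
  have hinj := IsFractionRing.injective E''.R K
  have hvx : ∀ x, algebraMap E''.R K (v x) = d * u x := fun x => DFunLike.congr_fun hv x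
  obtain ⟨x₀, hx₀⟩ : ∃ x, v x ≠ 0 := by
    by_contra! hall
    refine hu0 (AddMonoidHom.ext fun x => (mul_eq_zero.mp ?_).resolve_left hd)
    rw [← hvx, hall, map_zero]
  haveI : Module.IsTorsionFree E'.R E''.R :=
    haveI : FaithfulSMul E'.R E''.R :=
      (faithfulSMul_iff_algebraMap_injective _ _).mpr E''.injective
    inferInstance
  haveI : Module.Free E'.R E''.R := Module.free_of_finite_type_torsion_free'
  let b := Module.Free.chooseBasis E'.R E''.R
  obtain ⟨i, hi⟩ : ∃ i, b.coord i (v x₀) ≠ 0 := by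
    by_contra! hall
    exact hx₀ (b.forall_coord_eq_zero_iff.mp hall)
  let w : Additive (Gamma0 (M * p)) →+ E'.R := (b.coord i).toAddMonoidHom.comp v
  have hwpar : w ∈ homPar0 ℤ (Gamma0 (M * p)) E'.R := by
    intro γ hγ
    show b.coord i (v (Additive.ofMul γ)) = 0
    rw [show v (Additive.ofMul γ) = 0 from hinj (by rw [hvx, hpar γ hγ, mul_zero, map_zero]),
      map_zero]
  have hwT : ∀ l : ℕ, l.Prime → l ∉ F.badSet qv → ¬ l ∣ M * p →
      heckeHom ℤ (M * p) l w = a l • w := fun l hl hb _ => by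
    have h1 := huT (.inl ⟨l, hl, hb⟩) fun hd' => F.not_dvd_level hN0 h hl hb (hlev ▸ hd')
    rw [heckeHom_eq_int] at h1
    have h2 : heckeHom ℤ (M * p) l v = c (.inl ⟨l, hl, hb⟩) • v := by
      refine AddMonoidHom.ext fun x => hinj ?_
      have h3 := DFunLike.congr_fun (congrArg (heckeHom ℤ (M * p) l) hv) x
      rw [heckeHom_comp] at h3
      refine h3.trans ?_
      have h4 : d • u = (DistribSMul.toAddMonoidHom K d).comp u := rfl
      rw [h4, heckeHom_comp]
      show d * heckeHom ℤ (M * p) l u x = algebraMap E''.R K (c _ * v x)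
      rw [show heckeHom ℤ (M * p) l u x = algebraMap E''.R K (c (.inl ⟨l, hl, hb⟩)) * u x from
        DFunLike.congr_fun h1 x, map_mul, hvx]
      ring
    rw [show w = (b.coord i).toAddMonoidHom.comp v from rfl, heckeHom_comp, h2]
    refine AddMonoidHom.ext fun x => ?_
    show b.coord i (c _ * v x) = a l * b.coord i (v x)
    rw [← ha l hl hb, ← Algebra.smul_def, map_smul, smul_eq_mul]
  have hwtr : ∀ (bl : Bool) (γ : Gamma0 M), ∑ k, w (Additive.ofMul
      (Disc.transCocyc hpM dvd_rfl (Disc.isTrans_sideTrans (q := p) hpM bl) γ k)) = 0 :=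
    fun bl γ => by
      show ∑ k, b.coord i (v _) = 0
      rw [← map_sum, show ∑ k, v (Additive.ofMul _) = 0 from hinj (by
        simp only [map_sum, hvx, ← Finset.mul_sum, hutr bl γ, mul_zero, map_zero]), map_zero]
  -- strictness
  letI : Algebra ℤ_[p] E'.R :=
    ((algebraMap F.E.R E'.R).comp (algebraMap ℤ_[p] F.E.R)).toAlgebra
  haveI : IsScalarTower ℤ_[p] F.E.R E'.R := IsScalarTower.of_algebraMap_eq fun _ => rfl
  haveI : Module.Finite ℤ_[p] E'.R := Module.Finite.trans F.E.R E'.R
  have hap : ∀ (l : ℕ) (hl : l.Prime) (hb : l ∉ F.badSet qv),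
      ψ ⟨F.opT n qv ⟨l, hl, hb⟩, Algebra.subset_adjoin ⟨⟨l, hl, hb⟩, rfl⟩⟩ = a l :=
    fun l hl hb => by
      show _ = dite _ _ _
      rw [dif_pos ⟨hl, hb⟩]
  refine AtP.isStrictOrdinaryAt_of_traces hpM D.p_ne_two (F.badSet qv) a ρ ?_
    (F.residual_pointRep_isAbsolutelyIrreducible D hρ fun l => ?_) hρ.1 ho w hwpar
    (fun h0 => hi (DFunLike.congr_fun h0 x₀)) hwT hwtr
  · intro l hl hb A hA σ hσ
    rw [← hap l hl hb]
    exact F.charpoly_pointRep hρ ⟨l, hl, hb⟩ hA hσ
  · exact (congrArg (residue E'.R) (hap l.1 l.2.1 l.2.2)).trans (hresa l.1 l.2.1 l.2.2)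

end FLTA.RT

end
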