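import Fermat.Agent.RT.Main.ModulesPointEigen
import Fermat.Agent.RT.Main.ModulesAlg
import Fermat.Agent.RT.PointTwist
import Fermat.Agent.RT.OldNew
import Fermat.Agent.RT.LocalExtra
import Fermat.Agent.RT.RaiseBottomRegular

/-!
# (M3) No point is unipotent on inertia at `q`

The eigenclass of a point is twisted away at the tuple and then at `q`; the result is a parabolic
eigenhomomorphism at a level `M q²` killed by both traces to `M q`.
-/

set_option autoImplicit false

noncomputable section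

open IsLocalRing WeierstrassCurve CongruenceSubgroup ModularCurve.Period

namespace FLTA.RT

open FLTA.Periods

/-- A homomorphism of a finitely generated group into the fraction field has an integral
multiple. -/
theorem exists_integral_multiple {O : Type} [CommRing O] [IsDomain O] {Γ : Type} [Group Γ]
    [Group.FG Γ] (u : Additive Γ →+ FractionRing O) :
    ∃ (s : O) (v : Additive Γ →+ O), s ≠ 0 ∧
      ∀ γ, algebraMap O (FractionRing O) (v γ) = algebraMap O (FractionRing O) s * u γ := by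
  classical
  obtain ⟨G, hG, hfin⟩ := Group.fg_iff.mp (inferInstance : Group.FG Γ)
  have : Finite G := hfin
  obtain ⟨s, hs⟩ := IsLocalization.exist_integer_multiples_of_finite (nonZeroDivisors O)
    fun g : G => u (Additive.ofMul (g : Γ))
  let ι := algebraMap O (FractionRing O)
  have hι : Function.Injective ι := IsFractionRing.injective O _
  have hmem : ∀ γ : Γ, ι (s : O) * u (Additive.ofMul γ) ∈ Set.range ι := fun γ => by
    have hγ : γ ∈ Subgroup.closure G := hG ▸ Subgroup.mem_top γ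
    induction hγ using Subgroup.closure_induction with
    | mem g hg =>
      obtain ⟨c, hc⟩ := hs ⟨g, hg⟩
      exact ⟨c, hc.trans (Algebra.smul_def _ _)⟩
    | one => exact ⟨0, by rw [map_zero, ofMul_one, map_zero, mul_zero]⟩
    | mul a b _ _ ha hb =>
      obtain ⟨ca, ha⟩ := ha
      obtain ⟨cb, hb⟩ := hb
      exact ⟨ca + cb, by rw [map_add, ha, hb, ofMul_mul, map_add, mul_add]⟩
    | inv a _ ha =>
      obtain ⟨ca, ha⟩ := ha
      exact ⟨-ca, by rw [map_neg, ha, ofMul_inv, map_neg, mul_neg]⟩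
  choose c hc using hmem
  refine ⟨s, AddMonoidHom.mk' (fun γ => c (Additive.toMul γ)) fun a b => hι ?_,
    nonZeroDivisors.coe_ne_zero s, fun γ => hc (Additive.toMul γ)⟩
  rw [hc, map_add ι, hc, hc, ← mul_add, ← map_add u]
  rfl

variable {W : WeierstrassCurve ℤ} {hΔ : W.Δ ≠ 0} {p : ℕ} [Fact p.Prime] {N q : ℕ}

local notation "Γℚ" => AlgebraicClosure ℚ ≃ₐ[ℚ] AlgebraicClosure ℚ

namespace AvoidFrame

variable (F : AvoidFrame W hΔ p N q) (n : ℕ) {r : ℕ} (qv : Fin r → ℕ) [NeZero (F.level qv)]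

omit [NeZero (F.level qv)] in
theorem not_dvd_prod_tuple (h : F.IsTWTuple n qv) {s : ℕ} (hs : s.Prime) (hne : ∀ i, qv i ≠ s)
    (t : Finset (Fin r)) : ¬ s ∣ ∏ i ∈ t, qv i := fun hd => by
  obtain ⟨i, -, hi⟩ := (hs.prime.dvd_finsetProd_iff qv).mp hd
  exact hne i ((Nat.prime_dvd_prime_iff_eq hs (h.prime i)).mp hi).symm

theorem not_dvd_N (h : F.IsTWTuple n qv) (i : Fin r) : ¬ qv i ∣ N := fun hd => by
  refine h.notMem i ?_
  simp [avoided, Nat.mem_primeFactors, h.prime i, hd,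
    left_ne_zero_of_mul (NeZero.ne (F.level qv))]

/-- The twisted primes exactly divide the level. -/
theorem twistSet_props (D : LowerData W hΔ p N q) (h : F.IsTWTuple n qv) {s : ℕ}
    (hs : s ∈ F.twistSet qv) : s.Prime ∧ s ∣ F.level qv ∧ ¬ s * s ∣ F.level qv := by
  classical
  refine ⟨F.prime_twistSet D.prime h hs, F.dvd_level_of_mem_twistSet qv D.dvd hs, fun hd => ?_⟩
  simp only [twistSet, Finset.mem_insert, Finset.mem_image, Finset.mem_univ, true_and] at hs
  rcases hs with rfl | ⟨i, rfl⟩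
  · have hcop : Nat.Coprime (s * s) (∏ i, qv i) := by
      have hc : Nat.Coprime s (∏ i, qv i) := D.prime.coprime_iff_not_dvd.mpr
        (F.not_dvd_prod_tuple n qv h D.prime (fun i e => F.not_dvd_N n qv h i (e ▸ D.dvd)) _)
      exact Nat.Coprime.mul_left hc hc
    exact D.prime.not_isUnit (D.squarefree s (hcop.dvd_of_dvd_mul_right hd))
  · have hcop : Nat.Coprime (qv i * qv i) N := by
      have hc : Nat.Coprime (qv i) N := (h.prime i).coprime_iff_not_dvd.mpr (F.not_dvd_N n qv h i)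
      exact Nat.Coprime.mul_left hc hc
    have hd' := hcop.dvd_of_dvd_mul_left hd
    rw [← Finset.mul_prod_erase _ _ (Finset.mem_univ i)] at hd'
    obtain ⟨j, hj, hji⟩ := ((h.prime i).prime.dvd_finsetProd_iff qv).mp
      (Nat.dvd_of_mul_dvd_mul_left (h.prime i).pos hd')
    exact (Finset.mem_erase.mp hj).1
      (h.injective ((Nat.prime_dvd_prime_iff_eq (h.prime i) (h.prime j)).mp hji).symm)

omit [NeZero (F.level qv)] in
/-- The pushed characters have odd order. -/
theorem eps_eq_one_of_sq (hp2 : p ≠ 2) {A : Type} [CommRing A] (φ : F.Diamond r n →+* A) (s : ℕ)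
    (hs : charMap φ (F.eps n qv s) ^ 2 = 1) : charMap φ (F.eps n qv s) = 1 :=
  MonoidHom.ext fun v => eq_one_of_pow_coprime
    (Nat.Coprime.pow_right (F.a + (n + 1))
      ((Nat.coprime_primes Nat.prime_two (Fact.out : p.Prime)).mpr hp2.symm))
    (DFunLike.congr_fun hs v) (by
      show Units.map (φ : F.Diamond r n →* A) (F.eps n qv s v) ^ _ = 1
      rw [← map_pow, F.eps_pow, map_one])

/-- At a point the character at `q` is not trivial. -/
theorem charMap_eps_q_ne_one (hq : q.Prime) (hq1 : (q : ZMod p) = 1)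
    (E' : RepTheory.FiniteDVRExt F.E.R) (ψ : F.Alg n qv →ₐ[F.E.R] E'.R) :
    charMap (F.ptHom n qv E' ψ) (F.eps n qv q) ≠ 1 := by
  intro h1
  have ha : F.a ≠ 0 := fun ha => by
    have hd : p ^ 1 ∣ q - 1 := by
      rw [pow_one, ← ZMod.natCast_eq_zero_iff, Nat.cast_sub hq.one_le, hq1, Nat.cast_one, sub_self]
    have := F.le_a 1 hd
    omega
  obtain ⟨c, hc⟩ := F.pow_dvd
  obtain ⟨g, -, hg⟩ := exists_charOfRoot_eq (R := F.Diamond r n) hq
    (x := algebraMap F.E.R (F.Diamond r n) F.ζ)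
    (by rw [← map_pow, hc, pow_mul, F.isPrimitiveRoot.pow_eq_one, one_pow, map_one])
  have h2 : F.ptHom n qv E' ψ (F.eps n qv q g : F.Diamond r n) = 1 :=
    congrArg (fun f : (ZMod q)ˣ →* (FractionRing E'.R)ˣ => (f g : FractionRing E'.R)) h1
  rw [eps, if_pos rfl, hg] at h2
  have h3 : algebraMap E'.R (FractionRing E'.R) (algebraMap F.E.R E'.R F.ζ) = 1 :=
    (congrArg (algebraMap E'.R _) (AlgHom.commutes ψ F.ζ).symm).trans h2
  rw [← map_one (algebraMap E'.R (FractionRing E'.R))] at h3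
  have h4 : F.ζ = 1 := E'.injective
    ((IsFractionRing.injective E'.R (FractionRing E'.R) h3).trans (map_one _).symm)
  have hle := Nat.le_of_dvd one_pos
    (F.isPrimitiveRoot.dvd_of_pow_eq_one 1 (by rw [pow_one, h4]))
  exact absurd hle (not_le.mpr (Nat.one_lt_pow ha (Fact.out : p.Prime).one_lt))

set_option maxHeartbeats 1600000 in
set_option synthInstance.maxHeartbeats 400000 in
/-- A non-Eisenstein prime stays non-Eisenstein at every point. -/
theorem point_ne_eisenstein (hqv : ∀ i, (qv i).Prime) (E' : RepTheory.FiniteDVRExt F.E.R)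
    (ψ : F.Alg n qv →ₐ[F.E.R] E'.R) (l : {l : ℕ // l.Prime ∧ l ∉ F.badSet qv})
    (hu : IsUnit ((W.apOfModel l.1 : ResidueField F.E.R) - ((l.1 : ResidueField F.E.R) + 1))) :
    ψ ⟨F.opT n qv l, Algebra.subset_adjoin ⟨l, rfl⟩⟩ ≠ (l.1 : E'.R) + 1 := by
  have := group_fg_Gamma0 (F.level qv)
  have := F.isNoetherianRing_diamond n (r := r)
  have : Module.Finite (F.Diamond r n) (F.Mod n qv) := finite_eImage _
  have hac : IsUnit ((W.apOfModel l.1 : F.Diamond r n) - ((l.1 : F.Diamond r n) + 1)) := by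
    refine F.isUnit_of_diamondToRes n ?_
    simpa [map_sub, map_add, map_natCast, map_intCast] using hu
  have key := fun k hk => apply_ne_of_pow_sub_mem (ψ : F.Alg n qv →+* E'.R)
    ⟨F.opT n qv l, Algebra.subset_adjoin ⟨l, rfl⟩⟩ (W.apOfModel l.1 : F.Diamond r n)
    ((l.1 : F.Diamond r n) + 1) (k := k) hk hac
  refine (F.exists_pow_opT_sub n qv hqv l).elim fun k hk he => key k hk ?_
  let φ₀ : F.Diamond r n →+* E'.R :=
    (ψ : F.Alg n qv →+* E'.R).comp (algebraMap (F.Diamond r n) (F.Alg n qv))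
  show _ = φ₀ _
  rw [map_add φ₀, map_natCast φ₀, map_one φ₀]
  exact he

set_option maxHeartbeats 1600000 in
/-- **(M3)** No point is unipotent on inertia at `q`. -/
theorem point_not_unipotent_of_frame (D : LowerData W hΔ p N q)
    (hq1 : (q : ZMod p) = 1) (h : F.IsTWTuple n qv) (E' : RepTheory.FiniteDVRExt F.E.R)
    (ψ : F.Alg n qv →ₐ[F.E.R] E'.R) (ρ : GaloisRepAdic E'.R) (hdet : ρ.DetIsCyclotomic p)
    (hfrob : ∀ (l : {l : ℕ // l.Prime ∧ l ∉ F.badSet qv})
      (A : ValuationSubring (AlgebraicClosure ℚ)), A.LiesOverPrime l.1 →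
        ∀ σ : Γℚ, A.IsFrobeniusAt σ l.1 →
          ρ.trace σ = ψ ⟨F.opT n qv l, Algebra.subset_adjoin ⟨l, rfl⟩⟩) :
    ¬ ρ.IsUnipotentOnInertiaAt q := by
  classical
  have hp2 : p ≠ 2 := by have := D.three_le; omega
  have hq := D.prime
  have := Fact.mk hq
  have : NeZero q := ⟨hq.ne_zero⟩
  let φ := F.ptHom n qv E' ψ
  let εK : ∀ s : ℕ, (ZMod s)ˣ →* (FractionRing E'.R)ˣ := fun s => charMap φ (F.eps n qv s)
  let Q₀ : Finset ℕ := Finset.univ.image qv
  have hqQ : q ∉ Q₀ := fun hm => by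
    obtain ⟨i, -, hi⟩ := Finset.mem_image.mp hm
    exact F.not_dvd_N n qv h i (hi ▸ D.dvd)
  have hset : F.twistSet qv = Q₀ ∪ {q} := by
    rw [twistSet, Finset.union_comm, Finset.singleton_union]
  obtain ⟨x, hx0, hx⟩ := F.exists_point_eigenclass n qv D h E' ψ
  obtain ⟨L, hL, -, -, hT, hLdvd, J, hJ, hJT⟩ := exists_realisation_to
    (K := FractionRing E'.R) {q} Q₀ (F.level qv) εK (Finset.disjoint_singleton_right.mpr hqQ)
    (fun s hs => F.twistSet_props n qv D h (hset ▸ hs))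
    (fun s _ => F.eps_eq_one_of_sq n qv hp2 φ s) (charMap φ (F.chi n qv))
    (by rw [chi, charMap_sigProd, hset])
  obtain ⟨hqL, hqq⟩ := hT q (Finset.mem_singleton_self q)
  have : NeZero (L * q) := ⟨mul_ne_zero (NeZero.ne L) hq.ne_zero⟩
  have hχ' : sigProd L {q} εK = sqChar hqL (εK q) := MonoidHom.ext fun y => by
    rw [sigProd_apply, Finset.prod_singleton, sigChar_of_dvd _ hqL]
    rfl
  let a₀ : ℕ → E'.R := fun l =>
    if hl : l.Prime ∧ l ∉ F.badSet qv then
      ψ ⟨F.opT n qv ⟨l, hl⟩, Algebra.subset_adjoin ⟨⟨l, hl⟩, rfl⟩⟩ else 0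
  have ha₀ : ∀ (l : ℕ) (hl : l.Prime ∧ l ∉ F.badSet qv),
      a₀ l = ψ ⟨F.opT n qv ⟨l, hl⟩, Algebra.subset_adjoin ⟨⟨l, hl⟩, rfl⟩⟩ := fun l hl => dif_pos hl
  have hlev : ∀ l : ℕ, l.Prime → l ∉ F.badSet qv → ¬ l ∣ F.level qv := fun l hl hlS hd =>
    hlS (F.mem_badSet_of_dvd D.prime D.dvd h hl (hd.mul_right _))
  let ι := algebraMap E'.R (FractionRing E'.R)
  have hι : Function.Injective ι := IsFractionRing.injective E'.R _
  obtain ⟨u, hu0, hupar, huT, hlow, hupp⟩ := exists_parabolic_of_twist hqL hqq (εK q)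
    (fun h2 => F.charMap_eps_q_ne_one n qv hq hq1 E' ψ (F.eps_eq_one_of_sq n qv hp2 φ q h2))
    (sigProd L {q} εK) hχ' (F.badSet qv) (J x)
    (fun h0 => hx0 (hJ (h0.trans (map_zero J).symm))) (fun l => ι (a₀ l))
    (fun l hl hlS _ => by
      have h1 := congrArg J (hx ⟨l, hl, hlS⟩)
      rw [map_smul, map_smul] at h1
      rw [← hJT l hl (hlev l hl hlS), map_smul, smul_smul, ha₀ l ⟨hl, hlS⟩]
      refine Eq.trans (congrArg (fun c : FractionRing E'.R => c • _) ?_) h1
      rw [mul_comm, ← Units.val_mul, kap, kap, hset,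
        Finset.prod_union (Finset.disjoint_singleton_right.mpr hqQ), Finset.prod_singleton])
    (by
      obtain ⟨l, hl, hlS, hl1, hu⟩ := exists_nonEisenstein D F hp2 (NeZero.ne (L * q))
        (F.badSet qv ∪ (L * q).primeFactors)
      simp only [Finset.mem_union, not_or] at hlS
      refine ⟨l, hl, hlS.1.1, fun hd =>
        hlS.1.2 (Nat.mem_primeFactors.mpr ⟨hl, hd, NeZero.ne _⟩), hl1, fun he => ?_⟩
      refine F.point_ne_eisenstein n qv h.prime E' ψ ⟨l, hl, hlS.1.1⟩ hu ?_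
      rw [← ha₀ l ⟨hl, hlS.1.1⟩]
      exact hι (he.trans (by rw [map_add, map_natCast, map_one])))
  obtain ⟨M, hLM⟩ := hqL
  rw [mul_comm] at hLM
  subst hLM
  have hqM : ¬ q ∣ M := fun hd => hqq (mul_dvd_mul_right hd q)
  have : NeZero M := ⟨left_ne_zero_of_mul (NeZero.ne (M * q))⟩
  have := group_fg_Gamma0 (M * q * q)
  obtain ⟨s, v, hs0, hv⟩ := exists_integral_multiple u
  have hsum : ∀ g : ZMod q → Gamma0 (M * q * q), ∑ j, u (Additive.ofMul (g j)) = 0 →
      ∑ j, v (Additive.ofMul (g j)) = 0 := fun g hg => hι (by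
    rw [map_sum, map_zero]
    simp only [ι, hv]
    rw [← Finset.mul_sum, hg, mul_zero])
  have hv' : ι.toAddMonoidHom.comp v = ι s • u := AddMonoidHom.ext hv
  have hs' : ι s ≠ 0 := (map_ne_zero_iff ι hι).mpr hs0
  let _ : Algebra ℤ_[p] E'.R := ((algebraMap F.E.R E'.R).comp (algebraMap ℤ_[p] F.E.R)).toAlgebra
  have : IsScalarTower ℤ_[p] F.E.R E'.R := IsScalarTower.of_algebraMap_eq fun _ => rfl
  have : Module.Finite ℤ_[p] E'.R := Module.Finite.trans F.E.R E'.R
  have hpE : (p : E'.R) ∈ maximalIdeal E'.R := hdet.1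
  refine not_isUnipotentOnInertiaAt_of_traces D.ne hqM hpE (F.badSet qv) a₀ ρ ?_ v ?_ ?_ ?_
    (fun g π f hf => hsum f (hlow g π f hf)) (fun g π f hf => hsum f (hupp g π f hf))
  · intro l hl hlS A hA σ hσ
    have hlp : l ≠ p := fun e => hlS (by simp [badSet, avoided, e])
    rw [RepTheory.charpoly_of_finrank_two ρ.finrank_eq,
      LocalGalois.det_frobenius_eq ρ hdet hl Fact.out hlp.symm hA hσ,
      show LinearMap.trace E'.R ρ.V (ρ.ρ σ) = a₀ l from
        (hfrob ⟨l, hl, hlS⟩ A hA σ hσ).trans (ha₀ l ⟨hl, hlS⟩).symm]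
  · refine isParHom0_of_isParabolicHom_domain (by norm_num) fun γ hγ => hι ?_
    rw [hv, hupar γ hγ, mul_zero, map_zero]
  · intro h0
    refine hu0 ((smul_eq_zero.mp ?_).resolve_left hs')
    rw [← hv', h0, AddMonoidHom.comp_zero]
  · intro l hl hlS hlM
    have h1 := congrArg (fun φ => ι s • φ) (huT l hl hlS hlM)
    simp only [← map_smul, smul_comm (ι s) (ι (a₀ l))] at h1
    rw [← hv', heckeHom_eq_int, heckeHom_comp] at h1
    refine AddMonoidHom.ext fun γ => hι ((DFunLike.congr_fun h1 γ).trans ?_)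
    exact (map_mul ι _ _).symm

end AvoidFrame

end FLTA.RT

end
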