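import Fermat.Agent.RT.Main.ModulesRankReduce
import Fermat.Agent.RT.HeckeLocalDegeneracy

/-!
# The rank of the residual factor does not see the Taylor–Wiles primes

Adding one prime of the tuple at a time, the factor of `Hom(Γ₀(N ∏ qv), k)` has the dimension of the
factor of `Hom(Γ₀(N), k)` for the system `a_l`, `l` outside the avoided primes.
-/

set_option autoImplicit false

noncomputable section

open IsLocalRing WeierstrassCurve CongruenceSubgroup

namespace FLTA.RT

open FLTA.Periods

variable {W : WeierstrassCurve ℤ} {hΔ : W.Δ ≠ 0} {p : ℕ} [Fact p.Prime] {N q : ℕ}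

namespace AvoidFrame

variable (F : AvoidFrame W hΔ p N q) {n r : ℕ}

/-- The primes outside the avoided ones. -/
abbrev Good : Type := {l : ℕ // l.Prime ∧ l ∉ F.avoided}

/-- The residual system: the chosen root at the primes of `S`, `a_l` at the other ones. -/
def levelSys (S : Finset ℕ) (l : F.Good) : ResidueField F.E.R :=
  if l.1 ∈ S then residue F.E.R (F.alphaAt l.1) else (W.apOfModel l.1 : ResidueField F.E.R)

/-- The dimension of the residual factor at level `L`. -/
def factorRank (L : ℕ) [NeZero L] (S : Finset ℕ) : ℕ :=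
  Module.finrank (ResidueField F.E.R) (LinearMap.range
    (localIdem (gamHecke (ResidueField F.E.R) L fun l : F.Good => l.1) (F.levelSys S)))

/-- The primes of the operators at a tuple, among the good ones. -/
def idxGood {qv : Fin r → ℕ} (h : F.IsTWTuple n qv) : F.Idx qv → F.Good :=
  Sum.elim (fun l => ⟨l.1, l.2.1, fun hm => l.2.2 (Finset.mem_union_left _ hm)⟩)
    (fun i => ⟨qv i, h.prime i, h.notMem i⟩)

theorem idxGood_surjective {qv : Fin r → ℕ} (h : F.IsTWTuple n qv) :
    Function.Surjective (F.idxGood h) := by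
  classical
  rintro ⟨l, hl, hla⟩
  by_cases hq : ∃ i, qv i = l
  · obtain ⟨i, rfl⟩ := hq
    exact ⟨Sum.inr i, rfl⟩
  · exact ⟨Sum.inl ⟨l, hl, by simpa [badSet, hla] using hq⟩, rfl⟩

end AvoidFrame

open AvoidFrame

/-- Adding the primes of a subset of the tuple to any base level prime to them does not change
the rank. -/
theorem factorRank_eq_base (F : AvoidFrame W hΔ p N q) (hp2 : p ≠ 2) (B : ℕ) [NeZero B]
    (hell : ∀ M : ℕ, B ∣ M → ∀ φ : Additive (Gamma0 M) →+ ResidueField F.E.R,
      ModularCurve.Period.IsParabolicHom (Gamma0 M) φ → FLTA.Gamma0.IsParHom0 (Gamma0 M) φ)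
    (haux : ∀ M : ℕ, M ≠ 0 → ∀ S : Finset ℕ, ∃ l : ℕ, l.Prime ∧ l ∉ S ∪ F.avoided ∧
      (l : ZMod M) = 1 ∧
      IsUnit ((W.apOfModel l : ResidueField F.E.R) - ((l : ResidueField F.E.R) + 1)))
    {n r : ℕ} {qv : Fin r → ℕ} (h : F.IsTWTuple n qv) (hB : ∀ i, ¬ qv i ∣ B)
    (s : Finset (Fin r)) (L : ℕ) [NeZero L] (hL : L = B * ∏ i ∈ s, qv i) :
    F.factorRank L (s.image qv) = F.factorRank B ∅ := by
  classical
  haveI := F.charP_res
  have : IsAdicComplete (maximalIdeal (ResidueField F.E.R)) (ResidueField F.E.R) := by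
    rw [IsLocalRing.maximalIdeal_eq_bot]
    infer_instance
  induction s using Finset.induction_on generalizing L with
  | empty =>
    obtain rfl : L = B := by simpa using hL
    rw [Finset.image_empty]
  | @insert i t hit ih =>
    have hi := h.prime i
    haveI : NeZero (qv i) := ⟨hi.ne_zero⟩
    have hM0 : B * ∏ j ∈ t, qv j ≠ 0 :=
      mul_ne_zero (NeZero.ne B) (Finset.prod_ne_zero_iff.mpr fun j _ => (h.prime j).ne_zero)
    haveI : NeZero (B * ∏ j ∈ t, qv j) := ⟨hM0⟩
    obtain rfl : L = (B * ∏ j ∈ t, qv j) * qv i := by rw [hL, Finset.prod_insert hit]; ring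
    have hiM : ¬ qv i ∣ B * ∏ j ∈ t, qv j := fun hd => by
      rcases hi.dvd_mul.mp hd with hd | hd
      · exact hB i hd
      · obtain ⟨j, hj, hij⟩ := (hi.prime.dvd_finsetProd_iff _).mp hd
        exact hit (h.injective ((Nat.prime_dvd_prime_iff_eq hi (h.prime j)).mp hij) ▸ hj)
    have hiS : qv i ∉ t.image qv := fun hm => by
      obtain ⟨j, hj, hji⟩ := Finset.mem_image.mp hm
      exact hit (h.injective hji ▸ hj)
    obtain ⟨l₀, hl₀, hl₀S, hl₀1, hl₀u⟩ :=
      haux _ (mul_ne_zero hM0 hi.ne_zero) (t.image qv)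
    simp only [Finset.mem_union, not_or] at hl₀S
    obtain ⟨hlk, h1, h2, h3, h4⟩ := twRoot F hp2 h i
    let si : F.Good := ⟨qv i, hi, h.notMem i⟩
    have hsys : F.levelSys (t.image qv) si = (W.apOfModel (qv i) : ResidueField F.E.R) := if_neg hiS
    have hup : F.levelSys ((insert i t).image qv) = Function.update (F.levelSys (t.image qv)) si
        (residue F.E.R (F.alphaAt (qv i))) := funext fun l => by
      by_cases hl : l = si
      · subst hl
        rw [Function.update_self, levelSys, Finset.image_insert,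
          if_pos (Finset.mem_insert_self _ _)]
      · have : l.1 ≠ qv i := fun e => hl (Subtype.ext e)
        rw [Function.update_of_ne hl, levelSys, levelSys, Finset.image_insert]
        simp [this]
    have h20 : (2 : ResidueField F.E.R) ≠ 0 :=
      Ring.two_ne_zero (by rwa [ringChar.eq (ResidueField F.E.R) p])
    obtain ⟨Φ, -⟩ := exists_equiv_addPrime (N := B * ∏ j ∈ t, qv j) (q := qv i)
      (fun l : F.Good => l.1) (fun l => l.2.1) (F.levelSys (t.image qv)) si
      (fun l => ⟨fun e => Subtype.ext e, fun e => by rw [e]⟩) hiM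
      (residue F.E.R (F.alphaAt (qv i))) ⟨l₀, hl₀, hl₀S.2⟩ hl₀1
      (by rw [levelSys, if_neg hl₀S.1]; exact hl₀u)
      (fun x hx => (mul_eq_zero.mp ((two_mul x).trans hx)).resolve_left h20) (IsUnit.mk0 _ (by rw [hlk]; exact one_ne_zero))
      (fun M hM φ hφ => hell M (by
        rcases hM with rfl | rfl
        · exact dvd_mul_right _ _
        · exact (dvd_mul_right _ _).mul_right _) φ hφ)
      (by rw [hsys, h1]; exact zero_mem _) (by rw [hsys]; exact IsUnit.mk0 _ h2)
      (IsUnit.mk0 _ h3) (by rw [hsys]; exact IsUnit.mk0 _ h4)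
    rw [← ih (B * ∏ j ∈ t, qv j) rfl, factorRank, factorRank, hup]
    convert Φ.finrank_eq.symm <;> rfl

/-- Adding the primes of a subset of the tuple to the level `N` does not change the rank. -/
theorem factorRank_eq (D : LowerData W hΔ p N q) (F : AvoidFrame W hΔ p N q) (hp2 : p ≠ 2)
    [NeZero N] {n r : ℕ} {qv : Fin r → ℕ} (h : F.IsTWTuple n qv) (s : Finset (Fin r))
    (L : ℕ) [NeZero L] (hL : L = N * ∏ i ∈ s, qv i) :
    F.factorRank L (s.image qv) = F.factorRank N ∅ :=
  factorRank_eq_base F hp2 N (fun M hM φ hφ => isParHom0_of_parabolic D F M hM φ hφ)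
    (fun _ hM S => exists_nonEisenstein D F hp2 hM S) h
    (fun i => (F.prime_props (h.prime i) (h.notMem i)).2.2.1 (NeZero.ne N)) s L hL

/-- The rank downstairs at a tuple is the rank at level `N`. -/
theorem finrank_level_eq (D : LowerData W hΔ p N q) (F : AvoidFrame W hΔ p N q) (hp2 : p ≠ 2)
    [NeZero N] {n r : ℕ} {qv : Fin r → ℕ} [NeZero (F.level qv)] (h : F.IsTWTuple n qv) :
    Module.finrank (ResidueField F.E.R)
      (LinearMap.range (localIdem (gamHecke (ResidueField F.E.R) (F.level qv) (F.primeOf qv))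
        (F.resSys n qv))) = F.factorRank N ∅ := by
  classical
  have : IsAdicComplete (maximalIdeal (ResidueField F.E.R)) (ResidueField F.E.R) := by
    rw [IsLocalRing.maximalIdeal_eq_bot]
    infer_instance
  haveI := finite_addHom (L := F.level qv) (O := ResidueField F.E.R) (ResidueField F.E.R)
  have hT : gamHecke (ResidueField F.E.R) (F.level qv) (F.primeOf qv) =
      gamHecke (ResidueField F.E.R) (F.level qv) (fun l : F.Good => l.1) ∘ F.idxGood h :=
    funext fun s => by cases s <;> rfl
  have ha : F.resSys n qv = F.levelSys (Finset.univ.image qv) ∘ F.idxGood h := funext fun s => by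
    rcases s with l | i
    · have hne : l.1 ∉ Finset.univ.image qv := fun hm => l.2.2 (Finset.mem_union_right _ hm)
      show F.diamondToRes n r ((W.apOfModel l.1 : ℤ) : F.Diamond r n) = F.levelSys _ _
      rw [map_intCast, levelSys, if_neg (show (F.idxGood h (Sum.inl l)).1 ∉ _ from hne)]
      rfl
    · show F.diamondToRes n r (algebraMap F.E.R _ (F.alphaAt (qv i))) = F.levelSys _ _
      rw [diamondToRes_algebraMap, levelSys, if_pos (show (F.idxGood h (Sum.inr i)).1 ∈ _ from
        Finset.mem_image_of_mem qv (Finset.mem_univ i))]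
      rfl
  rw [hT, ha, localIdem_reindex (fun s t => commute_heckeHom s.2.1 t.2.1) _ _
    (F.idxGood_surjective h)]
  exact factorRank_eq D F hp2 h Finset.univ _ rfl

end FLTA.RT

end
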