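import Fermat.Agent.RT.Main.ModulesRankOps
import Fermat.Agent.RT.Main.ModulesRankDown
import Fermat.Agent.RT.Main.ModulesClassical
import Fermat.Agent.RT.Main.ModulesDisc
import Fermat.Agent.RT.Main.ModulesPointTwist
import Fermat.Agent.RT.Main.ModulesPointRep
import Fermat.Agent.RT.Main.ModulesPointStrict
import Fermat.Agent.RT.Main.ModulesDiamondPoint

/-!
# The parts of the Hecke input of Ihara avoidance

(M1) rank, (M2) points separate the algebra, (M3) the facts at `q`, (M4) the diamond identity.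
-/

set_option autoImplicit false

noncomputable section

open IsLocalRing WeierstrassCurve

namespace FLTA.RT

variable {W : WeierstrassCurve ℤ} {hΔ : W.Δ ≠ 0} {p : ℕ} [Fact p.Prime] {N q : ℕ}

local notation "Γℚ" => AlgebraicClosure ℚ ≃ₐ[ℚ] AlgebraicClosure ℚ

/-- (M1) The level modules are free of one rank. -/
theorem exists_rank_modules (D : LowerData W hΔ p N q) (F : AvoidFrame W hΔ p N q) :
    ∃ d : ℕ, d ≠ 0 ∧ ∀ (n r : ℕ) (qv : Fin r → ℕ) [NeZero (F.level qv)],
      F.IsTWTuple n qv →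
      Nonempty (Module.Basis (Fin d) (F.Diamond r n) (F.Mod n qv)) := by
  have hp2 : p ≠ 2 := by have := D.three_le; omega
  have : NeZero N := ⟨D.squarefree.ne_zero⟩
  refine ⟨F.factorRank N ∅, finrank_bottom_ne_zero D F hp2 (fun l : F.Good => l.1) (fun l => l.2.1)
    (fun l => l.2.2) (F.levelSys ∅) (fun l => if_neg (Finset.notMem_empty _)), fun n r qv _ h => ?_⟩
  exact exists_basis_mod D F hp2 h (finrank_level_eq D F hp2 h)

/-- (M1) The operators preserve the factor and commute on it. -/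
theorem opT_spec (D : LowerData W hΔ p N q) (F : AvoidFrame W hΔ p N q) {n r : ℕ}
    {qv : Fin r → ℕ} [NeZero (F.level qv)] (h : F.IsTWTuple n qv) :
    (∀ l x, ((F.opT n qv l x : F.Mod n qv) : tH1 (gamChar (F.chi n qv)) (F.Diamond r n)) =
      (F.ops n qv (.inl l)).app (F.Diamond r n)
        (x : tH1 (gamChar (F.chi n qv)) (F.Diamond r n))) ∧
    ∀ l l', Commute (F.opT n qv l) (F.opT n qv l') := by
  exact ⟨F.coe_opT n qv h.prime, F.commute_opT n qv h.prime⟩

/-- (M1) `T_l - a_l` is topologically nilpotent on the factor. -/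
theorem opT_residual (D : LowerData W hΔ p N q) (F : AvoidFrame W hΔ p N q) {n r : ℕ}
    {qv : Fin r → ℕ} [NeZero (F.level qv)] (h : F.IsTWTuple n qv) (l : {l : ℕ // l.Prime ∧ l ∉ F.badSet qv}) :
    ∃ k : ℕ, ∀ x : F.Mod n qv, ((F.opT n qv l - (W.apOfModel l.1 : F.Diamond r n) • 1) ^ k) x ∈
      maximalIdeal (F.Diamond r n) • (⊤ : Submodule (F.Diamond r n) (F.Mod n qv)) := by
  exact F.exists_pow_opT_sub n qv h.prime l

/-- (M2) The operators come from the Hecke algebra of the classical level. -/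
theorem exists_classical_hom (D : LowerData W hΔ p N q) (F : AvoidFrame W hΔ p N q) {n r : ℕ}
    {qv : Fin r → ℕ} [NeZero (F.level qv)] [NeZero (F.classicalLevel qv)] (h : F.IsTWTuple n qv) :
    ∃ θ : CuspForm.heckeAlgebra (F.classicalLevel qv) 2 (↑(F.badSet qv) : Set ℕ) →+*
        Module.End (F.Diamond r n) (F.Mod n qv),
      ∀ (l : ℕ) (hl : l.Prime) (hlM : ¬ l ∣ F.classicalLevel qv)
        (hlS : l ∉ (↑(F.badSet qv) : Set ℕ)),
        θ (CuspForm.heckeAlgebra.T hl hlM hlS) = F.opT n qv ⟨l, hl, by simpa using hlS⟩ := by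
  exact (exists_classical_hom_and_isReduced D F h).1

/-- (M2) Points separate the algebra. -/
theorem exists_point_ne_zero (D : LowerData W hΔ p N q) (F : AvoidFrame W hΔ p N q) {n r : ℕ}
    {qv : Fin r → ℕ} [NeZero (F.level qv)] (h : F.IsTWTuple n qv) (t : F.Alg n qv) (ht : t ≠ 0) :
    ∃ (E' : RepTheory.FiniteDVRExt F.E.R) (ψ : F.Alg n qv →ₐ[F.E.R] E'.R), ψ t ≠ 0 := by
  exact exists_point_ne_zero_of_reduced D F h t ht

/-- (M3) No point is unipotent on inertia at `q`. -/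
theorem point_not_unipotent (D : LowerData W hΔ p N q) (hq1 : (q : ZMod p) = 1)
    (hno : NoLowerSystem W p N q) (F : AvoidFrame W hΔ p N q) {n r : ℕ} {qv : Fin r → ℕ}
    [NeZero (F.level qv)] (h : F.IsTWTuple n qv) (E' : RepTheory.FiniteDVRExt F.E.R)
    (ψ : F.Alg n qv →ₐ[F.E.R] E'.R) (ρ : GaloisRepAdic E'.R) (hρ : F.IsPointRep n qv E' ψ ρ) :
    ¬ ρ.IsUnipotentOnInertiaAt q := by
  exact F.point_not_unipotent_of_frame n qv D hq1 h E' ψ ρ hρ.1 hρ.2

/-- (M5) If `p` divides the level, an ordinary point is strictly ordinary. -/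
theorem point_strict (D : LowerData W hΔ p N q) (hpN : p ∣ N) (F : AvoidFrame W hΔ p N q)
    {n r : ℕ} {qv : Fin r → ℕ} [NeZero (F.level qv)] (h : F.IsTWTuple n qv)
    (E' : RepTheory.FiniteDVRExt F.E.R) (ψ : F.Alg n qv →ₐ[F.E.R] E'.R) (ρ : GaloisRepAdic E'.R)
    (hρ : F.IsPointRep n qv E' ψ ρ) (ho : ρ.IsOrdinaryAt p) : ρ.IsStrictOrdinaryAt p := by
  exact point_strict_proof D hpN F h E' ψ ρ hρ ho

/-- (M3) The discriminant of Frobenius at `q` maps the module into `ϖ` times it. -/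
theorem disc_mem_smul (D : LowerData W hΔ p N q) (hq1 : (q : ZMod p) = 1)
    (htr : TraceAtQ hΔ p q) (hno : NoLowerSystem W p N q) (F : AvoidFrame W hΔ p N q)
    {n r : ℕ} {qv : Fin r → ℕ} [NeZero (F.level qv)] (h : F.IsTWTuple n qv)
    (A : Type) [CommRing A] [IsLocalRing A] [IsNoetherianRing A]
    [IsAdicComplete (maximalIdeal A) A] [Algebra F.E.R A]
    (α : A →+* Module.End (F.Diamond r n) (F.Mod n qv)) (ρ : GaloisRepAdic A)
    (hα : ∀ (c : F.E.R) (x : F.Mod n qv),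
      α (algebraMap F.E.R A c) x = algebraMap F.E.R (F.Diamond r n) c • x)
    (hρ : F.cond qv ρ) (hfrob : ∀ (l : {l : ℕ // l.Prime ∧ l ∉ F.badSet qv})
      (P : ValuationSubring (AlgebraicClosure ℚ)), P.LiesOverPrime l.1 →
        ∀ σ : Γℚ, P.IsFrobeniusAt σ l.1 → α (ρ.trace σ) = F.opT n qv l)
    (x : F.Mod n qv) :
    α (ρ.trace (F.frob q) ^ 2 - 4 * (q : A)) x ∈
      ((Ideal.span {MvPowerSeries.C F.ϖ}).map (Ideal.Quotient.mk (F.diamondRel r n))) •
        (⊤ : Submodule (F.Diamond r n) (F.Mod n qv)) := by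
  exact disc_mem_piIdeal_smul D hq1 hno F h A α ρ hρ hfrob x

/-- (M4) At a Taylor–Wiles prime a fixed inertia element has the eigenvalue `1 + y_i` at every
point. -/
theorem point_diamond (D : LowerData W hΔ p N q) (F : AvoidFrame W hΔ p N q) {n r : ℕ}
    {qv : Fin r → ℕ} [NeZero (F.level qv)] (h : F.IsTWTuple n qv) (i : Fin r) :
    ∃ σ ∈ (F.place (qv i)).inertiaSubgroupIn ℚ,
      ∀ (E' : RepTheory.FiniteDVRExt F.E.R) (ψ : F.Alg n qv →ₐ[F.E.R] E'.R)
        (ρ : GaloisRepAdic E'.R), F.IsPointRep n qv E' ψ ρ →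
          let u := ψ (algebraMap (F.Diamond r n) (F.Alg n qv) (F.gen n i))
          u ^ 2 - ρ.trace σ * u + 1 = 0 := by
  exact point_diamond_of_class D F h i

end FLTA.RT

end
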