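import Fermat.Agent.RT.Main.AvoidFrame
import Fermat.Agent.RT.Main.ModulesParts
import Fermat.Agent.RT.Main.ModulesGeneric

/-!
# The Hecke input for Ihara avoidance
-/

set_option autoImplicit false

noncomputable section

open IsLocalRing WeierstrassCurve

namespace FLTA.RT

set_option synthInstance.maxHeartbeats 400000
set_option maxHeartbeats 2000000

variable {W : WeierstrassCurve ℤ} {hΔ : W.Δ ≠ 0} {p : ℕ} [Fact p.Prime] {N q : ℕ}

/-- The algebra of a level module is commutative when its generators commute. -/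
@[implicit_reducible]
def algCommRing (F : AvoidFrame W hΔ p N q) (n : ℕ) {r : ℕ} (qv : Fin r → ℕ)
    [NeZero (F.level qv)] (hcomm : ∀ l l', Commute (F.opT n qv l) (F.opT n qv l')) :
    CommRing (F.Alg n qv) :=
  { @Subalgebra.toRing (F.Diamond r n) (Module.End (F.Diamond r n) (F.Mod n qv)) _
      Module.End.instRing (Module.End.instAlgebra _ _ _) (F.Alg n qv) with
    mul_comm := fun x y => (Algebra.isMulCommutative_adjoin (F.Diamond r n)
      (s := Set.range (F.opT n qv)) (by
        rintro _ ⟨a, rfl⟩ _ ⟨b, rfl⟩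
        exact (hcomm a b).eq)).is_comm.comm x y }

/-- The module at one tuple. -/
theorem nonempty_twModule_of_parts (D : LowerData W hΔ p N q) (hq1 : (q : ZMod p) = 1)
    (htr : TraceAtQ hΔ p q) (hno : NoLowerSystem W p N q) (F : AvoidFrame W hΔ p N q) {d n r : ℕ}
    (hd : d ≠ 0) {qv : Fin r → ℕ} [NeZero (F.level qv)] [NeZero (F.classicalLevel qv)]
    (h : F.IsTWTuple n qv) (b : Module.Basis (Fin d) (F.Diamond r n) (F.Mod n qv)) :
    Nonempty (F.TWModule d n qv) := by
  obtain ⟨-, hcomm⟩ := opT_spec D F h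
  let _ : CommRing (F.Alg n qv) := algCommRing F n qv hcomm
  have : IsScalarTower F.E.R (F.Diamond r n) (F.Alg n qv) :=
    IsScalarTower.of_algebraMap_eq (R := F.E.R) (S := F.Diamond r n) (A := ↥(F.Alg n qv))
      fun _ => rfl
  obtain ⟨θE, hθE⟩ := exists_classical_hom D F h
  have hNS : ∀ l : ℕ, l.Prime → l ∣ F.classicalLevel qv → l ∈ F.badSet qv :=
    fun l hl hd => F.mem_badSet_of_dvd D.prime D.dvd h hl hd
  have hθmem : ∀ t, θE t ∈ F.Alg n qv := by
    intro t
    have ht : t ∈ Algebra.adjoin ℤ (Set.range (Avoid.goodT (N := F.classicalLevel qv)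
        (S := (↑(F.badSet qv) : Set ℕ)))) := by
      rw [Avoid.adjoin_range_goodT hNS]; trivial
    induction ht using Algebra.adjoin_induction with
    | mem x hx =>
      obtain ⟨l, rfl⟩ := hx
      rw [show Avoid.goodT l = CuspForm.heckeAlgebra.T l.2.1 l.2.2.1 l.2.2.2 from rfl, hθE]
      exact Algebra.subset_adjoin ⟨_, rfl⟩
    | algebraMap m =>
      rw [eq_intCast, map_intCast]
      have e : (m : Module.End (F.Diamond r n) (F.Mod n qv)) =
          algebraMap (F.Diamond r n) (Module.End (F.Diamond r n) (F.Mod n qv))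
            (m : F.Diamond r n) := LinearMap.ext fun x => by
        rw [Module.algebraMap_end_apply, Int.cast_smul_eq_zsmul, Module.End.intCast_apply]
      rw [e]
      exact Subalgebra.algebraMap_mem _ _
    | add x y _ _ hx hy => rw [map_add]; exact add_mem hx hy
    | mul x y _ _ hx hy => rw [map_mul]; exact mul_mem hx hy
  let Ψ : CuspForm.heckeAlgebra (F.classicalLevel qv) 2 (↑(F.badSet qv) : Set ℕ) →+*
      F.Alg n qv :=
    { toFun := fun t => ⟨θE t, hθmem t⟩
      map_one' := Subtype.ext (map_one θE)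
      map_mul' := fun x y => Subtype.ext (map_mul θE x y)
      map_zero' := Subtype.ext (map_zero θE)
      map_add' := fun x y => Subtype.ext (map_add θE x y) }
  let φ : F.Alg n qv →ₐ[F.Diamond r n] Module.End (F.Diamond r n) (F.Mod n qv) :=
    { toFun := Subtype.val
      map_one' := rfl
      map_mul' := fun _ _ => rfl
      map_zero' := rfl
      map_add' := fun _ _ => rfl
      commutes' := fun _ => rfl }
  refine Avoid.nonempty_twModule_of_ops D F hd h (F.Mod n qv) b (F.Alg n qv) φ
    Subtype.val_injective (fun l => ⟨F.opT n qv l, Algebra.subset_adjoin ⟨l, rfl⟩⟩) ?_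
    (fun l => opT_residual D F h l) (fun t ht => exists_point_ne_zero D F h t ht) Ψ
    (fun l hl hlM hlS => Subtype.ext (hθE l hl hlM hlS))
    (fun E' ψ ρ hρ => point_not_unipotent D hq1 hno F h E' ψ ρ hρ)
    (fun hpN E' ψ ρ hρ ho => point_strict D hpN F h E' ψ ρ hρ ho)
    (fun i => point_diamond D F h i) ?_
  · refine eq_top_iff.mpr fun t _ => ?_
    obtain ⟨t, ht⟩ := t
    induction ht using Algebra.adjoin_induction with
    | mem x hx =>
      obtain ⟨l, rfl⟩ := hx
      exact Algebra.subset_adjoin ⟨l, rfl⟩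
    | algebraMap s => exact Subalgebra.algebraMap_mem _ s
    | add x y _ _ hx hy => exact add_mem (hx trivial) (hy trivial)
    | mul x y _ _ hx hy => exact mul_mem (hx trivial) (hy trivial)
  · intro _ _ _ ρ hρ hT x
    refine disc_mem_smul D hq1 htr hno F h (F.Alg n qv) φ.toRingHom ρ (fun c y => ?_) hρ
      (fun l P hP σ hσ => ?_) x
    · show φ (algebraMap F.E.R (F.Alg n qv) c) y = _
      rw [IsScalarTower.algebraMap_apply F.E.R (F.Diamond r n) (F.Alg n qv), AlgHom.commutes,
        Module.algebraMap_end_apply]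
    · show φ (ρ.trace σ) = _
      rw [hT l P hP σ hσ]
      rfl

/-- The modules on the character side at `q`, when no congruent system has level dividing
`N / q`. -/
theorem hasTWModules (D : LowerData W hΔ p N q) (hq1 : (q : ZMod p) = 1) (htr : TraceAtQ hΔ p q)
    (hno : NoLowerSystem W p N q) (F : AvoidFrame W hΔ p N q) : F.HasTWModules := by
  obtain ⟨d, hd, hb⟩ := exists_rank_modules D F
  refine ⟨d, hd, fun n r qv h => ?_⟩
  have : NeZero (F.level qv) := ⟨mul_ne_zero D.squarefree.ne_zero
    (Finset.prod_ne_zero_iff.mpr fun i _ => (h.prime i).ne_zero)⟩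
  have : NeZero (F.classicalLevel qv) := ⟨F.classicalLevel_ne_zero D.prime h⟩
  obtain ⟨b⟩ := hb n r qv h
  exact nonempty_twModule_of_parts D hq1 htr hno F hd h b

end FLTA.RT

end
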