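import Fermat.Agent.RT.Main.AvoidFrame
import Fermat.Agent.RT.ImageCoeff
import Fermat.Agent.RT.Main.FrameInput
import Fermat.Agent.TaylorWiles.Sites
import Fermat.Agent.RepTheory.Basic

/-!
# The Taylor–Wiles input for Ihara avoidance
-/

set_option autoImplicit false

noncomputable section

open IsLocalRing FLTA.LevelLowering

namespace FLTA.RT

/-- Taylor–Wiles tuples which kill the dual Selmer group with free local conditions at the
sites. -/
theorem twInput {W : WeierstrassCurve ℤ} {hΔ : W.Δ ≠ 0} {p : ℕ} [Fact p.Prime] {N q : ℕ}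
    (D : LowerData W hΔ p N q) (hq1 : (q : ZMod p) = 1) (F : AvoidFrame W hΔ p N q) :
    F.TWInput := by
  classical
  have hpp : p.Prime := Fact.out
  have hp2 : p ≠ 2 := D.p_ne_two
  let : Algebra (ZMod p) (ResidueField F.E.R) := F.φ.toAlgebra
  -- the condition at `p` and the family of conditions
  let P : GaloisRepAdic (DualNumber (ResidueField F.E.R)) → Prop := fun ρ =>
    if p ∣ N then ρ.IsStrictOrdinaryAt p else ρ.IsFlatAt p
  let cond : Finset ℕ → RepPred F.E.R := fun T _A _ _ _ ρ =>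
    if p ∣ N then strictCond F.E.R p T F.unipSet ρ else flatCond F.E.R p T F.unipSet ρ
  obtain ⟨habs, hTW⟩ : F.rhobar.IsAbsolutelyIrreducible ∧ _ :=
    D.absIrr_indexTwo F.φ
  have hdet : (GaloisRepAdic.ofResidualGaloisRep F.rhobar).DetIsCyclotomic p :=
    residual_detIsCyclotomic W p _ _ hΔ F.φ
  -- the finitely many ramified primes
  obtain ⟨Sr, hSr⟩ : ∃ Sr : Finset ℕ, ∀ s : ℕ, s.Prime → s ∉ Sr → F.rhobar.IsUnramifiedAt s :=
    FLTA.Galois.exists_finset_unramified F.rhobar.ρ F.rhobar.factorsThroughFiniteLevel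
  set T : Finset ℕ := insert p (insert q F.unipSet) with hT
  set S : Finset ℕ := T ∪ Sr.filter fun s => s.Prime ∧ ¬ F.rhobar.IsUnramifiedAt s with hS
  have hqur : F.rhobar.IsUnramifiedAt q :=
    RepTheory.residual_isUnramifiedAt_baseChangeAlong F.φ D.unramified
  have hunip : ∀ s ∈ F.unipSet, s.Prime ∧ s ≠ p := fun s hs => by
    obtain ⟨hs1, hs2⟩ := Finset.mem_erase.mp hs
    exact ⟨Nat.prime_of_mem_primeFactors hs2, hs1⟩
  have hsites : ∀ s ∈ F.sites, s.Prime ∧ s ≠ p ∧ s ∈ S ∧ F.rhobar.IsUnramifiedAt s := by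
    intro s hs
    simp only [AvoidFrame.sites, Finset.mem_insert, Finset.mem_filter] at hs
    rcases hs with rfl | ⟨hs, hsu⟩
    · exact ⟨D.prime, D.ne, by simp [hS, hT], hqur⟩
    · exact ⟨(hunip s hs).1, (hunip s hs).2, by simp [hS, hT, hs], hsu⟩
  obtain ⟨r, hr, hn⟩ := TW.exists_twSites_of_cond p hp2 F.rhobar habs hdet F.split hTW P
    (fun hsm => by
      have hdetM := TW.det_eq_cycloChar p F.rhobar hdet
      by_cases hpN : p ∣ N
      · obtain ⟨L, hL, hL'⟩ := TW.exists_strictOrdinaryCond p _ hp2 hsm hdetM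
        exact ⟨L, hL, fun x ρ hx h => hL' x ρ hx ((if_pos hpN).mp h)⟩
      · obtain ⟨L, hL, hL'⟩ := TW.exists_flatCond p _ hp2 hsm hdetM fun g => by
          obtain ⟨α, β, hab⟩ := F.split g
          exact ⟨α, β, by
            rw [← hab]
            exact LinearMap.charpoly_toMatrix (F.rhobar.ρ g) (Deformation.barBasis F.rhobar)⟩
        exact ⟨L, hL, fun x ρ hx h => hL' x ρ hx ((if_neg hpN).mp h)⟩)
    cond (fun T => by
      by_cases hpN : p ∣ N
      · exact (isClosed_strictCond F.E.R p hp2 T F.unipSet).congr fun _ _ _ _ ρ =>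
          (if_pos hpN).symm.to_iff
      · exact (isClosed_flatCond F.E.R p T F.unipSet).congr fun _ _ _ _ ρ =>
          (if_neg hpN).symm.to_iff)
    S T F.unipSet F.sites F.avoided
    (fun T A _ _ _ ρ h => by
      by_cases hpN : p ∣ N
      · have h := (if_pos hpN).mp h; exact ⟨h.1.1, h.1.2.2, h.2⟩
      · have h := (if_neg hpN).mp h; exact ⟨h.1.1, h.1.2.2, h.2⟩)
    (fun T ρ h => by
      by_cases hpN : p ∣ N
      · exact (if_pos hpN).mpr ((if_pos hpN).mp h).1.2.1
      · exact (if_neg hpN).mpr ((if_neg hpN).mp h).1.2.1)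
    (by simp [hS, hT])
    Finset.subset_union_left
    (fun s hs hs' => by
      by_contra hu
      exact hu (hSr s hs fun h => hs' (by simp [hS, hs, h, hu])))
    hsites
    (fun s hs hsp hsne hsn => by
      simp only [hS, hT, Finset.mem_union, Finset.mem_insert, Finset.mem_filter] at hs
      rcases hs with (rfl | rfl | hs) | ⟨-, -, hs⟩
      · exact absurd rfl hsne
      · exact absurd (by simp [AvoidFrame.sites]) hsn
      · exact ⟨fun hu => hsn (by simp [AvoidFrame.sites, hs, hu]), Or.inl hs⟩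
      · refine ⟨hs, ?_⟩
        by_cases h : s ∈ F.unipSet
        · exact Or.inl h
        · refine Or.inr ?_
          simp only [hT, Finset.mem_insert, not_or]
          exact ⟨hsne, fun e => hs (e ▸ hqur), h⟩
      )
    F.place F.frob F.tame (fun s hs => F.liesOver s (hsites s hs).1)
    (fun s hs => F.isFrobenius s (hsites s hs).1)
    (fun s hs => F.isTameGenerator s (hsites s hs).1 (hsites s hs).2.1) F.siteH
    (fun s _ => by
      unfold AvoidFrame.siteH
      split_ifs with h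
      · exact Or.inr ⟨le_rfl, h⟩
      · exact Or.inl le_rfl)
  refine ⟨r - ∑ s ∈ F.sites, F.siteH s, r, (Nat.sub_add_cancel hr).le, fun n => ?_⟩
  obtain ⟨qv, hinj, hq, hfr, hgen⟩ := hn n
  have hnot : ∀ i, qv i ∉ T ∧ qv i ∉ F.avoided := fun i => by
    have h := (hq i).2.1
    simp only [hS, Finset.mem_union, not_or] at h
    exact ⟨h.1.1, h.2⟩
  refine ⟨qv, ⟨hinj, fun i => (hq i).1, fun i => (hnot i).2, fun i => (hq i).2.2, hfr⟩,
    fun DQ b => ?_⟩
  have hram : F.ramSet qv = T ∪ Finset.univ.image qv := by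
    simp only [AvoidFrame.ramSet, hT, Finset.insert_union]
  have hcond : F.cond qv = cond (T ∪ Finset.univ.image qv) := by
    rw [← hram]
    rfl
  obtain ⟨e, he, hm⟩ : ∃ e : Fin (r - ∑ s ∈ F.sites, F.siteH s) → DQ.R,
      (∀ i, e i ∈ maximalIdeal DQ.R) ∧ maximalIdeal DQ.R = Ideal.span (Set.range e) ⊔
        (Ideal.span (F.siteCoords DQ.ρ b) ⊔
          (maximalIdeal F.E.R).map (algebraMap F.E.R DQ.R)) := by
    have key : ∀ 𝒟 : RepPred F.E.R, 𝒟 = cond (T ∪ Finset.univ.image qv) →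
        ∀ (D₁ : GaloisRep.DeformationRingData F.E.R F.rhobar 𝒟)
          (b₁ : ℕ → Module.Basis (Fin 2) D₁.R D₁.ρ.V),
        ∃ e : Fin (r - ∑ s ∈ F.sites, F.siteH s) → D₁.R,
          (∀ i, e i ∈ maximalIdeal D₁.R) ∧ maximalIdeal D₁.R = Ideal.span (Set.range e) ⊔
            (Ideal.span (F.siteCoords D₁.ρ b₁) ⊔
              (maximalIdeal F.E.R).map (algebraMap F.E.R D₁.R)) := by
      rintro _ rfl D₁ b₁
      refine hgen D₁ _ (fun y hy => hy.1) b₁ fun φ hφ hkill s hs σ hσ i j => ?_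
      obtain ⟨c, hc⟩ := D₁.residue_surjective
        (residue D₁.R (LinearMap.toMatrix (b₁ s) (b₁ s) (D₁.ρ.ρ σ) i j))
      have hmem : LinearMap.toMatrix (b₁ s) (b₁ s) (D₁.ρ.ρ σ) i j - algebraMap F.E.R D₁.R c ∈
          F.siteCoords D₁.ρ b₁ :=
        ⟨Ideal.Quotient.eq.mp hc.symm, s, hs, σ, by simpa using hσ, i, j, c, rfl⟩
      have h0 := hkill _ hmem
      letI := Deformation.dualAlgebra F.E.R
      rw [map_sub, AlgHom.commutes, sub_eq_zero] at h0
      rw [h0]
      rfl
    exact key _ hcond DQ b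
  refine ⟨e, he, hm.le.trans ?_⟩
  rw [Ideal.span_union]
  exact sup_le (le_sup_of_le_right le_sup_right)
    (sup_le (le_sup_of_le_right le_sup_left) le_sup_left)

end FLTA.RT

end
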