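import Fermat.Agent.RT.Main.Assembly
import Fermat.Agent.RT.Main.AvoidExists
import Fermat.Agent.RT.Main.AvoidTW
import Fermat.Agent.RT.Main.AvoidModules
import Fermat.Agent.RT.Main.AvoidFalse

/-!
# Ihara avoidance at `q ≡ 1 (mod p)`
-/

set_option autoImplicit false

noncomputable section

namespace FLTA.RT

theorem avoidanceStep : AvoidanceStep := by
  intro W hΔ p _ N q D hq1 htr
  by_contra hnone
  simp only [not_exists, not_and] at hnone
  have hno : NoLowerSystem W p N q := fun M hM hsys => by
    refine hnone M (hM.trans (Nat.div_dvd_of_dvd D.dvd)) (fun hqM => ?_) hsys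
    have h2 : q * q ∣ N := by
      obtain ⟨c, rfl⟩ := D.dvd
      rw [Nat.mul_div_cancel_left c D.prime.pos] at hM
      exact Nat.mul_dvd_mul_left q (hqM.trans hM)
    exact Nat.squarefree_iff_prime_squarefree.mp D.squarefree q D.prime h2
  obtain ⟨F⟩ := nonempty_avoidFrame D
  exact false_of_inputs D hq1 htr F (twInput D hq1 F) (hasTWModules D hq1 htr hno F)

end FLTA.RT

end
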