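import Mathlib
import Fermat.Prelude.Def_FLTPrelim_ModularRep
import Fermat.Agent.LevelLowering.GlobalModel
import Fermat.Agent.GaloisReps.EigenChar
import Fermat.Agent.Carayol.MatchNewform

/-!
# Congruent eigensystems in `almost all primes` form

`HasSystem W p L`: some normalised eigenform of level `Γ₀(L)` has, for almost all primes `ℓ`,
eigenvalue congruent to `a_ℓ(W)` for some map of the algebraic integers to `𝔽̄_p`.
-/

set_option autoImplicit false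

noncomputable section

open ModularFormClass WeierstrassCurve

namespace FLTA.RT

/-- The algebraic closure of `𝔽_p`. -/
abbrev Fbar (p : ℕ) [Fact p.Prime] : Type := AlgebraicClosure (ZMod p)

variable {W : WeierstrassCurve ℤ} {p : ℕ} [Fact p.Prime]

/-- A normalised eigenform of level `L` congruent to `W` at almost all primes. -/
def HasSystem (W : WeierstrassCurve ℤ) (p : ℕ) [Fact p.Prime] (L : ℕ) : Prop :=
  ∃ f : CuspForm (CongruenceSubgroup.Gamma0 L) 2, f.IsNormalizedEigenform ∧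
    ∃ (φ : integralClosure ℤ ℂ →+* Fbar p) (T : Finset ℕ), ∀ ℓ : ℕ, ℓ.Prime → ℓ ∉ T →
      ∃ a : integralClosure ℤ ℂ, (a : ℂ) = qCoeff f ℓ ∧ φ a = (W.apOfModel ℓ : Fbar p)

/-- A field of characteristic `p` integral over `ℤ` embeds into `𝔽̄_p`. -/
theorem nonempty_embedding {K : Type} [Field K] [CharP K p] (hint : ∀ x : K, IsIntegral ℤ x) :
    Nonempty (K →+* Fbar p) := by
  let _ : Algebra (ZMod p) K := (ZMod.castHom dvd_rfl K).toAlgebra
  have : Algebra.IsAlgebraic (ZMod p) K := by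
    refine ⟨fun x => IsIntegral.isAlgebraic ?_⟩
    obtain ⟨P, hP, hx⟩ := hint x
    refine ⟨P.map (Int.castRingHom (ZMod p)), hP.map _, ?_⟩
    rw [Polynomial.eval₂_map]
    rwa [RingHom.ext_int ((algebraMap (ZMod p) K).comp (Int.castRingHom (ZMod p)))
      (algebraMap ℤ K)]
  exact ⟨(IsAlgClosed.lift : K →ₐ[ZMod p] Fbar p).toRingHom⟩

/-- A maximal ideal of the algebraic integers over `p` is the kernel of a map to `𝔽̄_p`. -/
theorem exists_ringHom_of_isMaximal {𝔪 : Ideal (integralClosure ℤ ℂ)} (h𝔪 : 𝔪.IsMaximal)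
    (hp : (p : integralClosure ℤ ℂ) ∈ 𝔪) :
    ∃ φ : integralClosure ℤ ℂ →+* Fbar p, RingHom.ker φ = 𝔪 := by
  let K := integralClosure ℤ ℂ ⧸ 𝔪
  let _ : Field K := Ideal.Quotient.field 𝔪
  have hp0 : (p : K) = 0 := by
    rw [← map_natCast (Ideal.Quotient.mk 𝔪)]
    exact Ideal.Quotient.eq_zero_iff_mem.mpr hp
  have : CharP K p := by
    obtain ⟨q, hq⟩ := CharP.exists K
    have hqp : q ∣ p := (CharP.cast_eq_zero_iff K q p).mp hp0
    rcases (Fact.out : p.Prime).eq_one_or_self_of_dvd q hqp with rfl | rfl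
    · exact absurd rfl (CharP.char_ne_one K 1)
    · exact hq
  have hint : ∀ x : integralClosure ℤ ℂ, IsIntegral ℤ x := fun x =>
    (isIntegral_algebraMap_iff (Subtype.val_injective : Function.Injective
      (algebraMap (integralClosure ℤ ℂ) ℂ))).mp x.2
  obtain ⟨e⟩ := nonempty_embedding (p := p) (K := K) fun y => by
    obtain ⟨x, rfl⟩ := Ideal.Quotient.mk_surjective y
    exact map_isIntegral_int _ (hint x)
  exact ⟨e.comp (Ideal.Quotient.mk 𝔪),
    (RingHom.ker_comp_of_injective _ e.injective).trans Ideal.mk_ker⟩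

/-- The kernel of a map to `𝔽̄_p` is a maximal ideal over `p`. -/
theorem isMaximal_ker (φ : integralClosure ℤ ℂ →+* Fbar p) :
    (RingHom.ker φ).IsMaximal ∧ (p : integralClosure ℤ ℂ) ∈ RingHom.ker φ := by
  have hp : (p : integralClosure ℤ ℂ) ∈ RingHom.ker φ := by
    rw [RingHom.mem_ker, map_natCast]
    exact CharP.cast_eq_zero _ p
  have hprime : (RingHom.ker φ).IsPrime := RingHom.ker_isPrime φ
  refine ⟨Ideal.isMaximal_of_isIntegral_of_isMaximal_comap (R := ℤ) _ ?_, hp⟩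
  refine (Ideal.IsPrime.isMaximal inferInstance ?_)
  intro h
  have : (p : ℤ) ∈ (RingHom.ker φ).comap (algebraMap ℤ (integralClosure ℤ ℂ)) := by
    simp
  rw [h, Ideal.mem_bot] at this
  exact (Fact.out : p.Prime).ne_zero (by exact_mod_cast this)

theorem HasSystem.exists_newform {L : ℕ} (hL : L ≠ 0) (h : HasSystem W p L) :
    ∃ (M : ℕ) (g : CuspForm (CongruenceSubgroup.Gamma0 M) 2), M ∣ L ∧ g.IsNewform ∧
      ∃ (φ : integralClosure ℤ ℂ →+* Fbar p) (T : Finset ℕ), ∀ ℓ : ℕ, ℓ.Prime → ℓ ∉ T →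
        ∃ a : integralClosure ℤ ℂ, (a : ℂ) = qCoeff g ℓ ∧ φ a = (W.apOfModel ℓ : Fbar p) := by
  obtain ⟨f, hf, φ, T, hT⟩ := h
  obtain ⟨M, g, hML, hg, hgf⟩ := FLTA.Carayol.exists_isNewform hf hL
  refine ⟨M, g, hML, hg, φ, T ∪ L.primeFactors, fun ℓ hℓ hℓT => ?_⟩
  simp only [Finset.mem_union, Nat.mem_primeFactors, not_or] at hℓT
  obtain ⟨a, ha, ha'⟩ := hT ℓ hℓ hℓT.1
  exact ⟨a, ha.trans (hgf ℓ hℓ fun hd => hℓT.2 ⟨hℓ, hd, hL⟩).symm, ha'⟩

theorem hasSystem_of_modularRepOfLevel {P : FreyPackage} [Fact P.p.Prime] {N : ℕ} (hN : N ≠ 0)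
    (h : P.ModularRepOfLevel N) : HasSystem P.freyCurveInt P.p N := by
  obtain ⟨f, W', 𝔪, hf, hW', h𝔪, hp, hcong⟩ := h
  obtain ⟨φ, hφ⟩ := exists_ringHom_of_isMaximal h𝔪 hp
  obtain ⟨T, hT⟩ := LevelLowering.exists_finset_apOfModel_eq hW'
    (Wiring.freyCurveInt_isIntegralModelOf P)
  refine ⟨f, hf, φ, T ∪ W'.Δ.natAbs.primeFactors ∪ N.primeFactors ∪ {P.p}, fun ℓ hℓ hℓT => ?_⟩
  simp only [Finset.mem_union, Nat.mem_primeFactors, Finset.mem_singleton, not_or] at hℓT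
  obtain ⟨⟨⟨h1, h2⟩, h3⟩, h4⟩ := hℓT
  have hΔ : W'.Δ ≠ 0 := by
    intro h0
    obtain ⟨C, hC⟩ := hW'
    have h0' : (W'.map (Int.castRingHom ℚ)).Δ = 0 := by simp [h0]
    rw [← hC, variableChange_Δ] at h0'
    have : P.freyCurve.Δ ≠ 0 := by
      rw [← Wiring.freyCurveInt_map_rat P, WeierstrassCurve.map_Δ]
      simpa using Wiring.freyCurveInt_Δ_ne_zero P
    exact mul_ne_zero (pow_ne_zero _ (Units.ne_zero _)) this h0'
  have hgood : W'.IsGoodPrimeFor ℓ := fun hd =>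
    h2 ⟨hℓ, Int.natCast_dvd.mp hd, Int.natAbs_ne_zero.mpr hΔ⟩
  obtain ⟨a, ha, ha'⟩ := hcong ℓ hℓ hgood (fun hd => h3 ⟨hℓ, hd, hN⟩) h4
  refine ⟨a, ha, ?_⟩
  rw [← hφ, RingHom.mem_ker, map_sub, sub_eq_zero, map_intCast, hT ℓ hℓ h1] at ha'
  exact ha'

theorem modularRepOfLevel_of_hasSystem {P : FreyPackage} [Fact P.p.Prime] {N : ℕ}
    (h : HasSystem P.freyCurveInt P.p N) : P.ModularRepOfLevel N := by
  obtain ⟨f, hf, φ, T, hT⟩ := h
  let n : ℕ := ∏ ℓ ∈ T.filter Nat.Prime, ℓ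
  have hn : n ≠ 0 := Finset.prod_ne_zero_iff.mpr fun ℓ hℓ => (Finset.mem_filter.mp hℓ).2.ne_zero
  obtain ⟨h𝔪, hp⟩ := isMaximal_ker φ
  refine ⟨f, LevelLowering.scaleModel P.freyCurveInt n, _, hf,
    LevelLowering.scaleModel_isIntegralModelOf (Wiring.freyCurveInt_isIntegralModelOf P) hn,
    h𝔪, hp, fun ℓ hℓ hgood _ _ => ?_⟩
  have hℓn : ¬ ℓ ∣ n := fun hd => LevelLowering.not_isGoodPrimeFor_scaleModel _ hd hgood
  obtain ⟨a, ha, ha'⟩ := hT ℓ hℓ fun hm =>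
    hℓn (Finset.dvd_prod_of_mem _ (Finset.mem_filter.mpr ⟨hm, hℓ⟩))
  refine ⟨a, ha, ?_⟩
  rw [RingHom.mem_ker, map_sub, LevelLowering.apOfModel_scaleModel _ hℓ hℓn, map_intCast, ha',
    sub_self]

end FLTA.RT

end
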