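import Fermat.Agent.RT.Main.Frame
import Fermat.Agent.RepTheory.DVRExtension
import Fermat.Agent.HeckeFinite.Finite
import Fermat.Agent.Carayol.MatchCompare
import Fermat.Prelude.Def_CuspForm_HeckeAlgebra
import Fermat.Prelude.Def_GaloisRep_Adic

/-!
# A congruent system with `tr² ≠ (q + 1)²` at `q` leaves the level `q`

A newform of level exactly divisible by `q` has `tr ρ(Frob_q) = ±(q + 1)` (the statement of S35,
taken as a hypothesis here).
-/

set_option autoImplicit false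

noncomputable section

open Polynomial IsLocalRing ModularFormClass WeierstrassCurve

namespace FLTA.RT

open FLTA.LevelLowering (planeRep planeRep_frobenius)

/-- The statement of S35. -/
def SteinbergFrobenius : Prop :=
  ∀ {M : ℕ} [NeZero M] {g : CuspForm (CongruenceSubgroup.Gamma0 M) 2} (_hg : g.IsNewform)
    (lam : ℕ) [Fact lam.Prime]
    (S : Finset ℕ)
    (O' : Type) [CommRing O'] [IsDomain O'] [IsDiscreteValuationRing O']
    [IsAdicComplete (IsLocalRing.maximalIdeal O') O'] [Finite (IsLocalRing.ResidueField O')]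
    [CharZero O'] (_hlamO' : (lam : O') ∈ IsLocalRing.maximalIdeal O')
    (chig : CuspForm.heckeAlgebra M 2 (↑S : Set ℕ) →+* ℂ)
    (_hchig : ∀ (ℓ : ℕ) (hℓ : ℓ.Prime) (hℓM : ¬ ℓ ∣ M) (hℓS : ℓ ∉ (↑S : Set ℕ)),
      chig (CuspForm.heckeAlgebra.T hℓ hℓM hℓS) = ModularFormClass.qCoeff g ℓ)
    (iota : chig.range →+* O')
    (_hlamS : lam ∈ S) (_hMS : ∀ q : ℕ, q.Prime → q ∣ M → q ∈ S),
    ∃ (O'' : Type) (_ : CommRing O'') (_ : IsDomain O'') (_ : IsDiscreteValuationRing O'')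
      (_ : IsAdicComplete (IsLocalRing.maximalIdeal O'') O'') (_ : Finite (IsLocalRing.ResidueField O''))
      (_ : CharZero O'') (_ : Algebra O' O'') (_ : Module.Finite O' O'') (_ : IsLocalHom (algebraMap O' O'')),
      Function.Injective (algebraMap O' O'') ∧
      ∃ ρ : GaloisRepAdic O'',
        (∀ (ℓ : ℕ) (hℓ : ℓ.Prime) (hℓM : ¬ ℓ ∣ M) (hℓS : ℓ ∉ (↑S : Set ℕ)),
          ∀ A : ValuationSubring (AlgebraicClosure ℚ), A.LiesOverPrime ℓ →
            ∀ σ : AlgebraicClosure ℚ ≃ₐ[ℚ] AlgebraicClosure ℚ, A.IsFrobeniusAt σ ℓ →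
              LinearMap.charpoly (ρ.ρ σ) =
                X ^ 2 - C (algebraMap O' O'' ((iota.comp chig.rangeRestrict) (CuspForm.heckeAlgebra.T hℓ hℓM hℓS))) * X
                  + C ((ℓ : O''))) ∧
        (∀ q : ℕ, q.Prime → q ≠ lam → q ∣ M → ¬ q ^ 2 ∣ M →
          ∀ A : ValuationSubring (AlgebraicClosure ℚ), A.LiesOverPrime q →
            ∀ σ : AlgebraicClosure ℚ ≃ₐ[ℚ] AlgebraicClosure ℚ, A.IsFrobeniusAt σ q →
              LinearMap.charpoly (ρ.ρ σ) = X ^ 2 - C ((q : O'') + 1) * X + C ((q : O'')) ∨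
              LinearMap.charpoly (ρ.ρ σ) = X ^ 2 + C ((q : O'') + 1) * X + C ((q : O'')))

variable {W : WeierstrassCurve ℤ} {hΔ : W.Δ ≠ 0} {p : ℕ} [Fact p.Prime] {N q : ℕ}

theorem trace_baseChangeAlong_residual {k k' : Type} [Field k] [Field k'] (φ : k →+* k')
    (ρ : ResidualGaloisRep k) (σ : AlgebraicClosure ℚ ≃ₐ[ℚ] AlgebraicClosure ℚ) :
    LinearMap.trace k' _ ((ρ.baseChangeAlong φ).ρ σ) = φ (LinearMap.trace k _ (ρ.ρ σ)) := by
  let : Algebra k k' := φ.toAlgebra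
  exact LinearMap.trace_baseChange (ρ.ρ σ) k'

/-- **Descent by the trace at `q`**, from bare hypotheses. -/
theorem exists_hasSystem_of_trace' (h35 : SteinbergFrobenius) (hp2 : p ≠ 2) (hsqf : Squarefree N)
    (hqpr : q.Prime) (hqne : q ≠ p) (hsys : HasSystem W p N)
    (htr : ¬ TraceAtQ hΔ p q) : ∃ M : ℕ, M ∣ N ∧ ¬ q ∣ M ∧ HasSystem W p M := by
  classical
  obtain ⟨M, g, hMN, hg, φ, T, hT⟩ := hsys.exists_newform hsqf.ne_zero
  have : NeZero M := ⟨fun h => hsqf.ne_zero (Nat.eq_zero_of_zero_dvd (h ▸ hMN))⟩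
  by_cases hqM : q ∣ M
  swap
  · exact ⟨M, hMN, hqM, g, hg.isNormalizedEigenform, φ, T, hT⟩
  exfalso
  apply htr
  intro A hA σ hσ
  have hq2M : ¬ q ^ 2 ∣ M := fun h => Nat.squarefree_iff_prime_squarefree.mp hsqf q hqpr
    ((pow_two q ▸ h).trans hMN)
  let S : Finset ℕ := insert p (insert 2 (M.primeFactors ∪ T ∪ W.Δ.natAbs.primeFactors))
  let chig := FLTA.GaloisReps.eigenCharC (S := (↑S : Set ℕ)) hg.isNormalizedEigenform
  have : Module.Finite ℤ (CuspForm.heckeAlgebra M 2 (↑S : Set ℕ)) :=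
    FLTA.HeckeFinite.finite_heckeAlgebra M 2 _
  have hfin : Module.Finite ℤ chig.range :=
    Module.Finite.of_surjective chig.rangeRestrict.toIntAlgHom.toLinearMap
      chig.rangeRestrict_surjective
  have hint : ∀ x : chig.range, IsIntegral ℤ (x : ℂ) := fun x =>
    map_isIntegral_int chig.range.subtype (Algebra.IsIntegral.isIntegral x)
  let ψ : chig.range →+* Fbar p :=
    φ.comp (chig.range.subtype.codRestrict (integralClosure ℤ ℂ) hint)
  obtain ⟨E, χ, j, hj⟩ := FLTA.RepTheory.exists_dvr_lift (p := p) ⟨RingHom.id _⟩ ψ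
  have hpE : (p : E.R) ∈ maximalIdeal E.R := by
    rw [← map_natCast (algebraMap ℤ_[p] E.R)]
    exact map_nonunit _ _ (by
      rw [PadicInt.maximalIdeal_eq_span_p]; exact Ideal.mem_span_singleton_self _)
  have hchig : ∀ (ℓ : ℕ) (hℓ : ℓ.Prime) (hℓM : ¬ ℓ ∣ M) (hℓS : ℓ ∉ (↑S : Set ℕ)),
      chig (CuspForm.heckeAlgebra.T hℓ hℓM hℓS) = qCoeff g ℓ :=
    fun ℓ hℓ hℓM hℓS => FLTA.GaloisReps.eigenCharC_T _ hℓ hℓM hℓS
  obtain ⟨O'', _, _, _, _, _, _, _, _, _, -, ρ, hcp, hq⟩ := h35 hg p S E.R hpE chig hchig χ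
    (Finset.mem_insert_self _ _) (fun r hr hrM => by simp [S, hr, hrM, NeZero.ne M])
  let k := AlgebraicClosure (ResidueField O'')
  let ι : ResidueField O'' →+* k := algebraMap _ _
  have : CharP k p := by
    have h0 : (p : k) = 0 := by
      rw [← map_natCast (ι.comp (residue O'')), RingHom.comp_apply]
      refine (congrArg ι ((residue_eq_zero_iff _).mpr ?_)).trans (map_zero ι)
      rw [← map_natCast (algebraMap E.R O'')]
      exact map_nonunit _ _ hpE
    obtain ⟨r, hr⟩ := CharP.exists k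
    rcases (Fact.out : p.Prime).eq_one_or_self_of_dvd r ((CharP.cast_eq_zero_iff k r p).mp h0)
      with rfl | rfl
    · exact absurd rfl (CharP.char_ne_one k 1)
    · exact hr
  let e : ZMod p →+* k := ZMod.castHom dvd_rfl k
  let ρ₁ := (planeRep hΔ (p := p)).baseChangeAlong e
  let ρ₂ := ρ.residual.baseChangeAlong ι
  have hfrob : ∀ ℓ : ℕ, ℓ.Prime → ℓ ∉ S → ∀ B : ValuationSubring (AlgebraicClosure ℚ),
      B.LiesOverPrime ℓ → ∀ τ : AlgebraicClosure ℚ ≃ₐ[ℚ] AlgebraicClosure ℚ,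
        B.IsFrobeniusAt τ ℓ → (ρ₁.ρ τ).charpoly = (ρ₂.ρ τ).charpoly := by
    intro ℓ hℓ hℓS B hB τ hτ
    have hℓS' : ℓ ∉ (↑S : Set ℕ) := by simpa using hℓS
    simp only [S, Finset.mem_insert, Finset.mem_union, Nat.mem_primeFactors, not_or] at hℓS
    obtain ⟨hℓp, hℓ2, ⟨hℓM', hℓT⟩, hℓΔ⟩ := hℓS
    have hℓM : ¬ ℓ ∣ M := fun h => hℓM' ⟨hℓ, h, NeZero.ne M⟩
    have hgood : W.IsGoodPrimeFor ℓ := fun h =>
      hℓΔ ⟨hℓ, Int.natCast_dvd.mp h, Int.natAbs_ne_zero.mpr hΔ⟩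
    obtain ⟨ht, hd⟩ := planeRep_frobenius hΔ hp2 hℓ hℓ2 hgood hℓp hB hτ
    obtain ⟨a, ha, ha'⟩ := hT ℓ hℓ hℓT
    set y := chig.rangeRestrict (CuspForm.heckeAlgebra.T hℓ hℓM hℓS') with hy
    have hψy : ψ y = (W.apOfModel ℓ : Fbar p) := by
      rw [← ha']
      refine congrArg φ (Subtype.ext ?_)
      rw [ha]
      exact hchig ℓ hℓ hℓM hℓS'
    have hχy : residue E.R (χ y) = (W.apOfModel ℓ : ResidueField E.R) :=
      j.injective (by rw [hj, hψy, map_intCast])
    have hy' : residue O'' (algebraMap E.R O'' (χ y)) = (W.apOfModel ℓ : ResidueField O'') := by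
      rw [← ResidueField.map_residue (algebraMap E.R O''), hχy, map_intCast]
    rw [RepTheory.residual_charpoly_baseChangeAlong, RepTheory.residual_charpoly_baseChangeAlong,
      RepTheory.charpoly_residual, hcp ℓ hℓ hℓM hℓS' B hB τ hτ,
      RepTheory.charpoly_of_finrank_two (planeRep hΔ (p := p)).finrank_eq, ht, hd]
    simp only [Polynomial.map_add, Polynomial.map_sub, Polynomial.map_mul, Polynomial.map_pow,
      Polynomial.map_X, Polynomial.map_C, RingHom.comp_apply, map_natCast,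
      map_intCast, Polynomial.map_intCast, Polynomial.map_natCast, ← hy, hy']
  have hall := Carayol.residual_charpoly_eq_of_frobenius ρ₁ ρ₂ S hfrob σ
  have hres : (ρ₂.ρ σ).charpoly = X ^ 2 - C ((q : k) + 1) * X + C ((q : k)) ∨
      (ρ₂.ρ σ).charpoly = X ^ 2 - C (-((q : k) + 1)) * X + C ((q : k)) := by
    rw [RepTheory.residual_charpoly_baseChangeAlong, RepTheory.charpoly_residual]
    rcases hq q hqpr hqne hqM hq2M A hA σ hσ with h | h <;> rw [h] <;> [left; right] <;> simp [Polynomial.C_eq_natCast] <;> ring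
  obtain ⟨a, ha, hat⟩ : ∃ a : k, a ^ 2 = ((q : k) + 1) ^ 2 ∧
      LinearMap.trace k _ (ρ₁.ρ σ) = a := by
    rcases hres with h | h
    · exact ⟨_, rfl, (RepTheory.trace_eq_of_charpoly ρ₁.finrank_eq (hall.trans h)).1⟩
    · exact ⟨_, by ring, (RepTheory.trace_eq_of_charpoly ρ₁.finrank_eq (hall.trans h)).1⟩
  apply e.injective
  rw [map_pow, map_pow, map_add, map_one, map_natCast, ← trace_baseChangeAlong_residual e, hat, ha]

/-- **Descent by the trace at `q`.** -/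
theorem exists_hasSystem_of_trace (h35 : SteinbergFrobenius) (D : LowerData W hΔ p N q)
    (htr : ¬ TraceAtQ hΔ p q) : ∃ M : ℕ, M ∣ N ∧ ¬ q ∣ M ∧ HasSystem W p M :=
  exists_hasSystem_of_trace' h35 (by have := D.three_le; omega) D.squarefree D.prime D.ne D.system htr

end FLTA.RT

end
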