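import Fermat.Agent.RT.Main.ModulesPointRep
import Fermat.Agent.RT.Main.ModulesRankInput
import Fermat.Agent.RT.Main.FalseLevels
import Fermat.Agent.RT.Main.ModulesAlg
import Fermat.Agent.RT.LocalExtra
import Fermat.Agent.RT.Main.FrameInput
import Fermat.Agent.RepTheory.Carayol
import Fermat.Agent.Carayol.MatchCompare

/-!
# Inputs for strictness of the points at `p`

The levels of a tuple with `p` removed; the Frobenius polynomials and the residual irreducibility
of the representation of a point; integral multiples of homomorphisms on `Γ₀(L)`.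
-/

set_option autoImplicit false
set_option linter.style.haveILetI false

noncomputable section

open IsLocalRing WeierstrassCurve CongruenceSubgroup Polynomial

namespace FLTA.RT

open FLTA.Periods

local notation "Γℚ" => AlgebraicClosure ℚ ≃ₐ[ℚ] AlgebraicClosure ℚ

/-- A finitely valued homomorphism on `Γ₀(L)` has a nonzero integral multiple. -/
theorem exists_integral_hom {L : ℕ} [NeZero L] {B K : Type} [CommRing B] [IsDomain B] [Field K]
    [Algebra B K] [IsFractionRing B K] (u : Additive (Gamma0 L) →+ K) :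
    ∃ d : K, d ≠ 0 ∧ ∃ v : Additive (Gamma0 L) →+ B,
      (algebraMap B K).toAddMonoidHom.comp v = d • u := by
  classical
  haveI := group_fg_Gamma0 L
  obtain ⟨S, hS, hfin⟩ := Group.fg_iff.mp (inferInstance : Group.FG (Gamma0 L))
  have : Finite S := hfin
  obtain ⟨d, hd⟩ := IsLocalization.exist_integer_multiples_of_finite (nonZeroDivisors B)
    fun s : S => u (Additive.ofMul (s : Gamma0 L))
  set δ : K := algebraMap B K (d : B) with hδ
  have hδ0 : δ ≠ 0 := by
    rw [hδ, Ne, map_eq_zero_iff _ (IsFractionRing.injective B K)]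
    exact nonZeroDivisors.coe_ne_zero d
  have hcl : ∀ g : Gamma0 L, ∃ b : B, algebraMap B K b = δ * u (Additive.ofMul g) := by
    intro g
    have hmem : g ∈ Subgroup.closure S := hS ▸ Subgroup.mem_top g
    induction hmem using Subgroup.closure_induction with
    | mem s hs =>
      obtain ⟨b, hb⟩ := hd ⟨s, hs⟩
      exact ⟨b, by rw [hb, Algebra.smul_def]⟩
    | one => exact ⟨0, by rw [ofMul_one, map_zero, map_zero, mul_zero]⟩
    | mul x y _ _ hx hy =>
      obtain ⟨bx, hbx⟩ := hx
      obtain ⟨by', hby⟩ := hy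
      exact ⟨bx + by', by rw [map_add, hbx, hby, ofMul_mul, map_add, mul_add]⟩
    | inv x _ hx =>
      obtain ⟨b, hb⟩ := hx
      exact ⟨-b, by rw [map_neg, hb, ofMul_inv, map_neg, mul_neg]⟩
  choose f hf using hcl
  refine ⟨δ, hδ0, AddMonoidHom.mk' (fun x => f (Additive.toMul x)) fun x y =>
    IsFractionRing.injective B K ?_, AddMonoidHom.ext fun x => hf (Additive.toMul x)⟩
  rw [(algebraMap B K).map_add, hf, hf, hf, ← mul_add]
  exact congrArg _ (map_add u x y)

variable {W : WeierstrassCurve ℤ} {hΔ : W.Δ ≠ 0} {p : ℕ} [Fact p.Prime] {N q : ℕ}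

namespace AvoidFrame

variable (F : AvoidFrame W hΔ p N q) {n r : ℕ} {qv : Fin r → ℕ}

theorem level_eq_mul (hpN : p ∣ N) (qv : Fin r → ℕ) :
    F.level qv = N / p * (∏ i, qv i) * p := by
  rw [level, mul_right_comm, Nat.div_mul_cancel hpN]

theorem squarefree_low (hsq : Squarefree N) (hpN : p ∣ N) (h : F.IsTWTuple n qv) :
    Squarefree (N / p * ∏ i, qv i) := by
  classical
  have hnd : ∀ i, ¬ qv i ∣ N := fun i =>
    (F.prime_props (h.prime i) (h.notMem i)).2.2.1 hsq.ne_zero
  refine (Nat.squarefree_mul ?_).mpr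
    ⟨hsq.squarefree_of_dvd (Nat.div_dvd_of_dvd hpN), ?_⟩
  · exact Nat.Coprime.prod_right fun i _ => Nat.Coprime.symm
      (((h.prime i).coprime_iff_not_dvd).mpr fun hd => hnd i (hd.trans (Nat.div_dvd_of_dvd hpN)))
  · suffices ∀ s : Finset (Fin r), Squarefree (∏ i ∈ s, qv i) from this _
    intro s
    induction s using Finset.induction_on with
    | empty => rw [Finset.prod_empty]; exact squarefree_one
    | @insert i s hi ih =>
      rw [Finset.prod_insert hi]
      refine (Nat.squarefree_mul ?_).mpr ⟨(h.prime i).squarefree, ih⟩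
      exact Nat.Coprime.prod_right fun j hj => (Nat.coprime_primes (h.prime i) (h.prime j)).mpr
        fun e => hi (h.injective e ▸ hj)

theorem twistSet_low_props (D : LowerData W hΔ p N q) (hpN : p ∣ N) (h : F.IsTWTuple n qv) {l : ℕ}
    (hl : l ∈ F.twistSet qv) :
    l.Prime ∧ l ∣ N / p * ∏ i, qv i ∧ ¬ l * l ∣ N / p * ∏ i, qv i := by
  have hprime : l.Prime := by
    rcases Finset.mem_insert.mp hl with rfl | hl
    · exact D.prime
    · obtain ⟨i, -, rfl⟩ := Finset.mem_image.mp hl
      exact h.prime i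
  refine ⟨hprime, ?_, fun hd => hprime.not_isUnit (F.squarefree_low D.squarefree hpN h _ hd)⟩
  rcases Finset.mem_insert.mp hl with rfl | hl
  · refine Dvd.dvd.mul_right ?_ _
    have hd := D.dvd
    rw [← Nat.div_mul_cancel hpN] at hd
    exact (hprime.dvd_mul.mp hd).resolve_right fun h' =>
      D.ne ((Nat.prime_dvd_prime_iff_eq hprime Fact.out).mp h')
  · obtain ⟨i, -, rfl⟩ := Finset.mem_image.mp hl
    exact (Finset.dvd_prod_of_mem _ (Finset.mem_univ i)).mul_left _

theorem coprime_low (D : LowerData W hΔ p N q) (hpN : p ∣ N) (h : F.IsTWTuple n qv) :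
    Nat.Coprime p (N / p * ∏ i, qv i) := by
  have hp : p.Prime := Fact.out
  refine Nat.Coprime.mul_right (hp.coprime_iff_not_dvd.mpr fun hd => hp.not_isUnit
    (D.squarefree p (by rw [← Nat.div_mul_cancel hpN]; exact Nat.mul_dvd_mul hd dvd_rfl))) ?_
  exact Nat.Coprime.prod_right fun i _ => (Nat.coprime_primes hp (h.prime i)).mpr
    (F.prime_props (h.prime i) (h.notMem i)).1.symm

theorem not_dvd_level (hN : N ≠ 0) (h : F.IsTWTuple n qv) {l : ℕ} (hl : l.Prime)
    (hb : l ∉ F.badSet qv) : ¬ l ∣ F.level qv := by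
  intro hd
  rcases hl.dvd_mul.mp hd with hd | hd
  · exact (F.prime_props hl fun hh => hb (Finset.mem_union_left _ hh)).2.2.1 hN hd
  · obtain ⟨i, -, hi⟩ := Prime.exists_mem_finset_dvd (Nat.prime_iff.mp hl) hd
    exact hb (Finset.mem_union_right _ (Finset.mem_image.mpr
      ⟨i, Finset.mem_univ i, ((Nat.prime_dvd_prime_iff_eq hl (h.prime i)).mp hi).symm⟩))

variable [NeZero (F.level qv)]

/-- The Frobenius polynomials of the representation of a point. -/
theorem charpoly_pointRep {E' : RepTheory.FiniteDVRExt F.E.R}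
    {ψ : F.Alg n qv →ₐ[F.E.R] E'.R} {ρ : GaloisRepAdic E'.R} (hρ : F.IsPointRep n qv E' ψ ρ)
    (l : {l : ℕ // l.Prime ∧ l ∉ F.badSet qv}) {A : ValuationSubring (AlgebraicClosure ℚ)}
    (hA : A.LiesOverPrime l.1) {σ : Γℚ} (hσ : A.IsFrobeniusAt σ l.1) :
    (ρ.ρ σ).charpoly = X ^ 2 - C (ψ ⟨F.opT n qv l, Algebra.subset_adjoin ⟨l, rfl⟩⟩) * X +
      C (l.1 : E'.R) := by
  have hlp : p ≠ l.1 := fun e => l.2.2 (Finset.mem_union_left _ (by
    rw [← e]; exact Finset.mem_insert_self _ _))
  have hd := LocalGalois.det_frobenius_eq ρ hρ.1 l.2.1 Fact.out hlp hA hσ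
  have ht := hρ.2 l A hA σ hσ
  exact (RepTheory.charpoly_of_finrank_two ρ.finrank_eq (ρ.ρ σ)).trans
    (congrArg₂ (fun t d => X ^ 2 - C t * X + C d) (show LinearMap.trace E'.R ρ.V (ρ.ρ σ) = _ from ht)
      hd)

/-- The representation of a point is residually absolutely irreducible. -/
theorem residual_pointRep_isAbsolutelyIrreducible (D : LowerData W hΔ p N q)
    {E' : RepTheory.FiniteDVRExt F.E.R} {ψ : F.Alg n qv →ₐ[F.E.R] E'.R}
    {ρ : GaloisRepAdic E'.R} (hρ : F.IsPointRep n qv E' ψ ρ)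
    (hres : ∀ l : {l : ℕ // l.Prime ∧ l ∉ F.badSet qv},
      residue E'.R (ψ ⟨F.opT n qv l, Algebra.subset_adjoin ⟨l, rfl⟩⟩) =
        ((W.apOfModel l.1 : ℤ) : ResidueField E'.R)) :
    ρ.residual.IsAbsolutelyIrreducible := by
  let ι : ResidueField F.E.R →+* ResidueField E'.R := ResidueField.map (algebraMap F.E.R E'.R)
  have hirr : (F.rhobar.baseChangeAlong ι).IsAbsolutelyIrreducible :=
    (RepTheory.isAbsolutelyIrreducible_baseChangeAlong_iff ι _).mpr
      (rhobar_isAbsolutelyIrreducible D F)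
  refine RepTheory.isAbsolutelyIrreducible_of_isEquiv
    (RepTheory.residual_isEquiv_of_charpoly_eq hirr ?_) hirr
  refine Carayol.residual_charpoly_eq_of_frobenius _ _ (F.badSet qv)
    fun l hl hlS A hA σ hσ => ?_
  rw [RepTheory.residual_charpoly_baseChangeAlong,
    F.rhobar_charpoly D.p_ne_two D.squarefree.ne_zero hl hlS hA hσ, RepTheory.charpoly_residual,
    F.charpoly_pointRep hρ ⟨l, hl, hlS⟩ hA hσ]
  simp only [Polynomial.map_add, Polynomial.map_sub, Polynomial.map_mul, Polynomial.map_pow,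
    Polynomial.map_X, Polynomial.map_C, map_intCast, map_natCast, hres, Polynomial.map_intCast,
    Polynomial.map_natCast]

end AvoidFrame

end FLTA.RT

end
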