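import Fermat.Agent.Patching.Sites
import Fermat.Agent.RT.LocalSite

/-!
# Few elements kill all matrix entries at a site

Matrix versions, up to radical modulo an ideal `I`, of the site computations.
-/

set_option autoImplicit false

noncomputable section

namespace FLTA.RT.Avoid

open Matrix IsLocalRing LocalGalois

variable {A : Type} [CommRing A] [IsLocalRing A] {I : Ideal A}

local notation "Mat[" R "]" => Matrix (Fin 2) (Fin 2) R

lemma unit_add_of_mem {u x : A} (hu : IsUnit u) (hx : x ∈ maximalIdeal A) : IsUnit (u + x) := by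
  by_contra h
  refine (show ¬ IsUnit u from ?_) hu
  have : u + x - x ∈ maximalIdeal A := sub_mem h hx
  simpa using this

omit [IsLocalRing A] in
lemma mem_of_mul_unit_mem {x u : A} (hu : IsUnit u) (h : x * u ∈ I) : x ∈ I := by
  obtain ⟨u, rfl⟩ := hu
  simpa [mul_assoc] using I.mul_mem_right (↑u⁻¹ : A) h

/-- An extra site with scalar residual Frobenius: three elements. -/
theorem site_scalar_entries (q c hf : A) (T P : Mat[A]) (h2 : 2 * hf = 1)
    (hq : q - 1 ∈ I ∨ IsUnit (q - 1)) (hc : IsUnit c) (hcq : c * c - q ∈ I)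
    (hTm : ∀ i j, (T - 1) i j ∈ maximalIdeal A)
    (hPm : ∀ i j, (P - c • 1) i j ∈ maximalIdeal A)
    (htr : T.trace - 2 ∈ I) (hdT : T.det - 1 ∈ I) (hdP : P.det - q ∈ I)
    (hrel : ∀ i j, (P * (T - 1)) i j - q * ((T - 1) * P) i j ∈ I)
    (h1 : T 0 1 + hf * (P 0 0 - P 1 1) ∈ I) (h3 : P 0 1 + T 1 0 ∈ I)
    (h4 : P 1 0 + (T 0 0 - 1) ∈ I) :
    ∀ i j, (T - 1) i j ∈ I.radical ∧ (P - c • 1) i j ∈ I.radical := by
  have hu2 : IsUnit (2 : A) := IsUnit.of_mul_eq_one _ h2
  have x00 := hTm 0 0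
  have y01 := hTm 0 1
  have z10 := hTm 1 0
  have a00 := hPm 0 0
  have b01 := hPm 0 1
  have c10 := hPm 1 0
  have a11 := hPm 1 1
  rw [trace_fin_two] at htr
  rw [det_fin_two] at hdT hdP
  simp at x00 y01 z10 a00 b01 c10 a11
  have hs : IsUnit (hf * (P 0 0 + P 1 1)) := by
    rw [show hf * (P 0 0 + P 1 1) = c + hf * ((P 0 0 - c) + (P 1 1 - c)) by
      linear_combination c * h2]
    exact unit_add_of_mem hc (Ideal.mul_mem_left _ _ (add_mem a00 a11))
  set π := Ideal.Quotient.mk I with hπ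
  have hI : ∀ {w : A}, w ∈ I ↔ π w = 0 := fun {w} => Ideal.Quotient.eq_zero_iff_mem.symm
  have etr := hI.mp htr
  have edT := hI.mp hdT
  have e00 := hI.mp (hrel 0 0)
  have e01 := hI.mp (hrel 0 1)
  have e10 := hI.mp (hrel 1 0)
  simp [mul_apply, Fin.sum_univ_two] at e00 e01 e10
  simp only [map_sub, map_add, map_mul, map_one, map_ofNat] at etr edT
  have e2 : (2 : A ⧸ I) * π hf = 1 := by
    simpa [map_ofNat] using congrArg π h2
  have hall := FLTA.Patching.site_scalar_radical q (hf * (P 0 0 + P 1 1)) (T 0 0 - 1) (T 0 1)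
    (T 1 0) (hf * (P 0 0 - P 1 1)) (P 0 1) (P 1 0) I hu2 (hq.imp_right fun h => h.mul hs)
    (by
      simp only [List.forall_mem_cons, List.not_mem_nil, false_imp_iff, implies_true, and_true]
      refine ⟨x00, y01, z10, Ideal.mul_mem_left _ _ ?_, b01, c10⟩
      rw [show P 0 0 - P 1 1 = (P 0 0 - c) - (P 1 1 - c) by ring]
      exact sub_mem a00 a11)
    (hI.mpr (by
      simp only [map_sub, map_add, map_mul, map_one]
      linear_combination (π (T 0 0)) * etr - edT))
    (hI.mpr (by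
      simp only [map_sub, map_add, map_mul, map_one]
      linear_combination -e00 + (π q * (π (T 0 0) - 1) * π (P 0 0) - (π (T 0 0) - 1) * π (P 0 0))
        * e2))
    (hI.mpr (by
      simp only [map_sub, map_add, map_mul, map_one]
      linear_combination -e01 + π (P 0 1) * etr +
        (π q * π (T 0 1) * π (P 1 1) - π (T 0 1) * π (P 0 0)) * e2))
    (hI.mpr (by
      simp only [map_sub, map_add, map_mul, map_one]
      linear_combination -e10 - π q * π (P 1 0) * etr +
        (π q * π (T 1 0) * π (P 0 0) - π (T 1 0) * π (P 1 1)) * e2))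
    h1 h3 h4
  simp only [List.forall_mem_cons, List.not_mem_nil, false_imp_iff, implies_true, and_true] at hall
  obtain ⟨hx, hy, hz, ha, hb, hc'⟩ := hall
  have h11 : T 1 1 - 1 ∈ I.radical := by
    rw [show T 1 1 - 1 = (T 0 0 + T 1 1 - 2) - (T 0 0 - 1) by ring]
    exact sub_mem (Ideal.le_radical htr) hx
  have hsc : hf * (P 0 0 + P 1 1) - c ∈ I.radical := by
    refine mem_of_mul_unit_mem (u := hf * (P 0 0 + P 1 1) + c) ?_ ?_
    · rw [show hf * (P 0 0 + P 1 1) + c = 2 * c + hf * ((P 0 0 - c) + (P 1 1 - c)) by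
        linear_combination c * h2]
      exact unit_add_of_mem (hu2.mul hc) (Ideal.mul_mem_left _ _ (add_mem a00 a11))
    · rw [show (hf * (P 0 0 + P 1 1) - c) * (hf * (P 0 0 + P 1 1) + c) =
          (hf * (P 0 0 - P 1 1)) * (hf * (P 0 0 - P 1 1)) + P 0 1 * P 1 0 +
          (P 0 0 * P 1 1 - P 0 1 * P 1 0 - q) - (c * c - q) by
        linear_combination (P 0 0 * P 1 1) * (2 * hf + 1) * h2]
      exact sub_mem (add_mem (add_mem (Ideal.mul_mem_left _ _ ha) (Ideal.mul_mem_left _ _ hc'))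
        (Ideal.le_radical hdP)) (Ideal.le_radical hcq)
  intro i j
  constructor
  · fin_cases i <;> fin_cases j <;> simp
    exacts [hx, hy, hz, h11]
  · fin_cases i <;> fin_cases j <;> simp
    · rw [show P 0 0 - c = (hf * (P 0 0 + P 1 1) - c) + hf * (P 0 0 - P 1 1) by
        linear_combination -(P 0 0) * h2]
      exact add_mem hsc ha
    · exact hb
    · exact hc'
    · rw [show P 1 1 - c = (hf * (P 0 0 + P 1 1) - c) - hf * (P 0 0 - P 1 1) by
        linear_combination -(P 1 1) * h2]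
      exact sub_mem hsc ha

/-- An extra site with residually non-scalar Frobenius in companion form: one element. -/
theorem site_companion_entries (q c : A) (T P : Mat[A]) (hq : IsUnit q)
    (h0 : IsUnit (c * c - (1 + q) * (1 + q)) ∨
      c * c - (1 + q) * (1 + q) ∈ I ∧ (IsUnit (2 * c) ∨ c ∈ I))
    (hTm : ∀ i j, (T - 1) i j ∈ maximalIdeal A)
    (hP0 : P 0 0 ∈ I) (hP1 : P 1 0 - 1 ∈ I)
    (htr : T.trace - 2 ∈ I) (hdT : T.det - 1 ∈ I) (hdP : P.det - q ∈ I)
    (hrel : ∀ i j, (P * (T - 1)) i j - q * ((T - 1) * P) i j ∈ I)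
    (he : P 1 1 - c + T 0 1 ∈ I) :
    ∀ i j, (T - 1) i j ∈ I.radical ∧ (P - !![0, -q; 1, c]) i j ∈ I.radical := by
  have y01 := hTm 0 1
  rw [trace_fin_two] at htr
  rw [det_fin_two] at hdT hdP
  simp at y01
  set π := Ideal.Quotient.mk I with hπ
  have hI : ∀ {w : A}, w ∈ I ↔ π w = 0 := fun {w} => Ideal.Quotient.eq_zero_iff_mem.symm
  have etr := hI.mp htr
  have edT := hI.mp hdT
  have edP := hI.mp hdP
  have eP0 := hI.mp hP0
  have eP1 := hI.mp hP1
  have e00 := hI.mp (hrel 0 0)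
  have e01 := hI.mp (hrel 0 1)
  simp [mul_apply, Fin.sum_univ_two] at e00 e01
  simp only [map_sub, map_add, map_mul, map_one, map_ofNat] at etr edT edP eP1
  have hP01 : P 0 1 + q ∈ I := hI.mpr (by
    simp only [map_add]
    linear_combination -edP + π (P 1 1) * eP0 - π (P 0 1) * eP1)
  have eP01 := hI.mp hP01
  simp only [map_add] at eP01
  obtain ⟨hx, hy, hz, ht⟩ := FLTA.Patching.site_nonscalar_radical q (P 1 1) c (T 0 0 - 1) (T 0 1)
    (T 1 0) I hq h0 y01
    (hI.mpr (by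
      simp only [map_sub, map_add, map_mul, map_one]
      linear_combination (π (T 0 0)) * etr - edT))
    (hI.mpr (by
      simp only [map_add, map_mul]
      linear_combination -e00 + (π (T 0 0) - 1) * (1 - π q) * eP0 - π q * π (T 0 1) * eP1 +
        π (T 1 0) * eP01))
    (hI.mpr (by
      simp only [map_sub, map_add, map_mul, map_one]
      linear_combination e01 - π (T 0 1) * eP0 - π (P 0 1) * etr +
        (π (T 0 0) - 1) * (1 + π q) * eP01))
    he
  intro i j
  constructor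
  · fin_cases i <;> fin_cases j <;> simp
    · exact hx
    · exact hy
    · exact hz
    · rw [show T 1 1 - 1 = (T 0 0 + T 1 1 - 2) - (T 0 0 - 1) by ring]
      exact sub_mem (Ideal.le_radical htr) hx
  · fin_cases i <;> fin_cases j <;> simp
    exacts [Ideal.le_radical hP0, Ideal.le_radical hP01, Ideal.le_radical hP1, ht]

/-- The avoidance prime with scalar residual Frobenius: all entries are killed by the six trace-free
coordinates. -/
theorem avoid_scalar_entries (q c hf : A) (T P : Mat[A]) (h2 : 2 * hf = 1) (hc : IsUnit c)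
    (hcq : c * c - q ∈ I) (hTm : ∀ i j, (T - 1) i j ∈ maximalIdeal A)
    (hPm : ∀ i j, (P - c • 1) i j ∈ maximalIdeal A)
    (hdT : T.det - 1 ∈ I) (hdP : P.det - q ∈ I)
    (hx : hf * (T 0 0 - T 1 1) ∈ I) (hy : T 0 1 ∈ I) (hz : T 1 0 ∈ I)
    (ha : hf * (P 0 0 - P 1 1) ∈ I) (hb : P 0 1 ∈ I) (hc' : P 1 0 ∈ I) :
    ∀ i j, (T - 1) i j ∈ I ∧ (P - c • 1) i j ∈ I := by
  have hu2 : IsUnit (2 : A) := IsUnit.of_mul_eq_one _ h2
  have x00 := hTm 0 0
  have x11 := hTm 1 1
  have a00 := hPm 0 0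
  have a11 := hPm 1 1
  rw [det_fin_two] at hdT hdP
  simp at x00 x11 a00 a11
  have key : ∀ (M : Mat[A]) (d e : A), M 0 0 * M 1 1 - M 0 1 * M 1 0 - d ∈ I → e * e - d ∈ I →
      hf * (M 0 0 - M 1 1) ∈ I → M 0 1 ∈ I → IsUnit e → M 0 0 - e ∈ maximalIdeal A →
      M 1 1 - e ∈ maximalIdeal A → M 0 0 - e ∈ I ∧ M 1 1 - e ∈ I := by
    intro M d e hd he hx hy hu h0 h1
    have hse : hf * (M 0 0 + M 1 1) - e ∈ I := by
      refine mem_of_mul_unit_mem (u := hf * (M 0 0 + M 1 1) + e) ?_ ?_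
      · rw [show hf * (M 0 0 + M 1 1) + e = 2 * e + hf * ((M 0 0 - e) + (M 1 1 - e)) by
          linear_combination e * h2]
        exact unit_add_of_mem (hu2.mul hu) (Ideal.mul_mem_left _ _ (add_mem h0 h1))
      · rw [show (hf * (M 0 0 + M 1 1) - e) * (hf * (M 0 0 + M 1 1) + e) =
            (hf * (M 0 0 - M 1 1)) * (hf * (M 0 0 - M 1 1)) + M 1 0 * M 0 1 +
            (M 0 0 * M 1 1 - M 0 1 * M 1 0 - d) - (e * e - d) by
          linear_combination (M 0 0 * M 1 1) * (2 * hf + 1) * h2]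
        exact sub_mem (add_mem (add_mem (I.mul_mem_left _ hx) (I.mul_mem_left _ hy)) hd) he
    constructor
    · rw [show M 0 0 - e = (hf * (M 0 0 + M 1 1) - e) + hf * (M 0 0 - M 1 1) by
        linear_combination -(M 0 0) * h2]
      exact add_mem hse hx
    · rw [show M 1 1 - e = (hf * (M 0 0 + M 1 1) - e) - hf * (M 0 0 - M 1 1) by
        linear_combination -(M 1 1) * h2]
      exact sub_mem hse hx
  obtain ⟨t0, t1⟩ := key T 1 1 hdT (by simp) hx hy isUnit_one x00 x11
  obtain ⟨p0, p1⟩ := key P q c hdP hcq ha hb hc a00 a11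
  intro i j
  constructor <;> fin_cases i <;> fin_cases j <;> simp
  exacts [t0, hy, hz, t1, p0, hb, hc', p1]

/-- The avoidance prime with companion residual Frobenius: all entries are killed by `v` and `D`. -/
theorem avoid_companion_entries (q c : A) (T P : Mat[A]) (h2 : IsUnit (2 : A)) (hc : IsUnit c)
    (hcq : c * c - 4 * q ∈ I) (hTm : ∀ i j, (T - 1) i j ∈ maximalIdeal A)
    (hPm : P 1 1 - c ∈ maximalIdeal A) (hP0 : P 0 0 ∈ I) (hP1 : P 1 0 - 1 ∈ I)
    (hdT : T.det - 1 ∈ I) (hdP : P.det - q ∈ I)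
    (hmin : ∀ i j, vec3 T i * vec3 P j - vec3 T j * vec3 P i ∈ I)
    (hv : T 1 0 ∈ I) (hD : P.trace ^ 2 - 4 * P.det ∈ I) :
    ∀ i j, (T - 1) i j ∈ I ∧ (P - !![0, -q; 1, c]) i j ∈ I := by
  have x00 := hTm 0 0
  have x11 := hTm 1 1
  rw [det_fin_two] at hdT
  simp at x00 x11
  have m21 := hmin 2 1
  have m01 := hmin 0 1
  simp [vec3] at m21 m01
  set π := Ideal.Quotient.mk I with hπ
  have hI : ∀ {w : A}, w ∈ I ↔ π w = 0 := fun {w} => Ideal.Quotient.eq_zero_iff_mem.symm
  have ev := hI.mp hv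
  have eP0 := hI.mp hP0
  have eP1 := hI.mp hP1
  have edP := hI.mp hdP
  have em21 := hI.mp m21
  have em01 := hI.mp m01
  simp only [map_sub, map_mul, map_one, det_fin_two] at eP1 edP em21 em01
  have hy : T 0 1 ∈ I := hI.mpr (by
    linear_combination em01 - π (T 0 1) * eP1 + π (P 0 1) * ev)
  have hd : T 0 0 - T 1 1 ∈ I := hI.mpr (by
    simp only [map_sub]
    linear_combination em21 - (π (T 0 0) - π (T 1 1)) * eP1 + (π (P 0 0) - π (P 1 1)) * ev)
  have t0 : T 0 0 - 1 ∈ I := by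
    refine mem_of_mul_unit_mem (u := T 0 0 + 1) ?_ ?_
    · rw [show T 0 0 + 1 = 2 + (T 0 0 - 1) by ring]
      exact unit_add_of_mem h2 x00
    · rw [show (T 0 0 - 1) * (T 0 0 + 1) =
        T 0 0 * (T 0 0 - T 1 1) + T 0 1 * T 1 0 + (T 0 0 * T 1 1 - T 0 1 * T 1 0 - 1) by ring]
      exact add_mem (add_mem (I.mul_mem_left _ hd) (I.mul_mem_right _ hy)) hdT
  have t1 : T 1 1 - 1 ∈ I := by
    rw [show T 1 1 - 1 = (T 0 0 - 1) - (T 0 0 - T 1 1) by ring]
    exact sub_mem t0 hd
  have hP01 : P 0 1 + q ∈ I := hI.mpr (by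
    simp only [map_add]
    linear_combination -edP + π (P 1 1) * eP0 - π (P 0 1) * eP1)
  have p1 : P 1 1 - c ∈ I := by
    refine mem_of_mul_unit_mem (u := P 1 1 + c) ?_ (hI.mpr ?_)
    · rw [show P 1 1 + c = 2 * c + (P 1 1 - c) by ring]
      exact unit_add_of_mem (h2.mul hc) hPm
    · have eD := hI.mp hD
      have ec := hI.mp hcq
      simp only [trace_fin_two, det_fin_two, map_sub, map_add, map_mul, map_pow, map_ofNat] at eD ec
      simp only [map_sub, map_add, map_mul]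
      linear_combination eD - ec + 4 * edP - (π (P 0 0) + 2 * π (P 1 1)) * eP0
  intro i j
  constructor <;> fin_cases i <;> fin_cases j <;> simp
  exacts [t0, hy, hv, t1, hP0, hP01, hP1, p1]

end FLTA.RT.Avoid
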