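import Fermat.Agent.RT.Levels
import Fermat.Agent.RT.LocalExtra
import Fermat.Agent.RT.Main.AvoidEntries

/-!
# The contradiction from levels with Galois representations

`AvoidSites` equips avoidance levels with representations whose site entries are among the
coordinates. With the relations at the avoidance prime this is contradictory when the site weights
and the other generators fit in `r`.
-/

set_option autoImplicit false

open scoped Pointwise

noncomputable section

namespace FLTA.RT.Avoid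

open Matrix IsLocalRing LocalGalois

local notation "Qbar" => AlgebraicClosure ℚ
local notation "Γ" => AlgebraicClosure ℚ ≃ₐ[ℚ] AlgebraicClosure ℚ
local notation "Mat[" R "]" => Matrix (Fin 2) (Fin 2) R

variable {O : Type} [CommRing O] [IsDomain O] [IsDiscreteValuationRing O]

/-- The constant term of Frobenius at a site. -/
def siteConst (ℓ : ℕ) (sc : Bool) (c : O) : Mat[O] :=
  if sc then c • 1 else !![0, -(ℓ : O); 1, c]

/-- The number of elements killing a site. -/
def siteWeight (sc : Bool) : ℕ := if sc then 3 else 1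

lemma siteWeight_le (sc : Bool) : siteWeight sc ≤ 3 := by cases sc <;> simp [siteWeight]

/-- A basis putting Frobenius in residual normal form, exactly so in the companion case. -/
def IsSiteBasis {R : Type} [CommRing R] [IsLocalRing R] [Algebra O R] (r : GaloisRepAdic R)
    (Φ : Γ) (ℓ : ℕ) (sc : Bool) (c : O) (b : Module.Basis (Fin 2) R r.V) : Prop :=
  (∀ i j, (LinearMap.toMatrix b b (r.ρ Φ) - (siteConst ℓ sc c).map (algebraMap O R)) i j ∈
      maximalIdeal R) ∧
    (sc = false → LinearMap.toMatrix b b (r.ρ Φ) 0 0 = 0 ∧ LinearMap.toMatrix b b (r.ρ Φ) 1 0 = 1)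

/-- The normal forms depend only on the residual matrix of Frobenius. -/
theorem exists_siteForm (ℓ : ℕ) (M₀ : Mat[O]) (hM₀ : M₀.det - (ℓ : O) ∈ maximalIdeal O) :
    ∃ (sc : Bool) (c : O), (sc = true → c * c - (ℓ : O) ∈ maximalIdeal O) ∧
      (sc = false → c = M₀.trace) ∧
      (sc = true → M₀ 1 0 ∈ maximalIdeal O ∧ M₀ 0 1 ∈ maximalIdeal O ∧
        M₀ 0 0 - M₀ 1 1 ∈ maximalIdeal O) ∧
      ∀ (R : Type) [CommRing R] [IsLocalRing R] [Algebra O R],
        (∀ x ∈ maximalIdeal O, algebraMap O R x ∈ maximalIdeal R) →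
        ∀ (r : GaloisRepAdic R) (Φ : Γ), LinearMap.det (r.ρ Φ) = (ℓ : R) →
        ∀ b₀ : Module.Basis (Fin 2) R r.V,
          (∀ i j, (LinearMap.toMatrix b₀ b₀ (r.ρ Φ) - M₀.map (algebraMap O R)) i j ∈
            maximalIdeal R) →
          ∃ b, IsSiteBasis r Φ ℓ sc c b := by
  classical
  by_cases hs : M₀ 1 0 ∈ maximalIdeal O ∧ M₀ 0 1 ∈ maximalIdeal O ∧
      M₀ 0 0 - M₀ 1 1 ∈ maximalIdeal O
  · have hs' := hs
    obtain ⟨h10, h01, hd⟩ := hs
    refine ⟨true, M₀ 0 0, fun _ => ?_, fun h => by simp at h, fun _ => hs', ?_⟩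
    · rw [det_fin_two] at hM₀
      rw [show M₀ 0 0 * M₀ 0 0 - (ℓ : O) = M₀ 0 0 * (M₀ 0 0 - M₀ 1 1) + M₀ 0 1 * M₀ 1 0 +
        (M₀ 0 0 * M₀ 1 1 - M₀ 0 1 * M₀ 1 0 - (ℓ : O)) by ring]
      exact add_mem (add_mem (Ideal.mul_mem_left _ _ hd) (Ideal.mul_mem_right _ _ h01)) hM₀
    · intro R _ _ _ hloc r Φ _ b₀ hb
      refine ⟨b₀, fun i j => ?_, fun h => by simp at h⟩
      have h : (M₀ - siteConst ℓ true (M₀ 0 0)) i j ∈ maximalIdeal O := by
        have := neg_mem hd
        fin_cases i <;> fin_cases j <;> simp [siteConst]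
        exacts [h01, h10, by simpa using this]
      have := add_mem (hb i j) (hloc _ h)
      simpa [Matrix.sub_apply, Matrix.map_apply, map_sub] using this
  · refine ⟨false, M₀.trace, fun h => by simp at h, fun _ => rfl, fun h => by simp at h, ?_⟩
    intro R _ _ _ hloc r Φ hdet b₀ hb
    have hu : ∀ {x : R} {o : O}, x - algebraMap O R o ∈ maximalIdeal R → o ∉ maximalIdeal O →
        IsUnit x := fun {x o} h ho => by
      have h' : IsUnit (algebraMap O R o) :=
        (IsLocalRing.notMem_maximalIdeal.mp ho).map _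
      simpa using unit_add_of_mem h' h
    have hcase : IsUnit (LinearMap.toMatrix b₀ b₀ (r.ρ Φ) 1 0) ∨
        IsUnit (LinearMap.toMatrix b₀ b₀ (r.ρ Φ) 0 1) ∨
        IsUnit (LinearMap.toMatrix b₀ b₀ (r.ρ Φ) 0 0 - LinearMap.toMatrix b₀ b₀ (r.ρ Φ) 1 1) := by
      by_cases h10 : M₀ 1 0 ∈ maximalIdeal O
      swap
      · exact Or.inl (hu (by simpa using hb 1 0) h10)
      by_cases h01 : M₀ 0 1 ∈ maximalIdeal O
      swap
      · exact Or.inr (Or.inl (hu (by simpa using hb 0 1) h01))
      refine Or.inr (Or.inr (hu ?_ fun h => hs ⟨h10, h01, h⟩))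
      rw [map_sub]
      have := sub_mem (hb 0 0) (hb 1 1)
      convert this using 1
      simp only [Matrix.sub_apply, Matrix.map_apply]
      ring
    obtain ⟨b, h00, h10⟩ := exists_companion_basis b₀ (r.ρ Φ) hcase
    refine ⟨b, ?_, fun _ => ⟨h00, h10⟩⟩
    have hd : (LinearMap.toMatrix b b (r.ρ Φ)).det = (ℓ : R) := by
      rw [LinearMap.det_toMatrix]; exact hdet
    have h01 : LinearMap.toMatrix b b (r.ρ Φ) 0 1 = -(ℓ : R) := by
      rw [det_fin_two, h00, h10] at hd
      linear_combination -hd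
    have htr : LinearMap.toMatrix b b (r.ρ Φ) 1 1 - algebraMap O R M₀.trace ∈ maximalIdeal R := by
      have e : (LinearMap.toMatrix b b (r.ρ Φ)).trace =
          (LinearMap.toMatrix b₀ b₀ (r.ρ Φ)).trace :=
        (LinearMap.trace_eq_matrix_trace R b _).symm.trans (LinearMap.trace_eq_matrix_trace R b₀ _)
      rw [trace_fin_two, h00, zero_add] at e
      rw [e, trace_fin_two, trace_fin_two, map_add]
      have := add_mem (hb 0 0) (hb 1 1)
      convert this using 1
      simp only [Matrix.sub_apply, Matrix.map_apply]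
      ring
    intro i j
    fin_cases i <;> fin_cases j <;> simp [siteConst, h00, h01, h10]
    exact htr

variable [IsAdicComplete (maximalIdeal O) O] [Finite (ResidueField O)]

/-- Representations on avoidance levels whose entries at the sites are coordinates. -/
structure AvoidSites {r d k : ℕ} (L : AvoidLevels O r d k) (p : ℕ) : Type 1 where
  /-- the deformation rings -/
  R : ℕ → Type
  [instCommRing : ∀ n, CommRing (R n)]
  [instIsLocalRing : ∀ n, IsLocalRing (R n)]
  [instIsNoetherianRing : ∀ n, IsNoetherianRing (R n)]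
  [instAlgebra : ∀ n, Algebra O (R n)]
  φ : ∀ n, R n →ₐ[O] L.A n
  ρ : ∀ n, GaloisRepAdic (R n)
  p_prime : p.Prime
  det_cyc : ∀ n, (ρ n).DetIsCyclotomic p
  /-- the number of extra sites -/
  u : ℕ
  /-- the sites: `none` is the avoidance prime -/
  ℓ : Option (Fin u) → ℕ
  prime : ∀ s, (ℓ s).Prime
  ne_p : ∀ s, p ≠ ℓ s
  place : Option (Fin u) → ValuationSubring Qbar
  liesOver : ∀ s, (place s).LiesOverPrime (ℓ s)
  τ : Option (Fin u) → Γ
  Φ : Option (Fin u) → Γ
  tame : ∀ s, IsTameGenerator (place s) (ℓ s) p (τ s)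
  frob : ∀ s, (place s).IsFrobeniusAt (Φ s) (ℓ s)
  residual : ∀ n s, ∀ σ ∈ (place s).inertiaSubgroupIn ℚ, ∀ v : (ρ n).V,
    (ρ n).ρ σ v - v ∈ maximalIdeal (R n) • (⊤ : Submodule (R n) (ρ n).V)
  unipotent : ∀ n (s : Fin u), (ρ n).IsUnipotentOnInertiaAt (ℓ (some s))
  sc : Option (Fin u) → Bool
  c : Option (Fin u) → O
  c_sq : ∀ s, sc s = true → c s * c s - (ℓ s : O) ∈ maximalIdeal O
  c_disc : sc none = false → c none * c none - 4 * (ℓ none : O) ∈ maximalIdeal O
  b : ∀ n s, Module.Basis (Fin 2) (R n) (ρ n).V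
  isSiteBasis : ∀ n s, IsSiteBasis (ρ n) (Φ s) (ℓ s) (sc s) (c s) (b n s)
  cT : Option (Fin u) → Fin 2 → Fin 2 → Fin k
  cP : Option (Fin u) → Fin 2 → Fin 2 → Fin k
  coord_cT : ∀ n s i j, L.coord n (cT s i j) =
    φ n ((LinearMap.toMatrix (b n s) (b n s) ((ρ n).ρ (τ s)) - 1) i j)
  coord_cP : ∀ n s i j, L.coord n (cP s i j) =
    φ n ((LinearMap.toMatrix (b n s) (b n s) ((ρ n).ρ (Φ s)) -
      (siteConst (ℓ s) (sc s) (c s)).map (algebraMap O (R n))) i j)
  /-- the other coordinates -/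
  lg : ℕ
  cg : Fin lg → Fin k
  cover : ∀ i : Fin k, (∃ l, cg l = i) ∨ ∃ s a b, cT s a b = i ∨ cP s a b = i
  surj : ∀ n, Function.Surjective (L.eval n)
  tdia : ℕ
  diamond_mem : ∀ n ϖ, maximalIdeal O = Ideal.span {ϖ} → ∀ j,
    L.diamond n (MvPowerSeries.X j) ^ tdia ∈
      Ideal.span (insert (algebraMap O (L.A n) ϖ) (Set.range (L.coord n)))

attribute [instance] AvoidSites.instCommRing AvoidSites.instIsLocalRing
  AvoidSites.instIsNoetherianRing AvoidSites.instAlgebra

namespace AvoidSites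

variable {r d k p : ℕ} {L : AvoidLevels O r d k} (D : AvoidSites L p) {ϖ : O}

local notation "P₀" => MvPowerSeries (Fin (k + r)) O

/-- The universal matrix of the tame generator. -/
def Tp (s : Option (Fin D.u)) : Mat[P₀] :=
  1 + Matrix.of fun i j => MvPowerSeries.X (Fin.castAdd r (D.cT s i j))

/-- The constant term of Frobenius in `P₀`. -/
def constP (s : Option (Fin D.u)) : Mat[P₀] :=
  (siteConst (D.ℓ s) (D.sc s) (D.c s)).map MvPowerSeries.C

/-- The universal matrix of Frobenius. -/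
def Pp (s : Option (Fin D.u)) : Mat[P₀] :=
  D.constP s +
    Matrix.of fun i j => MvPowerSeries.X (Fin.castAdd r (D.cP s i j))

/-- The tame generator at level `n`. -/
abbrev Tn (n : ℕ) (s : Option (Fin D.u)) : Mat[D.R n] :=
  LinearMap.toMatrix (D.b n s) (D.b n s) ((D.ρ n).ρ (D.τ s))

/-- Frobenius at level `n`. -/
abbrev Pn (n : ℕ) (s : Option (Fin D.u)) : Mat[D.R n] :=
  LinearMap.toMatrix (D.b n s) (D.b n s) ((D.ρ n).ρ (D.Φ s))

omit [IsAdicComplete (maximalIdeal O) O] [Finite (ResidueField O)] in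
lemma C_eq (a : O) : (MvPowerSeries.C a : P₀) = algebraMap O P₀ a := rfl

lemma eval_Tp (n : ℕ) (s : Option (Fin D.u)) :
    (D.Tp s).map (L.eval n) = (D.Tn n s).map (D.φ n) := by
  ext i j
  rw [Matrix.map_apply, Matrix.map_apply, Tp, Matrix.add_apply, map_add, Matrix.of_apply,
    AvoidLevels.eval_coord, D.coord_cT, Matrix.sub_apply, map_sub]
  fin_cases i <;> fin_cases j <;> simp

lemma eval_Pp (n : ℕ) (s : Option (Fin D.u)) :
    (D.Pp s).map (L.eval n) = (D.Pn n s).map (D.φ n) := by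
  ext i j
  rw [Matrix.map_apply, Matrix.map_apply, Pp, constP, Matrix.add_apply, map_add, Matrix.of_apply,
    AvoidLevels.eval_coord, D.coord_cP, Matrix.sub_apply, map_sub, Matrix.map_apply,
    Matrix.map_apply, C_eq, AlgHom.commutes, AlgHom.commutes]
  ring

lemma eval_Tp_apply (n : ℕ) (s : Option (Fin D.u)) (i j : Fin 2) :
    L.eval n (D.Tp s i j) = D.φ n (D.Tn n s i j) :=
  congrFun (congrFun (D.eval_Tp n s) i) j

lemma eval_Pp_apply (n : ℕ) (s : Option (Fin D.u)) (i j : Fin 2) :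
    L.eval n (D.Pp s i j) = D.φ n (D.Pn n s i j) :=
  congrFun (congrFun (D.eval_Pp n s) i) j

lemma Tp_sub_one (s : Option (Fin D.u)) (i j : Fin 2) :
    (D.Tp s - 1) i j = MvPowerSeries.X (Fin.castAdd r (D.cT s i j)) := by
  simp [Tp]

lemma Pp_sub_const (s : Option (Fin D.u)) (i j : Fin 2) :
    (D.Pp s - D.constP s) i j =
      MvPowerSeries.X (Fin.castAdd r (D.cP s i j)) := by
  simp [Pp]

lemma Tp_sub_one_mem (s : Option (Fin D.u)) (i j : Fin 2) :
    (D.Tp s - 1) i j ∈ maximalIdeal P₀ :=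
  D.Tp_sub_one s i j ▸ AvoidLevels.X_mem_maximalIdeal _

lemma Pp_sub_const_mem (s : Option (Fin D.u)) (i j : Fin 2) :
    (D.Pp s - D.constP s) i j ∈ maximalIdeal P₀ :=
  D.Pp_sub_const s i j ▸ AvoidLevels.X_mem_maximalIdeal _

lemma scalar_const {s : Option (Fin D.u)} (h : D.sc s = true) :
    D.constP s =
      (MvPowerSeries.C (D.c s) : P₀) • (1 : Mat[P₀]) := by
  ext i j
  fin_cases i <;> fin_cases j <;> simp [constP, siteConst, h]

lemma companion_const {s : Option (Fin D.u)} (h : D.sc s = false) :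
    D.constP s =
      (!![0, -(D.ℓ s : P₀); 1, MvPowerSeries.C (D.c s)] : Mat[P₀]) := by
  ext i j
  fin_cases i <;> fin_cases j <;> simp [constP, siteConst, h]

/-- The local relations hold at every level. -/
lemma rels_det (s : Option (Fin D.u)) : (D.Tp s).det - 1 ∈ (L.toSystem ϖ).rels ∧
    (D.Pp s).det - (D.ℓ s : P₀) ∈ (L.toSystem ϖ).rels := by
  refine ⟨L.mem_rels_of_eval fun n => ?_, L.mem_rels_of_eval fun n => ?_⟩
  · rw [map_sub, map_one, AlgHom.map_det, AlgHom.mapMatrix_apply, D.eval_Tp,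
      ← AlgHom.mapMatrix_apply, ← AlgHom.map_det, LinearMap.det_toMatrix,
      det_inertia_eq_one (D.ρ n) (D.det_cyc n) (D.prime s) (D.p_prime) (D.ne_p s) (D.liesOver s)
        (D.tame s).1, map_one, sub_self]
  · rw [map_sub, map_natCast, AlgHom.map_det, AlgHom.mapMatrix_apply, D.eval_Pp,
      ← AlgHom.mapMatrix_apply, ← AlgHom.map_det, LinearMap.det_toMatrix,
      det_frobenius_eq (D.ρ n) (D.det_cyc n) (D.prime s) (D.p_prime) (D.ne_p s) (D.liesOver s)
        (D.frob s), map_natCast, sub_self]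

lemma rels_companion {s : Option (Fin D.u)} (h : D.sc s = false) :
    D.Pp s 0 0 ∈ (L.toSystem ϖ).rels ∧ D.Pp s 1 0 - 1 ∈ (L.toSystem ϖ).rels := by
  refine ⟨L.mem_rels_of_eval fun n => ?_, L.mem_rels_of_eval fun n => ?_⟩
  · rw [eval_Pp_apply, Pn, ((D.isSiteBasis n s).2 h).1, map_zero]
  · rw [map_sub, map_one, eval_Pp_apply, Pn, ((D.isSiteBasis n s).2 h).2, map_one, sub_self]

lemma rels_extra (s : Fin D.u) : (D.Tp (some s)).trace - 2 ∈ (L.toSystem ϖ).rels ∧
    ∀ i j, (D.Pp (some s) * (D.Tp (some s) - 1)) i j -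
      (D.ℓ (some s) : P₀) * ((D.Tp (some s) - 1) * D.Pp (some s)) i j ∈ (L.toSystem ϖ).rels := by
  have hu := fun n => unipotent_site_relations (D.ρ n) (D.det_cyc n) (D.prime (some s)) (D.p_prime)
    (D.ne_p (some s)) (D.liesOver (some s)) (D.tame (some s)) (D.frob (some s))
    (D.residual n (some s)) (D.unipotent n s) (D.b n (some s))
  refine ⟨L.mem_rels_of_eval fun n => ?_, fun i j => L.mem_rels_of_eval fun n => ?_⟩
  · rw [map_sub, map_ofNat, trace_fin_two, map_add, eval_Tp_apply, eval_Tp_apply, ← map_add,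
      ← trace_fin_two, (hu n).1, map_ofNat, sub_self]
  · have h : (L.eval n).mapMatrix (D.Pp (some s) * (D.Tp (some s) - 1)) =
        (D.φ n).mapMatrix ((D.ℓ (some s) : D.R n) •
          ((D.Tn n (some s) - 1) * D.Pn n (some s))) := by
      rw [map_mul, map_sub, map_one, AlgHom.mapMatrix_apply, AlgHom.mapMatrix_apply, D.eval_Pp,
        D.eval_Tp, ← AlgHom.mapMatrix_apply, ← AlgHom.mapMatrix_apply, ← map_one (D.φ n).mapMatrix,
        ← map_sub, ← map_mul, (hu n).2.2]
    have h' : (L.eval n).mapMatrix ((D.Tp (some s) - 1) * D.Pp (some s)) =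
        (D.φ n).mapMatrix ((D.Tn n (some s) - 1) * D.Pn n (some s)) := by
      rw [map_mul, map_sub, map_one, AlgHom.mapMatrix_apply, AlgHom.mapMatrix_apply, D.eval_Pp,
        D.eval_Tp, ← AlgHom.mapMatrix_apply, ← AlgHom.mapMatrix_apply, ← map_one (D.φ n).mapMatrix,
        ← map_sub, ← map_mul]
    have e := congrFun (congrFun h i) j
    have e' := congrFun (congrFun h' i) j
    simp only [AlgHom.mapMatrix_apply, Matrix.map_apply, Matrix.smul_apply, smul_eq_mul] at e e'
    rw [map_mul, map_natCast] at e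
    rw [map_sub, map_mul, map_natCast, e, e', sub_self]

omit [IsAdicComplete (maximalIdeal O) O] [Finite (ResidueField O)] in
lemma C_mem_of_mem (hϖ : maximalIdeal O = Ideal.span {ϖ}) {I : Ideal P₀}
    (hI : MvPowerSeries.C ϖ ∈ I) {x : O} (hx : x ∈ maximalIdeal O) : MvPowerSeries.C x ∈ I := by
  rw [hϖ] at hx
  obtain ⟨y, rfl⟩ := Ideal.mem_span_singleton'.mp hx
  rw [map_mul]
  exact I.mul_mem_left _ hI

omit [IsAdicComplete (maximalIdeal O) O] [Finite (ResidueField O)] in
lemma C_mem_or_isUnit (hϖ : maximalIdeal O = Ideal.span {ϖ}) {I : Ideal P₀}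
    (hI : MvPowerSeries.C ϖ ∈ I) (x : O) :
    (MvPowerSeries.C x : P₀) ∈ I ∨ IsUnit (MvPowerSeries.C x : P₀) := by
  by_cases hx : x ∈ maximalIdeal O
  · exact Or.inl (C_mem_of_mem hϖ hI hx)
  · exact Or.inr ((IsLocalRing.notMem_maximalIdeal.mp hx).map _)

lemma isUnit_natCast (hpO : (p : O) ∈ maximalIdeal O) (s : Option (Fin D.u)) :
    IsUnit ((D.ℓ s : ℕ) : O) := by
  refine IsLocalRing.notMem_maximalIdeal.mp fun h => (maximalIdeal O).ne_top_iff_one.mp
    (maximalIdeal.isMaximal O).ne_top ?_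
  have hco : IsCoprime (p : ℤ) (D.ℓ s : ℤ) :=
    Nat.isCoprime_iff_coprime.mpr ((Nat.coprime_primes (D.p_prime) (D.prime s)).mpr (D.ne_p s))
  obtain ⟨a, b, hab⟩ := hco
  have := congrArg (Int.cast : ℤ → O) hab
  push_cast at this
  rw [← this]
  exact add_mem (Ideal.mul_mem_left _ _ hpO) (Ideal.mul_mem_left _ _ h)

/-- The elements killing an extra site. -/
def siteGen (hf : O) (s : Fin D.u) (i : Fin (siteWeight (D.sc (some s)))) : P₀ :=
  (if D.sc (some s) then
    ![D.Tp (some s) 0 1 + MvPowerSeries.C hf * (D.Pp (some s) 0 0 - D.Pp (some s) 1 1),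
      D.Pp (some s) 0 1 + D.Tp (some s) 1 0, D.Pp (some s) 1 0 + (D.Tp (some s) 0 0 - 1)]
  else fun _ => D.Pp (some s) 1 1 - MvPowerSeries.C (D.c (some s)) + D.Tp (some s) 0 1)
    (Fin.castLE (siteWeight_le _) i)

lemma siteGen_mem (hf : O) (s : Fin D.u) (i : Fin (siteWeight (D.sc (some s)))) :
    D.siteGen hf s i ∈ maximalIdeal P₀ := by
  have hT := D.Tp_sub_one_mem (some s)
  have hP := D.Pp_sub_const_mem (some s)
  have t01 := hT 0 1
  have t10 := hT 1 0
  have t00 := hT 0 0
  simp [-IsLocalRing.mem_maximalIdeal] at t01 t10 t00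
  by_cases h : D.sc (some s) = true
  · rw [D.scalar_const h] at hP
    have p00 := hP 0 0
    have p11 := hP 1 1
    have p01 := hP 0 1
    have p10 := hP 1 0
    simp [-IsLocalRing.mem_maximalIdeal] at p00 p11 p01 p10
    have key : ∀ j : Fin 3, (![D.Tp (some s) 0 1 +
          MvPowerSeries.C hf * (D.Pp (some s) 0 0 - D.Pp (some s) 1 1),
        D.Pp (some s) 0 1 + D.Tp (some s) 1 0, D.Pp (some s) 1 0 + (D.Tp (some s) 0 0 - 1)] :
        Fin 3 → P₀) j ∈ maximalIdeal P₀ := by
      intro j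
      fin_cases j
      · refine add_mem t01 (Ideal.mul_mem_left _ _ ?_)
        simpa [-IsLocalRing.mem_maximalIdeal] using sub_mem p00 p11
      · exact add_mem p01 t10
      · exact add_mem p10 t00
    rw [siteGen, if_pos h]
    exact key _
  · have p11 := hP 1 1
    simp [constP, siteConst, h, -IsLocalRing.mem_maximalIdeal] at p11
    rw [siteGen, if_neg h]
    exact add_mem p11 t01

/-- At an extra site the entries are killed by the site elements. -/
theorem extra_mem_radical (hϖ : maximalIdeal O = Ideal.span {ϖ}) (hpO : (p : O) ∈ maximalIdeal O)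
    {hf : O} (h2 : 2 * hf = 1) {I : Ideal P₀} (hI : MvPowerSeries.C ϖ ∈ I)
    (hrels : (L.toSystem ϖ).rels ≤ I) (s : Fin D.u) (hgen : ∀ i, D.siteGen hf s i ∈ I) :
    ∀ i j, (D.Tp (some s) - 1) i j ∈ I.radical ∧
      (D.Pp (some s) - D.constP (some s)) i j ∈ I.radical := by
  have h2' : (2 : P₀) * MvPowerSeries.C hf = 1 := by
    rw [← map_ofNat (MvPowerSeries.C (σ := Fin (k + r)) (R := O)) 2, ← map_mul, h2, map_one]
  have hu : IsUnit (D.ℓ (some s) : P₀) := by
    simpa using (D.isUnit_natCast hpO (some s)).map (MvPowerSeries.C (σ := Fin (k + r)) (R := O))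
  obtain ⟨hdT, hdP⟩ := D.rels_det (ϖ := ϖ) (some s)
  obtain ⟨htr, hrel⟩ := D.rels_extra (ϖ := ϖ) s
  by_cases h : D.sc (some s) = true
  · have hP := D.Pp_sub_const_mem (some s)
    rw [D.scalar_const h] at hP
    rw [D.scalar_const h]
    have hc : IsUnit (D.c (some s)) := by
      have : IsUnit (D.c (some s) * D.c (some s)) := by
        simpa using unit_add_of_mem (D.isUnit_natCast hpO (some s)) (D.c_sq _ h)
      exact isUnit_of_mul_isUnit_left this
    refine site_scalar_entries _ _ (MvPowerSeries.C hf) _ _ h2' ?_ (hc.map _) ?_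
      (D.Tp_sub_one_mem _) hP (hrels htr) (hrels hdT) (hrels hdP) (fun i j => hrels (hrel i j))
      ?_ ?_ ?_
    · simpa using C_mem_or_isUnit hϖ hI ((D.ℓ (some s) : O) - 1)
    · simpa using C_mem_of_mem hϖ hI (D.c_sq _ h)
    · simpa [siteGen, h, Fin.castLE] using hgen ⟨0, by simp [siteWeight, h]⟩
    · simpa [siteGen, h, Fin.castLE] using hgen ⟨1, by simp [siteWeight, h]⟩
    · simpa [siteGen, h, Fin.castLE] using hgen ⟨2, by simp [siteWeight, h]⟩
  · rw [Bool.not_eq_true] at h
    rw [D.companion_const h]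
    obtain ⟨hP0, hP1⟩ := D.rels_companion (ϖ := ϖ) h
    refine site_companion_entries _ _ _ _ hu ?_ (D.Tp_sub_one_mem _) (hrels hP0) (hrels hP1)
      (hrels htr) (hrels hdT) (hrels hdP) (fun i j => hrels (hrel i j)) ?_
    · rcases C_mem_or_isUnit hϖ hI
        (D.c (some s) * D.c (some s) - (1 + (D.ℓ (some s) : O)) * (1 + (D.ℓ (some s) : O))) with
        h' | h'
      · refine Or.inr ⟨by simpa [map_ofNat] using h', ?_⟩
        rcases C_mem_or_isUnit hϖ hI (D.c (some s)) with h'' | h''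
        · exact Or.inr h''
        · exact Or.inl ((IsUnit.of_mul_eq_one _ h2').mul h'')
      · exact Or.inl (by simpa using h')
    · have := hgen ⟨0, by simp [siteWeight, h]⟩
      simpa [siteGen, h, Fin.castLE] using this

/-- The indices of the elements besides those of the avoidance prime. -/
abbrev GenIndex : Type := Fin D.lg ⊕ Σ s : Fin D.u, Fin (siteWeight (D.sc (some s)))

/-- The elements besides those of the avoidance prime. -/
def gen (hf : O) : D.GenIndex → P₀ :=
  Sum.elim (fun l => MvPowerSeries.X (Fin.castAdd r (D.cg l))) fun x => D.siteGen hf x.1 x.2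

lemma gen_mem (hf : O) (x : D.GenIndex) : D.gen hf x ∈ maximalIdeal P₀ := by
  cases x with
  | inl l => exact AvoidLevels.X_mem_maximalIdeal _
  | inr x => exact D.siteGen_mem hf x.1 x.2

lemma card_genIndex : Fintype.card D.GenIndex = D.lg + ∑ s, siteWeight (D.sc (some s)) := by
  simp

/-- All coordinates are killed once those of the avoidance prime are. -/
lemma coord_mem_radical (hϖ : maximalIdeal O = Ideal.span {ϖ}) (hpO : (p : O) ∈ maximalIdeal O)
    {hf : O} (h2 : 2 * hf = 1) {I : Ideal P₀} (hI : MvPowerSeries.C ϖ ∈ I)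
    (hrels : (L.toSystem ϖ).rels ≤ I) (hg : ∀ x, D.gen hf x ∈ I)
    (hnone : ∀ i j, (D.Tp none - 1) i j ∈ I.radical ∧
      (D.Pp none - D.constP none) i j ∈
        I.radical) (i : Fin k) :
    MvPowerSeries.X (Fin.castAdd r i) ∈ I.radical := by
  rcases D.cover i with ⟨l, rfl⟩ | ⟨s, a, b, hs⟩
  · exact Ideal.le_radical (hg (Sum.inl l))
  · have h : ∀ i j, (D.Tp s - 1) i j ∈ I.radical ∧
        (D.Pp s - D.constP s) i j ∈ I.radical := by
      cases s with
      | none => exact hnone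
      | some s => exact D.extra_mem_radical hϖ hpO h2 hI hrels s fun i => hg (Sum.inr ⟨s, i⟩)
    rcases hs with rfl | rfl
    · exact D.Tp_sub_one s a b ▸ (h a b).1
    · exact D.Pp_sub_const s a b ▸ (h a b).2

end AvoidSites

end FLTA.RT.Avoid
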