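import Fermat.Agent.RT.DeformLocal
import Fermat.Agent.RT.Main.AvoidSites

/-!
# Bases adapted to a residual representation
-/

set_option autoImplicit false

noncomputable section

namespace FLTA.RT.Avoid

open Matrix IsLocalRing
open scoped TensorProduct

local notation "Γℚ" => AlgebraicClosure ℚ ≃ₐ[ℚ] AlgebraicClosure ℚ

variable {R : Type} [CommRing R] [IsLocalRing R]

/-- A basis lifting the transported basis of a residual model. -/
theorem exists_residual_basis {k : Type} [Field k] (r : GaloisRepAdic R)
    (ρbar : ResidualGaloisRep k) (ι : k →+* ResidueField R)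
    (h : r.residual.IsEquiv (ρbar.baseChangeAlong ι)) (β : Module.Basis (Fin 2) k ρbar.V) :
    ∃ b : Module.Basis (Fin 2) R r.V, ∀ σ : Γℚ,
      (LinearMap.toMatrix b b (r.ρ σ)).map (residue R) =
        (LinearMap.toMatrix β β (ρbar.ρ σ)).map ι := by
  classical
  obtain ⟨e⟩ := h
  letI : Algebra k (ResidueField R) := ι.toAlgebra
  let β' : Module.Basis (Fin 2) (ResidueField R) (ρbar.baseChangeAlong ι).V :=
    Algebra.TensorProduct.basis (ResidueField R) β
  let b' : Module.Basis (Fin 2) (ResidueField R) r.residual.V := β'.map e.toLinearEquiv.symm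
  have hb' : ∀ σ, LinearMap.toMatrix b' b' (r.residual.ρ σ) =
      (LinearMap.toMatrix β β (ρbar.ρ σ)).map ι := by
    intro σ
    refine Eq.trans ?_ (LinearMap.toMatrix_baseChange (A := ResidueField R) (ρbar.ρ σ) β β)
    ext i j
    rw [LinearMap.toMatrix_apply, LinearMap.toMatrix_apply]
    have h1 : b'.repr (r.residual.ρ σ (b' j)) = β'.repr (e.toLinearEquiv (r.residual.ρ σ (b' j))) :=
      rfl
    rw [h1, e.map_apply, show e.toLinearEquiv (b' j) = β' j from
      e.toLinearEquiv.apply_symm_apply _]
    rfl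
  have hsurj : ∀ x : r.residual.V, ∃ v : r.V, (1 : ResidueField R) ⊗ₜ[R] v = x := by
    intro x
    show ∃ v, (1 : ResidueField R) ⊗ₜ[R] v = x
    induction x using TensorProduct.induction_on with
    | zero => exact ⟨0, TensorProduct.tmul_zero _ _⟩
    | tmul c v =>
      obtain ⟨c, rfl⟩ := IsLocalRing.residue_surjective c
      refine ⟨c • v, ?_⟩
      rw [TensorProduct.tmul_smul, TensorProduct.smul_tmul']
      congr 1
      show c • (1 : ResidueField R) = _
      rw [Algebra.smul_def, mul_one]
      rfl
    | add x y hx hy =>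
      obtain ⟨v, rfl⟩ := hx
      obtain ⟨w, rfl⟩ := hy
      exact ⟨v + w, TensorProduct.tmul_add _ _ _⟩
  choose v hv using fun i => hsurj (b' i)
  let b₁ := Module.finBasisOfFinrankEq R r.V r.finrank_eq
  let b₁' : Module.Basis (Fin 2) (ResidueField R) r.residual.V :=
    Algebra.TensorProduct.basis (ResidueField R) b₁
  have hmat : (b₁.toMatrix v).map (residue R) = b₁'.toMatrix b' := by
    ext i j
    show residue R (b₁.repr (v j) i) = b₁'.repr (b' j) i
    rw [← hv j]
    show _ = (Algebra.TensorProduct.basis (ResidueField R) b₁).repr ((1 : ResidueField R) ⊗ₜ v j) i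
    rw [Algebra.TensorProduct.basis_repr_tmul]
    simp
  have hu : IsUnit (b₁.det v) := by
    rw [Module.Basis.det_apply]
    have h := b₁'.isUnit_det b'
    rw [Module.Basis.det_apply, ← hmat, ← RingHom.mapMatrix_apply, ← RingHom.map_det] at h
    exact (isUnit_map_iff (residue R) _).mp h
  obtain ⟨hli, hsp⟩ := (Module.Basis.is_basis_iff_det b₁).mpr hu
  refine ⟨Module.Basis.mk hli hsp.ge, fun σ => ?_⟩
  rw [← hb' σ]
  have hbc : Algebra.TensorProduct.basis (ResidueField R) (Module.Basis.mk hli hsp.ge) = b' := by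
    refine Module.Basis.eq_of_apply_eq fun i => ?_
    rw [Algebra.TensorProduct.basis_apply, Module.Basis.mk_apply]
    exact hv i
  rw [← hbc]
  exact (LinearMap.toMatrix_baseChange (A := ResidueField R) (r.ρ σ) _ _).symm

/-- Residually trivial elements move vectors into the maximal ideal. -/
theorem sub_mem_of_residual_equiv {k : Type} [Field k] (r : GaloisRepAdic R)
    (ρbar : ResidualGaloisRep k) (ι : k →+* ResidueField R)
    (h : r.residual.IsEquiv (ρbar.baseChangeAlong ι)) {σ : Γℚ} (hσ : ρbar.ρ σ = 1) (v : r.V) :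
    r.ρ σ v - v ∈ maximalIdeal R • (⊤ : Submodule R r.V) := by
  obtain ⟨e⟩ := h
  refine (LocalGalois.residual_eq_one_iff r σ).mp ?_ v
  refine LinearMap.ext fun x => e.toLinearEquiv.injective ?_
  rw [e.map_apply]
  letI : Algebra k (ResidueField R) := ι.toAlgebra
  show (ρbar.ρ σ).baseChange (ResidueField R) (e.toLinearEquiv x) = _
  rw [hσ]
  simp

end FLTA.RT.Avoid
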