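import Fermat.Agent.RT.Main.AvoidSites

/-!
# The contradiction at the avoidance prime

Levels with sites on which the minors, the product relation and the divisibility of the
discriminant hold are contradictory when `3` (resp. `1`) plus the number of the other generators is
at most `r`.
-/

set_option autoImplicit false

noncomputable section

namespace FLTA.RT.Avoid

open Matrix IsLocalRing LocalGalois

variable {O : Type} [CommRing O] [IsDomain O] [IsDiscreteValuationRing O]

lemma exists_pow_mul_unit {ϖ : O} (hϖ : maximalIdeal O = Ideal.span {ϖ}) {x : O} (hx : x ≠ 0) :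
    ∃ (e : ℕ) (u : Oˣ), x = ϖ ^ e * u := by
  obtain ⟨e, u, h⟩ := IsDiscreteValuationRing.eq_unit_mul_pow_irreducible hx
    ((IsDiscreteValuationRing.irreducible_iff_uniformizer ϖ).mpr hϖ)
  exact ⟨e, u, h.trans (mul_comm _ _)⟩

variable [IsAdicComplete (maximalIdeal O) O] [Finite (ResidueField O)]
  {r d k p : ℕ} {L : AvoidLevels O r d k}

namespace AvoidSites

variable (D : AvoidSites L p) {ϖ : O}

local notation "P₀" => MvPowerSeries (Fin (k + r)) O
local notation "Mat[" R "]" => Matrix (Fin 2) (Fin 2) R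

/-- The relations at the avoidance prime, at the levels. -/
structure SiteRels (ϖ : O) {m : ℕ} (cs : Fin m → O) : Prop where
  minors : ∀ n i j, D.φ n (vec3 (D.Tn n none) i * vec3 (D.Pn n none) j) =
    D.φ n (vec3 (D.Tn n none) j * vec3 (D.Pn n none) i)
  prod : ∀ n, D.φ n (∏ l, (Local.Q3 (vec3 (D.Tn n none)) - algebraMap O (D.R n) (cs l))) = 0
  disc : ∀ n, ∀ x : L.N n,
    L.α n (D.φ n ((D.Pn n none).trace ^ 2 - 4 * (D.Pn n none).det)) x ∈
      ((Ideal.span {MvPowerSeries.C ϖ}).map (Ideal.Quotient.mk (L.J n))) •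
        (⊤ : Submodule (MvPowerSeries (Fin r) O ⧸ L.J n) (L.N n))

lemma eval_vec3_T (n : ℕ) (s : Option (Fin D.u)) (i : Fin 3) :
    L.eval n (vec3 (D.Tp s) i) = D.φ n (vec3 (D.Tn n s) i) := by
  fin_cases i <;> simp [vec3, eval_Tp_apply]

lemma eval_vec3_P (n : ℕ) (s : Option (Fin D.u)) (i : Fin 3) :
    L.eval n (vec3 (D.Pp s) i) = D.φ n (vec3 (D.Pn n s) i) := by
  fin_cases i <;> simp [vec3, eval_Pp_apply]

variable {m : ℕ} {cs : Fin m → O}

lemma rels_minors (H : D.SiteRels ϖ cs) (i j : Fin 3) :
    vec3 (D.Tp none) i * vec3 (D.Pp none) j - vec3 (D.Tp none) j * vec3 (D.Pp none) i ∈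
      (L.toSystem ϖ).rels :=
  L.mem_rels_of_eval fun n => by
    rw [map_sub, map_mul, map_mul, eval_vec3_T, eval_vec3_T, eval_vec3_P, eval_vec3_P, ← map_mul,
      ← map_mul, H.minors n i j, sub_self]

lemma rels_prod (H : D.SiteRels ϖ cs) :
    ∏ l, (Local.Q3 (vec3 (D.Tp none)) - MvPowerSeries.C (cs l)) ∈ (L.toSystem ϖ).rels :=
  L.mem_rels_of_eval fun n => by
    rw [map_prod, ← H.prod n, map_prod]
    refine Finset.prod_congr rfl fun l _ => ?_
    rw [map_sub, map_sub, C_eq, AlgHom.commutes, AlgHom.commutes]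
    congr 1
    simp [Local.Q3, eval_vec3_T, map_ofNat]

lemma div_disc (H : D.SiteRels ϖ cs) {c e : P₀}
    (he : ∀ n, L.eval n e = L.eval n c * L.eval n ((D.Pp none).trace ^ 2 - 4 * (D.Pp none).det)) :
    (L.toSystem ϖ).DivUniformizer e := by
  refine L.divUniformizer fun n x => ?_
  have hev : L.eval n ((D.Pp none).trace ^ 2 - 4 * (D.Pp none).det) =
      D.φ n ((D.Pn n none).trace ^ 2 - 4 * (D.Pn n none).det) := by
    simp only [trace_fin_two, det_fin_two, map_sub, map_add, map_mul, map_pow, map_ofNat,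
      eval_Pp_apply]
  rw [he n, hev, mul_comm, map_mul, Module.End.mul_apply]
  exact H.disc n _

/-- **The contradiction at the avoidance prime.** -/
theorem false_of_siteRels [NeZero d] (hϖ : maximalIdeal O = Ideal.span {ϖ}) (hϖ0 : ϖ ≠ 0)
    (hpO : (p : O) ∈ maximalIdeal O) (h2u : IsUnit (2 : O))
    (hcs0 : ∀ l, cs l ≠ 0) (hcsm : ∀ l, cs l ∈ maximalIdeal O) (H : D.SiteRels ϖ cs)
    (hr : D.lg + ∑ s, siteWeight (D.sc (some s)) + siteWeight (D.sc none) ≤ r) : False := by
  classical
  obtain ⟨hfu, hh⟩ := h2u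
  let hf : O := (hfu⁻¹ : Oˣ)
  have h2 : 2 * hf = 1 := by rw [← hh]; exact hfu.mul_inv
  have h2' : (2 : P₀) * MvPowerSeries.C hf = 1 := by
    rw [← map_ofNat (MvPowerSeries.C (σ := Fin (k + r)) (R := O)) 2, ← map_mul, h2, map_one]
  let e := Fintype.equivFin D.GenIndex
  let g : Fin (Fintype.card D.GenIndex) → P₀ := fun i => D.gen hf (e.symm i)
  have hgm : ∀ i, g i ∈ maximalIdeal P₀ := fun i => D.gen_mem hf _
  have hcard := D.card_genIndex
  have hu : IsUnit (D.ℓ none : O) := D.isUnit_natCast hpO none
  obtain ⟨hdT, hdP⟩ := D.rels_det (ϖ := ϖ) none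
  have hTm := D.Tp_sub_one_mem none
  have hPm := D.Pp_sub_const_mem none
  have t00 := hTm 0 0
  have t11 := hTm 1 1
  have t01 := hTm 0 1
  have t10 := hTm 1 0
  simp [-IsLocalRing.mem_maximalIdeal] at t00 t11 t01 t10
  by_cases hsc : D.sc none = true
  · rw [D.scalar_const hsc] at hPm
    have p00 := hPm 0 0
    have p11 := hPm 1 1
    have p01 := hPm 0 1
    have p10 := hPm 1 0
    simp [-IsLocalRing.mem_maximalIdeal] at p00 p11 p01 p10
    choose ε us hus using fun l : Fin m => exists_pow_mul_unit hϖ (hcs0 l)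
    have hε : ∀ l, ε l ≠ 0 := fun l h0 => by
      have hl := hcsm l
      rw [hus l, h0, pow_zero, one_mul] at hl
      exact hl (us l).isUnit
    let X : P₀ := MvPowerSeries.C hf * (D.Tp none 0 0 - D.Tp none 1 1)
    let A' : P₀ := MvPowerSeries.C hf * (D.Pp none 0 0 - D.Pp none 1 1)
    have hX : X ∈ maximalIdeal P₀ := Ideal.mul_mem_left _ _ (by
      simpa [-IsLocalRing.mem_maximalIdeal] using sub_mem t00 t11)
    have hA : A' ∈ maximalIdeal P₀ := Ideal.mul_mem_left _ _ (by
      simpa [-IsLocalRing.mem_maximalIdeal] using sub_mem p00 p11)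
    refine L.false_scalar hϖ hϖ0 ε hε (fun l => us l * hfu⁻¹ * hfu⁻¹) X (D.Tp none 0 1)
      (D.Tp none 1 0) A' (D.Pp none 0 1) (D.Pp none 1 0) g ?_ ?_ hgm D.surj D.tdia
      (fun n j => D.diamond_mem n ϖ hϖ j) ?_ ?_ ?_ ?_ ?_ ?_
    · rw [hcard]
      have : siteWeight (D.sc none) = 3 := by simp [siteWeight, hsc]
      omega
    · simp only [List.forall_mem_cons, List.not_mem_nil, false_imp_iff, implies_true, and_true]
      exact ⟨hX, t01, t10, hA, p01, p10⟩
    · intro i
      set I := (L.toSystem ϖ).relsMod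
        (Ideal.span ({MvPowerSeries.C ϖ, X, D.Tp none 0 1, D.Tp none 1 0, A', D.Pp none 0 1,
          D.Pp none 1 0} ∪ Set.range g)) with hIdef
      have hle : ∀ w, w ∈ Ideal.span ({MvPowerSeries.C ϖ, X, D.Tp none 0 1, D.Tp none 1 0, A',
          D.Pp none 0 1, D.Pp none 1 0} ∪ Set.range g) → w ∈ I := fun w hw =>
        (L.toSystem ϖ).sup_le_relsMod _ (Ideal.mem_sup_right hw)
      have hrels : (L.toSystem ϖ).rels ≤ I := fun w hw =>
        (L.toSystem ϖ).sup_le_relsMod _ (Ideal.mem_sup_left hw)
      have hI : MvPowerSeries.C ϖ ∈ I := hle _ (Ideal.subset_span (by simp))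
      refine D.coord_mem_radical hϖ hpO h2 hI hrels (fun x => ?_) (fun a b => ?_) i
      · refine hle _ (Ideal.subset_span (Or.inr ⟨e x, ?_⟩))
        simp [g]
      · have hcu : IsUnit (D.c none) := by
          have : IsUnit (D.c none * D.c none) := by
            simpa using unit_add_of_mem hu (D.c_sq none hsc)
          exact isUnit_of_mul_isUnit_left this
        have := avoid_scalar_entries (I := I) (D.ℓ none : P₀) (MvPowerSeries.C (D.c none))
          (MvPowerSeries.C hf) (D.Tp none) (D.Pp none) h2' (hcu.map _)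
          (by simpa using C_mem_of_mem (k := k) (r := r) hϖ hI (D.c_sq none hsc)) hTm hPm
          (hrels hdT) (hrels hdP) (hle _ (Ideal.subset_span (by simp [X])))
          (hle _ (Ideal.subset_span (by simp))) (hle _ (Ideal.subset_span (by simp)))
          (hle _ (Ideal.subset_span (by simp [A']))) (hle _ (Ideal.subset_span (by simp)))
          (hle _ (Ideal.subset_span (by simp))) a b
        rw [D.scalar_const hsc]
        exact ⟨Ideal.le_radical this.1, Ideal.le_radical this.2⟩
    · have h := Ideal.mul_mem_left _ ((MvPowerSeries.C hf * MvPowerSeries.C hf) ^ m)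
        (D.rels_prod H)
      convert h using 1
      rw [← Fin.prod_const m (MvPowerSeries.C hf * MvPowerSeries.C hf : P₀),
        ← Finset.prod_mul_distrib]
      refine Finset.prod_congr rfl fun l _ => ?_
      rw [hus l, map_mul, map_pow]
      simp only [Units.val_mul, map_mul, X, Local.Q3, vec3]
      simp only [Matrix.cons_val_zero, Matrix.cons_val_one, Matrix.cons_val]
      linear_combination
        -(D.Tp none 0 1 * D.Tp none 1 0) * ((2 : P₀) * MvPowerSeries.C hf + 1) * h2'
    · have h := Ideal.mul_mem_left _ (MvPowerSeries.C hf) (D.rels_minors H 2 0)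
      convert h using 1
      simp [X, A', vec3]
      ring
    · have h := Ideal.mul_mem_left _ (MvPowerSeries.C hf) (D.rels_minors H 2 1)
      convert h using 1
      simp [X, A', vec3]
      ring
    · have h := D.rels_minors H 0 1
      convert h using 1
      simp [vec3]
    · refine D.div_disc H (c := MvPowerSeries.C hf * MvPowerSeries.C hf) fun n => ?_
      rw [← map_mul]
      congr 1
      simp only [A', trace_fin_two, det_fin_two]
      linear_combination
        -(D.Pp none 0 1 * D.Pp none 1 0) * ((2 : P₀) * MvPowerSeries.C hf + 1) * h2'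
  · rw [Bool.not_eq_true] at hsc
    obtain ⟨hP0, hP1⟩ := D.rels_companion (ϖ := ϖ) hsc
    have hc' := D.c_disc hsc
    have h2P : IsUnit (2 : P₀) := IsUnit.of_mul_eq_one _ h2'
    have hcu : IsUnit (D.c none) := by
      have h4 : IsUnit (4 * (D.ℓ none : O)) := by
        have : IsUnit (2 : O) := IsUnit.of_mul_eq_one _ h2
        rw [show (4 : O) = 2 * 2 by norm_num]
        exact (this.mul this).mul hu
      have : IsUnit (D.c none * D.c none) := by simpa using unit_add_of_mem h4 hc'
      exact isUnit_of_mul_isUnit_left this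
    have p11 : D.Pp none 1 1 - MvPowerSeries.C (D.c none) ∈ maximalIdeal P₀ := by
      have := hPm 1 1
      simpa [constP, siteConst, hsc, -IsLocalRing.mem_maximalIdeal] using this
    choose ε us hus using fun l : Fin m => exists_pow_mul_unit hϖ (hcs0 l)
    let Dd : P₀ := (D.Pp none).trace ^ 2 - 4 * (D.Pp none).det
    refine L.false_nonscalar hϖ hϖ0 ε us (D.Tp none 1 0) Dd g ?_ t10 hgm D.surj D.tdia
      (fun n j => D.diamond_mem n ϖ hϖ j) ?_ ?_ ?_
    · rw [hcard]
      have : siteWeight (D.sc none) = 1 := by simp [siteWeight, hsc]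
      omega
    · intro i
      set I := (L.toSystem ϖ).relsMod
        (Ideal.span ({MvPowerSeries.C ϖ, D.Tp none 1 0, Dd} ∪ Set.range g)) with hIdef
      have hle : ∀ w, w ∈ Ideal.span ({MvPowerSeries.C ϖ, D.Tp none 1 0, Dd} ∪ Set.range g) →
          w ∈ I := fun w hw => (L.toSystem ϖ).sup_le_relsMod _ (Ideal.mem_sup_right hw)
      have hrels : (L.toSystem ϖ).rels ≤ I := fun w hw =>
        (L.toSystem ϖ).sup_le_relsMod _ (Ideal.mem_sup_left hw)
      have hI : MvPowerSeries.C ϖ ∈ I := hle _ (Ideal.subset_span (by simp))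
      refine D.coord_mem_radical hϖ hpO h2 hI hrels (fun x => ?_) (fun a b => ?_) i
      · refine hle _ (Ideal.subset_span (Or.inr ⟨e x, ?_⟩))
        simp [g]
      · have := avoid_companion_entries (I := I) (D.ℓ none : P₀) (MvPowerSeries.C (D.c none))
          (D.Tp none) (D.Pp none) h2P (hcu.map _)
          (by simpa [map_ofNat] using C_mem_of_mem (k := k) (r := r) hϖ hI hc') hTm p11
          (hrels hP0) (hrels hP1) (hrels hdT) (hrels hdP)
          (fun i j => hrels (D.rels_minors H i j)) (hle _ (Ideal.subset_span (by simp)))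
          (hle _ (Ideal.subset_span (by simp [Dd]))) a b
        rw [D.companion_const hsc]
        exact ⟨Ideal.le_radical this.1, Ideal.le_radical this.2⟩
    · set R' := (L.toSystem ϖ).rels with hR'
      let π := Ideal.Quotient.mk R'
      have key : π (D.Tp none 1 0 * D.Tp none 1 0 * Dd) = π (Local.Q3 (vec3 (D.Tp none))) := by
        have hmin : ∀ i j, vec3 ((D.Tp none).map π) i * vec3 ((D.Pp none).map π) j =
            vec3 ((D.Tp none).map π) j * vec3 ((D.Pp none).map π) i := fun i j => by
          rw [← map_vec3, ← map_vec3, ← map_vec3, ← map_vec3, ← map_mul, ← map_mul]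
          exact Ideal.Quotient.eq.mpr (D.rels_minors H i j)
        have h := site_relation_lower hmin
        rw [trace_fin_two, det_fin_two] at h
        have hone : π (D.Pp none 1 0) = 1 := by
          rw [← map_one π]; exact Ideal.Quotient.eq.mpr hP1
        simp only [Matrix.map_apply, hone, one_pow, one_mul] at h
        simp only [Dd, trace_fin_two, det_fin_two, map_sub, map_mul, map_pow, map_add, map_ofNat,
          hone]
        rw [show π (Local.Q3 (vec3 (D.Tp none))) = Local.Q3 (vec3 ((D.Tp none).map π)) by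
          rw [Local.map_Q3]; simp only [map_vec3]]
        linear_combination h
      refine Ideal.Quotient.eq_zero_iff_mem.mp ?_
      rw [map_prod, ← (Ideal.Quotient.eq_zero_iff_mem.mpr (D.rels_prod H)), map_prod]
      refine Finset.prod_congr rfl fun l _ => ?_
      rw [map_sub, map_sub, hus l]
      congr 1
      simp [map_mul, map_pow, R']
    · exact D.div_disc H (c := 1) fun n => by rw [map_one, one_mul]

end AvoidSites

end FLTA.RT.Avoid
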