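import Fermat.Agent.RT.Main.AvoidFrame
import Fermat.Agent.RT.Main.AvoidSitesFalse
import Fermat.Agent.RT.Main.FalseBasis
import Fermat.Agent.RT.Main.FalseGood
import Fermat.Agent.Patching.PowerSeriesLevels

/-!
# The avoidance sites of a frame

A deformation ring mapping to the level algebra of a Taylor–Wiles module (`LevelRing`) at every
level gives avoidance levels with sites on which the relations at `q` hold, hence a contradiction.
-/

set_option autoImplicit false

open scoped Pointwise TensorProduct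

noncomputable section

namespace FLTA.RT

open IsLocalRing
open FLTA.LevelLowering (planeRep)
open FLTA.RT.LocalGalois (vec3)

local notation "Qbar" => AlgebraicClosure ℚ
local notation "Γℚ" => AlgebraicClosure ℚ ≃ₐ[ℚ] AlgebraicClosure ℚ

lemma sub_mem_of_toMatrix {R : Type} [CommRing R] {V : Type} [AddCommGroup V] [Module R V]
    (b : Module.Basis (Fin 2) R V) (f : Module.End R V) (I : Ideal R)
    (h : ∀ i j, (LinearMap.toMatrix b b f - 1) i j ∈ I) (v : V) :
    f v - v ∈ I • (⊤ : Submodule R V) := by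
  rw [← b.sum_repr (f v - v)]
  refine Submodule.sum_mem _ fun i _ => Submodule.smul_mem_smul ?_ Submodule.mem_top
  have e : b.repr (f v - v) i = ((LinearMap.toMatrix b b f - 1).mulVec (b.repr v)) i := by
    rw [Matrix.sub_mulVec, Matrix.one_mulVec, LinearMap.toMatrix_mulVec_repr, map_sub]
    rfl
  rw [e]
  simp only [Matrix.mulVec, dotProduct]
  exact Submodule.sum_mem _ fun j _ => I.mul_mem_right _ (h i j)

lemma toMatrix_sub_one_mem {R : Type} [CommRing R] {V : Type} [AddCommGroup V] [Module R V]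
    (b : Module.Basis (Fin 2) R V) (f : Module.End R V) (I : Ideal R)
    (h : ∀ v, f v - v ∈ I • (⊤ : Submodule R V)) (i j : Fin 2) :
    (LinearMap.toMatrix b b f - 1) i j ∈ I := by
  have e : (LinearMap.toMatrix b b f - 1) i j = b.repr (f (b j) - b j) i := by
    rw [Matrix.sub_apply, LinearMap.toMatrix_apply, map_sub, Finsupp.sub_apply,
      Module.Basis.repr_self, Matrix.one_apply, Finsupp.single_apply]
    simp [eq_comm]
  rw [e]
  exact LocalGalois.repr_mem_of_mem_smul b I (h _) i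

namespace AvoidFrame

variable {W : WeierstrassCurve ℤ} {hΔ : W.Δ ≠ 0} {p : ℕ} [Fact p.Prime] {N q : ℕ}
  (F : AvoidFrame W hΔ p N q)

/-- A deformation ring over the algebra of a Taylor–Wiles module. -/
structure LevelRing (d n : ℕ) {r : ℕ} (qv : Fin r → ℕ) : Type 1 where
  M : F.TWModule d n qv
  D : GaloisRep.DeformationRingData F.E.R F.rhobar (F.cond qv)
  φ : D.R →ₐ[F.E.R] M.A
  isLocalHom : IsLocalHom (φ : D.R →+* M.A)
  isEquiv : (D.ρ.baseChangeAlong (φ : D.R →+* M.A) isLocalHom).IsEquiv M.ρ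

variable {F} {d n r : ℕ} {qv : Fin r → ℕ}

lemma LevelRing.trace_eq (X : F.LevelRing d n qv) (σ : Γℚ) :
    X.φ (X.D.ρ.trace σ) = X.M.ρ.trace σ := by
  rw [← Deformation.trace_eq_of_isEquiv X.isEquiv, Deformation.trace_baseChangeAlong]
  rfl

lemma LevelRing.det_eq (X : F.LevelRing d n qv) (σ : Γℚ) :
    X.φ (LinearMap.det (X.D.ρ.ρ σ)) = LinearMap.det (X.M.ρ.ρ σ) := by
  rw [← det_eq_of_isEquiv X.isEquiv, det_baseChangeAlong]
  rfl

/-- Points of a finite local algebra are local. -/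
lemma isLocalHom_point (X : F.LevelRing d n qv) (E' : RepTheory.FiniteDVRExt F.E.R)
    (ψ : X.M.A →ₐ[F.E.R] E'.R) : IsLocalHom (ψ : X.M.A →+* E'.R) := by
  haveI : Algebra.IsIntegral F.E.R X.M.A := Algebra.IsIntegral.of_finite _ _
  haveI : ((maximalIdeal E'.R).comap (ψ : X.M.A →+* E'.R)).IsPrime :=
    (inferInstance : (maximalIdeal E'.R).IsPrime).comap _
  have hc : ((maximalIdeal E'.R).comap (ψ : X.M.A →+* E'.R)).comap (algebraMap F.E.R X.M.A) =
      maximalIdeal F.E.R := by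
    rw [Ideal.comap_comap, show (ψ : X.M.A →+* E'.R).comp (algebraMap F.E.R X.M.A) =
      algebraMap F.E.R E'.R from ψ.comp_algebraMap]
    exact IsLocalRing.maximalIdeal_comap _
  have hmax : ((maximalIdeal E'.R).comap (ψ : X.M.A →+* E'.R)).IsMaximal :=
    Ideal.isMaximal_of_isIntegral_of_isMaximal_comap _ (hc ▸ maximalIdeal.isMaximal F.E.R)
  refine ⟨fun a ha => ?_⟩
  by_contra h
  have : a ∈ (maximalIdeal E'.R).comap (ψ : X.M.A →+* E'.R) :=
    (IsLocalRing.eq_maximalIdeal hmax).symm ▸ h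
  exact this ha

/-- The relations at `q` hold in the algebra of a Taylor–Wiles module. -/
theorem LevelRing.site_relations (D₀ : LowerData W hΔ p N q) (hq1 : (q : ZMod p) = 1)
    (X : F.LevelRing d n qv)
    (hres : ∀ σ ∈ (F.place q).inertiaSubgroupIn ℚ, ∀ v : X.D.ρ.V,
      X.D.ρ.ρ σ v - v ∈ maximalIdeal X.D.R • (⊤ : Submodule X.D.R X.D.ρ.V))
    (b : Module.Basis (Fin 2) X.D.R X.D.ρ.V) :
    (∀ i j, X.φ (vec3 (LinearMap.toMatrix b b (X.D.ρ.ρ (F.tame q))) i *
        vec3 (LinearMap.toMatrix b b (X.D.ρ.ρ (F.frob q))) j) =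
      X.φ (vec3 (LinearMap.toMatrix b b (X.D.ρ.ρ (F.tame q))) j *
        vec3 (LinearMap.toMatrix b b (X.D.ρ.ρ (F.frob q))) i)) ∧
    X.φ (∏ i ∈ Finset.Ioo 0 (p ^ F.a),
      (Local.Q3 (vec3 (LinearMap.toMatrix b b (X.D.ρ.ρ (F.tame q)))) -
        algebraMap F.E.R X.D.R ((F.ζ ^ i - F.ζ ^ (p ^ F.a - i)) ^ 2))) = 0 := by
  have key : ∀ (E' : RepTheory.FiniteDVRExt F.E.R) (ψ : X.M.A →ₐ[F.E.R] E'.R),
      (∀ i j, ψ (X.φ (vec3 (LinearMap.toMatrix b b (X.D.ρ.ρ (F.tame q))) i *
          vec3 (LinearMap.toMatrix b b (X.D.ρ.ρ (F.frob q))) j)) =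
        ψ (X.φ (vec3 (LinearMap.toMatrix b b (X.D.ρ.ρ (F.tame q))) j *
          vec3 (LinearMap.toMatrix b b (X.D.ρ.ρ (F.frob q))) i))) ∧
      ψ (X.φ (∏ i ∈ Finset.Ioo 0 (p ^ F.a),
        (Local.Q3 (vec3 (LinearMap.toMatrix b b (X.D.ρ.ρ (F.tame q)))) -
          algebraMap F.E.R X.D.R ((F.ζ ^ i - F.ζ ^ (p ^ F.a - i)) ^ 2)))) = 0 := by
    intro E' ψ
    have hψ := isLocalHom_point X E' ψ
    haveI := X.isLocalHom
    let χ : X.D.R →+* E'.R := (ψ.comp X.φ : X.D.R →ₐ[F.E.R] E'.R)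
    have hχ : IsLocalHom χ := ⟨fun x hx =>
      (isUnit_map_iff (X.φ : X.D.R →+* X.M.A) x).mp (hψ.map_nonunit _ hx)⟩
    letI : Algebra X.D.R E'.R := χ.toAlgebra
    let r' : GaloisRepAdic E'.R := X.D.ρ.baseChangeAlong χ hχ
    let b' : Module.Basis (Fin 2) E'.R r'.V := Algebra.TensorProduct.basis E'.R b
    have hb' : ∀ σ, LinearMap.toMatrix b' b' (r'.ρ σ) =
        (LinearMap.toMatrix b b (X.D.ρ.ρ σ)).map χ :=
      fun σ => LinearMap.toMatrix_baseChange (A := E'.R) (X.D.ρ.ρ σ) b b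
    have hdet : r'.DetIsCyclotomic p := by
      obtain ⟨h1, h2⟩ := F.cond_det X.D.isOfType
      refine ⟨?_, fun m σ a ha => ?_⟩
      · rw [← map_natCast χ]
        exact fun h => h1 (hχ.map_nonunit _ h)
      · have h := Ideal.mem_map_of_mem χ (h2 m σ a ha)
        rw [Ideal.map_span, Set.image_singleton, map_sub, map_natCast, map_natCast] at h
        rwa [det_baseChangeAlong]
    have hres' : ∀ σ ∈ (F.place q).inertiaSubgroupIn ℚ, ∀ v : r'.V,
        r'.ρ σ v - v ∈ maximalIdeal E'.R • (⊤ : Submodule E'.R r'.V) := by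
      intro σ hσ
      refine sub_mem_of_toMatrix b' _ _ fun i j => ?_
      rw [hb', show ((1 : Matrix (Fin 2) (Fin 2) E'.R)) = (1 : Matrix (Fin 2) (Fin 2) X.D.R).map χ
        from (Matrix.map_one _ (map_zero χ) (map_one χ)).symm, ← Matrix.map_sub _ (map_sub χ)]
      exact map_nonunit χ _ (toMatrix_sub_one_mem b _ _ (hres σ hσ) i j)
    have htr : ∀ σ, r'.trace σ = (X.M.ρ.baseChangeAlong (ψ : X.M.A →+* E'.R) hψ).trace σ := by
      intro σ
      rw [Deformation.trace_baseChangeAlong, Deformation.trace_baseChangeAlong]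
      exact congrArg ψ (X.trace_eq σ)
    have hdet' : ∀ σ, LinearMap.det (r'.ρ σ) =
        LinearMap.det ((X.M.ρ.baseChangeAlong (ψ : X.M.A →+* E'.R) hψ).ρ σ) := by
      intro σ
      rw [det_baseChangeAlong, det_baseChangeAlong]
      exact congrArg ψ (X.det_eq σ)
    have hnu : ¬ r'.IsUnipotentOnInertiaAt q := by
      refine fun hu => X.M.not_unipotent E' ψ hψ fun P hP σ hσ => ?_
      have := hu P hP σ hσ
      rw [charpoly_eq_sq_iff] at this ⊢
      rwa [← htr, ← hdet']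
    have hqp : p ∣ q - 1 := by
      rw [← CharP.cast_eq_zero_iff (ZMod p) p, Nat.cast_sub D₀.prime.one_lt.le, hq1, Nat.cast_one,
        sub_self]
    have hζ : IsPrimitiveRoot (algebraMap F.E.R E'.R F.ζ) (p ^ F.a) :=
      F.isPrimitiveRoot.map_of_injective E'.injective
    obtain ⟨hmin, hprod⟩ := LocalGalois.site_relations r' hdet D₀.prime Fact.out
      (by have := D₀.three_le; omega) (Ne.symm D₀.ne) hqp (F.liesOver q D₀.prime)
      (F.isTameGenerator q D₀.prime D₀.ne) (F.isFrobenius q D₀.prime) hres' hnu F.le_a hζ b'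
    rw [hb', hb'] at hmin
    rw [hb'] at hprod
    refine ⟨fun i j => ?_, ?_⟩
    · show χ (_ * _) = χ (_ * _)
      rw [map_mul, map_mul, LocalGalois.map_vec3, LocalGalois.map_vec3, LocalGalois.map_vec3,
        LocalGalois.map_vec3]
      exact hmin i j
    · show χ (∏ i ∈ Finset.Ioo 0 (p ^ F.a), _) = 0
      rw [map_prod, ← hprod]
      refine Finset.prod_congr rfl fun i _ => ?_
      rw [map_sub, Local.map_Q3]
      simp only [LocalGalois.map_vec3]
      congr 1
      show ψ (X.φ (algebraMap F.E.R X.D.R _)) = _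
      rw [AlgHom.commutes, AlgHom.commutes, map_pow, map_sub, map_pow, map_pow]
  refine ⟨fun i j => ?_, ?_⟩
  · by_contra h
    obtain ⟨E', ψ, hne⟩ := X.M.separated _ (sub_ne_zero.mpr h)
    exact hne (by rw [map_sub, (key E' ψ).1 i j, sub_self])
  · by_contra h
    obtain ⟨E', ψ, hne⟩ := X.M.separated _ h
    exact hne (key E' ψ).2

end AvoidFrame

end FLTA.RT
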