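import Fermat.Agent.RT.Main.AvoidFrame
import Fermat.Agent.RT.HeckeLocalNat
import Fermat.Agent.RT.CoeffChain
import Fermat.Agent.RT.FreeGamma0

/-!
# The twisted modules of Ihara avoidance: definitions

At a tuple `qv` of level `n`: the coefficient ring `R = O⟦y⟧/((1 + y)^(p^(n+1)) - 1)`, the
characters `ε` (of order `p^a` at `q`, `g ↦ 1 + y_i` at `qv i`), the coefficient character
`χ = ∏ (ε ∘ a)²` of `Γ₀(N ∏ qv)`, the normalised operators, the residual system and the local factor.
-/

set_option autoImplicit false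

noncomputable section

open IsLocalRing Polynomial WeierstrassCurve

namespace FLTA.RT

open FLTA.Periods

/-- A character of `(ℤ/l)ˣ` sending a fixed generator to `x`, trivial if there is none. -/
def charOfRoot {R : Type} [CommRing R] (l : ℕ) (x : R) : (ZMod l)ˣ →* Rˣ :=
  open Classical in
  if h : ∃ (g : (ZMod l)ˣ) (f : (ZMod l)ˣ →* Rˣ),
      (∀ u, u ∈ Subgroup.zpowers g) ∧ (f g : R) = x then h.choose_spec.choose else 1

theorem exists_charOfRoot_eq {R : Type} [CommRing R] {l : ℕ} (hl : l.Prime) {x : R}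
    (hx : x ^ (l - 1) = 1) :
    ∃ g : (ZMod l)ˣ, (∀ u, u ∈ Subgroup.zpowers g) ∧ (charOfRoot l x g : R) = x := by
  have : Fact l.Prime := ⟨hl⟩
  have h : ∃ (g : (ZMod l)ˣ) (f : (ZMod l)ˣ →* Rˣ),
      (∀ u, u ∈ Subgroup.zpowers g) ∧ (f g : R) = x := by
    obtain ⟨g, hg⟩ := IsCyclic.exists_generator (α := (ZMod l)ˣ)
    let x' : Rˣ := Units.ofPowEqOne x (l - 1) hx (Nat.sub_ne_zero_of_lt hl.one_lt)
    have horder : orderOf x' ∣ orderOf g := by
      rw [orderOf_eq_card_of_forall_mem_zpowers hg, Nat.card_eq_fintype_card, ZMod.card_units l]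
      exact orderOf_dvd_of_pow_eq_one (Units.ext (by simp [x', hx]))
    exact ⟨g, monoidHomOfForallMemZpowers hg horder, hg, by
      rw [monoidHomOfForallMemZpowers_apply_gen]; rfl⟩
  rw [charOfRoot, dif_pos h]
  exact ⟨h.choose, h.choose_spec.choose_spec⟩

open Classical in
/-- A natural endomorphism on the image of an idempotent family (`0` if it does not preserve it). -/
def restrictEnd {Γ : Type} [Group Γ] {R : Type} [CommRing R] {χ : Γ →* Rˣ} (e a : NatEnd χ) :
    Module.End R (eImage e R) :=
  if h : ∀ x ∈ eImage e R, a.app R x ∈ eImage e R then (a.app R).restrict h else 0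

namespace AvoidFrame

variable {W : WeierstrassCurve ℤ} {hΔ : W.Δ ≠ 0} {p : ℕ} [Fact p.Prime] {N q : ℕ}
  (F : AvoidFrame W hΔ p N q) (n : ℕ) {r : ℕ} (qv : Fin r → ℕ)

/-- The twisted primes. -/
def twistSet (_F : AvoidFrame W hΔ p N q) : Finset ℕ := insert q (Finset.univ.image qv)

/-- The level `N ∏ qv` of the twisted classes. -/
def level (_F : AvoidFrame W hΔ p N q) : ℕ := N * ∏ i, qv i

/-- The classical level `N q ∏ qv²` of the twists. -/
def classicalLevel : ℕ := F.level qv * ∏ l ∈ F.twistSet qv, l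

/-- The excluded primes. -/
def badSet : Finset ℕ := F.avoided ∪ Finset.univ.image qv

theorem diamondRel_le : F.diamondRel r n ≤ maximalIdeal (MvPowerSeries (Fin r) F.E.R) := by
  rw [AvoidFrame.diamondRel, Ideal.span_le]
  rintro _ ⟨j, rfl⟩
  simp [MvPowerSeries.isUnit_iff_constantCoeff]

instance isLocalRing_diamond : IsLocalRing (F.Diamond r n) :=
  have : Nontrivial (F.Diamond r n) := Ideal.Quotient.nontrivial_iff.mpr fun h =>
    (maximalIdeal.isMaximal (MvPowerSeries (Fin r) F.E.R)).ne_top
      (top_le_iff.mp (h ▸ F.diamondRel_le n))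
  .of_surjective' (Ideal.Quotient.mk _) Ideal.Quotient.mk_surjective

/-- The group element `1 + y_i`. -/
def gen (i : Fin r) : F.Diamond r n := Ideal.Quotient.mk _ (1 + MvPowerSeries.X i)

theorem gen_pow (i : Fin r) : F.gen n i ^ p ^ (n + 1) = 1 := by
  rw [gen, ← map_pow, ← map_one (Ideal.Quotient.mk (F.diamondRel r n)), Ideal.Quotient.eq]
  exact Ideal.subset_span ⟨i, rfl⟩

open Classical in
/-- The characters: of order `p^a` at `q`, `g ↦ 1 + y_i` at `qv i`. -/
def eps (l : ℕ) : (ZMod l)ˣ →* (F.Diamond r n)ˣ :=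
  if l = q then charOfRoot l (algebraMap F.E.R (F.Diamond r n) F.ζ)
  else if h : ∃ i, qv i = l then charOfRoot l (F.gen n h.choose) else 1

/-- The coefficient character. -/
def chi : (ZMod (F.level qv))ˣ →* (F.Diamond r n)ˣ :=
  sigProd (F.level qv) (F.twistSet qv) (F.eps n qv)

/-- The operators: normalised `T_ℓ` at good primes and `U` at the tuple. -/
abbrev Idx : Type := {l : ℕ // l.Prime ∧ l ∉ F.badSet qv} ⊕ Fin r

variable [NeZero (F.level qv)]

/-- The normalised operators. -/
def ops : F.Idx qv → NatEnd (gamChar (F.chi n qv)) :=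
  Sum.elim
    (fun l => (kap (F.twistSet qv) (F.eps n qv) l.1 : F.Diamond r n) • natHecke (F.chi n qv) l.1)
    (fun i => natHecke (F.chi n qv) (qv i))

/-- A lift of a root of the residual characteristic polynomial of Frobenius at `l`. -/
def alphaAt (l : ℕ) : F.E.R :=
  Function.surjInv IsLocalRing.residue_surjective (F.split (F.frob l)).choose

/-- The residual eigen system. -/
def sys : F.Idx qv → F.Diamond r n :=
  Sum.elim (fun l => (W.apOfModel l.1 : F.Diamond r n))
    (fun i => algebraMap F.E.R (F.Diamond r n) (F.alphaAt (qv i)))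

/-- The idempotent of the residual system. -/
def idem : NatEnd (gamChar (F.chi n qv)) := localEnd (F.ops n qv) (F.sys n qv)

/-- The level module: the local factor over the diamond ring. -/
abbrev Mod : Type := eImage (F.idem n qv) (F.Diamond r n)

/-- The normalised `T_l` on the factor. -/
def opT (l : {l : ℕ // l.Prime ∧ l ∉ F.badSet qv}) : Module.End (F.Diamond r n) (F.Mod n qv) :=
  restrictEnd (F.idem n qv) (F.ops n qv (.inl l))

/-- The algebra generated by the normalised `T_l`. -/
abbrev Alg : Subalgebra (F.Diamond r n) (Module.End (F.Diamond r n) (F.Mod n qv)) :=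
  Algebra.adjoin (F.Diamond r n) (Set.range (F.opT n qv))

/-- The algebra as an algebra over the coefficient ring. -/
instance algebraAlg : Algebra F.E.R (F.Alg n qv) :=
  ((algebraMap (F.Diamond r n) (F.Alg n qv)).comp (algebraMap F.E.R (F.Diamond r n))).toAlgebra'
    fun c x => Algebra.commutes (algebraMap F.E.R (F.Diamond r n) c) x

end AvoidFrame

end FLTA.RT

end
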