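import Fermat.Agent.RT.Main.TraceDescent
import Fermat.Agent.RT.MazurStep

/-!
# Assembly of level lowering at `q ≠ p` for Frey packages

The theorem of S43 from four inputs: level lowering at `p` (S44), the Steinberg Frobenius (S35),
Mazur's principle (`q ≢ 1 mod p`) and Ihara avoidance (`q ≡ 1 mod p`).
-/

set_option autoImplicit false

noncomputable section

open WeierstrassCurve

namespace FLTA.RT

/-- The statement of S44. -/
def LowerAtP : Prop :=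
  ∀ (P : FreyPackage) {N : ℕ}, P.IsConductorLevel N → P.p ∣ N →
    Affine.Point.GaloisRepIsIrreducible (K := AlgebraicClosure ℚ) ℚ P.freyCurve P.p →
    P.ModularRepOfLevel N → ∃ M : ℕ, M ∣ N ∧ ¬ P.p ∣ M ∧ P.ModularRepOfLevel M

/-- **Ihara avoidance**: at `q ≡ 1 (mod p)` a congruent system leaves the level `q`. -/
def AvoidanceStep : Prop :=
  ∀ (W : WeierstrassCurve ℤ) (hΔ : W.Δ ≠ 0) (p : ℕ) [Fact p.Prime] (N q : ℕ),
    LowerData W hΔ p N q → (q : ZMod p) = 1 → TraceAtQ hΔ p q →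
    ∃ M : ℕ, M ∣ N ∧ ¬ q ∣ M ∧ HasSystem W p M

/-- **Level lowering at an odd prime `q ≠ p`.** -/
theorem level_lowering_odd_prime (h44 : LowerAtP) (h35 : SteinbergFrobenius)
    (hAvoid : AvoidanceStep) (P : FreyPackage) {N q : ℕ} (hcond : P.IsConductorLevel N)
    (hq : q.Prime) (hq2 : q ≠ 2) (hqp : q ≠ P.p) (hqN : q ∣ N)
    (hirr : Affine.Point.GaloisRepIsIrreducible (K := AlgebraicClosure ℚ) ℚ P.freyCurve P.p)
    (hmod : P.ModularRepOfLevel N) (hunr : P.GaloisRepUnramifiedAt q) :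
    ∃ M : ℕ, M ∣ N ∧ ¬ q ∣ M ∧ P.ModularRepOfLevel M := by
  have : Fact P.p.Prime := ⟨P.pp⟩
  suffices key : ∀ L : ℕ, L ∣ N → ¬ P.p ∣ L → P.ModularRepOfLevel L →
      ∃ M : ℕ, M ∣ L ∧ ¬ q ∣ M ∧ P.ModularRepOfLevel M by
    by_cases hpN : P.p ∣ N
    · obtain ⟨L, hLN, hpL, hmodL⟩ := h44 P hcond hpN hirr hmod
      obtain ⟨M, hML, hqM, hM⟩ := key L hLN hpL hmodL
      exact ⟨M, hML.trans hLN, hqM, hM⟩
    · exact key N dvd_rfl hpN hmod
  intro L hLN hpL hmodL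
  have hcondL := hcond.of_dvd hLN (Nat.pos_of_dvd_of_pos hLN hcond.pos)
  by_cases hqL : q ∣ L
  swap
  · exact ⟨L, dvd_rfl, hqL, hmodL⟩
  have D := lowerData_of_frey P hcondL hpL hq hq2 hqp hqL hirr hmodL hunr
  by_cases htr : TraceAtQ (Wiring.freyCurveInt_Δ_ne_zero P) P.p q
  swap
  · obtain ⟨M, hML, hqM, hM⟩ := exists_hasSystem_of_trace h35 D htr
    exact ⟨M, hML, hqM, modularRepOfLevel_of_hasSystem hM⟩
  by_cases hq1 : (q : ZMod P.p) = 1
  · obtain ⟨M, hML, hqM, hM⟩ := hAvoid _ _ _ L q D hq1 htr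
    exact ⟨M, hML, hqM, modularRepOfLevel_of_hasSystem hM⟩
  · exact exists_modularRep_not_dvd_of_ne_one P hcondL hq hq2 hqp hqL hpL hq1 hirr hmodL hunr

end FLTA.RT

end
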