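import Fermat.Agent.RT.Main.System
import Fermat.Agent.RT.HeckeLocalBoundary
import Fermat.Agent.RT.RaiseResidual
import Fermat.Agent.LevelRaising.AssemblyEigen
import Fermat.Agent.Gamma0.Complex.Main
import Fermat.Agent.Periods.IntegralStructure
import Fermat.Agent.Hecke.EigenChar

/-!
# An eigen class with values in a field of characteristic `p` gives a congruent system

A non-zero homomorphism of `Γ₀(L)` into a field of characteristic `p`, killing the elements of
small trace and having eigenvalue `a_ℓ(W)` for almost all `T_ℓ`, comes from a normalised eigenform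
of level `L` (Deligne–Serre lifting on the parabolic lattice).
-/

set_option autoImplicit false

noncomputable section

open CongruenceSubgroup ModularFormClass WeierstrassCurve
open FLTA.Periods

namespace FLTA.RT

variable {W : WeierstrassCurve ℤ} {p : ℕ} [Fact p.Prime] {L : ℕ} [NeZero L]

/-- Homomorphisms killing the elements of small trace factor through the parabolic lattice. -/
theorem exists_parQuot_factor_of_isParHom0 {A : Type*} [AddCommGroup A]
    {v : Additive (Gamma0 L) →+ A} (hv : FLTA.Gamma0.IsParHom0 (Gamma0 L) v) :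
    ∃ u : parQuot (Gamma0 L) →+ A, u.comp (parMk (Gamma0 L)) = v := by
  classical
  let e := FLTA.Gamma0.homPar0Equiv L ℤ ℤ
  let φ : Fin (FLTA.Gamma0.homRank L) → FLTA.Gamma0.homPar0 ℤ (Gamma0 L) ℤ :=
    fun i => e.symm (Pi.single i 1)
  have hφ : ∀ i j, (φ i).1 (Additive.ofMul (FLTA.Gamma0.parBasis L j)) =
      (Pi.single i 1 : Fin (FLTA.Gamma0.homRank L) → ℤ) j := fun i j => by
    rw [← FLTA.Gamma0.homPar0Equiv_apply L ℤ ℤ (φ i) j]
    exact congrFun (e.apply_symm_apply _) j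
  choose w hw using fun i => exists_parQuot_factor (A := ℤ) (φ := (φ i).1)
    fun γ hγ => (φ i).2 γ hγ.le
  let u : parQuot (Gamma0 L) →+ A :=
    ∑ i, (zmultiplesHom A (v (Additive.ofMul (FLTA.Gamma0.parBasis L i)))).comp (w i)
  have hu : ∀ g : Additive (Gamma0 L), u (parMk (Gamma0 L) g) =
      ∑ i, (φ i).1 g • v (Additive.ofMul (FLTA.Gamma0.parBasis L i)) := fun g => by
    simp only [u, AddMonoidHom.finsetSum_apply, AddMonoidHom.comp_apply, zmultiplesHom_apply]
    refine Finset.sum_congr rfl fun i _ => ?_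
    rw [← hw i]
    rfl
  refine ⟨u, FLTA.Gamma0.homPar0_ext L ?_ hv fun j => ?_⟩
  · intro γ hγ
    rw [AddMonoidHom.comp_apply, hu]
    refine Finset.sum_eq_zero fun i _ => ?_
    rw [(φ i).2 γ hγ, zero_smul]
  · rw [AddMonoidHom.comp_apply, hu]
    simp [hφ, Pi.single_apply, ite_smul]

/-- A non-zero eigen class with values in a field of characteristic `p` gives a congruent
system. -/
theorem hasSystem_of_class {k : Type*} [Field k] [CharP k p] {v : Additive (Gamma0 L) →+ k}
    (hv0 : v ≠ 0) (hv : FLTA.Gamma0.IsParHom0 (Gamma0 L) v) (T : Finset ℕ)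
    (hT : ∀ l : ℕ, l.Prime → l ∉ T → ¬ l ∣ L → heckeHom k L l v = (W.apOfModel l : k) • v) :
    HasSystem W p L := by
  classical
  obtain ⟨u, hu⟩ := exists_parQuot_factor_of_isParHom0 hv
  let J : Ideal (fullHecke L) :=
    { carrier := {t | ∀ x, u (heckeQuot L t x) = 0}
      zero_mem' := fun x => by simp
      add_mem' := fun {s t} hs ht x => by
        rw [map_add, LinearMap.add_apply, map_add, hs x, ht x, add_zero]
      smul_mem' := fun c t ht x => by
        rw [smul_eq_mul, mul_comm, map_mul, Module.End.mul_apply]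
        exact ht _ }
  have hp : (p : fullHecke L) ∈ J := fun x => by
    rw [map_natCast, Module.End.natCast_apply, map_nsmul, nsmul_eq_mul, CharP.cast_eq_zero,
      zero_mul]
  have hTJ : ∀ (l : ℕ) (hl : l.Prime) (hlL : ¬ l ∣ L), l ∉ T →
      CuspForm.heckeAlgebra.T hl hlL (Set.notMem_empty l) -
        ((W.apOfModel l : ℤ) : fullHecke L) ∈ J := by
    intro l hl hlL hlT
    have h := hT l hl hlT hlL
    rw [heckeHom_eq_int, ← hu, heckeHom_comp,
      ← LevelRaising.heckeQuot_comp_parMk (CuspForm.heckeAlgebra.T hl hlL (Set.notMem_empty l))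
        (periodHomPair_heckeTLin hl hlL)] at h
    intro x
    obtain ⟨g, rfl⟩ := parMk_surjective (Gamma0 L) x
    have h' := DFunLike.congr_fun h g
    rw [map_sub, map_intCast, LinearMap.sub_apply, map_sub, sub_eq_zero,
      Module.End.intCast_apply, map_zsmul]
    rw [zsmul_eq_mul]
    simpa [AddMonoidHom.smul_apply] using h'
  have hJ : J ≠ ⊤ := fun h => hv0 <| by
    rw [← hu]
    refine AddMonoidHom.ext fun g => ?_
    have h1 := ((Ideal.eq_top_iff_one J).mp h) (parMk (Gamma0 L) g)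
    simpa using h1
  obtain ⟨P, hP, hJP⟩ := Ideal.exists_le_maximal J hJ
  have := hP.isPrime
  obtain ⟨f, χ, hf, -, hint, hker, hχT, -⟩ :=
    FLTA.Hecke.exists_eigenform_char_ker_le (hasIntegralStructure_two L) P
  let φ₀ : fullHecke L →+* integralClosure ℤ ℂ := χ.codRestrict _ hint
  have hφker : RingHom.ker φ₀ ≤ P := fun t ht => hker (congrArg Subtype.val ht : χ t = 0)
  let _ := φ₀.toAlgebra
  have : Algebra.IsIntegral ℤ (integralClosure ℤ ℂ) := integralClosure.AlgebraIsIntegral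
  have : IsScalarTower ℤ (fullHecke L) (integralClosure ℤ ℂ) :=
    IsScalarTower.of_algebraMap_eq fun r => (map_intCast φ₀ r).symm
  have : Algebra.IsIntegral (fullHecke L) (integralClosure ℤ ℂ) :=
    ⟨fun x => (Algebra.IsIntegral.isIntegral (R := ℤ) x).tower_top⟩
  obtain ⟨Q, -, hQ, hQc⟩ := Ideal.exists_ideal_over_prime_of_isIntegral P
    (⊥ : Ideal (integralClosure ℤ ℂ)) hφker
  obtain ⟨𝔪, h𝔪, hQ𝔪⟩ := Ideal.exists_le_maximal Q hQ.ne_top
  have hmem : ∀ t ∈ J, φ₀ t ∈ 𝔪 := fun t ht => by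
    have h1 := hJP ht
    rw [← hQc, Ideal.mem_comap] at h1
    exact hQ𝔪 h1
  have hp𝔪 : (p : integralClosure ℤ ℂ) ∈ 𝔪 := by simpa using hmem _ hp
  obtain ⟨φ, hφ⟩ := exists_ringHom_of_isMaximal h𝔪 hp𝔪
  refine ⟨f, hf, φ, T ∪ L.primeFactors, fun l hl hlT => ?_⟩
  simp only [Finset.mem_union, Nat.mem_primeFactors, not_or] at hlT
  have hlL : ¬ l ∣ L := fun h => hlT.2 ⟨hl, h, NeZero.ne L⟩
  refine ⟨φ₀ (CuspForm.heckeAlgebra.T hl hlL (Set.notMem_empty l)), hχT l hl hlL, ?_⟩
  have h := hmem _ (hTJ l hl hlL hlT.1)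
  rwa [← hφ, RingHom.mem_ker, map_sub, map_intCast, map_sub, map_intCast, sub_eq_zero] at h

/-- The same, for an arbitrary class with a non-Eisenstein prime `l₀ ≡ 1 (mod L)`, `p ≠ 2, 3`. -/
theorem hasSystem_of_class_of_ne {k : Type*} [Field k] [CharP k p] (h12 : (12 : k) ≠ 0)
    {v : Additive (Gamma0 L) →+ k} (hv0 : v ≠ 0) (T : Finset ℕ)
    (hT : ∀ l : ℕ, l.Prime → l ∉ T → ¬ l ∣ L → heckeHom k L l v = (W.apOfModel l : k) • v)
    {l₀ : ℕ} (hl₀ : l₀.Prime) (hl₀T : l₀ ∉ T) (hl₁ : (l₀ : ZMod L) = 1) (hl₀L : ¬ l₀ ∣ L)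
    (hne : (W.apOfModel l₀ : k) ≠ l₀ + 1) : HasSystem W p L := by
  have := Fact.mk hl₀
  have h2 : (2 : k) ≠ 0 := fun h => h12 (by linear_combination 6 * h)
  have hpar := isParabolicHom_of_eisenstein k
    (fun a ha => by simpa [h2] using ha) hl₀L hl₁ v
  refine hasSystem_of_class hv0 (isParHom0_of_isParabolicHom h12 fun γ hγ => ?_) T hT
  have h := hpar γ hγ
  rw [hT l₀ hl₀ hl₀T hl₀L, AddMonoidHom.sub_apply, AddMonoidHom.smul_apply,
    AddMonoidHom.smul_apply, nsmul_eq_mul, smul_eq_mul, ← sub_mul] at h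
  refine (mul_eq_zero.mp h).resolve_left (sub_ne_zero.mpr ?_)
  exact_mod_cast hne

end FLTA.RT

end
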