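import Fermat.Agent.RT.Main.System
import Fermat.Agent.LevelLowering.GlobalPlane
import Fermat.Prelude.Def_FreyPackage_IsConductorLevel

/-!
# The data of level lowering at one prime `q`

`LowerData hΔ p N q`: `E[p]` is irreducible, a congruent system exists at the squarefree level `N`,
and `E[p]` is unramified at the prime `q ∣ N`.  If `p ∣ N`, then the reduction at `p` is bad and no
congruent system has a level dividing `N / p`.
-/

set_option autoImplicit false

noncomputable section

open WeierstrassCurve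

namespace FLTA.RT

open FLTA.LevelLowering (planeRep)

local notation "Γℚ" => AlgebraicClosure ℚ ≃ₐ[ℚ] AlgebraicClosure ℚ

/-- The standing hypotheses of level lowering at `q`. -/
structure LowerData (W : WeierstrassCurve ℤ) (hΔ : W.Δ ≠ 0) (p : ℕ) [Fact p.Prime] (N q : ℕ) :
    Prop where
  three_le : 3 ≤ p
  /-- `Γ₀(N)` has no elliptic element of order `3` when `p = 3` -/
  elliptic : p = 3 → ∃ r : ℕ, r.Prime ∧ r % 3 = 2 ∧ r ∣ N
  semistable : W.IsSemistableModel
  irreducible : W.ModRepIsIrreducible p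
  squarefree : Squarefree N
  at_p : p ∣ N → (p : ℤ) ∣ W.Δ ∧ ∀ M : ℕ, M ∣ N / p → ¬ HasSystem W p M
  prime : q.Prime
  ne_two : q ≠ 2
  ne : q ≠ p
  dvd : q ∣ N
  unramified : (planeRep hΔ (p := p)).IsUnramifiedAt q
  system : HasSystem W p N

/-- `tr² = (q + 1)²` at every Frobenius over `q`. -/
def TraceAtQ {W : WeierstrassCurve ℤ} (hΔ : W.Δ ≠ 0) (p : ℕ) [Fact p.Prime] (q : ℕ) : Prop :=
  ∀ A : ValuationSubring (AlgebraicClosure ℚ), A.LiesOverPrime q →
    ∀ σ : Γℚ, A.IsFrobeniusAt σ q →
      LinearMap.trace (ZMod p) _ ((planeRep hΔ (p := p)).ρ σ) ^ 2 = ((q : ZMod p) + 1) ^ 2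

/-- `E[p]` of a Frey curve is unramified at `q` in either language. -/
theorem planeRep_isUnramifiedAt_of_frey (P : FreyPackage) [Fact P.p.Prime] {q : ℕ}
    (h : P.GaloisRepUnramifiedAt q) :
    (planeRep (Wiring.freyCurveInt_Δ_ne_zero P) (p := P.p)).IsUnramifiedAt q := by
  intro A hA σ hσ
  have key : ∀ W' : WeierstrassCurve ℚ, W' = P.freyCurve → ∀ hc hk,
      (W'.residualGaloisRepOf P.p hc hk).ρ σ = 1 := by
    intro W' hW' hc hk
    subst hW'
    refine LinearMap.ext fun x => ?_
    exact h A hA σ hσ x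
  exact key _ (Wiring.freyCurveInt_map_rat P) _ _

theorem modRepIsIrreducible_of_frey (P : FreyPackage) [Fact P.p.Prime]
    (h : Affine.Point.GaloisRepIsIrreducible (K := AlgebraicClosure ℚ) ℚ P.freyCurve P.p) :
    P.freyCurveInt.ModRepIsIrreducible P.p := by
  unfold WeierstrassCurve.ModRepIsIrreducible
  rwa [Wiring.freyCurveInt_map_rat P]

theorem lowerData_of_frey (P : FreyPackage) [Fact P.p.Prime] {N q : ℕ}
    (hcond : P.IsConductorLevel N) (hpN : ¬ P.p ∣ N) (hq : q.Prime) (hq2 : q ≠ 2) (hqp : q ≠ P.p)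
    (hqN : q ∣ N)
    (hirr : Affine.Point.GaloisRepIsIrreducible (K := AlgebraicClosure ℚ) ℚ P.freyCurve P.p)
    (hmod : P.ModularRepOfLevel N) (hunr : P.GaloisRepUnramifiedAt q) :
    LowerData P.freyCurveInt (Wiring.freyCurveInt_Δ_ne_zero P) P.p N q where
  three_le := le_trans (by norm_num) P.hp5
  elliptic := fun h => absurd h (by have := P.hp5; omega)
  semistable := Wiring.freyCurveInt_isSemistableModel P
  irreducible := modRepIsIrreducible_of_frey P hirr
  squarefree := hcond.squarefree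
  at_p := fun h => absurd h hpN
  prime := hq
  ne_two := hq2
  ne := hqp
  dvd := hqN
  unramified := planeRep_isUnramifiedAt_of_frey P hunr
  system := hasSystem_of_modularRepOfLevel hcond.pos.ne' hmod

end FLTA.RT

end
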