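import Fermat.Agent.RT.Main.ModulesRankOps
import Fermat.Agent.RT.Main.ModulesRankBottom
import Fermat.Agent.RT.PointClassHecke

/-!
# The eigenclass of a point of the algebra of the level module

`exists_point_eigenclass`: a point `ψ` of `F.Alg` gives a nonzero class for the pushed character over
the fraction field of the values, on which the normalised `T_l` act through `ψ`.
-/

set_option autoImplicit false

noncomputable section

open IsLocalRing WeierstrassCurve CongruenceSubgroup

namespace FLTA.RT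

open FLTA.Periods

variable {W : WeierstrassCurve ℤ} {hΔ : W.Δ ≠ 0} {p : ℕ} [Fact p.Prime] {N q : ℕ}

namespace AvoidFrame

variable (F : AvoidFrame W hΔ p N q) (n : ℕ) {r : ℕ} (qv : Fin r → ℕ) [NeZero (F.level qv)]

/-- The values of the diamonds at a point, in the fraction field. -/
def ptHom (E' : RepTheory.FiniteDVRExt F.E.R) (ψ : F.Alg n qv →ₐ[F.E.R] E'.R) :
    F.Diamond r n →+* FractionRing E'.R :=
  (algebraMap E'.R (FractionRing E'.R)).comp
    ((ψ : F.Alg n qv →+* E'.R).comp (algebraMap (F.Diamond r n) (F.Alg n qv)))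

theorem isUnit_of_diamondToRes {x : F.Diamond r n} (h : IsUnit (F.diamondToRes n r x)) :
    IsUnit x := by
  by_contra hx
  have hk : RingHom.ker (F.diamondToRes n r) = maximalIdeal (F.Diamond r n) :=
    eq_maximalIdeal (RingHom.ker_isMaximal_of_surjective _ (F.diamondToRes_surjective n (r := r)))
  have h0 : x ∈ RingHom.ker (F.diamondToRes n r) := hk ▸ hx
  exact h.ne_zero h0

theorem dvd_level_of_mem_twistSet (hqN : q ∣ N) {s : ℕ} (hs : s ∈ F.twistSet qv) :
    s ∣ F.level qv := by
  simp only [twistSet, Finset.mem_insert, Finset.mem_image, Finset.mem_univ, true_and] at hs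
  rcases hs with rfl | ⟨i, rfl⟩
  · exact hqN.mul_right _
  · exact Dvd.dvd.mul_left (Finset.dvd_prod_of_mem _ (Finset.mem_univ i)) N

/-- The factor kills the obstruction to exactness. -/
theorem killsObstruction_idem (D : LowerData W hΔ p N q) (h : F.IsTWTuple n qv) :
    KillsObstruction (F.idem n qv) := by
  have := group_fg_Gamma0 (F.level qv)
  have := F.isNoetherianRing_diamond n (r := r)
  have := F.isAdicComplete_diamond n (r := r)
  have hlev := NeZero.ne (F.level qv)
  obtain ⟨l, hl, hlS, hl1, hu⟩ :=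
    exists_nonEisenstein D F (by have := D.three_le; omega) hlev (F.badSet qv ∪ (F.level qv).primeFactors)
  simp only [Finset.mem_union, not_or] at hlS
  obtain ⟨⟨hlb, hlL⟩, -⟩ := hlS
  have hlL' : ¬ l ∣ F.level qv := fun hd => hlL (Nat.mem_primeFactors.mpr ⟨hl, hd, hlev⟩)
  have hk : kap (F.twistSet qv) (F.eps n qv) l = 1 :=
    kap_eq_one _ (fun s hs => F.dvd_level_of_mem_twistSet qv D.dvd hs) hl1
  have hunit : IsUnit (F.sys n qv (.inl ⟨l, hl, hlb⟩) - ((l : F.Diamond r n) + 1)) := by
    refine F.isUnit_of_diamondToRes n ?_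
    simpa [sys, map_sub, map_add, map_natCast, map_intCast] using hu
  obtain ⟨g, hg⟩ := exists_natEnd_mul_sub (F.commAtRing_ops n qv h.prime) (F.sys n qv)
    (.inl ⟨l, hl, hlb⟩) hunit
  refine killsObstruction_of_sub_deg (F.chi n qv) (F.hasLifts_chi D n qv) hl hlL' _ g fun x => ?_
  rw [idem, hg]
  congr 2
  show ((kap (F.twistSet qv) (F.eps n qv) l : F.Diamond r n) • natHecke (F.chi n qv) l).app (F.Diamond r n) x = _
  rw [hk, Units.val_one, NatEnd.smul_app, one_smul]

set_option maxHeartbeats 1000000 in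
/-- **The eigenclass of a point.** -/
theorem exists_point_eigenclass (D : LowerData W hΔ p N q) (h : F.IsTWTuple n qv)
    (E' : RepTheory.FiniteDVRExt F.E.R) (ψ : F.Alg n qv →ₐ[F.E.R] E'.R) :
    ∃ x : tH1 (gamChar (charMap (F.ptHom n qv E' ψ) (F.chi n qv))) (FractionRing E'.R),
      x ≠ 0 ∧ ∀ l : {l : ℕ // l.Prime ∧ l ∉ F.badSet qv},
        (kap (F.twistSet qv) (fun s => charMap (F.ptHom n qv E' ψ) (F.eps n qv s)) l.1 :
            FractionRing E'.R) •
          (natHecke (charMap (F.ptHom n qv E' ψ) (F.chi n qv)) l.1).app (FractionRing E'.R) x =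
        algebraMap E'.R (FractionRing E'.R)
          (ψ ⟨F.opT n qv l, Algebra.subset_adjoin ⟨l, rfl⟩⟩) • x := by
  classical
  have := group_fg_Gamma0 (F.level qv)
  have := F.isNoetherianRing_diamond n (r := r)
  have := F.isAdicComplete_diamond n (r := r)
  have hlift := F.hasLifts_chi D n qv
  have hidem : EqAtRing (F.idem n qv * F.idem n qv) (F.idem n qv) :=
    eqAtRing_localEnd_sq (F.commAtRing_ops n qv h.prime) _
  have hkill := F.killsObstruction_idem n qv D h
  have : Module.Finite (F.Diamond r n) (F.Mod n qv) := finite_eImage (F.Diamond r n)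
  have : Module.Free (F.Diamond r n) (F.Mod n qv) := free_eImage hlift hidem hkill
  have hfrob : (ψ : F.Alg n qv →+* E'.R).comp (algebraMap F.E.R (F.Alg n qv)) =
      algebraMap F.E.R E'.R := RingHom.ext ψ.commutes
  have hfin : ((ψ : F.Alg n qv →+* E'.R).comp (algebraMap (F.Diamond r n) (F.Alg n qv))).Finite :=
    RingHom.Finite.of_comp_finite (f := algebraMap F.E.R (F.Diamond r n)) (by
      show ((ψ : F.Alg n qv →+* E'.R).comp (algebraMap F.E.R (F.Alg n qv))).Finite
      rw [hfrob]
      exact RingHom.finite_algebraMap.mpr E'.instModuleFinite)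
  have key := exists_class_of_point hlift hidem hkill
    (Module.finBasis (F.Diamond r n) (F.Mod n qv))
    (ι := {l : ℕ // l.Prime ∧ l ∉ F.badSet qv})
    (fun l => (kap (F.twistSet qv) (F.eps n qv) l.1 : F.Diamond r n)) (fun l => l.1)
    (F.opT n qv) (fun l l' => (F.commute_opT n qv h.prime l l').eq)
    (fun l y => by rw [F.coe_opT n qv h.prime l y]; rfl) (B := E'.R)
    (ψ : F.Alg n qv →+* E'.R) hfin (F.ptHom n qv E' ψ) rfl
  refine key.elim fun x hxx => ?_
  have hx0 := hxx.1
  have hx := hxx.2
  refine ⟨x, hx0, fun l => ?_⟩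
  rw [coe_kap_charMap]
  exact hx l

end AvoidFrame

end FLTA.RT

end
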