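import Fermat.Agent.RT.HeckeLocalControl
import Fermat.Agent.RT.FreeControl
import Mathlib.RingTheory.Localization.FractionRing
import Mathlib.RingTheory.Localization.Integer
import Mathlib.RingTheory.IntegralClosure.IsIntegralClosure.Basic

/-!
# Eigen classes congruent to a system with vanishing local factor vanish

If the local factor of the operators is zero over the coefficient ring, a class over the fraction
field of a finite domain with integral eigenvalues congruent to the system is zero.
-/

set_option autoImplicit false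

noncomputable section

open IsLocalRing

namespace FLTA.RT

variable {R : Type} [CommRing R] [IsLocalRing R] [IsNoetherianRing R]
  [IsAdicComplete (maximalIdeal R) R] {Γ : Type} [Group Γ] [Group.FG Γ] {χ : Γ →* Rˣ} {σ : Type}
  {T : σ → NatEnd χ} (hcomm : CommAtRing T) (hlift : HasLifts χ) (a : σ → R)

include hcomm hlift in
/-- If the factor vanishes modulo the maximal ideal it vanishes. -/
theorem eImage_eq_bot_of_residual {O : Type} [CommRing O] [Algebra R O]
    (hO : Function.Surjective (algebraMap R O))
    (hker : RingHom.ker (algebraMap R O) = maximalIdeal R)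
    (h0 : eImage (localEnd T a) O = ⊥) : eImage (localEnd T a) R = ⊥ := by
  haveI := finite_eImage (e := localEnd T a) R
  refine Submodule.eq_bot_of_le_smul_of_le_jacobson_bot (maximalIdeal R) _
    (Module.Finite.iff_fg.mp inferInstance) (fun x hx => ?_) (IsLocalRing.maximalIdeal_le_jacobson ⊥)
  let π : R →ₗ[R] O := Algebra.linearMap R O
  let qm : (R ⧸ maximalIdeal R) →ₗ[R] O := (maximalIdeal R).liftQ π fun r hr => by
    rw [← hker] at hr
    exact hr
  let qe : (R ⧸ maximalIdeal R) ≃ₗ[R] O := LinearEquiv.ofBijective qm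
    ⟨LinearMap.ker_eq_bot.mp (Submodule.ker_liftQ_eq_bot _ _ _ fun r hr => by
        rw [← hker]; exact hr),
      fun o => (hO o).imp' (Submodule.Quotient.mk) fun r hr => hr⟩
  refine mem_smul_of_map_mk_eq_zero hlift (eqAtRing_localEnd_sq hcomm a) (maximalIdeal R) hx ?_
  have h1 : tH1Map χ π x = 0 := by
    have h2 := tH1Map_mem_eImage (e := localEnd T a) π hx
    rwa [h0, Submodule.mem_bot] at h2
  rw [show π = qe.toLinearMap.comp (maximalIdeal R).mkQ from rfl, tH1Map_comp] at h1
  have h' := congrArg (tH1Map χ qe.symm.toLinearMap) h1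
  rwa [map_zero, ← tH1Map_comp, LinearEquiv.symm_comp, tH1Map_id] at h'

variable {B : Type} [CommRing B] [IsLocalRing B] [IsDomain B] [Algebra R B] [Module.Finite R B]
  [IsLocalHom (algebraMap R B)] {K : Type} [Field K] [Algebra B K] [IsFractionRing B K]
  [Algebra R K] [IsScalarTower R B K]

omit [IsLocalRing R] [IsNoetherianRing R] [IsAdicComplete (maximalIdeal R) R] [IsLocalRing B]
  [Module.Finite R B] [IsLocalHom (algebraMap R B)] in
/-- A class over the fraction field comes from the ring by a division. -/
theorem exists_integral_class (w : tH1 χ K) :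
    ∃ (ι : B →ₗ[R] K) (w₀ : tH1 χ B), tH1Map χ ι w₀ = w := by
  classical
  obtain ⟨f, rfl⟩ := tClass_surjective χ w
  obtain ⟨S, hS, hfin⟩ := Group.fg_iff.mp (inferInstance : Group.FG Γ)
  have : Finite S := hfin
  obtain ⟨d, hd⟩ := IsLocalization.exist_integer_multiples_of_finite (nonZeroDivisors B)
    fun s : S => f.1 (s : Γ)
  set δ : K := algebraMap B K (d : B) with hδ
  have hδ0 : δ ≠ 0 := by
    rw [hδ, Ne, map_eq_zero_iff _ (IsFractionRing.injective B K)]
    exact nonZeroDivisors.coe_ne_zero d
  have hmul : ∀ (u : Rˣ) (b : B), (u : R) • algebraMap B K b = algebraMap B K ((u : R) • b) :=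
    fun u b => by rw [Algebra.smul_def, Algebra.smul_def, map_mul, IsScalarTower.algebraMap_apply R B K]
  have hcl : ∀ g, ∃ b : B, algebraMap B K b = δ * f.1 g := by
    intro g
    have hmem : g ∈ Subgroup.closure S := hS ▸ Subgroup.mem_top g
    induction hmem using Subgroup.closure_induction with
    | mem s hs =>
      obtain ⟨b, hb⟩ := hd ⟨s, hs⟩
      exact ⟨b, by rw [hb, Algebra.smul_def]⟩
    | one =>
      have h := f.2 1 1
      rw [mul_one, map_one, Units.val_one, one_smul] at h
      exact ⟨0, by rw [left_eq_add.mp h, map_zero, mul_zero]⟩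
    | mul x y _ _ hx hy =>
      obtain ⟨bx, hbx⟩ := hx
      obtain ⟨by', hby⟩ := hy
      exact ⟨bx + (χ x : R) • by', by
        rw [f.2, map_add, hbx, ← hmul, hby, mul_add, mul_smul_comm]⟩
    | inv x _ hx =>
      obtain ⟨b, hb⟩ := hx
      have h1 := f.2 1 1
      rw [mul_one, map_one, Units.val_one, one_smul] at h1
      have h := f.2 x⁻¹ x
      rw [inv_mul_cancel, left_eq_add.mp h1] at h
      exact ⟨-((χ x⁻¹ : R) • b), by
        rw [map_neg, ← hmul, hb, ← mul_smul_comm, ← mul_neg]
        congr 1
        exact (eq_neg_of_add_eq_zero_left h.symm).symm⟩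
  choose f₀ hf₀ using hcl
  have hinj := IsFractionRing.injective B K
  let F₀ : tCocycles χ B := ⟨f₀, fun g h => hinj (by
    rw [hf₀, f.2, map_add, hf₀, ← hmul, hf₀, mul_add, mul_smul_comm])⟩
  let ι : B →ₗ[R] K := (LinearMap.mulLeft R δ⁻¹).comp ((Algebra.linearMap B K).restrictScalars R)
  refine ⟨ι, tClass χ B F₀, ?_⟩
  rw [tH1Map_class]
  congr 1
  refine Subtype.ext (funext fun g => ?_)
  show δ⁻¹ * algebraMap B K (f₀ g) = f.1 g
  rw [hf₀, inv_mul_cancel_left₀ hδ0]

include hcomm hlift in
/-- **Eigen classes congruent to a system with vanishing factor vanish.** -/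
theorem eq_zero_of_eigen_of_eImage_eq_bot (hbot : eImage (localEnd T a) R = ⊥) (w : tH1 χ K)
    (c : σ → B) (hc : ∀ s, c s - algebraMap R B (a s) ∈ maximalIdeal B)
    (hw : ∀ s, (T s).app K w = tH1Map χ (LinearMap.mulLeft R (algebraMap B K (c s))) w) :
    w = 0 := by
  classical
  by_contra hw0
  have := finite_tH1 (χ := χ) B
  set m : K → Module.End R (tH1 χ K) := fun x => tH1Map χ (LinearMap.mulLeft R x) with hm
  have hm_add : ∀ x y, m (x + y) w = m x w + m y w := fun x y => by
    rw [hm]
    simp only
    rw [← tH1Map_add]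
    congr 1
    exact congrArg (tH1Map χ) (LinearMap.ext fun z => add_mul x y z)
  have hm_mul : ∀ x y, m (x * y) w = m x (m y w) := fun x y => by
    rw [hm]
    simp only
    rw [← tH1Map_comp]
    exact congrArg (fun φ : K →ₗ[R] K => tH1Map χ φ w) (LinearMap.ext fun z => mul_assoc x y z)
  have hm_r : ∀ r : R, m (algebraMap R K r) w = r • w := fun r => by
    rw [hm]
    simp only
    rw [show LinearMap.mulLeft R (algebraMap R K r) = r • LinearMap.id from
      LinearMap.ext fun z => by simp [Algebra.smul_def], tH1Map_smul, tH1Map_id]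
  have hm_inj : ∀ x y, m x w = m y w → x = y := fun x y hxy => by
    by_contra hne
    apply hw0
    have h1 : m (x - y) w = 0 := by
      have := hm_add (x - y) y
      rw [sub_add_cancel, hxy] at this
      simpa using this.symm
    have h2 := hm_mul (x - y)⁻¹ (x - y)
    rw [inv_mul_cancel₀ (sub_ne_zero.mpr hne), h1, map_zero, ← map_one (algebraMap R K), hm_r,
      one_smul] at h2
    exact h2
  -- the value of a polynomial in the operators
  set ev : FreeAlgebra R σ →ₐ[R] B := FreeAlgebra.lift R c with hev
  have hP : ∀ P : FreeAlgebra R σ, (natEval T P).app K w = m (algebraMap B K (ev P)) w := by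
    intro P
    induction P using FreeAlgebra.induction with
    | grade0 r =>
      rw [AlgHom.commutes, ← IsScalarTower.algebraMap_apply, hm_r, natEval_app, AlgHom.commutes,
        Module.algebraMap_end_apply]
    | grade1 s =>
      rw [hev, FreeAlgebra.lift_ι_apply, natEval_app, FreeAlgebra.lift_ι_apply]
      exact hw s
    | add P Q hP hQ =>
      rw [natEval_app, map_add, LinearMap.add_apply, ← natEval_app, ← natEval_app, hP, hQ,
        map_add, map_add, hm_add]
    | mul P Q hP hQ =>
      rw [natEval_app, map_mul, Module.End.mul_apply, ← natEval_app, ← natEval_app, hQ]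
      show (natEval T P).app K (tH1Map χ (LinearMap.mulLeft R (algebraMap B K (ev Q))) w) = _
      rw [(natEval T P).natural, hP, map_mul, map_mul, mul_comm, hm_mul]
  obtain ⟨ι, w₀, hw₀⟩ := exists_integral_class (B := B) w
  have key : ∀ P Q : FreeAlgebra R σ, (natEval T P).app B = (natEval T Q).app B → ev P = ev Q := by
    intro P Q h
    apply IsFractionRing.injective B K
    apply hm_inj
    rw [← hP, ← hP, ← hw₀, (natEval T P).natural, (natEval T Q).natural, h]
  have hc' := commute_opsAt hcomm hlift B
  have hmem := isLocalIdem_localIdem hc' a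
  have hlex : ∀ x : opAlg R (opsAt T B), ∃ P, FreeAlgebra.lift R (opsAt T B) P = x :=
    fun x => exists_lift_eq (opsAt T B) x.2
  choose P hPx using hlex
  have hlam : ∀ (x : opAlg R (opsAt T B)) (Q : FreeAlgebra R σ),
      FreeAlgebra.lift R (opsAt T B) Q = x → ev (P x) = ev Q := fun x Q hQ =>
    key _ _ (by rw [natEval_app, natEval_app, hPx, hQ])
  let lam : opAlg R (opsAt T B) →+* B :=
    { toFun := fun x => ev (P x)
      map_one' := (hlam 1 1 (by simp)).trans (map_one ev)
      map_mul' := fun x y => (hlam _ (P x * P y) (by rw [map_mul, hPx, hPx]; rfl)).trans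
        (map_mul ev _ _)
      map_zero' := (hlam 0 0 (by simp)).trans (map_zero ev)
      map_add' := fun x y => (hlam _ (P x + P y) (by rw [map_add, hPx, hPx]; rfl)).trans
        (map_add ev _ _) }
  have hlam_r : ∀ r, lam (algebraMap R _ r) = algebraMap R B r := fun r =>
    (hlam _ (algebraMap R _ r) (by rw [AlgHom.commutes]; rfl)).trans (ev.commutes r)
  have hlam_s : ∀ s, lam (opGen R (opsAt T B) s) = c s := fun s =>
    (hlam _ (FreeAlgebra.ι R s) (FreeAlgebra.lift_ι_apply _ _)).trans (FreeAlgebra.lift_ι_apply _ _)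
  letI := opAlgCommRing (R := R) hc'
  haveI : Module.Finite R (opAlg R (opsAt T B)) := finite_opAlg _
  set 𝔭 : Ideal (opAlg R (opsAt T B)) := (maximalIdeal B).comap lam with h𝔭
  haveI : 𝔭.IsPrime := Ideal.IsPrime.comap _
  haveI h𝔭max : 𝔭.IsMaximal := by
    haveI : Algebra.IsIntegral R (opAlg R (opsAt T B)) := Algebra.IsIntegral.of_finite R _
    refine Ideal.isMaximal_of_isIntegral_of_isMaximal_comap (R := R) 𝔭 ?_
    rw [show 𝔭.comap (algebraMap R (opAlg R (opsAt T B))) = maximalIdeal R from Ideal.ext fun r => by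
      simp only [h𝔭, Ideal.mem_comap, hlam_r, mem_maximalIdeal, mem_nonunits_iff, isUnit_map_iff]]
    exact maximalIdeal.isMaximal R
  have hle : eigIdeal (opsAt T B) a ≤ 𝔭 := by
    rw [eigIdeal, Ideal.span_le]
    rintro _ (⟨s, rfl⟩ | ⟨r, hr, rfl⟩)
    · show lam _ ∈ maximalIdeal B
      rw [map_sub, hlam_s, hlam_r]
      exact hc s
    · show lam _ ∈ maximalIdeal B
      rw [hlam_r]
      exact map_nonunit (algebraMap R B) r hr
  refine ((hmem.mem_iff 𝔭 h𝔭max).mp ?_) hle
  show lam _ ∈ maximalIdeal B
  rw [show (⟨localIdem (opsAt T B) a, hmem.mem⟩ : opAlg R (opsAt T B)) = 0 from Subtype.ext ?_,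
    map_zero]
  · exact zero_mem _
  show localIdem (opsAt T B) a = 0
  rw [← localEnd_app_finite hcomm a hlift B]
  refine LinearMap.ext fun x => eq_at_finite hlift (localEnd T a) 0 (fun y => ?_) x
  have hy : (localEnd T a).app R y ∈ eImage (localEnd T a) R := LinearMap.mem_range_self _ y
  rw [hbot, Submodule.mem_bot] at hy
  rw [hy, NatEnd.zero_app]

end FLTA.RT

end
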